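import Mathlib.FieldTheory.IntermediateField.Adjoin.Algebra
import Mathlib.RingTheory.Localization.FractionRing
import Fermat.Prelude.Def_ModularCurve_HeckeOperator
import Fermat.Prelude.Def_ModularCurve_X0ModL
import Fermat.Agent.Modular.JFun

/-!
# The Atkin–Lehner automorphism of the function field of `X₀(Nℓ)` at a prime `ℓ ∤ N`

`atkinLehner` is the `L`-automorphism of the function field of level `N * ℓ` which exchanges
`j(q^d)` and `j(q^(ℓd))` for `d ∣ N`.  It exchanges the two degeneracy maps from level `N`.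
It is induced by `z ↦ γ • (ℓ z)`, with `γ = (a b; N ℓ) ∈ SL(2, ℤ)`.
-/

set_option autoImplicit false
set_option linter.unusedSectionVars false
set_option synthInstance.maxHeartbeats 400000

noncomputable section

open scoped MatrixGroups IntermediateField.algebraAdjoinAdjoin
open UpperHalfPlane ModularCurve IntermediateField AlgebraicCurve

namespace Fermat.Agent.Reduction

open Fermat.Agent.Modular (kleinJ kleinJ_smul hasQExp_kleinJ mulH coe_mulH HasQExp)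

section Generators

variable (L : Type*) [Field L] [Algebra ℚ L]

/-- The series `j(q^d)`, `d ∣ M`, over `L`. -/
def levelGens (M : ℕ) : Set (LaurentSeries L) := ⇑(coeffEmb L) '' divisorExpansions M

theorem laurentBaseChange_full_eq_adjoin (M : ℕ) :
    laurentBaseChange L (modularFunctionFieldFull M) =
      IntermediateField.adjoin L (levelGens L M) := by
  refine le_antisymm ?_ (IntermediateField.adjoin.mono L _ _
    (Set.image_mono (IntermediateField.subset_adjoin ℚ _)))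
  rw [laurentBaseChange, IntermediateField.adjoin_le_iff]
  rintro _ ⟨z, hz, rfl⟩
  rw [SetLike.mem_coe] at hz ⊢
  induction hz using IntermediateField.adjoin_induction with
  | mem x hx => exact IntermediateField.subset_adjoin L _ ⟨x, hx, rfl⟩
  | algebraMap c =>
    rw [algebraMap_laurentSeries_eq_single, coeffEmb, coeffMap_single,
      ← algebraMap_laurentSeries_eq_single]
    exact IntermediateField.algebraMap_mem _ _
  | add x y _ _ hx hy => rw [map_add]; exact add_mem hx hy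
  | inv x _ hx => rw [map_inv₀]; exact inv_mem hx
  | mul x y _ _ hx hy => rw [map_mul]; exact mul_mem hx hy

/-- `j(q^d)` as an element of the function field of level `M`. -/
def jdElem {M d : ℕ} [NeZero d] (hd : d ∣ M) :
    laurentBaseChange L (modularFunctionFieldFull M) :=
  ⟨coeffEmb L (qExpand ℚ d jq), coeffEmb_mem_laurentBaseChange L (jqd_mem_full M hd)⟩

@[simp]
theorem coe_jdElem {M d : ℕ} [NeZero d] (hd : d ∣ M) :
    (jdElem L hd : LaurentSeries L) = coeffEmb L (qExpand ℚ d jq) := rfl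

theorem coe_jdElem_one (M : ℕ) :
    (jdElem L (one_dvd M) : LaurentSeries L) = coeffEmb L jq := by
  rw [coe_jdElem, qExpand_one_apply]

/-- Homomorphisms out of the function field are determined by the images of the `j(q^d)`. -/
theorem algHom_ext_jdElem {M : ℕ} {E : Type*} [Field E] [Algebra L E]
    {f g : laurentBaseChange L (modularFunctionFieldFull M) →ₐ[L] E}
    (h : ∀ (d : ℕ) (_ : NeZero d) (hd : d ∣ M), f (jdElem L hd) = g (jdElem L hd)) : f = g := by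
  refine IntermediateField.algHom_ext_of_eq_adjoin L (laurentBaseChange_full_eq_adjoin L M) ?_
  intro x hx
  obtain ⟨_, ⟨d, hne, hd, rfl⟩, rfl⟩ := hx
  exact h d hne hd

end Generators

theorem exists_sl_atkinLehner {N ℓ : ℕ} (hℓ : ℓ.Prime) (hℓN : ¬ ℓ ∣ N) :
    ∃ γ : SL(2, ℤ), γ 1 0 = N ∧ γ 1 1 = ℓ := by
  obtain ⟨a, b, hab⟩ :=
    Int.isCoprime_iff_gcd_eq_one.mpr
      (show Int.gcd (ℓ : ℤ) N = 1 from (Nat.Prime.coprime_iff_not_dvd hℓ).mpr hℓN)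
  exact ⟨⟨!![a, -b; (N : ℤ), (ℓ : ℤ)], by rw [Matrix.det_fin_two_of]; linarith⟩, rfl, rfl⟩

theorem dvd_or_eq_mul_of_dvd {N ℓ e : ℕ} (hℓ : ℓ.Prime) (he : e ∣ N * ℓ) :
    e ∣ N ∨ ∃ d, d ∣ N ∧ e = ℓ * d := by
  by_cases h : ℓ ∣ e
  · obtain ⟨d, rfl⟩ := h
    rw [mul_comm N ℓ] at he
    exact Or.inr ⟨d, Nat.dvd_of_mul_dvd_mul_left hℓ.pos he, rfl⟩
  · exact Or.inl (((Nat.Prime.coprime_iff_not_dvd hℓ).mpr h).symm.dvd_of_dvd_mul_right he)

section Analytic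

variable {N ℓ : ℕ} [NeZero ℓ] (γ : SL(2, ℤ))

/-- `z ↦ γ • (ℓ z)`. -/
def alMap (ℓ : ℕ) [NeZero ℓ] (γ : SL(2, ℤ)) (z : ℍ) : ℍ := γ • mulH ℓ z

variable {γ}

theorem kleinJ_alMap_of_dvd (h10 : γ 1 0 = (N : ℤ)) (h11 : γ 1 1 = (ℓ : ℤ)) {d : ℕ} [NeZero d]
    (hd : d ∣ N) [NeZero (ℓ * d)] (z : ℍ) :
    kleinJ (mulH d (alMap ℓ γ z)) = kleinJ (mulH (ℓ * d) z) := by
  obtain ⟨m, hm⟩ := hd
  have hdet : γ 0 0 * γ 1 1 - γ 0 1 * γ 1 0 = 1 := by
    rw [← Matrix.det_fin_two]; exact γ.2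
  rw [h10, h11, hm] at hdet
  push_cast at hdet
  let δ : SL(2, ℤ) := ⟨!![γ 0 0, d * γ 0 1; (m : ℤ), (ℓ : ℤ)],
    by rw [Matrix.det_fin_two_of]; linarith⟩
  have key : mulH d (alMap ℓ γ z) = δ • mulH (ℓ * d) z := by
    apply UpperHalfPlane.ext
    rw [alMap, coe_mulH, coe_specialLinearGroup_apply, coe_specialLinearGroup_apply, coe_mulH,
      coe_mulH]
    simp only [δ, eq_intCast, Matrix.of_apply, Matrix.cons_val', Matrix.cons_val_zero,
      Matrix.cons_val_one, Matrix.empty_val', Matrix.cons_val_fin_one, h10, h11, hm]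
    push_cast
    rw [mul_div_assoc']
    congr 1 <;> ring
  rw [key, kleinJ_smul]

theorem kleinJ_alMap_of_mul (h10 : γ 1 0 = (N : ℤ)) (h11 : γ 1 1 = (ℓ : ℤ)) {d : ℕ} [NeZero d]
    (hd : d ∣ N) [NeZero (ℓ * d)] (z : ℍ) :
    kleinJ (mulH (ℓ * d) (alMap ℓ γ z)) = kleinJ (mulH d z) := by
  obtain ⟨m, hm⟩ := hd
  have hdet : γ 0 0 * γ 1 1 - γ 0 1 * γ 1 0 = 1 := by
    rw [← Matrix.det_fin_two]; exact γ.2
  rw [h10, h11, hm] at hdet
  push_cast at hdet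
  let δ : SL(2, ℤ) := ⟨!![(ℓ : ℤ) * γ 0 0, d * γ 0 1; (m : ℤ), 1],
    by rw [Matrix.det_fin_two_of]; linarith⟩
  have key : mulH (ℓ * d) (alMap ℓ γ z) = δ • mulH d z := by
    apply UpperHalfPlane.ext
    rw [alMap, coe_mulH, coe_specialLinearGroup_apply, coe_specialLinearGroup_apply, coe_mulH,
      coe_mulH]
    simp only [δ, eq_intCast, Matrix.of_apply, Matrix.cons_val', Matrix.cons_val_zero,
      Matrix.cons_val_one, Matrix.empty_val', Matrix.cons_val_fin_one, h10, h11, hm]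
    push_cast
    have hℓ0 : (ℓ : ℂ) ≠ 0 := Nat.cast_ne_zero.mpr (NeZero.ne ℓ)
    have h2 : (d : ℂ) * m * (ℓ * z) + ℓ = ℓ * (m * (d * z) + 1) := by ring
    rw [mul_div_assoc', h2, mul_assoc (ℓ : ℂ) (d : ℂ), mul_div_mul_left _ _ hℓ0]
    congr 1
    ring
  rw [key, kleinJ_smul]

variable (γ) {L : Type*} [Field L] [Algebra ℚ L] (ι : L →+* ℂ) (M : ℕ)

/-- `x` is the expansion of a function whose composite with `alMap` has the expansion `y`. -/
def ALRel (ℓ : ℕ) [NeZero ℓ] (γ : SL(2, ℤ)) (ι : L →+* ℂ) (x y : LaurentSeries L) : Prop :=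
  ∃ F : ℍ → ℂ, HasQExp 1 F (coeffMap ι x) ∧
    HasQExp 1 (fun z => F (alMap ℓ γ z)) (coeffMap ι y)

variable {γ ι}

theorem ALRel.unique {x y y' : LaurentSeries L} (h : ALRel ℓ γ ι x y) (h' : ALRel ℓ γ ι x y') :
    y = y' := by
  obtain ⟨F, hF, hFy⟩ := h
  obtain ⟨G, hG, hGy⟩ := h'
  obtain rfl := hF.eq hG
  refine HahnSeries.ext <| funext fun n => ι.injective ?_
  simpa using congrArg (fun s : LaurentSeries ℂ => s.coeff n) (hFy.unique hGy one_pos)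

theorem ALRel.add {x y x' y' : LaurentSeries L} (h : ALRel ℓ γ ι x y) (h' : ALRel ℓ γ ι x' y') :
    ALRel ℓ γ ι (x + x') (y + y') := by
  obtain ⟨F, hF, hFy⟩ := h
  obtain ⟨G, hG, hGy⟩ := h'
  exact ⟨F + G, by rw [map_add]; exact hF.add hG, by rw [map_add]; exact hFy.add hGy⟩

theorem ALRel.mul {x y x' y' : LaurentSeries L} (h : ALRel ℓ γ ι x y) (h' : ALRel ℓ γ ι x' y') :
    ALRel ℓ γ ι (x * x') (y * y') := by
  obtain ⟨F, hF, hFy⟩ := h
  obtain ⟨G, hG, hGy⟩ := h'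
  exact ⟨F * G, by rw [map_mul]; exact hF.mul hG, by rw [map_mul]; exact hFy.mul hGy⟩

theorem alRel_algebraMap (c : L) :
    ALRel ℓ γ ι (algebraMap L (LaurentSeries L) c) (algebraMap L (LaurentSeries L) c) := by
  have h : coeffMap ι (algebraMap L (LaurentSeries L) c) = HahnSeries.C (ι c) := by
    rw [algebraMap_laurentSeries_eq_single, coeffMap_single]
    rfl
  exact ⟨fun _ => ι c, by rw [h]; exact HasQExp.const 1 _, by rw [h]; exact HasQExp.const 1 _⟩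

theorem coeffMap_coeffEmb_qExpand_jq (e : ℕ) [NeZero e] :
    coeffMap ι (coeffEmb L (qExpand ℚ e jq)) = qExpand ℂ e (jqModC ℂ) := by
  rw [coeffEmb, coeffMap_coeffMap, coeffMap_qExpand, ← jqModC_rat, coeffMap_jqModC]

theorem alRel_gen (h10 : γ 1 0 = (N : ℤ)) (h11 : γ 1 1 = (ℓ : ℤ)) {d : ℕ} [NeZero d]
    (hd : d ∣ N) [NeZero (ℓ * d)] :
    ALRel ℓ γ ι (coeffEmb L (qExpand ℚ d jq)) (coeffEmb L (qExpand ℚ (ℓ * d) jq)) ∧
      ALRel ℓ γ ι (coeffEmb L (qExpand ℚ (ℓ * d) jq)) (coeffEmb L (qExpand ℚ d jq)) := by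
  simp only [ALRel, coeffMap_coeffEmb_qExpand_jq]
  exact ⟨⟨fun z => kleinJ (mulH d z), hasQExp_kleinJ.comp_mulH d,
      (hasQExp_kleinJ.comp_mulH (ℓ * d)).congr fun z => (kleinJ_alMap_of_dvd h10 h11 hd z).symm⟩,
    ⟨fun z => kleinJ (mulH (ℓ * d) z), hasQExp_kleinJ.comp_mulH (ℓ * d),
      (hasQExp_kleinJ.comp_mulH d).congr fun z => (kleinJ_alMap_of_mul h10 h11 hd z).symm⟩⟩

end Analytic

section Construction

variable {L : Type*} [Field L] [Algebra ℚ L] (N ℓ : ℕ)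

theorem alGens_cases {N ℓ : ℕ} (hℓ : ℓ.Prime) {x : LaurentSeries L}
    (hx : x ∈ levelGens L (N * ℓ)) :
    ∃ (d : ℕ) (_ : NeZero d) (_ : NeZero (ℓ * d)), d ∣ N ∧
      (x = coeffEmb L (qExpand ℚ d jq) ∨ x = coeffEmb L (qExpand ℚ (ℓ * d) jq)) := by
  obtain ⟨_, ⟨e, hne, he, rfl⟩, rfl⟩ := hx
  rcases dvd_or_eq_mul_of_dvd hℓ he with h | ⟨d, hd, rfl⟩
  · exact ⟨e, hne, ⟨Nat.mul_ne_zero hℓ.ne_zero hne.out⟩, h, Or.inl rfl⟩
  · exact ⟨d, ⟨fun h0 => hne.out (by rw [h0, mul_zero])⟩, hne, hd, Or.inr rfl⟩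

theorem coeffEmb_qExpand_mem_levelGens {M e : ℕ} [NeZero e] (he : e ∣ M) :
    coeffEmb L (qExpand ℚ e jq) ∈ levelGens L M :=
  ⟨_, mem_divisorExpansions M he, rfl⟩

variable {N ℓ} [NeZero ℓ] (ι : L →+* ℂ) {γ : SL(2, ℤ)}

theorem exists_alRel (hℓ : ℓ.Prime) (h10 : γ 1 0 = (N : ℤ)) (h11 : γ 1 1 = (ℓ : ℤ))
    (x : Algebra.adjoin L (levelGens L (N * ℓ))) :
    ∃ y : Algebra.adjoin L (levelGens L (N * ℓ)),
      ALRel ℓ γ ι (x : LaurentSeries L) (y : LaurentSeries L) := by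
  obtain ⟨x, hx⟩ := x
  induction hx using Algebra.adjoin_induction with
  | mem v hv =>
    obtain ⟨d, hd0, hld0, hd, rfl | rfl⟩ := alGens_cases hℓ hv
    · exact ⟨⟨_, Algebra.subset_adjoin (coeffEmb_qExpand_mem_levelGens
        ((mul_dvd_mul_left ℓ hd).trans (dvd_of_eq (mul_comm ℓ N))))⟩, (alRel_gen h10 h11 hd).1⟩
    · exact ⟨⟨_, Algebra.subset_adjoin (coeffEmb_qExpand_mem_levelGens
        (hd.trans (dvd_mul_right N ℓ)))⟩, (alRel_gen h10 h11 hd).2⟩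
  | algebraMap c => exact ⟨algebraMap L _ c, alRel_algebraMap c⟩
  | add u v _ _ hu hv =>
    obtain ⟨u', hu'⟩ := hu
    obtain ⟨v', hv'⟩ := hv
    exact ⟨u' + v', hu'.add hv'⟩
  | mul u v _ _ hu hv =>
    obtain ⟨u', hu'⟩ := hu
    obtain ⟨v', hv'⟩ := hv
    exact ⟨u' * v', hu'.mul hv'⟩

/-- The substitution on `L[j(q^d) : d ∣ N ℓ]`, as a function. -/
def alFun (hℓ : ℓ.Prime) (h10 : γ 1 0 = (N : ℤ)) (h11 : γ 1 1 = (ℓ : ℤ))
    (x : Algebra.adjoin L (levelGens L (N * ℓ))) : Algebra.adjoin L (levelGens L (N * ℓ)) :=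
  (exists_alRel ι hℓ h10 h11 x).choose

theorem alRel_alFun (hℓ : ℓ.Prime) (h10 : γ 1 0 = (N : ℤ)) (h11 : γ 1 1 = (ℓ : ℤ))
    (x : Algebra.adjoin L (levelGens L (N * ℓ))) :
    ALRel ℓ γ ι (x : LaurentSeries L) (alFun ι hℓ h10 h11 x : LaurentSeries L) :=
  (exists_alRel ι hℓ h10 h11 x).choose_spec

theorem alFun_eq (hℓ : ℓ.Prime) (h10 : γ 1 0 = (N : ℤ)) (h11 : γ 1 1 = (ℓ : ℤ))
    {x y : Algebra.adjoin L (levelGens L (N * ℓ))}
    (h : ALRel ℓ γ ι (x : LaurentSeries L) (y : LaurentSeries L)) :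
    alFun ι hℓ h10 h11 x = y :=
  Subtype.ext ((alRel_alFun ι hℓ h10 h11 x).unique h)

theorem alRel_one : ALRel ℓ γ ι (1 : LaurentSeries L) 1 := by
  have h := alRel_algebraMap (ℓ := ℓ) (γ := γ) (ι := ι) 1
  rwa [map_one] at h

theorem alRel_zero : ALRel ℓ γ ι (0 : LaurentSeries L) 0 := by
  have h := alRel_algebraMap (ℓ := ℓ) (γ := γ) (ι := ι) 0
  rwa [map_zero] at h

/-- The substitution on `L[j(q^d) : d ∣ N ℓ]`. -/
def alRing (hℓ : ℓ.Prime) (h10 : γ 1 0 = (N : ℤ)) (h11 : γ 1 1 = (ℓ : ℤ)) :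
    Algebra.adjoin L (levelGens L (N * ℓ)) →ₐ[L] Algebra.adjoin L (levelGens L (N * ℓ)) where
  toFun := alFun ι hℓ h10 h11
  map_one' := alFun_eq ι hℓ h10 h11 (alRel_one ι)
  map_zero' := alFun_eq ι hℓ h10 h11 (alRel_zero ι)
  map_add' x y :=
    alFun_eq ι hℓ h10 h11 ((alRel_alFun ι hℓ h10 h11 x).add (alRel_alFun ι hℓ h10 h11 y))
  map_mul' x y :=
    alFun_eq ι hℓ h10 h11 ((alRel_alFun ι hℓ h10 h11 x).mul (alRel_alFun ι hℓ h10 h11 y))
  commutes' c := alFun_eq ι hℓ h10 h11 (alRel_algebraMap c)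

theorem coe_alRing_eq (hℓ : ℓ.Prime) (h10 : γ 1 0 = (N : ℤ)) (h11 : γ 1 1 = (ℓ : ℤ))
    {x : Algebra.adjoin L (levelGens L (N * ℓ))} {y : LaurentSeries L}
    (h : ALRel ℓ γ ι (x : LaurentSeries L) y) :
    (alRing ι hℓ h10 h11 x : LaurentSeries L) = y :=
  (alRel_alFun ι hℓ h10 h11 x).unique h

theorem alRing_alRing (hℓ : ℓ.Prime) (h10 : γ 1 0 = (N : ℤ)) (h11 : γ 1 1 = (ℓ : ℤ))
    (x : Algebra.adjoin L (levelGens L (N * ℓ))) :
    alRing ι hℓ h10 h11 (alRing ι hℓ h10 h11 x) = x := by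
  have h : (alRing ι hℓ h10 h11).comp (alRing ι hℓ h10 h11) = AlgHom.id L _ := by
    refine AlgHom.adjoin_ext fun v hv => Subtype.ext ?_
    obtain ⟨d, hd0, hld0, hd, hvd⟩ := alGens_cases hℓ hv
    obtain ⟨y, h1, h2⟩ : ∃ y, ALRel ℓ γ ι v y ∧ ALRel ℓ γ ι y v := by
      rcases hvd with rfl | rfl
      · exact ⟨_, alRel_gen h10 h11 hd⟩
      · exact ⟨_, (alRel_gen h10 h11 hd).2, (alRel_gen h10 h11 hd).1⟩
    have e1 : (alRing ι hℓ h10 h11 ⟨v, Algebra.subset_adjoin hv⟩ : LaurentSeries L) = y :=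
      coe_alRing_eq ι hℓ h10 h11 (x := ⟨v, Algebra.subset_adjoin hv⟩) h1
    exact coe_alRing_eq ι hℓ h10 h11
      (x := alRing ι hℓ h10 h11 ⟨v, Algebra.subset_adjoin hv⟩) (e1 ▸ h2)
  exact AlgHom.congr_fun h x

/-- The Atkin–Lehner map on the function field of level `N * ℓ`. -/
theorem exists_atkinLehner_gens (ι : L →+* ℂ) (hℓ : ℓ.Prime) (hℓN : ¬ ℓ ∣ N) :
    ∃ w : laurentBaseChange L (modularFunctionFieldFull (N * ℓ)) →ₐ[L]
        laurentBaseChange L (modularFunctionFieldFull (N * ℓ)),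
      ∀ (d : ℕ) (_ : NeZero d) (_ : NeZero (ℓ * d)) (h₁ : d ∣ N * ℓ) (h₂ : ℓ * d ∣ N * ℓ), d ∣ N →
        w (jdElem L h₁) = jdElem L h₂ ∧ w (jdElem L h₂) = jdElem L h₁ := by
  obtain ⟨γ, h10, h11⟩ := exists_sl_atkinLehner hℓ hℓN
  let R := Algebra.adjoin L (levelGens L (N * ℓ))
  let K := IntermediateField.adjoin L (levelGens L (N * ℓ))
  let f : R →ₐ[L] K := (IsScalarTower.toAlgHom L R K).comp (alRing ι hℓ h10 h11)
  have hf : Function.Injective f := fun x y h => by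
    have h' : alRing ι hℓ h10 h11 x = alRing ι hℓ h10 h11 y := IsFractionRing.injective R K h
    simpa [alRing_alRing] using congrArg (alRing ι hℓ h10 h11) h'
  let W : K →ₐ[L] K := IsFractionRing.liftAlgHom (R := L) (A := R) (K := K) (L := K) (g := f) hf
  let e : laurentBaseChange L (modularFunctionFieldFull (N * ℓ)) ≃ₐ[L] K :=
    IntermediateField.equivOfEq (laurentBaseChange_full_eq_adjoin L (N * ℓ))
  refine ⟨e.symm.toAlgHom.comp (W.comp e.toAlgHom), fun d _ _ h₁ h₂ hd => ?_⟩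
  have key : ∀ (v v' : LaurentSeries L) (hv : v ∈ levelGens L (N * ℓ))
      (hv' : v' ∈ levelGens L (N * ℓ)), ALRel ℓ γ ι v v' →
      W ⟨v, IntermediateField.subset_adjoin L _ hv⟩ =
        ⟨v', IntermediateField.subset_adjoin L _ hv'⟩ := by
    intro v v' hv hv' h
    have h1 : (⟨v, IntermediateField.subset_adjoin L _ hv⟩ : K) =
        algebraMap R K ⟨v, Algebra.subset_adjoin hv⟩ := rfl
    rw [h1]
    simp only [W, IsFractionRing.liftAlgHom_apply]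
    refine (IsFractionRing.lift_algebraMap hf _).trans ?_
    exact Subtype.ext (coe_alRing_eq ι hℓ h10 h11 h)
  constructor
  · exact (AlgEquiv.symm_apply_eq e).mpr (key _ _ (coeffEmb_qExpand_mem_levelGens h₁)
      (coeffEmb_qExpand_mem_levelGens h₂) (alRel_gen h10 h11 hd).1)
  · exact (AlgEquiv.symm_apply_eq e).mpr (key _ _ (coeffEmb_qExpand_mem_levelGens h₂)
      (coeffEmb_qExpand_mem_levelGens h₁) (alRel_gen h10 h11 hd).2)

/-- The Atkin–Lehner map exchanges the two degeneracy maps. -/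
theorem exists_atkinLehner [NeZero N] (hℓ : ℓ.Prime) (hℓN : ¬ ℓ ∣ N) (ι : L →+* ℂ) :
    ∃ w : laurentBaseChange L (modularFunctionFieldFull (N * ℓ)) →ₐ[L]
        laurentBaseChange L (modularFunctionFieldFull (N * ℓ)),
      w.comp (heckeAlphaBar L N ℓ) = heckeBetaBar L N ℓ ∧
        w.comp (heckeBetaBar L N ℓ) = heckeAlphaBar L N ℓ := by
  obtain ⟨w, hw⟩ := exists_atkinLehner_gens ι hℓ hℓN
  have hb : ∀ (d : ℕ) (_ : NeZero d) (_ : NeZero (ℓ * d)) (hd : d ∣ N) (h₂ : ℓ * d ∣ N * ℓ),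
      heckeBetaBar L N ℓ (jdElem L hd) = jdElem L h₂ := fun d _ _ hd h₂ => Subtype.ext (by
    rw [coe_heckeBetaBar, coe_jdElem, coe_jdElem, coeffEmb, ← coeffMap_qExpand, qExpand_qExpand])
  have ha : ∀ (d : ℕ) (_ : NeZero d) (hd : d ∣ N) (h₁ : d ∣ N * ℓ),
      heckeAlphaBar L N ℓ (jdElem L hd) = jdElem L h₁ := fun d _ hd h₁ =>
    Subtype.ext (coe_heckeAlphaBar N ℓ _)
  refine ⟨w, algHom_ext_jdElem L fun d hd0 hd => ?_, algHom_ext_jdElem L fun d hd0 hd => ?_⟩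
  all_goals
    haveI : NeZero (ℓ * d) := ⟨Nat.mul_ne_zero hℓ.ne_zero hd0.out⟩
    have h₂ : ℓ * d ∣ N * ℓ := (mul_dvd_mul_left ℓ hd).trans (dvd_of_eq (mul_comm ℓ N))
    have h₁ : d ∣ N * ℓ := hd.trans (dvd_mul_right N ℓ)
    rw [AlgHom.comp_apply, hb d hd0 ‹_› hd h₂, ha d hd0 hd h₁]
  · exact (hw d hd0 ‹_› h₁ h₂ hd).1
  · exact (hw d hd0 ‹_› h₁ h₂ hd).2

end Construction

end Fermat.Agent.Reduction
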