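import Fermat.Agent.Modular.Index

/-!
# The index of `Γ₀(N p)` for a prime `p ∤ N`
-/

set_option autoImplicit false

noncomputable section

namespace Fermat.Agent.Reduction

open Finset

theorem dedekindPsi_mul_prime {N p : ℕ} (hN : N ≠ 0) (hp : p.Prime) (hpN : ¬ p ∣ N) :
    ModularCurve.dedekindPsi (N * p) = ModularCurve.dedekindPsi N * (p + 1) := by
  classical
  have hdiv : (N * p).divisors = N.divisors ∪ N.divisors.image (fun e => e * p) := by
    ext d
    simp only [Finset.mem_union, Finset.mem_image, Nat.mem_divisors]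
    constructor
    · rintro ⟨hd, -⟩
      by_cases hpd : p ∣ d
      · obtain ⟨e, rfl⟩ := hpd
        rw [mul_comm N p] at hd
        exact Or.inr ⟨e, ⟨(Nat.mul_dvd_mul_iff_left hp.pos).mp hd, hN⟩, mul_comm e p⟩
      · exact Or.inl ⟨((hp.coprime_iff_not_dvd.mpr hpd).symm).dvd_of_dvd_mul_right hd, hN⟩
    · rintro (⟨hd, -⟩ | ⟨e, ⟨he, -⟩, rfl⟩)
      · exact ⟨hd.mul_right p, Nat.mul_ne_zero hN hp.ne_zero⟩
      · exact ⟨mul_dvd_mul_right he p, Nat.mul_ne_zero hN hp.ne_zero⟩
  have hdisj : Disjoint N.divisors (N.divisors.image (fun e => e * p)) := by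
    rw [Finset.disjoint_left]
    intro d hd hd'
    obtain ⟨e, -, rfl⟩ := Finset.mem_image.mp hd'
    exact hpN ((dvd_mul_left p e).trans (Nat.dvd_of_mem_divisors hd))
  have hsf : ∀ e ∈ N.divisors, (Squarefree (e * p) ↔ Squarefree e) := fun e he => by
    have hco : e.Coprime p :=
      ((hp.coprime_iff_not_dvd.mpr fun h => hpN (h.trans (Nat.dvd_of_mem_divisors he)))).symm
    rw [Nat.squarefree_mul hco]
    exact and_iff_left hp.squarefree
  simp only [ModularCurve.dedekindPsi, Finset.sum_filter]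
  rw [hdiv, Finset.sum_union hdisj,
    Finset.sum_image (fun a _ b _ h => Nat.eq_of_mul_eq_mul_right hp.pos h), mul_add, mul_one,
    Finset.sum_mul]
  refine congrArg₂ (· + ·) (Finset.sum_congr rfl fun d hd => ?_) (Finset.sum_congr rfl fun d hd => ?_)
  · split_ifs
    · exact Nat.mul_div_right_comm (Nat.dvd_of_mem_divisors hd) p
    · simp
  · by_cases h : Squarefree d
    · rw [if_pos h, if_pos ((hsf d hd).mpr h), Nat.mul_div_mul_right _ _ hp.pos]
    · rw [if_neg h, if_neg fun h' => h ((hsf d hd).mp h')]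

theorem index_Gamma0_mul_prime {N p : ℕ} [NeZero N] (hp : p.Prime) (hpN : ¬ p ∣ N) :
    (CongruenceSubgroup.Gamma0 (N * p)).index =
      (CongruenceSubgroup.Gamma0 N).index * (p + 1) := by
  have : NeZero (N * p) := ⟨Nat.mul_ne_zero (NeZero.ne N) hp.ne_zero⟩
  rw [Modular.index_Gamma0, Modular.index_Gamma0, dedekindPsi_mul_prime (NeZero.ne N) hp hpN]

end Fermat.Agent.Reduction
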