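import Fermat.Agent.Reduction.Series
import Fermat.Agent.Modular.JFun
import Fermat.Agent.Modular.JOrder
import Fermat.Agent.Igusa.LaurentLead
import Fermat.Agent.Igusa.UnitPolyData

/-!
# `Δ(q^d)/Δ(q)` lies in the field generated by the `j(q^d)`

From `(q dj/dq)^6 = j^4 (j - 1728)^3 Δ`, valid over `ℤ`, and `dj_d/dj ∈ k(j, j_d)`.
-/

set_option autoImplicit false

noncomputable section

open ModularCurve Polynomial Complex Filter Topology
open UpperHalfPlane hiding I
open Fermat.Agent.Igusa (castSeries deltaSeries discQuotientField HasLead)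
open Fermat.Agent.Modular (HasQExp kleinJ)
open scoped IntermediateField Real Manifold

namespace Fermat.Agent.Reduction

local notation "𝕢" => Function.Periodic.qParam
local notation "D" => Derivative.normalizedDerivOfComplex

/-- Termwise differentiation of a `q`-expansion. -/
theorem hasQExp_qDeriv {f : ℍ → ℂ} {x : LaurentSeries ℂ} (hf : HasQExp 1 f x) :
    HasQExp 1 (D f) (qDeriv x) := by
  obtain ⟨m, hm⟩ := HasQExp.exists_forall_lt_coeff_eq_zero x
  set g := HasQExp.discFun x m with hg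
  have hb := hf.hasFPowerSeriesOnBall_discFun one_pos hm
  have hdiff := hf.differentiableOn_discFun one_pos hm
  have hit : ∀ k, iteratedDeriv k g 0 = (k.factorial : ℂ) * x.coeff (m + k) := fun k => by
    rw [iteratedDeriv_eq_iteratedFDeriv, ← hb.factorial_smul 1 k]
    simp
  intro τ
  set q := 𝕢 (1 : ℝ) τ with hq
  have hq1 : q ∈ Metric.ball (0 : ℂ) 1 := by
    simpa [hq] using Function.Periodic.norm_qParam_lt_one one_pos τ.im_pos
  have hq0 : q ≠ 0 := Function.Periodic.qParam_ne_zero (τ : ℂ)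
  have h1 : HasSum (fun k : ℕ => x.coeff (m + k) * q ^ k) (g q) := by
    refine (Complex.hasSum_taylorSeries_on_ball (r := 1) hdiff hq1).congr_fun fun k => ?_
    rw [hit, smul_eq_mul, smul_eq_mul, sub_zero]
    have : (k.factorial : ℂ) ≠ 0 := Nat.cast_ne_zero.2 k.factorial_ne_zero
    field_simp
  have h2 : HasSum (fun k : ℕ => (k : ℂ) * x.coeff (m + k) * q ^ k) (q * deriv g q) := by
    refine (hasSum_nat_add_iff' (f := fun k : ℕ => (k : ℂ) * x.coeff (m + k) * q ^ k) 1).1 ?_
    simp only [Finset.range_one, Finset.sum_singleton, Nat.cast_zero, zero_mul, sub_zero]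
    refine ((Complex.hasSum_taylorSeries_on_ball (r := 1) (hdiff.deriv Metric.isOpen_ball)
      hq1).mul_left q).congr_fun fun k => ?_
    rw [← iteratedDeriv_succ', hit, smul_eq_mul, smul_eq_mul, sub_zero, Nat.factorial_succ,
      pow_succ]
    have : (k.factorial : ℂ) ≠ 0 := Nat.cast_ne_zero.2 k.factorial_ne_zero
    push_cast
    field_simp
  have hD : D f τ = q ^ m * ((m : ℂ) * g q + q * deriv g q) := by
    have hqd : HasDerivAt (𝕢 (1 : ℝ)) (2 * π * I * q) (τ : ℂ) := by
      show HasDerivAt (fun w : ℂ => cexp (2 * π * I * w / ((1 : ℝ) : ℂ))) _ _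
      simpa [hq, Function.Periodic.qParam, mul_comm] using
        ((hasDerivAt_id (τ : ℂ)).const_mul (2 * π * I)).cexp
    have hg' : HasDerivAt g (deriv g q) q :=
      (hdiff.differentiableAt (Metric.isOpen_ball.mem_nhds hq1)).hasDerivAt
    have h3 := ((hasDerivAt_zpow m q (Or.inl hq0)).comp (τ : ℂ) hqd).mul
      (hg'.comp (τ : ℂ) hqd)
    have heq : (f ∘ ofComplex) =ᶠ[𝓝 (τ : ℂ)] fun w => 𝕢 (1 : ℝ) w ^ m * g (𝕢 (1 : ℝ) w) := by
      filter_upwards [isOpen_upperHalfPlaneSet.mem_nhds τ.im_pos] with w hw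
      simp [ofComplex_apply_of_im_pos hw, hf.eq_qParam_mul_discFun hm, hg]
    rw [Derivative.normalizedDerivOfComplex, heq.deriv_eq]
    erw [h3.deriv]
    simp only [Function.comp_apply, ← hq, zpow_sub_one₀ hq0]
    field_simp [Real.pi_ne_zero]
  have hinj : Function.Injective fun k : ℕ => m + (k : ℤ) := fun a b hab => by simpa using hab
  refine (hinj.hasSum_iff ?_).1 ?_
  · intro n hn
    have : n < m := by
      by_contra hc
      exact hn ⟨(n - m).toNat, by simp only; omega⟩
    simp [hm n this]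
  · rw [hD]
    refine (((h1.mul_left (m : ℂ)).add h2).mul_left (q ^ m)).congr_fun fun k => ?_
    simp only [Function.comp_apply, qDeriv_coeff, Int.cast_add, Int.cast_natCast,
      zpow_add₀ hq0, zpow_natCast]
    ring

/-- `(q dj/dq)^6 = j^4 (j - 1728)^3 Δ`. -/
theorem qDeriv_jqModC_pow_six (R : Type*) [CommRing R] :
    qDeriv (jqModC R) ^ 6 =
      jqModC R ^ 4 * (jqModC R - HahnSeries.C (1728 : R)) ^ 3 * deltaSeries R := by
  suffices h : qDeriv (jqModC ℤ) ^ 6 =
      jqModC ℤ ^ 4 * (jqModC ℤ - HahnSeries.C (1728 : ℤ)) ^ 3 * deltaSeries ℤ by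
    have := congrArg (coeffMap (Int.castRingHom R)) h
    rw [map_pow, map_mul, map_mul, map_pow, map_pow, map_sub, coeffMap_qDeriv, coeffMap_jqModC,
      Igusa.coeffMap_deltaSeries, Igusa.coeffMap_C, eq_intCast, Int.cast_ofNat] at this
    exact this
  refine Igusa.coeffMap_injective (f := Int.castRingHom ℂ)
    (show Function.Injective (Int.castRingHom ℂ) from Int.cast_injective) ?_
  rw [map_pow, map_mul, map_mul, map_pow, map_pow, map_sub, coeffMap_qDeriv, coeffMap_jqModC,
    Igusa.coeffMap_deltaSeries, Igusa.coeffMap_C, eq_intCast, Int.cast_ofNat]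
  obtain ⟨c, -, hc⟩ := Modular.exists_D_j
  have hE : HasQExp 1 ModularForm.discriminant (deltaSeries ℂ) := Modular.hasQExp_discriminant
  have h1 := (hasQExp_qDeriv Modular.hasQExp_kleinJ).pow 6
  have h2 := (((Modular.hasQExp_kleinJ.pow 4).mul
    ((Modular.hasQExp_kleinJ.sub (HasQExp.const 1 (1728 : ℂ))).pow 3)).mul hE).const_mul (c ^ 6)
  have hfun : (D kleinJ) ^ 6 = fun τ => c ^ 6 * ((kleinJ ^ 4 * (kleinJ - fun _ => (1728 : ℂ)) ^ 3
      * ModularForm.discriminant : ℍ → ℂ)) τ := by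
    funext τ
    have hd := ModularForm.discriminant_ne_zero τ
    have h1728 := ModularForm.discriminant_eq_E₄_cube_sub_E₆_sq τ
    have hj : kleinJ τ - 1728 = ModularForm.E₆ τ ^ 2 / ModularForm.discriminant τ := by
      rw [Modular.kleinJ_def, eq_div_iff hd, sub_mul, div_mul_cancel₀ _ hd]
      linear_combination (-1728 : ℂ) * h1728
    simp only [Pi.pow_apply, Pi.mul_apply, Pi.sub_apply]
    rw [hj, show D kleinJ τ = _ from hc τ, Modular.kleinJ_def]
    field_simp
  have key := h1.unique (hfun ▸ h2) one_pos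
  have hl : HasLead (qDeriv (jqModC ℂ)) (-1) (-1) := ⟨fun n hn => by
      rw [qDeriv_coeff, (Igusa.hasLead_jqModC (R := ℂ)).1 n hn, mul_zero], by
      rw [qDeriv_coeff, (Igusa.hasLead_jqModC (R := ℂ)).2]; simp⟩
  have hlC : HasLead (HahnSeries.C (1728 : ℂ)) (-1) 0 := (HasLead.single 0 _).of_le (by norm_num)
  have hls : HasLead (jqModC ℂ - HahnSeries.C (1728 : ℂ)) (-1) 1 := ⟨fun n hn => by
      rw [HahnSeries.coeff_sub, (Igusa.hasLead_jqModC (R := ℂ)).1 n hn, hlC.1 n hn, sub_zero], by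
      rw [HahnSeries.coeff_sub, (Igusa.hasLead_jqModC (R := ℂ)).2, hlC.2, sub_zero]⟩
  have hr : HasLead (HahnSeries.C (c ^ 6) * (jqModC ℂ ^ 4 *
      (jqModC ℂ - HahnSeries.C (1728 : ℂ)) ^ 3 * deltaSeries ℂ)) (-6) (c ^ 6) :=
    (HasLead.single 0 (c ^ 6)).mul' ((((Igusa.hasLead_jqModC (R := ℂ)).pow 4).mul (hls.pow 3)).mul
      (Igusa.hasLead_deltaSeries (R := ℂ))) (by norm_num) (by ring)
  have hl6 : HasLead (qDeriv (jqModC ℂ) ^ 6) (-6) 1 := by
    have := hl.pow 6
    rw [show ((-1 : ℂ)) ^ 6 = 1 by norm_num, show ((6 : ℕ) : ℤ) * -1 = -6 by norm_num] at this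
    exact this
  have hc6 : c ^ 6 = 1 := (key ▸ hr : HasLead (qDeriv (jqModC ℂ) ^ 6) _ _).eq_coeff hl6
  rw [key, hc6, map_one, one_mul]

/-- `Δ(q^d)/Δ(q) ∈ k(j(q^e) : e ∣ N)` for `d ∣ N` invertible in `k`. -/
theorem deltaRatio_mem {k : Type*} [Field k] [PerfectField k] (N d : ℕ) [NeZero d] (hd : d ∣ N)
    (hdk : (d : k) ≠ 0)
    (halg : IsAlgebraic k⟮jqModC k⟯ (qExpand k d (jqModC k))) :
    qExpand k d (deltaSeries k) / deltaSeries k ∈ modularFunctionFieldFullC k N := by
  set M := modularFunctionFieldFullC k N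
  have hj : jqModC k ∈ M := jqModC_mem_full k N
  have hjd : qExpand k d (jqModC k) ∈ M := jqModCd_mem_full k N hd
  obtain ⟨c, hc, hcd⟩ := exists_qDeriv_eq (qDeriv_jqModC_ne_zero k) (transcendental_jqModC k)
    halg.isIntegral M hj hjd
  rw [qDeriv_qExpand] at hcd
  have hne : ∀ a : k, jqModC k - HahnSeries.C a ≠ 0 := fun a h => by
    have h2 := congrArg (fun z : LaurentSeries k => z.coeff (-1)) h
    simp [coeff_jqModC_neg_one, HahnSeries.C_apply] at h2
  have hned : ∀ a : k, qExpand k d (jqModC k) - HahnSeries.C a ≠ 0 := fun a h => by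
    apply hne a
    apply qExpand_injective (R := k) (N := d)
    rw [map_sub, map_zero, HahnSeries.C_apply, qExpand_single, mul_zero, ← HahnSeries.C_apply, h]
  have hC : ∀ a : k, HahnSeries.C a ∈ M := fun a => by
    rw [C_eq_algebraMap]; exact M.algebraMap_mem a
  have h6 := qDeriv_jqModC_pow_six k
  have h6d := congrArg (qExpand k d) h6
  simp only [map_mul, map_pow, map_sub, HahnSeries.C_apply, qExpand_single, mul_zero] at h6d
  rw [← HahnSeries.C_apply] at h6d
  have hΔ : deltaSeries k ≠ 0 := (Igusa.hasLead_deltaSeries (R := k)).ne_zero one_ne_zero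
  have h0 : qExpand k d (jqModC k) ≠ 0 := fun h => by simpa [h] using hned 0
  have hj0 : jqModC k ≠ 0 := jqModC_ne_zero_of_nontrivial k
  have hd' : (HahnSeries.C (d : k) : LaurentSeries k) ≠ 0 := HahnSeries.C_ne_zero hdk
  have : qExpand k d (deltaSeries k) / deltaSeries k =
      (c / HahnSeries.C (d : k)) ^ 6 * (jqModC k ^ 4 * (jqModC k - HahnSeries.C (1728 : k)) ^ 3) /
        (qExpand k d (jqModC k) ^ 4 * (qExpand k d (jqModC k) - HahnSeries.C (1728 : k)) ^ 3) := by
    have h1728 := hned 1728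
    have e : qExpand k d (qDeriv (jqModC k)) = c / HahnSeries.C (d : k) * qDeriv (jqModC k) := by
      field_simp
      linear_combination hcd
    rw [e, mul_pow, h6] at h6d
    field_simp at h6d ⊢
    linear_combination -h6d
  rw [this]
  exact div_mem (mul_mem (pow_mem (div_mem hc (hC _)) 6)
    (mul_mem (pow_mem hj 4) (pow_mem (sub_mem hj (hC _)) 3)))
    (mul_mem (pow_mem hjd 4) (pow_mem (sub_mem hjd (hC _)) 3))

/-- The field of `Δ`-quotients lies in the modular function field. -/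
theorem discQuotientField_le {k : Type} [Field k] [PerfectField k] (N : ℕ) (hN : (N : k) ≠ 0)
    (halg : ∀ (d : ℕ) [NeZero d], d ∣ N →
      IsAlgebraic k⟮jqModC k⟯ (qExpand k d (jqModC k))) :
    discQuotientField k N ≤ modularFunctionFieldFullC k N := by
  rw [discQuotientField, IntermediateField.adjoin_le_iff]
  rintro x ⟨d, hd0, hdN, rfl⟩
  exact deltaRatio_mem N d hdN (fun h => hN (by
    obtain ⟨e, rfl⟩ := hdN
    rw [Nat.cast_mul, h, zero_mul])) (halg d hdN)

end Fermat.Agent.Reduction
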