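import Fermat.Agent.Reduction.GaussNorm
import Fermat.Agent.Reduction.DeltaRatio
import Fermat.Agent.Igusa.Descent
import Fermat.Agent.Modular.ModularPolynomial
import Fermat.Prelude.Def_ModularCurve_HeckeOperator
import Fermat.Prelude.Def_FLTPrelim_Ramification

/-!
# The fields `K(j, u)` and reduction of their integral elements

`u` is the modular unit of `UnitPolyData`; the powers `u^i`, `i < n`, form a basis over `K(j)` in
characteristic zero and in characteristic `ℓ`, so an integral series of `L(j, u)` reduces into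
`k(j, u)`; both fields are the modular function fields.
-/

set_option autoImplicit false
set_option linter.style.haveILetI false

noncomputable section

open ModularCurve Polynomial
open Fermat.Agent.Igusa (evalJU castSeries UnitPolyData)
open scoped IntermediateField

namespace Fermat.Agent.Reduction

section Generic

variable {K : Type*} [Field K]

theorem evalJU_C_evalAt (u : LaurentSeries K) (s : K[X]) :
    evalJU u (C s) = evalAt (jqModC K) s := Igusa.evalJU_C u s

theorem evalJU_mem {M : IntermediateField K (LaurentSeries K)} {u : LaurentSeries K}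
    (hj : jqModC K ∈ M) (hu : u ∈ M) (Q : K[X][X]) : evalJU u Q ∈ M := by
  rw [evalJU, coe_eval₂RingHom, eval₂_eq_sum_range]
  refine sum_mem fun i _ => mul_mem ?_ (pow_mem hu _)
  rw [evalAt_eq_aeval]
  exact (Algebra.adjoin_le (S := M.toSubalgebra) (Set.singleton_subset_iff.mpr hj) :)
    (aeval_mem_adjoin_singleton K _)

/-- `x · s(j) = R(j, u)` for some `s ≠ 0` and `R` of degree `< n`. -/
def SpannedBy (u : LaurentSeries K) (n : ℕ) (x : LaurentSeries K) : Prop :=
  ∃ (s : K[X]) (R : K[X][X]), s ≠ 0 ∧ R.natDegree < n ∧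
    x * evalAt (jqModC K) s = evalJU u R

variable {u : LaurentSeries K} {P : K[X][X]} {n : ℕ}

theorem exists_lt (hP : P.Monic) (hn : P.natDegree = n) (hn0 : 0 < n) (h0 : evalJU u P = 0)
    (R : K[X][X]) : ∃ R' : K[X][X], R'.natDegree < n ∧ evalJU u R' = evalJU u R := by
  refine ⟨R %ₘ P, hn ▸ natDegree_modByMonic_lt R hP (fun h => ?_), ?_⟩
  · rw [h, natDegree_one] at hn; omega
  · conv_rhs => rw [← modByMonic_add_div R P, map_add, map_mul, h0, zero_mul, add_zero]

theorem isIntegral_u (hP : P.Monic) (h0 : evalJU u P = 0) : IsIntegral K⟮jqModC K⟯ u := by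
  let ψ : K[X] →+* K⟮jqModC K⟯ :=
    (aeval (⟨jqModC K, IntermediateField.mem_adjoin_simple_self K _⟩ : K⟮jqModC K⟯)).toRingHom
  refine ⟨P.map ψ, hP.map _, ?_⟩
  rw [eval₂_map, ← h0, evalJU, coe_eval₂RingHom]
  congr 1
  refine Polynomial.ringHom_ext (fun a => ?_) ?_
  · simp [ψ, algebraMap_laurentSeries_eq_single, HahnSeries.C_apply]
  · simp [ψ]

theorem spannedBy_of_mem_adjoin (hP : P.Monic) (hn : P.natDegree = n) (hn0 : 0 < n)
    (h0 : evalJU u P = 0) {x : LaurentSeries K}
    (hx : x ∈ IntermediateField.adjoin K ({jqModC K, u} : Set (LaurentSeries K))) :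
    SpannedBy u n x := by
  have hfull : ∀ y : LaurentSeries K, (∃ (s : K[X]) (R : K[X][X]), s ≠ 0 ∧
      y * evalAt (jqModC K) s = evalJU u R) → SpannedBy u n y := by
    rintro y ⟨s, R, hs, hR⟩
    obtain ⟨R', hR', h⟩ := exists_lt hP hn hn0 h0 R
    exact ⟨s, R', hs, hR', hR.trans h.symm⟩
  apply hfull
  have heq : IntermediateField.adjoin K ({jqModC K, u} : Set (LaurentSeries K)) =
      ((K⟮jqModC K⟯)⟮u⟯).restrictScalars K := by
    rw [IntermediateField.adjoin_simple_adjoin_simple]
  rw [heq, IntermediateField.mem_restrictScalars, ← IntermediateField.mem_toSubalgebra,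
    IntermediateField.adjoin_simple_toSubalgebra_of_isAlgebraic (isIntegral_u hP h0).isAlgebraic]
    at hx
  clear heq
  induction hx using Algebra.adjoin_induction with
  | mem y hy =>
    obtain rfl := Set.mem_singleton_iff.1 hy
    exact ⟨1, X, one_ne_zero, by simp⟩
  | algebraMap r =>
    obtain ⟨a, b, hab⟩ := (IntermediateField.mem_adjoin_simple_iff K _).1 r.2
    rw [IntermediateField.algebraMap_apply, hab]
    rcases eq_or_ne (aeval (jqModC K) b) 0 with hb | hb
    · exact ⟨1, 0, one_ne_zero, by rw [hb, div_zero, zero_mul, map_zero]⟩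
    · refine ⟨b, C a, fun h => hb (by rw [h, map_zero]), ?_⟩
      rw [evalJU_C_evalAt, evalAt_eq_aeval, evalAt_eq_aeval, div_mul_cancel₀ _ hb]
  | add y z _ _ h1 h2 =>
    obtain ⟨s, R, hs, h⟩ := h1
    obtain ⟨t, Q, ht, h'⟩ := h2
    refine ⟨s * t, C t * R + C s * Q, mul_ne_zero hs ht, ?_⟩
    rw [map_add, map_mul, map_mul, map_mul, evalJU_C_evalAt, evalJU_C_evalAt, ← h, ← h']
    ring
  | mul y z _ _ h1 h2 =>
    obtain ⟨s, R, hs, h⟩ := h1
    obtain ⟨t, Q, ht, h'⟩ := h2
    refine ⟨s * t, R * Q, mul_ne_zero hs ht, ?_⟩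
    rw [map_mul, map_mul, ← h, ← h']
    ring

variable {F : IntermediateField K (LaurentSeries K)}

theorem coe_aeval (j : F) (s : K[X]) :
    ((aeval j s : F) : LaurentSeries K) = aeval (j : LaurentSeries K) s :=
  (aeval_algHom_apply F.val j s).symm

/-- `[F : K(j)] = n` for a field spanned by `u^i`, `i < n`, without relation of lower degree. -/
theorem finrank_of_spannedBy (hindep : ∀ Q : K[X][X], Q.natDegree < n → evalJU u Q = 0 → Q = 0)
    (hn0 : 0 < n) (hu : u ∈ F) (jF : F) (hjF : (jF : LaurentSeries K) = jqModC K)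
    (hspan : ∀ x ∈ F, SpannedBy u n x) :
    Module.finrank K⟮jF⟯ F = n ∧ FiniteDimensional K⟮jF⟯ F := by
  classical
  let b : Fin n → F := fun i => (⟨u, hu⟩ : F) ^ (i : ℕ)
  have hb : ∀ i, ((b i : F) : LaurentSeries K) = u ^ (i : ℕ) := fun i => by simp [b]
  have hli : LinearIndependent K⟮jF⟯ b := by
    rw [Fintype.linearIndependent_iff]
    intro g hg
    choose a c hac using fun i => (IntermediateField.mem_adjoin_simple_iff K _).1 (g i).2
    have hc : ∀ i, aeval jF (c i) ≠ 0 ∨ (g i : F) = 0 := fun i => by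
      rcases eq_or_ne (aeval jF (c i)) 0 with h | h
      · exact Or.inr (by rw [hac i, h, div_zero])
      · exact Or.inl h
    let c' : Fin n → K[X] := fun i => if aeval jF (c i) = 0 then 1 else c i
    let a' : Fin n → K[X] := fun i => if aeval jF (c i) = 0 then 0 else a i
    have hc' : ∀ i, aeval jF (c' i) ≠ 0 := fun i => by
      by_cases h : aeval jF (c i) = 0 <;> simp [c', h]
    have hga : ∀ i, (g i : F) * aeval jF (c' i) = aeval jF (a' i) := fun i => by
      by_cases h : aeval jF (c i) = 0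
      · simp [c', a', h, hac i]
      · simp [c', a', h, hac i]
    let A : Fin n → K[X] := fun i => a' i * ∏ j ∈ Finset.univ.erase i, c' j
    have hA : ∀ i, aeval jF (A i) = (g i : F) * ∏ j, aeval jF (c' j) := fun i => by
      rw [map_mul, map_prod, ← hga i, ← Finset.mul_prod_erase _ _ (Finset.mem_univ i)]
      ring
    have hsum : ∑ i, aeval jF (A i) * b i = 0 := by
      simp_rw [hA, mul_right_comm _ (∏ j, aeval jF (c' j))]
      rw [← Finset.sum_mul]
      have : ∑ i, (g i : F) * b i = 0 := by simpa [Algebra.smul_def] using hg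
      rw [this, zero_mul]
    have hQ : ∑ i : Fin n, monomial (i : ℕ) (A i) = 0 := by
      apply hindep
      · rcases eq_or_ne (∑ i : Fin n, monomial (i : ℕ) (A i)) 0 with h | h
        · rw [h, natDegree_zero]; exact hn0
        · rw [natDegree_lt_iff_degree_lt h]
          refine (degree_sum_le _ _).trans_lt ((Finset.sup_lt_iff (WithBot.bot_lt_coe _)).2 ?_)
          intro i _
          exact (degree_monomial_le _ _).trans_lt (WithBot.coe_lt_coe.2 i.2)
      · have h := congrArg (fun z : F => (z : LaurentSeries K)) hsum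
        simp only [AddSubmonoidClass.coe_finsetSum, IntermediateField.coe_mul, hb, coe_aeval,
          hjF, ZeroMemClass.coe_zero] at h
        rw [map_sum, ← h]
        refine Finset.sum_congr rfl fun i _ => ?_
        rw [evalJU, coe_eval₂RingHom, eval₂_monomial, evalAt_eq_aeval]
    intro i
    have hAi := congrArg (fun Q : K[X][X] => Q.coeff i) hQ
    simp [coeff_monomial, Fin.val_inj] at hAi
    have h := hA i
    rw [hAi, map_zero] at h
    exact Subtype.ext ((mul_eq_zero.1 h.symm).resolve_right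
      (Finset.prod_ne_zero_iff.2 fun j _ => hc' j))
  have hspan' : ⊤ ≤ Submodule.span K⟮jF⟯ (Set.range b) := by
    rintro x -
    obtain ⟨s, R, hs, hRdeg, hR⟩ := hspan _ x.2
    have hsne : aeval jF s ≠ 0 := fun h => hs (evalAt_jqModC_injective K (by
      rw [map_zero, evalAt_eq_aeval, ← hjF, ← coe_aeval, h, ZeroMemClass.coe_zero]))
    refine (Submodule.mem_span_range_iff_exists_fun _).2
      ⟨fun i => ⟨aeval jF (R.coeff i) / aeval jF s,
        (IntermediateField.mem_adjoin_simple_iff K _).2 ⟨_, _, rfl⟩⟩, ?_⟩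
    apply Subtype.ext
    have hsne' : aeval (jqModC K) s ≠ 0 := fun h => hsne (Subtype.ext (by
      rw [coe_aeval, hjF, h]; rfl))
    simp only [Algebra.smul_def, AddSubmonoidClass.coe_finsetSum, IntermediateField.coe_mul,
      IntermediateField.algebraMap_apply, IntermediateField.coe_div, coe_aeval, hjF, hb]
    rw [eq_comm, ← mul_right_inj' hsne', mul_comm, ← evalAt_eq_aeval, hR, evalJU,
      coe_eval₂RingHom, eval₂_eq_sum_range' _ hRdeg, Finset.sum_range
        (fun i => evalAt (jqModC K) (R.coeff i) * u ^ i), Finset.mul_sum]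
    refine Finset.sum_congr rfl fun i _ => ?_
    simp only [← evalAt_eq_aeval]
    have hs'' : evalAt (jqModC K) s ≠ 0 := by rwa [evalAt_eq_aeval]
    generalize evalAt (jqModC K) s = z at hs'' ⊢
    field_simp
  let B := Module.Basis.mk hli hspan'
  exact ⟨(Module.finrank_eq_card_basis B).trans (Fintype.card_fin n),
    Module.Finite.of_basis B⟩

end Generic

section Integral

/-- `j(q^d)` is integral over `k(j)`, over every field. -/
theorem isIntegral_jqd (k : Type*) [Field k] (d : ℕ) [NeZero d] :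
    IsIntegral k⟮jqModC k⟯ (qExpand k d (jqModC k)) := by
  have Φ := Modular.modularPolynomialData d
  have hQ := Φ.eval_eq_zero
  set θ : ℤ[X] →+* LaurentSeries ℤ := evalAt (jqModC ℤ) with hθ
  have hZ : Φ.Φ.eval₂ θ (qExpand ℤ d (jqModC ℤ)) = 0 := by
    apply Igusa.coeffMap_injective (f := Int.castRingHom ℚ)
      (show Function.Injective (Int.castRingHom ℚ) from Int.cast_injective)
    rw [map_zero, hom_eval₂, coeffMap_qExpand, coeffMap_jqModC, ← hQ]
    congr 1
    refine Polynomial.ringHom_ext (fun a => ?_) ?_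
    · simp [hθ, evalAtJ]
    · simp [hθ, coeffMap_jqModC, jqModC_rat]
  have hk := congrArg (coeffMap (Int.castRingHom k)) hZ
  rw [map_zero, hom_eval₂, coeffMap_qExpand, coeffMap_jqModC] at hk
  let ψ : ℤ[X] →+* k⟮jqModC k⟯ :=
    eval₂RingHom (Int.castRingHom _)
      ⟨jqModC k, IntermediateField.mem_adjoin_simple_self k _⟩
  refine ⟨Φ.Φ.map ψ, Φ.monic.map _, ?_⟩
  rw [eval₂_map, ← hk]
  congr 1
  refine Polynomial.ringHom_ext (fun a => ?_) ?_
  · simp [hθ, ψ]
  · simp [hθ, ψ, coeffMap_jqModC]

end Integral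

section Scale

variable {L : Type*} [Field L] (A : ValuationSubring L) {k : Type*} [Field k] (π : A →+* k)

/-- A non-zero bivariate polynomial has a constant multiple over `A` with non-zero reduction. -/
theorem exists_scale₂ [IsLocalHom π] (R : L[X][X]) (hR : R ≠ 0) :
    ∃ (c : L) (R' : A[X][X]), c ≠ 0 ∧ R'.map (mapRingHom A.subtype) = C (C c) * R ∧
      R'.map (mapRingHom π) ≠ 0 := by
  classical
  let T : Finset (ℕ × ℕ) :=
    R.support.biUnion fun b => (R.coeff b).support.image fun a => (b, a)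
  have hT : ∀ b a, (R.coeff b).coeff a ≠ 0 → (b, a) ∈ T := fun b a h => by
    simp only [T, Finset.mem_biUnion, Finset.mem_image]
    refine ⟨b, mem_support_iff.2 fun h0 => h (by rw [h0, coeff_zero]), a, mem_support_iff.2 h, rfl⟩
  obtain ⟨b, hb⟩ : ∃ b, R.coeff b ≠ 0 := by
    by_contra hall
    push Not at hall
    exact hR (Polynomial.ext fun b => by simp [hall])
  obtain ⟨a, ha⟩ : ∃ a, (R.coeff b).coeff a ≠ 0 := by
    by_contra hall
    push Not at hall
    exact hb (Polynomial.ext fun a => by simp [hall])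
  obtain ⟨⟨b₀, a₀⟩, -, h0, hmax⟩ := exists_max (A := A) T
    (fun p => (R.coeff p.1).coeff p.2) ⟨(b, a), hT b a ha, ha⟩
  set c := ((R.coeff b₀).coeff a₀)⁻¹ with hc
  have hmem : ∀ b a, c * (R.coeff b).coeff a ∈ A := fun b a => by
    by_cases h : (R.coeff b).coeff a = 0
    · rw [h, mul_zero]; exact A.zero_mem
    · rw [hc, inv_mul_eq_div]; exact hmax _ (hT b a h)
  have hl : C (C c) * R ∈ lifts (mapRingHom A.subtype) := by
    refine (lifts_iff_coeff_lifts _).mpr fun b => ?_
    have h1 : (C (C c) * R).coeff b ∈ lifts A.subtype := by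
      refine (lifts_iff_coeff_lifts _).mpr fun a => ⟨⟨_, hmem b a⟩, ?_⟩
      simp [Polynomial.coeff_C_mul]
    exact (mem_lifts _).mp h1
  obtain ⟨R', hR'⟩ := (mem_lifts _).mp hl
  refine ⟨c, R', inv_ne_zero h0, hR', fun h => ?_⟩
  have h1 := congrArg (fun Q : L[X][X] => (Q.coeff b₀).coeff a₀) hR'
  simp only [coeff_map, coe_mapRingHom, Polynomial.coeff_C_mul, hc, inv_mul_cancel₀ h0] at h1
  have h2 := congrArg (fun Q : k[X][X] => (Q.coeff b₀).coeff a₀) h
  simp only [coeff_map, coe_mapRingHom, coeff_zero] at h2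
  rw [show (R'.coeff b₀).coeff a₀ = 1 from Subtype.ext h1, map_one] at h2
  exact one_ne_zero h2

/-- A non-zero polynomial has a constant multiple over `A` with non-zero reduction. -/
theorem exists_scale [IsLocalHom π] (s : L[X]) (hs : s ≠ 0) :
    ∃ (c : L) (s' : A[X]), c ≠ 0 ∧ s'.map A.subtype = C c * s ∧ s'.map π ≠ 0 := by
  obtain ⟨c, R', hc, hR', hπ⟩ := exists_scale₂ A π (C s) (C_ne_zero.2 hs)
  have hcoeff : ∀ b, b ≠ 0 → R'.coeff b = 0 := fun b hb => by
    apply Polynomial.map_injective A.subtype Subtype.val_injective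
    have := congrArg (fun Q : L[X][X] => Q.coeff b) hR'
    simpa [coeff_C, hb] using this
  refine ⟨c, R'.coeff 0, hc, ?_, fun h => hπ ?_⟩
  · have := congrArg (fun Q : L[X][X] => Q.coeff 0) hR'
    simpa using this
  · ext1 b
    rcases eq_or_ne b 0 with rfl | hb
    · simpa using h
    · simp [hcoeff b hb]

/-- Reduction of a spanned integral series: `ȳ s̄(j) = R̄(j, ū)` with `s̄ ≠ 0`. -/
theorem exists_reduced_relation [IsLocalHom π] {n : ℕ} (u₀ : LaurentSeries ℤ)
    (hindep : ∀ Q : k[X][X], Q.natDegree < n → evalJU (castSeries k u₀) Q = 0 → Q = 0)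
    (y : LaurentSeries A) (hy : SpannedBy (castSeries L u₀) n (coeffMap A.subtype y)) :
    ∃ (s : A[X]) (R : A[X][X]), s.map π ≠ 0 ∧ R.natDegree < n ∧
      y * evalAt (jqModC A) s = evalJU (castSeries A u₀) R := by
  obtain ⟨s₀, R₀, hs₀, hdeg, h₀⟩ := hy
  obtain ⟨c, s, hc, hs, hsπ⟩ := exists_scale A π s₀ hs₀
  have hev : ∀ p : A[X], coeffMap A.subtype (evalAt (jqModC A) p)
      = evalAt (jqModC L) (p.map A.subtype) := fun p => by
    rw [← evalJU_C_evalAt (castSeries L u₀), ← Igusa.coeffMap_castSeries A.subtype,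
      show C (p.map A.subtype) = (C p).map (mapRingHom A.subtype) by simp, ← Igusa.coeffMap_evalJU,
      Igusa.evalJU_C, coe_eval₂RingHom]
  rcases eq_or_ne R₀ 0 with rfl | hR₀
  · refine ⟨s, 0, hsπ, by simpa using hdeg, ?_⟩
    apply Igusa.coeffMap_injective (f := A.subtype) Subtype.val_injective
    rw [map_mul, hev, hs, map_mul, ← mul_assoc, mul_comm (coeffMap A.subtype y), mul_assoc, h₀]
    simp
  obtain ⟨d, R, hd, hR, hRπ⟩ := exists_scale₂ A π R₀ hR₀
  have hRdeg : R.natDegree < n := by
    have hinj : Function.Injective (mapRingHom A.subtype) :=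
      Polynomial.map_injective _ Subtype.val_injective
    rw [← natDegree_map_eq_of_injective hinj, hR]
    exact (natDegree_C_mul_le _ _).trans_lt hdeg
  have key : coeffMap A.subtype (y * evalAt (jqModC A) s) =
      HahnSeries.C (c / d) * coeffMap A.subtype (evalJU (castSeries A u₀) R) := by
    rw [map_mul, hev, hs, map_mul, Igusa.coeffMap_evalJU, Igusa.coeffMap_castSeries, hR, map_mul,
      ← h₀, Igusa.evalJU_C, ← mul_assoc, ← mul_assoc]
    simp only [coe_eval₂RingHom, eval₂_C]
    rw [← mul_assoc, ← map_mul, div_mul_cancel₀ _ hd]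
    ring
  rcases A.mem_or_inv_mem (c / d) with hmem | hmem
  · refine ⟨s, C (C ⟨c / d, hmem⟩) * R, hsπ, (natDegree_C_mul_le _ _).trans_lt hRdeg, ?_⟩
    apply Igusa.coeffMap_injective (f := A.subtype) Subtype.val_injective
    rw [key, map_mul (evalJU _), map_mul, Igusa.evalJU_C_C, Igusa.coeffMap_C]
    rfl
  · set e : A := ⟨(c / d)⁻¹, hmem⟩
    have hkey : HahnSeries.C e * (y * evalAt (jqModC A) s) = evalJU (castSeries A u₀) R := by
      apply Igusa.coeffMap_injective (f := A.subtype) Subtype.val_injective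
      rw [map_mul, Igusa.coeffMap_C, key, ← mul_assoc, ← map_mul,
        show A.subtype e * (c / d) = 1 from inv_mul_cancel₀ (div_ne_zero hc hd), map_one, one_mul]
    by_cases hu : IsUnit e
    · obtain ⟨w, hw⟩ := hu.exists_left_inv
      refine ⟨s, C (C w) * R, hsπ, (natDegree_C_mul_le _ _).trans_lt hRdeg, ?_⟩
      rw [map_mul, Igusa.evalJU_C_C, ← hkey, ← mul_assoc, ← map_mul, hw, map_one, one_mul]
    · exfalso
      have h1 := congrArg (coeffMap π) hkey
      have he : π e = 0 := by
        by_contra hne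
        exact hu (isUnit_of_map_unit π _ (isUnit_iff_ne_zero.2 hne))
      rw [map_mul, Igusa.coeffMap_C, he, map_zero, zero_mul, Igusa.coeffMap_evalJU,
        Igusa.coeffMap_castSeries] at h1
      exact hRπ (hindep _ (natDegree_map_le.trans_lt hRdeg) h1.symm)

end Scale

section X0

variable (N : ℕ) [NeZero N]

omit [NeZero N] in
theorem fullC_le_base {L : Type*} [Field L] [Algebra ℚ L] :
    modularFunctionFieldFullC L N = laurentBaseChange L (modularFunctionFieldFull N) := by
  have hgen : ∀ (d : ℕ) [NeZero d],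
      coeffEmb L (qExpand ℚ d jq) = qExpand L d (jqModC L) := fun d _ => by
    rw [coeffEmb, coeffMap_qExpand, ← jqModC_rat, coeffMap_jqModC]
  apply le_antisymm
  · rw [modularFunctionFieldFullC, IntermediateField.adjoin_le_iff]
    rintro x ⟨d, hne, hd, rfl⟩
    haveI := hne
    rw [← hgen d]
    exact coeffEmb_mem_laurentBaseChange L (jqd_mem_full N hd)
  · rw [laurentBaseChange, IntermediateField.adjoin_le_iff]
    rintro _ ⟨w, hw, rfl⟩
    induction hw using IntermediateField.adjoin_induction with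
    | mem v hv =>
      obtain ⟨d, hne, hd, rfl⟩ := hv
      haveI := hne
      show coeffEmb L (qExpand ℚ d jq) ∈ _
      rw [hgen d]
      exact jqModCd_mem_full L N hd
    | algebraMap c =>
      show coeffEmb L (algebraMap ℚ (LaurentSeries ℚ) c) ∈ _
      rw [algebraMap_laurentSeries_eq_single, coeffEmb, coeffMap_single,
        ← algebraMap_laurentSeries_eq_single]
      exact IntermediateField.algebraMap_mem _ _
    | add x y _ _ hx hy =>
      show coeffEmb L (x + y) ∈ _
      rw [map_add]; exact add_mem hx hy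
    | inv x _ hx =>
      show coeffEmb L x⁻¹ ∈ _
      rw [map_inv₀]; exact inv_mem hx
    | mul x y _ _ hx hy =>
      show coeffEmb L (x * y) ∈ _
      rw [map_mul]; exact mul_mem hx hy

variable {N} {ℓ : ℕ} [Fact ℓ.Prime]

set_option quotPrecheck false in
local notation "Zl" => ↥(GaloisRep.ratLocalizedAt ℓ)

omit [Fact ℓ.Prime] in
/-- `ℤ_(ℓ) → A` for a valuation subring above `ℓ`. -/
theorem algebraMap_mem_of_liesOver {L : Type*} [Field L] [Algebra ℚ L]
    {A : ValuationSubring L} (hA : A.LiesOverPrime ℓ) (q : Zl) : algebraMap ℚ L q ∈ A := by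
  have hmax : ((ℓ : A)) ∈ IsLocalRing.maximalIdeal A := by
    obtain ⟨_, h⟩ := ValuationSubring.mem_nonunits_iff_exists_mem_maximalIdeal.1 hA
    exact_mod_cast h
  have hden : IsUnit ((q : ℚ).den : A) := by
    by_contra hnu
    have hd : (((q : ℚ).den : A)) ∈ IsLocalRing.maximalIdeal A := hnu
    obtain ⟨a, b, hab⟩ := Nat.isCoprime_iff_coprime.2 (q.2 : (q : ℚ).den.Coprime ℓ)
    have h1 : (a : A) * ((q : ℚ).den : A) + (b : A) * (ℓ : A) = 1 := by exact_mod_cast congrArg (Int.cast : ℤ → A) hab
    exact (IsLocalRing.maximalIdeal.isMaximal A).ne_top ((Ideal.eq_top_iff_one _).2 (h1 ▸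
      Ideal.add_mem _ (Ideal.mul_mem_left _ _ hd) (Ideal.mul_mem_left _ _ hmax)))
  obtain ⟨w, hw⟩ := hden.exists_right_inv
  have hw' : ((q : ℚ).den : L) * (w : L) = 1 := by exact_mod_cast congrArg Subtype.val hw
  have : algebraMap ℚ L q = ((q : ℚ).num : L) * (w : L) := by
    rw [← inv_eq_of_mul_eq_one_right hw', ← div_eq_mul_inv]
    conv_lhs => rw [← Rat.num_div_den (q : ℚ)]
    simp
  rw [this]
  exact A.mul_mem _ _ (intCast_mem A _) w.2

/-- The homomorphism `ℤ_(ℓ) →+* A`. -/
def zlHom {L : Type*} [Field L] [Algebra ℚ L] {A : ValuationSubring L}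
    (hA : A.LiesOverPrime ℓ) : Zl →+* A :=
  ((algebraMap ℚ L).comp (GaloisRep.ratLocalizedAt ℓ).subtype).codRestrict A.toSubring
    (algebraMap_mem_of_liesOver hA)

omit [NeZero N] in
/-- The residue field of a place above `ℓ ∤ N` does not kill `N`. -/
theorem natCast_residue_ne_zero {L : Type*} [Field L] [Algebra ℚ L] {A : ValuationSubring L}
    (hA : A.LiesOverPrime ℓ) (hℓN : ¬ ℓ ∣ N) : (N : IsLocalRing.ResidueField A) ≠ 0 := by
  have hℓ : ((ℓ : A)) ∈ IsLocalRing.maximalIdeal A := by
    obtain ⟨_, h⟩ := ValuationSubring.mem_nonunits_iff_exists_mem_maximalIdeal.1 hA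
    exact_mod_cast h
  rw [← map_natCast (IsLocalRing.residue A), ne_eq, IsLocalRing.residue_eq_zero_iff]
  intro h
  obtain ⟨a, b, hab⟩ := Nat.isCoprime_iff_coprime.2
    (Nat.coprime_comm.1 ((Fact.out : ℓ.Prime).coprime_iff_not_dvd.2 hℓN))
  have h1 : (a : A) * (N : A) + (b : A) * (ℓ : A) = 1 := by exact_mod_cast congrArg (Int.cast : ℤ → A) hab
  exact (IsLocalRing.maximalIdeal.isMaximal A).ne_top ((Ideal.eq_top_iff_one _).2 (h1 ▸
    Ideal.add_mem _ (Ideal.mul_mem_left _ _ h) (Ideal.mul_mem_left _ _ hℓ)))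

variable (D : UnitPolyData N ℓ)

/-- The polynomial of `u` over a field receiving `ℤ_(ℓ)`. -/
def polyOver {K : Type*} [Field K] (f : Zl →+* K) : K[X][X] := D.poly.map (mapRingHom f)

theorem polyOver_spec {K : Type*} [Field K] (f : Zl →+* K) :
    (polyOver D f).Monic ∧ (polyOver D f).natDegree = D.n ∧
      evalJU (castSeries K D.u) (polyOver D f) = 0 := by
  refine ⟨D.poly_monic.map _, by rw [polyOver, D.poly_monic.natDegree_map, D.natDegree_poly], ?_⟩
  have h := congrArg (coeffMap f) D.evalJU_poly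
  rwa [Igusa.coeffMap_evalJU, Igusa.coeffMap_castSeries, map_zero] at h

/-- No relation of degree `< n` for `u` over `K`. -/
theorem eq_zero_of_evalJU {K : Type*} [Field K] (f : Zl →+* K) {Q : K[X][X]}
    (hQd : Q.natDegree < D.n) (hQ : evalJU (castSeries K D.u) Q = 0) : Q = 0 :=
  D.eq_zero_of_evalJU_eq_zero f D.poly_monic D.natDegree_poly D.natDegree_coeff_poly_le
    D.isUnit_coeff_zero_poly D.isUnit_coeff_one_poly (polyOver_spec D f).2.2 hQd hQ

/-- Elements of the rational function field are spanned by the powers of `u`. -/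
theorem spannedBy_coeffEmb {L : Type*} [Field L] [Algebra ℚ L] {x : LaurentSeries ℚ}
    (hx : x ∈ modularFunctionFieldFull N) :
    SpannedBy (castSeries L D.u) D.n (coeffEmb L x) := by
  obtain ⟨d, Q, hd, h⟩ := D.isSpanned_of_mem hx
  let f : Zl →+* L := (algebraMap ℚ L).comp (algebraMap Zl ℚ)
  obtain ⟨hP, hn, h0⟩ := polyOver_spec D f
  obtain ⟨R, hR, hRQ⟩ := exists_lt hP hn D.n_pos h0 (Q.map (mapRingHom f))
  refine ⟨d.map f, R, ?_, hR, ?_⟩
  · rw [ne_eq, Polynomial.map_eq_zero_iff]
    · exact hd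
    · exact (algebraMap ℚ L).injective.comp (IsFractionRing.injective Zl ℚ)
  · have h2 := congrArg (coeffEmb L) h
    rw [map_mul, coeffEmb, coeffMap_coeffMap, coeffMap_coeffMap, Igusa.coeffMap_evalJU,
      Igusa.coeffMap_evalJU, Igusa.coeffMap_castSeries, Polynomial.map_C, coe_mapRingHom,
      evalJU_C_evalAt] at h2
    rw [hRQ, ← h2, mul_comm]
    rfl

omit [Fact ℓ.Prime] in
theorem castSeries_u_mem_fullC {k : Type} [Field k] [PerfectField k] (hN : (N : k) ≠ 0) :
    castSeries k D.u ∈ modularFunctionFieldFullC k N :=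
  discQuotientField_le N hN (fun d _ _ => (isIntegral_jqd k d).isAlgebraic) (D.u_mem k)

/-- In characteristic zero the function field is `L(j, u)`. -/
theorem baseChange_eq_adjoin {L : Type} [Field L] [Algebra ℚ L] [CharZero L] :
    laurentBaseChange L (modularFunctionFieldFull N) =
      IntermediateField.adjoin L ({jqModC L, castSeries L D.u} : Set (LaurentSeries L)) := by
  refine le_antisymm ?_ ?_
  · rw [← fullC_le_base, modularFunctionFieldFullC, IntermediateField.adjoin_le_iff]
    rintro x ⟨d, hne, hd, rfl⟩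
    haveI := hne
    obtain ⟨s, R, hs, -, h⟩ := spannedBy_coeffEmb D (L := L) (jqd_mem_full N hd)
    rw [show qExpand L d (jqModC L) = coeffEmb L (qExpand ℚ d jq) by
      rw [coeffEmb, coeffMap_qExpand, ← jqModC_rat, coeffMap_jqModC]]
    have hne0 : evalAt (jqModC L) s ≠ 0 := fun h0 =>
      hs (evalAt_jqModC_injective L (by rw [h0, map_zero]))
    have hmem : ∀ Q : L[X][X], evalJU (castSeries L D.u) Q ∈
        IntermediateField.adjoin L ({jqModC L, castSeries L D.u} : Set (LaurentSeries L)) :=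
      evalJU_mem (IntermediateField.subset_adjoin L _ (Set.mem_insert _ _))
        (IntermediateField.subset_adjoin L _ (Set.mem_insert_of_mem _ rfl))
    rw [eq_div_of_mul_eq hne0 h, ← evalJU_C_evalAt (castSeries L D.u)]
    exact div_mem (hmem R) (hmem _)
  · rw [IntermediateField.adjoin_le_iff]
    rintro x (rfl | rfl)
    · rw [← fullC_le_base]; exact jqModC_mem_full L N
    · rw [← fullC_le_base]
      exact castSeries_u_mem_fullC D (Nat.cast_ne_zero.2 (NeZero.ne N))

theorem spannedBy_of_mem {L : Type} [Field L] [Algebra ℚ L] [CharZero L] {x : LaurentSeries L}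
    (hx : x ∈ laurentBaseChange L (modularFunctionFieldFull N)) :
    SpannedBy (castSeries L D.u) D.n x := by
  obtain ⟨hP, hn, h0⟩ := polyOver_spec D (K := L) ((algebraMap ℚ L).comp (algebraMap Zl ℚ))
  rw [baseChange_eq_adjoin (L := L) D] at hx
  exact spannedBy_of_mem_adjoin hP hn D.n_pos h0 hx

variable {A : ValuationSubring (AlgebraicClosure ℚ)}

/-- An integral series of the function field satisfies an integral relation over `A[j]`. -/
theorem exists_integral_relation (hA : A.LiesOverPrime ℓ) (y : LaurentSeries A)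
    (hy : coeffMap A.subtype y ∈ modularFunctionFieldBar N) :
    ∃ (s : A[X]) (R : A[X][X]), s.map (IsLocalRing.residue A) ≠ 0 ∧ R.natDegree < D.n ∧
      y * evalAt (jqModC A) s = evalJU (castSeries A D.u) R :=
  exists_reduced_relation A (IsLocalRing.residue A) D.u
    (fun _ hQd hQ => eq_zero_of_evalJU D ((IsLocalRing.residue A).comp (zlHom hA)) hQd hQ) y
    (spannedBy_of_mem D hy)

/-- An integral series of the function field reduces into `k(j, ū)`. -/
theorem coeffMap_residue_spannedBy (hA : A.LiesOverPrime ℓ) (y : LaurentSeries A)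
    (hy : coeffMap A.subtype y ∈ modularFunctionFieldBar N) :
    SpannedBy (castSeries (IsLocalRing.ResidueField A) D.u) D.n
      (coeffMap (IsLocalRing.residue A) y) := by
  obtain ⟨s, R, hs, hR, h⟩ := exists_integral_relation D hA y hy
  refine ⟨s.map (IsLocalRing.residue A), R.map (mapRingHom (IsLocalRing.residue A)), hs,
    natDegree_map_le.trans_lt hR, ?_⟩
  have h2 := congrArg (coeffMap (IsLocalRing.residue A)) h
  have hs' : evalAt (jqModC A) s = evalJU (castSeries A D.u) (C s) :=
    (Igusa.evalJU_C _ s).symm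
  rw [hs', map_mul, Igusa.coeffMap_evalJU, Igusa.coeffMap_evalJU, Igusa.coeffMap_castSeries,
    Polynomial.map_C, coe_mapRingHom, evalJU_C_evalAt] at h2
  exact h2

end X0

end Fermat.Agent.Reduction
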