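import Fermat.Agent.Reduction.Core
import Fermat.Agent.Curve.Basic
import Fermat.Prelude.Def_ModularCurve_ReductionModL
import Fermat.Prelude.Def_ModularCurve_HeckeOperator
import Fermat.Prelude.Def_FLTPrelim_Ramification
import Fermat.Agent.Reduction.UnitField
import Fermat.Agent.Igusa.UnitPolyExists
import Fermat.Agent.Modular.Degree
import Fermat.Agent.Curve.Places
import Fermat.Agent.Curve.Degree
import Fermat.Agent.EC.Red.ResidueQbar

/-!
# The Gauss reduction of `X₀(N)` modulo a place of `ℚ̄` above `ℓ ∤ N`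

The graph: `(f, g)` with `f · b = a`, `g · π b = π a` in Laurent series, for some integral series
`a, b` with `π b ≠ 0`.

Owner: helper67.
-/

set_option autoImplicit false
set_option linter.style.haveILetI false
set_option synthInstance.maxHeartbeats 400000
set_option maxHeartbeats 1600000

noncomputable section

namespace Fermat.Agent.Reduction

/-- Shortcut for a slow instance search; reducibly the instance that search finds. -/
local instance (priority := high) algebraLaurentShortcutModularData (K : Type*) [Field K]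
    (S : IntermediateField K (LaurentSeries K)) : Algebra K S :=
  inferInstance

open AlgebraicCurve ModularCurve HahnSeries Fermat.Agent.Curve
open scoped IntermediateField
open Polynomial (aeval mapRingHom)
open Fermat.Agent.Igusa (evalJU castSeries UnitPolyData)

section Graph

variable {L : Type*} [Field L] [Algebra ℚ L] {A : ValuationSubring L} {k : Type*} [Field k]

/-- The graph of the Gauss reduction on `q`-expansions. -/
def modGraph (π : A →+* k) (N : ℕ) :
    Subring (laurentBaseChange L (modularFunctionFieldFull N) × modularFunctionFieldFullC k N) where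
  carrier := {p | ∃ a b : LaurentSeries A, coeffMap π b ≠ 0 ∧
    (p.1 : LaurentSeries L) * coeffMap A.subtype b = coeffMap A.subtype a ∧
    (p.2 : LaurentSeries k) * coeffMap π b = coeffMap π a}
  mul_mem' := by
    rintro p q ⟨a, b, hb, h1, h2⟩ ⟨a', b', hb', h1', h2'⟩
    refine ⟨a * a', b * b', by rw [map_mul]; exact mul_ne_zero hb hb', ?_, ?_⟩
    · simp only [Prod.fst_mul, IntermediateField.coe_mul, map_mul, ← h1, ← h1']; ring
    · simp only [Prod.snd_mul, IntermediateField.coe_mul, map_mul, ← h2, ← h2']; ring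
  one_mem' := ⟨1, 1, by simp, by simp, by simp⟩
  add_mem' := by
    rintro p q ⟨a, b, hb, h1, h2⟩ ⟨a', b', hb', h1', h2'⟩
    refine ⟨a * b' + a' * b, b * b', by rw [map_mul]; exact mul_ne_zero hb hb', ?_, ?_⟩
    · simp only [Prod.fst_add, IntermediateField.coe_add, map_add, map_mul, ← h1, ← h1']; ring
    · simp only [Prod.snd_add, IntermediateField.coe_add, map_add, map_mul, ← h2, ← h2']; ring
  zero_mem' := ⟨0, 1, by simp, by simp, by simp⟩
  neg_mem' := by
    rintro p ⟨a, b, hb, h1, h2⟩
    refine ⟨-a, b, hb, ?_, ?_⟩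
    · simp [← h1]
    · simp [← h2]

theorem mem_modGraph {π : A →+* k} {N : ℕ}
    {f : laurentBaseChange L (modularFunctionFieldFull N)} {g : modularFunctionFieldFullC k N} :
    (f, g) ∈ modGraph π N ↔ ∃ a b : LaurentSeries A, coeffMap π b ≠ 0 ∧
      (f : LaurentSeries L) * coeffMap A.subtype b = coeffMap A.subtype a ∧
      (g : LaurentSeries k) * coeffMap π b = coeffMap π a := Iff.rfl

/-- Integral series in the function field belong to the graph. -/
theorem mk_mem_modGraph {π : A →+* k} {N : ℕ} (y : LaurentSeries A)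
    (hy : coeffMap A.subtype y ∈ laurentBaseChange L (modularFunctionFieldFull N))
    (hyk : coeffMap π y ∈ modularFunctionFieldFullC k N) :
    ((⟨coeffMap A.subtype y, hy⟩ : laurentBaseChange L (modularFunctionFieldFull N)),
      (⟨coeffMap π y, hyk⟩ : modularFunctionFieldFullC k N)) ∈ modGraph π N :=
  ⟨y, 1, by simp, by simp, by simp⟩

theorem modGraph_unique (π : A →+* k) (N : ℕ) (g : modularFunctionFieldFullC k N)
    (h : ((0 : laurentBaseChange L (modularFunctionFieldFull N)), g) ∈ modGraph π N) : g = 0 := by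
  obtain ⟨a, b, hb, h1, h2⟩ := h
  have ha : a = 0 := by
    ext i
    simpa using (congrArg (fun z : LaurentSeries L => z.coeff i) h1).symm
  rw [ha, map_zero, mul_eq_zero] at h2
  exact Subtype.ext (h2.resolve_right hb)

theorem modGraph_algebraMap (π : A →+* k) (N : ℕ) (a : A) :
    (algebraMap L (laurentBaseChange L (modularFunctionFieldFull N)) a,
      algebraMap k (modularFunctionFieldFullC k N) (π a)) ∈ modGraph π N := by
  refine ⟨HahnSeries.single 0 a, 1, by simp, ?_, ?_⟩
  · rw [map_one, mul_one, coeffMap_single]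
    exact algebraMap_laurentSeries_eq_single L _
  · rw [map_one, mul_one, coeffMap_single]
    exact algebraMap_laurentSeries_eq_single k _

end Graph

/-- `j` in the function field of `X₀(N)` over `ℚ̄`. -/
def jBar (N : ℕ) : modularFunctionFieldBar N :=
  ⟨coeffEmb (AlgebraicClosure ℚ) jq, coeffEmb_mem_laurentBaseChange _ (by
    simpa [qExpand_one_apply] using jqd_mem_full N (one_dvd N))⟩

/-- `j` in the function field of `X₀(N)` over `k`. -/
def jRes (k : Type*) [Field k] (N : ℕ) : modularFunctionFieldFullC k N :=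
  ⟨jqModC k, jqModC_mem_full k N⟩

section Transfer

variable {K : Type*} [Field K] {F : IntermediateField K (LaurentSeries K)} (t : F)

theorem exists_coe_eq_of_mem_adjoin {a : LaurentSeries K}
    (ha : a ∈ K⟮(t : LaurentSeries K)⟯) :
    ∃ b : K⟮t⟯, ((b : F) : LaurentSeries K) = a := by
  have h : (K⟮t⟯).map F.val = K⟮(t : LaurentSeries K)⟯ := by
    rw [IntermediateField.adjoin_map, Set.image_singleton]
    rfl
  rw [← h] at ha
  obtain ⟨b, hb, rfl⟩ := (IntermediateField.mem_map _).1 ha
  exact ⟨⟨b, hb⟩, rfl⟩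

/-- The inclusion of `K⟮t⟯` in the series. -/
def adjoinEmb : K⟮t⟯ →+* K⟮(t : LaurentSeries K)⟯ :=
  (F.val.toRingHom.comp (algebraMap K⟮t⟯ F)).codRestrict
    K⟮(t : LaurentSeries K)⟯.toSubring fun b => by
      have h : (K⟮t⟯).map F.val = K⟮(t : LaurentSeries K)⟯ := by
        rw [IntermediateField.adjoin_map, Set.image_singleton]
        rfl
      show ((b : F) : LaurentSeries K) ∈ K⟮(t : LaurentSeries K)⟯
      rw [← h]
      exact (IntermediateField.mem_map _).2 ⟨b, b.2, rfl⟩

theorem adjoinEmb_bijective : Function.Bijective (adjoinEmb t) :=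
  ⟨(adjoinEmb t).injective, fun a => by
    obtain ⟨b, hb⟩ := exists_coe_eq_of_mem_adjoin t a.2
    exact ⟨b, Subtype.ext hb⟩⟩

theorem coe_aeval_map_adjoinEmb (x : F) (P : Polynomial K⟮t⟯) :
    ((aeval x P : F) : LaurentSeries K) =
      aeval (x : LaurentSeries K) (P.map (adjoinEmb t)) := by
  rw [Polynomial.aeval_def, Polynomial.aeval_def, Polynomial.eval₂_map]
  exact Polynomial.hom_eval₂ P _ F.val.toRingHom x

theorem isIntegral_iff_coe (x : F) :
    IsIntegral K⟮t⟯ x ↔ IsIntegral K⟮(t : LaurentSeries K)⟯ (x : LaurentSeries K) := by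
  constructor
  · rintro ⟨P, hP, h⟩
    refine ⟨P.map (adjoinEmb t), hP.map _, ?_⟩
    rw [← Polynomial.aeval_def, ← coe_aeval_map_adjoinEmb]
    exact (congrArg Subtype.val h).trans rfl
  · rintro ⟨Q, hQ, h⟩
    obtain ⟨P, hP, -, hPm⟩ := Polynomial.lifts_and_degree_eq_and_monic
      ((Polynomial.mem_lifts _).2 (Polynomial.map_surjective _ (adjoinEmb_bijective t).2 Q)) hQ
    refine ⟨P, hPm, Subtype.ext ?_⟩
    rw [← Polynomial.aeval_def, coe_aeval_map_adjoinEmb, hP]
    exact h

theorem isSeparable_of_coe {x : F} (hx : IsIntegral K⟮t⟯ x)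
    (h : IsSeparable K⟮(t : LaurentSeries K)⟯ (x : LaurentSeries K)) : IsSeparable K⟮t⟯ x := by
  obtain ⟨P, hP⟩ := Polynomial.map_surjective _ (adjoinEmb_bijective t).2
    (minpoly K⟮(t : LaurentSeries K)⟯ (x : LaurentSeries K))
  have hsep : P.Separable :=
    (Polynomial.separable_map (adjoinEmb t)).1 (hP.symm ▸ h)
  refine hsep.of_dvd (minpoly.dvd _ _ (Subtype.ext ?_))
  rw [coe_aeval_map_adjoinEmb, hP, minpoly.aeval]
  rfl

end Transfer

section X0

local notation "Qb" => AlgebraicClosure ℚ

local instance isAlgebraic_qb : Algebra.IsAlgebraic ℚ Qb := AlgebraicClosure.isAlgebraic ℚ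

variable (N : ℕ) [NeZero N] {ℓ : ℕ} [Fact ℓ.Prime] (hℓN : ¬ ℓ ∣ N)
  (A : ValuationSubring (AlgebraicClosure ℚ)) (hA : A.LiesOverPrime ℓ)

omit [NeZero N] in
theorem jBar_jRes_mem :
    (jBar N, jRes (IsLocalRing.ResidueField A) N) ∈ modGraph (IsLocalRing.residue A) N := by
  refine ⟨jqModC A, 1, by simp, ?_, ?_⟩
  · rw [map_one, mul_one, coeffMap_jqModC]
    show coeffEmb (AlgebraicClosure ℚ) jq = _
    rw [coeffEmb, ← jqModC_rat, coeffMap_jqModC]
  · rw [map_one, mul_one, coeffMap_jqModC]
    rfl

omit [NeZero N] in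
theorem transcendental_jBar : Transcendental (AlgebraicClosure ℚ) (jBar N) := by
  have h : Transcendental (AlgebraicClosure ℚ)
      ((modularFunctionFieldBar N).val (jBar N)) := by
    show Transcendental _ (coeffEmb (AlgebraicClosure ℚ) jq)
    rw [coeffEmb, ← jqModC_rat, coeffMap_jqModC]
    exact transcendental_jqModC _
  exact fun ha => h (ha.algHom _)

omit [NeZero N] in
theorem transcendental_jRes (k : Type*) [Field k] : Transcendental k (jRes k N) := fun ha =>
  transcendental_jqModC k (ha.algHom (modularFunctionFieldFullC k N).val)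

instance isFunctionField1_bar :
    IsFunctionField1 (AlgebraicClosure ℚ) (modularFunctionFieldBar N) :=
  IsFunctionField1.of_finite_adjoin (transcendental_jBar N)
    (Modular.finiteDimensional_FL N
      ((IsAlgClosed.lift (R := ℚ) (S := AlgebraicClosure ℚ) (M := ℂ)) : AlgebraicClosure ℚ →+* ℂ))

instance isFunctionField1_fullC (k : Type*) [Field k] :
    IsFunctionField1 k (modularFunctionFieldFullC k N) := by
  classical
  refine IsFunctionField1.of_finite_adjoin (transcendental_jRes N k) ?_
  let S : Set (modularFunctionFieldFullC k N) :=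
    Set.range fun d : {d : ℕ // d ∈ N.divisors} =>
      haveI : NeZero (d : ℕ) := ⟨(Nat.pos_of_mem_divisors d.2).ne'⟩
      (⟨qExpand k d (jqModC k), jqModCd_mem_full k N (Nat.dvd_of_mem_divisors d.2)⟩ :
        modularFunctionFieldFullC k N)
  have htop : IntermediateField.adjoin k⟮jRes k N⟯ S = ⊤ := by
    rw [eq_top_iff]
    rintro x -
    let T : IntermediateField k (LaurentSeries k) :=
      ((IntermediateField.adjoin k⟮jRes k N⟯ S).restrictScalars k).map
        (modularFunctionFieldFullC k N).val
    have hle : modularFunctionFieldFullC k N ≤ T := by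
      rw [modularFunctionFieldFullC, IntermediateField.adjoin_le_iff]
      rintro v ⟨d, hne, hd, rfl⟩
      haveI := hne
      exact (IntermediateField.mem_map _).2 ⟨⟨_, jqModCd_mem_full k N hd⟩,
        (IntermediateField.mem_restrictScalars k).2 (IntermediateField.subset_adjoin k⟮jRes k N⟯ S
          ⟨⟨d, Nat.mem_divisors.2 ⟨hd, NeZero.ne N⟩⟩, rfl⟩), rfl⟩
    obtain ⟨y, hy, hyx⟩ := (IntermediateField.mem_map _).1 (hle x.2)
    rw [← Subtype.ext (a1 := y) (a2 := x) hyx]
    exact hy
  have hfin : S.Finite := Set.finite_range _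
  haveI : FiniteDimensional k⟮jRes k N⟯ (IntermediateField.adjoin k⟮jRes k N⟯ S) := by
    haveI := hfin.to_subtype
    refine IntermediateField.finiteDimensional_adjoin fun x hx => ?_
    obtain ⟨⟨d, hd⟩, rfl⟩ := hx
    haveI : NeZero d := ⟨(Nat.pos_of_mem_divisors hd).ne'⟩
    exact (isIntegral_iff_coe _ _).2 (isIntegral_jqd k d)
  rw [htop] at this
  exact Module.Finite.equiv IntermediateField.topEquiv.toLinearEquiv

theorem finrank_jBar :
    Module.finrank (AlgebraicClosure ℚ)⟮jBar N⟯ (modularFunctionFieldBar N) =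
      (CongruenceSubgroup.Gamma0 N).index :=
  Modular.finrank_FL_index N
    ((IsAlgClosed.lift (R := ℚ) (S := AlgebraicClosure ℚ) (M := ℂ)) : AlgebraicClosure ℚ →+* ℂ)

variable {N} in
/-- The function field over `k` is `k(j, ū)`. -/
theorem fullC_eq_adjoin (D : UnitPolyData N ℓ) {A : ValuationSubring (AlgebraicClosure ℚ)}
    (hA : A.LiesOverPrime ℓ) (hℓN : ¬ ℓ ∣ N) :
    modularFunctionFieldFullC (IsLocalRing.ResidueField A) N =
      IntermediateField.adjoin (IsLocalRing.ResidueField A)
        ({jqModC _, castSeries _ D.u} : Set (LaurentSeries (IsLocalRing.ResidueField A))) := by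
  haveI := EC.isAlgClosed_residueField A
  refine le_antisymm ?_ ?_
  · rw [modularFunctionFieldFullC, IntermediateField.adjoin_le_iff]
    rintro x ⟨d, hne, hd, rfl⟩
    haveI := hne
    obtain ⟨s, R, hs, -, h⟩ := coeffMap_residue_spannedBy D hA
      (qExpand A d (jqModC A)) (by
        rw [coeffMap_qExpand, coeffMap_jqModC,
          show modularFunctionFieldBar N = laurentBaseChange (AlgebraicClosure ℚ)
            (modularFunctionFieldFull N) from rfl, ← fullC_le_base]
        exact jqModCd_mem_full _ N hd)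
    rw [coeffMap_qExpand, coeffMap_jqModC] at h
    have hne0 : evalAt (jqModC (IsLocalRing.ResidueField A)) s ≠ 0 := fun h0 =>
      hs (evalAt_jqModC_injective _ (by rw [h0, map_zero]))
    have hj := IntermediateField.subset_adjoin (IsLocalRing.ResidueField A)
      ({jqModC _, castSeries _ D.u} : Set (LaurentSeries (IsLocalRing.ResidueField A)))
      (Set.mem_insert _ _)
    have hu := IntermediateField.subset_adjoin (IsLocalRing.ResidueField A)
      ({jqModC _, castSeries _ D.u} : Set (LaurentSeries (IsLocalRing.ResidueField A)))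
      (Set.mem_insert_of_mem _ rfl)
    rw [eq_div_of_mul_eq hne0 h,
      ← evalJU_C_evalAt (castSeries (IsLocalRing.ResidueField A) D.u)]
    exact div_mem (evalJU_mem hj hu R) (evalJU_mem hj hu _)
  · rw [IntermediateField.adjoin_le_iff]
    rintro x (rfl | rfl)
    · exact jqModC_mem_full _ N
    · exact castSeries_u_mem_fullC D (natCast_residue_ne_zero hA hℓN)

include hℓN hA

theorem finrank_jRes :
    Module.finrank (IsLocalRing.ResidueField A)⟮jRes (IsLocalRing.ResidueField A) N⟯
        (modularFunctionFieldFullC (IsLocalRing.ResidueField A) N) =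
      Module.finrank (AlgebraicClosure ℚ)⟮jBar N⟯ (modularFunctionFieldBar N) := by
  obtain ⟨D⟩ := Igusa.nonempty_unitPolyData N ℓ hℓN
  haveI := EC.isAlgClosed_residueField A
  let fk := (IsLocalRing.residue A).comp (zlHom hA)
  obtain ⟨hP, hn, h0⟩ := polyOver_spec D fk
  have hk := finrank_of_spannedBy (F := modularFunctionFieldFullC (IsLocalRing.ResidueField A) N)
    (fun Q hQd hQ => eq_zero_of_evalJU D fk hQd hQ) D.n_pos
    (castSeries_u_mem_fullC D (natCast_residue_ne_zero hA hℓN)) (jRes _ N) rfl
    (fun x hx => by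
      rw [fullC_eq_adjoin D hA hℓN] at hx
      exact spannedBy_of_mem_adjoin hP hn D.n_pos h0 hx)
  have hL := finrank_of_spannedBy (F := modularFunctionFieldBar N)
    (fun Q hQd hQ => eq_zero_of_evalJU D
      ((algebraMap ℚ (AlgebraicClosure ℚ)).comp (GaloisRep.ratLocalizedAt ℓ).subtype) hQd hQ)
    D.n_pos
    (by
      rw [show modularFunctionFieldBar N = laurentBaseChange (AlgebraicClosure ℚ)
        (modularFunctionFieldFull N) from rfl, ← fullC_le_base]
      exact castSeries_u_mem_fullC D (Nat.cast_ne_zero.2 (NeZero.ne N)))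
    (jBar N) (by
      show coeffEmb (AlgebraicClosure ℚ) jq = _
      rw [coeffEmb, ← jqModC_rat, coeffMap_jqModC])
    (fun x hx => spannedBy_of_mem D hx)
  rw [hk.1, hL.1]

theorem isSeparable_jRes :
    Algebra.IsSeparable (IsLocalRing.ResidueField A)⟮jRes (IsLocalRing.ResidueField A) N⟯
      (modularFunctionFieldFullC (IsLocalRing.ResidueField A) N) := by
  haveI := EC.isAlgClosed_residueField A
  haveI := finiteDimensional_adjoin (F := modularFunctionFieldFullC (IsLocalRing.ResidueField A) N)
    (transcendental_jRes N (IsLocalRing.ResidueField A))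
  refine ⟨fun x => ?_⟩
  have hint : IsIntegral (IsLocalRing.ResidueField A)⟮jRes (IsLocalRing.ResidueField A) N⟯ x :=
    Algebra.IsIntegral.isIntegral x
  exact isSeparable_of_coe _ hint (isSeparable_of_isIntegral (qDeriv_jqModC_ne_zero _)
    (transcendental_jqModC _) ((isIntegral_iff_coe _ x).1 hint))

theorem modGraph_exists_lift (g : modularFunctionFieldFullC (IsLocalRing.ResidueField A) N) :
    ∃ f : modularFunctionFieldBar N, (f, g) ∈ modGraph (IsLocalRing.residue A) N := by
  suffices h : ∀ x ∈ modularFunctionFieldFullC (IsLocalRing.ResidueField A) N,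
      ∃ (f : modularFunctionFieldBar N) (a b : LaurentSeries A),
        coeffMap (IsLocalRing.residue A) b ≠ 0 ∧
        (f : LaurentSeries Qb) * coeffMap A.subtype b = coeffMap A.subtype a ∧
        x * coeffMap (IsLocalRing.residue A) b = coeffMap (IsLocalRing.residue A) a by
    obtain ⟨f, a, b, hb, h1, h2⟩ := h g g.2
    exact ⟨f, a, b, hb, h1, h2⟩
  intro x hx
  induction hx using IntermediateField.adjoin_induction with
  | mem v hv =>
    obtain ⟨d, hne, hd, rfl⟩ := hv
    haveI := hne
    refine ⟨⟨qExpand _ d (jqModC _), ?_⟩, qExpand A d (jqModC A), 1, by simp, ?_, ?_⟩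
    · rw [show modularFunctionFieldBar N = laurentBaseChange (AlgebraicClosure ℚ)
        (modularFunctionFieldFull N) from rfl, ← fullC_le_base]
      exact jqModCd_mem_full _ N hd
    · rw [map_one, mul_one, coeffMap_qExpand, coeffMap_jqModC]
    · rw [map_one, mul_one, coeffMap_qExpand, coeffMap_jqModC]
  | algebraMap c =>
    obtain ⟨a, rfl⟩ := IsLocalRing.residue_surjective c
    refine ⟨algebraMap Qb (modularFunctionFieldBar N) a, HahnSeries.single 0 a, 1, by simp, ?_, ?_⟩
    · rw [map_one, mul_one, coeffMap_single]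
      exact algebraMap_laurentSeries_eq_single Qb _
    · rw [map_one, mul_one, coeffMap_single]
      exact algebraMap_laurentSeries_eq_single _ _
  | add x y _ _ hx hy =>
    obtain ⟨f, a, b, hb, h1, h2⟩ := hx
    obtain ⟨f', a', b', hb', h1', h2'⟩ := hy
    refine ⟨f + f', a * b' + a' * b, b * b', by rw [map_mul]; exact mul_ne_zero hb hb', ?_, ?_⟩
    · rw [IntermediateField.coe_add, map_add, map_mul, map_mul, map_mul, ← h1, ← h1']; ring
    · rw [map_add, map_mul, map_mul, map_mul, ← h2, ← h2']; ring
  | inv x hxm hx =>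
    obtain ⟨f, a, b, hb, h1, h2⟩ := hx
    rcases eq_or_ne x 0 with rfl | hx0
    · exact ⟨0, 0, 1, by simp, by simp, by simp⟩
    have ha : coeffMap (IsLocalRing.residue A) a ≠ 0 := h2 ▸ mul_ne_zero hx0 hb
    refine ⟨f⁻¹, b, a, ha, ?_, ?_⟩
    · have hf : (f : LaurentSeries (AlgebraicClosure ℚ)) ≠ 0 := fun h0 => by
        rw [h0, zero_mul] at h1
        have ha' : a = 0 := Igusa.coeffMap_injective (f := A.subtype) Subtype.val_injective
          (by rw [← h1, map_zero])
        exact ha (by rw [ha', map_zero])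
      show (f : LaurentSeries (AlgebraicClosure ℚ))⁻¹ * _ = _
      rw [← h1, ← mul_assoc, inv_mul_cancel₀ hf, one_mul]
    · show x⁻¹ * _ = _
      rw [← h2, ← mul_assoc, inv_mul_cancel₀ hx0, one_mul]
  | mul x y _ _ hx hy =>
    obtain ⟨f, a, b, hb, h1, h2⟩ := hx
    obtain ⟨f', a', b', hb', h1', h2'⟩ := hy
    refine ⟨f * f', a * a', b * b', by rw [map_mul]; exact mul_ne_zero hb hb', ?_, ?_⟩
    · rw [IntermediateField.coe_mul, map_mul, map_mul, ← h1, ← h1']; ring
    · rw [map_mul, map_mul, ← h2, ← h2']; ring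

/-- An integral series in the function field reduces into the function field over `k`. -/
theorem coeffMap_residue_mem_fullC (y : LaurentSeries A)
    (hy : coeffMap A.subtype y ∈ modularFunctionFieldBar N) :
    coeffMap (IsLocalRing.residue A) y ∈
      modularFunctionFieldFullC (IsLocalRing.ResidueField A) N := by
  obtain ⟨D⟩ := Igusa.nonempty_unitPolyData N ℓ hℓN
  haveI := EC.isAlgClosed_residueField A
  obtain ⟨s, R, hs, -, h⟩ := coeffMap_residue_spannedBy D hA y hy
  have hne0 : evalAt (jqModC (IsLocalRing.ResidueField A)) s ≠ 0 := fun h0 =>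
    hs (evalAt_jqModC_injective _ (by rw [h0, map_zero]))
  have hu := castSeries_u_mem_fullC D (natCast_residue_ne_zero hA hℓN)
    (k := IsLocalRing.ResidueField A)
  rw [eq_div_of_mul_eq hne0 h,
    ← evalJU_C_evalAt (castSeries (IsLocalRing.ResidueField A) D.u)]
  exact div_mem (evalJU_mem (jqModC_mem_full _ N) hu R) (evalJU_mem (jqModC_mem_full _ N) hu _)

theorem modGraph_finrank_span
    (W : Submodule (AlgebraicClosure ℚ) (modularFunctionFieldBar N))
    (hW : FiniteDimensional (AlgebraicClosure ℚ) W) :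
    Module.finrank (IsLocalRing.ResidueField A)
      (Submodule.span (IsLocalRing.ResidueField A)
        {g : modularFunctionFieldFullC (IsLocalRing.ResidueField A) N |
          ∃ f ∈ W, (f, g) ∈ modGraph (IsLocalRing.residue A) N}) =
      Module.finrank (AlgebraicClosure ℚ) W := by
  classical
  obtain ⟨D⟩ := Igusa.nonempty_unitPolyData N ℓ hℓN
  haveI := EC.isAlgClosed_residueField A
  set π := IsLocalRing.residue A with hπ
  let bW := Module.finBasis Qb W
  choose s R hs hRdeg hR using fun i => spannedBy_of_mem D ((bW i : modularFunctionFieldBar N).2)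
  choose c s' hc hs' hs'π using fun i => exists_scale A π (s i) (hs i)
  let S : Polynomial A := ∏ i, s' i
  have hSπ : S.map π ≠ 0 := by
    rw [Polynomial.map_prod]
    exact Finset.prod_ne_zero_iff.2 fun i _ => hs'π i
  let Qy : LaurentSeries A := evalJU (castSeries A D.u) (Polynomial.C S)
  have hQπ : coeffMap π Qy ≠ 0 := by
    rw [Igusa.coeffMap_evalJU, Polynomial.map_C, Polynomial.coe_mapRingHom, evalJU_C_evalAt]
    exact fun h0 => hSπ (evalAt_jqModC_injective _ (by rw [h0, map_zero]))
  have hQL : coeffMap A.subtype Qy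
      = evalJU (castSeries Qb D.u) (Polynomial.C (∏ i, Polynomial.C (c i) * s i)) := by
    rw [Igusa.coeffMap_evalJU, Igusa.coeffMap_castSeries, Polynomial.map_C,
      Polynomial.coe_mapRingHom, Polynomial.map_prod]
    simp only [hs']
  have hjL : jqModC Qb ∈ modularFunctionFieldBar N := by
    rw [show modularFunctionFieldBar N = laurentBaseChange Qb
      (modularFunctionFieldFull N) from rfl, ← fullC_le_base]
    exact jqModC_mem_full _ N
  have huL : castSeries Qb D.u ∈ modularFunctionFieldBar N := by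
    rw [show modularFunctionFieldBar N = laurentBaseChange Qb
      (modularFunctionFieldFull N) from rfl, ← fullC_le_base]
    exact castSeries_u_mem_fullC D (Nat.cast_ne_zero.2 (NeZero.ne N))
  let Qel : modularFunctionFieldBar N :=
    ⟨coeffMap A.subtype Qy, by rw [hQL]; exact evalJU_mem hjL huL _⟩
  have hQ0 : Qel ≠ 0 := fun h0 => hQπ (by
    have : Qy = 0 := Igusa.coeffMap_injective (f := A.subtype) Subtype.val_injective
      ((congrArg Subtype.val h0).trans (map_zero _).symm)
    rw [this, map_zero])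
  set M := LinearMap.mulLeft Qb Qel with hM
  set W' : Submodule Qb (modularFunctionFieldBar N) := W.map M with hW'
  obtain ⟨hP, hn, h0⟩ := polyOver_spec D (K := Qb)
    ((algebraMap ℚ Qb).comp (GaloisRep.ratLocalizedAt ℓ).subtype)
  have hbound : ∀ w ∈ W, ∃ R' : Polynomial (Polynomial Qb),
      ((Qel * w : modularFunctionFieldBar N) : LaurentSeries Qb)
        = evalJU (castSeries Qb D.u) R' := by
    intro w hw
    refine ⟨∑ i, Polynomial.C (Polynomial.C (bW.repr ⟨w, hw⟩ i) *
      (Polynomial.C (c i) * ∏ j ∈ Finset.univ.erase i, Polynomial.C (c j) * s j)) * R i, ?_⟩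
    conv_lhs => rw [show w = ((∑ i, bW.repr ⟨w, hw⟩ i • bW i : W) : modularFunctionFieldBar N) by
      rw [bW.sum_repr]]
    rw [Submodule.coe_sum, Finset.mul_sum, AddSubmonoidClass.coe_finsetSum, map_sum]
    refine Finset.sum_congr rfl fun i _ => ?_
    rw [IntermediateField.coe_mul, Submodule.coe_smul, coeff_algebra_smul, map_mul, ← hR i,
      evalJU_C_evalAt, map_mul, map_mul]
    show coeffMap A.subtype Qy * _ = _
    rw [hQL, ← Finset.mul_prod_erase _ _ (Finset.mem_univ i), map_mul Polynomial.C,
      map_mul (evalJU _), evalJU_C_evalAt, evalJU_C_evalAt, map_mul]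
    simp only [Polynomial.coe_eval₂RingHom, Polynomial.eval₂_C]
    ring
  have hscal : ∀ f ∈ W', f ≠ 0 → IsScalable A π (f : LaurentSeries Qb) := by
    rintro _ ⟨w, hw, rfl⟩ hne
    obtain ⟨R', hR'⟩ := hbound w hw
    obtain ⟨R'', hdeg'', hR''⟩ := exists_lt hP hn D.n_pos h0 R'
    have hval : ((M w : modularFunctionFieldBar N) : LaurentSeries Qb)
        = evalJU (castSeries Qb D.u) R'' := by
      rw [hR'', ← hR']
      rfl
    have hR0 : R'' ≠ 0 := fun h => hne (Subtype.ext (by rw [hval, h, map_zero]; rfl))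
    obtain ⟨d, R₁, hd, hR₁, hR₁π⟩ := exists_scale₂ A π R'' hR0
    refine ⟨d, hd, evalJU (castSeries A D.u) R₁, ?_, ?_⟩
    · rw [Igusa.coeffMap_evalJU, Igusa.coeffMap_castSeries, hR₁, map_mul, Igusa.evalJU_C_C, hval]
    · rw [Igusa.coeffMap_evalJU, Igusa.coeffMap_castSeries]
      intro hz
      refine hR₁π (eq_zero_of_evalJU D (π.comp (zlHom hA)) ?_ hz)
      refine Polynomial.natDegree_map_le.trans_lt ?_
      rw [← Polynomial.natDegree_map_eq_of_injective
        (f := mapRingHom A.subtype)
        (Polynomial.map_injective A.subtype Subtype.val_injective) R₁, hR₁]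
      exact (Polynomial.natDegree_C_mul_le _ _).trans_lt hdeg''
  haveI : FiniteDimensional Qb W' := by rw [hW']; infer_instance
  have hinj : Function.Injective M := mul_right_injective₀ hQ0
  have hfr : Module.finrank Qb W' = Module.finrank Qb W :=
    (Submodule.equivMapOfInjective M hinj W).finrank_eq.symm
  obtain ⟨v, y, hv, hvy, hy⟩ := exists_basis_indepReduction (π := π) W' hscal
  choose w hwW hwv using fun i => Submodule.mem_map.1 (hv i)
  have hQbar : coeffMap π Qy ∈ modularFunctionFieldFullC (IsLocalRing.ResidueField A) N :=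
    coeffMap_residue_mem_fullC N hℓN A hA Qy Qel.2
  have hgmem : ∀ i, coeffMap π (y i) / coeffMap π Qy ∈
      modularFunctionFieldFullC (IsLocalRing.ResidueField A) N := fun i =>
    div_mem (coeffMap_residue_mem_fullC N hℓN A hA (y i) (by rw [hvy i]; exact (v i).2)) hQbar
  set g : Fin (Module.finrank Qb W') → modularFunctionFieldFullC (IsLocalRing.ResidueField A) N :=
    fun i => ⟨coeffMap π (y i) / coeffMap π Qy, hgmem i⟩ with hg
  have hgraph : ∀ i, (w i, g i) ∈ modGraph π N := fun i => by
    refine ⟨y i, Qy, hQπ, ?_, div_mul_cancel₀ _ hQπ⟩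
    rw [hvy i, ← hwv i, mul_comm]
    rfl
  have hli : LinearIndependent (IsLocalRing.ResidueField A) g := by
    refine Fintype.linearIndependent_iff.2 fun a ha i => congrFun (hy a ?_) i
    have h := congrArg (fun z : modularFunctionFieldFullC (IsLocalRing.ResidueField A) N =>
      (z : LaurentSeries (IsLocalRing.ResidueField A)) * coeffMap π Qy) ha
    simp only [AddSubmonoidClass.coe_finsetSum, coeff_algebra_smul, ZeroMemClass.coe_zero,
      zero_mul, Finset.sum_mul] at h
    rw [← h]
    refine Finset.sum_congr rfl fun j _ => ?_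
    rw [mul_assoc, div_mul_cancel₀ _ hQπ]
  have hspan : Submodule.span (IsLocalRing.ResidueField A)
      {g' : modularFunctionFieldFullC (IsLocalRing.ResidueField A) N |
        ∃ f ∈ W, (f, g') ∈ modGraph π N} =
      Submodule.span (IsLocalRing.ResidueField A) (Set.range g) := by
    refine le_antisymm (Submodule.span_le.2 ?_)
      (Submodule.span_mono fun x ⟨i, hi⟩ => ⟨w i, hwW i, hi ▸ hgraph i⟩)
    rintro g' ⟨f, hfW, a, b, hb, h1, h2⟩
    rcases eq_or_ne f 0 with rfl | hf0
    · rw [show g' = 0 from modGraph_unique π N g' ⟨a, b, hb, h1, h2⟩]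
      exact zero_mem _
    have hxW : Qel * f ∈ W' := ⟨f, hfW, rfl⟩
    have hx0 : Qel * f ≠ 0 := mul_ne_zero hQ0 hf0
    obtain ⟨d, hd, z, hz, -⟩ := hscal _ hxW hx0
    obtain ⟨e, he, -⟩ := exists_integral_combination (π := π) hv hvy hy
      (W'.smul_mem d hxW) z (by rw [hz, coeff_algebra_smul])
    have hexp : ((Qel * f : modularFunctionFieldBar N) : LaurentSeries Qb)
        = ∑ i, HahnSeries.C ((e i : Qb) / d) * coeffMap A.subtype (y i) := by
      have h := congrArg (fun z : modularFunctionFieldBar N => (z : LaurentSeries Qb)) he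
      simp only [AddSubmonoidClass.coe_finsetSum, coeff_algebra_smul, ← hvy] at h
      have hdd : (HahnSeries.C d⁻¹ : LaurentSeries Qb) * HahnSeries.C d = 1 := by
        rw [← map_mul, inv_mul_cancel₀ hd, map_one]
      calc _ = (HahnSeries.C d⁻¹ * HahnSeries.C d) * ((Qel * f : modularFunctionFieldBar N) :
              LaurentSeries Qb) := by rw [hdd, one_mul]
        _ = _ := by
          rw [mul_assoc, h, Finset.mul_sum]
          refine Finset.sum_congr rfl fun i _ => ?_
          rw [← mul_assoc, ← map_mul, inv_mul_eq_div]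
    have hyb : IndepReduction A π (fun i => y i * b) := fun a' ha' => by
      refine hy a' ((mul_eq_zero.1 (?_ : _ * coeffMap π b = 0)).resolve_right hb)
      rw [← ha', Finset.sum_mul]
      simp only [map_mul, mul_assoc]
    have hprod : coeffMap A.subtype (a * Qy)
        = ∑ i, HahnSeries.C ((e i : Qb) / d) * coeffMap A.subtype (y i * b) := by
      rw [map_mul, ← h1]
      simp only [map_mul, ← mul_assoc]
      rw [← Finset.sum_mul, ← hexp, IntermediateField.coe_mul]
      show _ = coeffMap A.subtype Qy * _ * _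
      ring
    have hmem := coeff_mem_of_indep hyb _ (a * Qy) hprod
    have heq : a * Qy = ∑ i, HahnSeries.C (⟨_, hmem i⟩ : A) * (y i * b) := by
      apply Igusa.coeffMap_injective (f := A.subtype) Subtype.val_injective
      rw [hprod, map_sum]
      refine Finset.sum_congr rfl fun i _ => ?_
      rw [map_mul (coeffMap A.subtype) (HahnSeries.C _), Igusa.coeffMap_C]
      rfl
    have hg' : g' = ∑ i, π ⟨_, hmem i⟩ • g i := by
      apply Subtype.ext
      simp only [AddSubmonoidClass.coe_finsetSum, coeff_algebra_smul]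
      refine mul_right_cancel₀ hb (mul_right_cancel₀ hQπ ?_)
      rw [h2, ← map_mul, heq, map_sum, Finset.sum_mul, Finset.sum_mul]
      refine Finset.sum_congr rfl fun i _ => ?_
      simp only [map_mul, Igusa.coeffMap_C, hg]
      field_simp
    rw [hg']
    exact sum_mem fun i _ => Submodule.smul_mem _ _ (Submodule.subset_span ⟨i, rfl⟩)
  rw [hspan, finrank_span_eq_card hli, Fintype.card_fin, hfr]

theorem principalGeneratedByIntegral :
    PrincipalGeneratedByIntegral A (IsLocalRing.residue A) N := by
  obtain ⟨D⟩ := Igusa.nonempty_unitPolyData N ℓ hℓN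
  intro E hE
  obtain ⟨f, hf0, hfE⟩ := hE
  set π := IsLocalRing.residue A with hπ
  obtain ⟨s, R, hs, hRdeg, hR⟩ := spannedBy_of_mem D f.2
  obtain ⟨c, s', hc, hs', hs'π⟩ := exists_scale A π s hs
  have hf0' : (f : LaurentSeries Qb) ≠ 0 := fun h => hf0 (Subtype.ext h)
  have hR0 : R ≠ 0 := fun h => hs (evalAt_jqModC_injective Qb (by
    rw [h, map_zero, mul_eq_zero] at hR
    rw [hR.resolve_left hf0', map_zero]))
  obtain ⟨d, R', hd, hR', hR'π⟩ := exists_scale₂ A π R hR0
  let y₁ : LaurentSeries A := evalJU (castSeries A D.u) R'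
  let y₂ : LaurentSeries A := evalJU (castSeries A D.u) (Polynomial.C s')
  have hy₁ : coeffMap A.subtype y₁ = HahnSeries.C d * evalJU (castSeries Qb D.u) R := by
    rw [Igusa.coeffMap_evalJU, Igusa.coeffMap_castSeries, hR', map_mul, Igusa.evalJU_C_C]
  have hy₂ : coeffMap A.subtype y₂ = HahnSeries.C c * evalAt (jqModC Qb) s := by
    rw [Igusa.coeffMap_evalJU, Igusa.coeffMap_castSeries, Polynomial.map_C,
      Polynomial.coe_mapRingHom, hs', map_mul Polynomial.C, map_mul (evalJU _),
      Igusa.evalJU_C_C, evalJU_C_evalAt]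
  have hjL : jqModC Qb ∈ modularFunctionFieldBar N := by
    rw [show modularFunctionFieldBar N = laurentBaseChange Qb
      (modularFunctionFieldFull N) from rfl, ← fullC_le_base]
    exact jqModC_mem_full _ N
  have huL : castSeries Qb D.u ∈ modularFunctionFieldBar N := by
    rw [show modularFunctionFieldBar N = laurentBaseChange Qb
      (modularFunctionFieldFull N) from rfl, ← fullC_le_base]
    exact castSeries_u_mem_fullC D (Nat.cast_ne_zero.2 (NeZero.ne N))
  have hm₁ : coeffMap A.subtype y₁ ∈ modularFunctionFieldBar N := by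
    rw [Igusa.coeffMap_evalJU, Igusa.coeffMap_castSeries]
    exact evalJU_mem hjL huL _
  have hm₂ : coeffMap A.subtype y₂ ∈ modularFunctionFieldBar N := by
    rw [Igusa.coeffMap_evalJU, Igusa.coeffMap_castSeries]
    exact evalJU_mem hjL huL _
  have hn₁ : coeffMap π y₁ ≠ 0 := by
    rw [Igusa.coeffMap_evalJU, Igusa.coeffMap_castSeries]
    intro hz
    refine hR'π (eq_zero_of_evalJU D (π.comp (zlHom hA)) ?_ hz)
    refine Polynomial.natDegree_map_le.trans_lt ?_
    rw [← Polynomial.natDegree_map_eq_of_injective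
      (f := mapRingHom A.subtype)
      (Polynomial.map_injective A.subtype Subtype.val_injective) R', hR']
    exact (Polynomial.natDegree_C_mul_le _ _).trans_lt hRdeg
  have hn₂ : coeffMap π y₂ ≠ 0 := by
    rw [Igusa.coeffMap_evalJU, Polynomial.map_C, Polynomial.coe_mapRingHom, evalJU_C_evalAt]
    exact fun h0 => hs'π (evalAt_jqModC_injective _ (by rw [h0, map_zero]))
  let f₁ : modularFunctionFieldBar N := ⟨_, hm₁⟩
  let f₂ : modularFunctionFieldBar N := ⟨_, hm₂⟩
  have hne : ∀ (y : LaurentSeries A) (hy : coeffMap A.subtype y ∈ modularFunctionFieldBar N),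
      coeffMap π y ≠ 0 → (⟨_, hy⟩ : modularFunctionFieldBar N) ≠ 0 := fun y hy hn h => hn (by
    rw [Igusa.coeffMap_injective (f := A.subtype) Subtype.val_injective (a₁ := y) (a₂ := 0)
      ((congrArg Subtype.val h).trans (map_zero _).symm), map_zero])
  have h1 : f₁ ≠ 0 := hne _ hm₁ hn₁
  have h2 : f₂ ≠ 0 := hne _ hm₂ hn₂
  obtain ⟨D₁, hD₁, -⟩ := HasPrincipalDivisors.exists_divisor (K := Qb) f₁ h1
  obtain ⟨D₂, hD₂, -⟩ := HasPrincipalDivisors.exists_divisor (K := Qb) f₂ h2
  have hkey : algebraMap Qb (modularFunctionFieldBar N) d * f * f₂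
      = algebraMap Qb (modularFunctionFieldBar N) c * f₁ := by
    apply Subtype.ext
    show algebraMap Qb (LaurentSeries Qb) d * (f : LaurentSeries Qb) * coeffMap A.subtype y₂
      = algebraMap Qb (LaurentSeries Qb) c * coeffMap A.subtype y₁
    rw [← C_eq_algebraMap, ← C_eq_algebraMap, hy₁, hy₂, ← hR]
    ring
  have hEeq : E = D₁ - D₂ := by
    ext P
    have h := congrArg (fun z => P.ord z) hkey
    have hdne : algebraMap Qb (modularFunctionFieldBar N) d ≠ 0 :=
      (map_ne_zero _).2 hd
    have hcne : algebraMap Qb (modularFunctionFieldBar N) c ≠ 0 :=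
      (map_ne_zero _).2 hc
    rw [P.ord_mul (mul_ne_zero hdne hf0) h2, P.ord_mul hdne hf0, P.ord_mul hcne h1,
      Curve.ord_algebraMap, Curve.ord_algebraMap] at h
    rw [Finsupp.sub_apply, hfE P, hD₁ P, hD₂ P]
    omega
  rw [hEeq]
  exact AddSubgroup.sub_mem _
    (AddSubgroup.subset_closure ⟨y₁, hm₁, coeffMap_residue_mem_fullC N hℓN A hA y₁ hm₁, hn₁, hD₁⟩)
    (AddSubgroup.subset_closure ⟨y₂, hm₂, coeffMap_residue_mem_fullC N hℓN A hA y₂ hm₂, hn₂, hD₂⟩)

/-- The Gauss reduction of `X₀(N)` at a place above `ℓ ∤ N`. -/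
def gaussDataX0 :
    GaussData (IsLocalRing.residue A) (modularFunctionFieldBar N)
      (modularFunctionFieldFullC (IsLocalRing.ResidueField A) N) where
  graph := modGraph (IsLocalRing.residue A) N
  unique := modGraph_unique _ N
  algebraMap_mem := modGraph_algebraMap _ N
  residue_surjective := IsLocalRing.residue_surjective
  residue_eq_zero a ha := by
    rw [IsLocalRing.residue_eq_zero_iff, IsLocalRing.mem_maximalIdeal, mem_nonunits_iff]
    intro hu
    obtain ⟨b, hb⟩ := isUnit_iff_exists_inv.mp hu
    exact ha (inv_eq_of_mul_eq_one_right (congrArg Subtype.val hb) ▸ b.2)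
  exists_lift := modGraph_exists_lift N hℓN A hA
  finrank_span := modGraph_finrank_span N hℓN A hA

omit [Fact ℓ.Prime] hℓN hA in
theorem gaussDataX0_graph [Fact ℓ.Prime] (hℓN : ¬ ℓ ∣ N) (hA : A.LiesOverPrime ℓ) :
    (gaussDataX0 N hℓN A hA).graph = modGraph (IsLocalRing.residue A) N := rfl

end X0

end Fermat.Agent.Reduction
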