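import Fermat.Agent.Reduction.TruncSeries
import Fermat.Agent.Igusa.EtaUnit
import Fermat.Agent.Igusa.Expansions
import Fermat.Agent.Igusa.LevelOne

/-!
# The equations of the `j`-line covers of levels `2` and `3`

`E₄³ Δ Δ₂ = (Δ + 256 Δ₂)³` and
`Δ Δ₃ (E₄³ - 756 Δ - 19131876 Δ₃)² = (Δ² + 196830 Δ Δ₃ + 387420489 Δ₃²)²`.

Both sides agree to positive order at the cusps different from `∞`; at `∞` a finite computation
applies; the product over the cosets is then an invariant function vanishing at `∞`, hence zero.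
-/

set_option autoImplicit false

noncomputable section

open scoped MatrixGroups
open UpperHalfPlane ModularCurve CongruenceSubgroup
open Fermat.Agent.Igusa (HasLead IsSLInvariant deltaSeries)
open Fermat.Agent.Modular (HasQExp kleinJ mulH affineH)

namespace Fermat.Agent.Reduction.SmallId

local notation "Δ" => ModularForm.discriminant
local notation "𝕢" => Function.Periodic.qParam

theorem hasLead_add {R : Type*} [CommRing R] {x y : LaurentSeries R} {m : ℤ} {c d : R}
    (hx : HasLead x m c) (hy : HasLead y m d) : HasLead (x + y) m (c + d) :=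
  ⟨fun k hk => by rw [HahnSeries.coeff_add, hx.below k hk, hy.below k hk, add_zero],
    by rw [HahnSeries.coeff_add, hx.coeff_eq, hy.coeff_eq]⟩

theorem hasLead_div {R : Type*} [Field R] {x y : LaurentSeries R} {m n : ℤ} {c d : R}
    (hx : HasLead x m c) (hy : HasLead y n d) (hd : d ≠ 0) :
    HasLead (x / y) (m - n) (c / d) := by
  have hu := hy.isUnit (isUnit_iff_ne_zero.2 hd)
  have h1 : HasLead (hu.unit : LaurentSeries R) n ((Units.mk0 d hd : Rˣ) : R) := by
    rw [IsUnit.unit_spec]; exact hy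
  have h2 := h1.inv_unit
  rw [Units.val_inv_eq_inv_val, IsUnit.unit_spec, Units.val_inv_eq_inv_val, Units.val_mk0] at h2
  rw [div_eq_mul_inv, div_eq_mul_inv]
  exact hx.mul' h2 (sub_eq_add_neg m n).symm rfl

theorem hasLead_congr {R : Type*} [CommRing R] {x : LaurentSeries R} {m n : ℤ} {c d : R}
    (hx : HasLead x m c) (hm : m = n) (hc : c = d) : HasLead x n d := hm ▸ hc ▸ hx

theorem hasLead_C {R : Type*} [CommRing R] (c : R) : HasLead (HahnSeries.C c) 0 c :=
  HasLead.single 0 c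

/-- A function invariant under `Γ₀(p)`, without pole at `∞` and vanishing at the other cusps. -/
theorem eq_zero_of_cusps {p : ℕ} [hp : Fact p.Prime] {g : ℍ → ℂ} {x : LaurentSeries ℂ}
    (hinv : ∀ γ ∈ Gamma0 p, ∀ τ, g (γ • τ) = g τ) (hx : HasQExp 1 g x)
    (hx0 : ∀ n < 0, x.coeff n = 0)
    (hc : ∀ γ : SL(2, ℤ), γ ∉ Gamma0 p →
      ∃ y : LaurentSeries ℂ, HasQExp (p : ℝ) (fun τ => g (γ • τ)) y ∧ ∀ n ≤ 0, y.coeff n = 0) :
    g = 0 := by
  classical
  haveI : NeZero p := ⟨hp.out.ne_zero⟩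
  have hp0 : (0 : ℝ) < p := by exact_mod_cast hp.out.pos
  letI : Fintype (SL(2, ℤ) ⧸ Gamma0 p) := Subgroup.fintypeQuotientOfFiniteIndex
  let G : SL(2, ℤ) ⧸ Gamma0 p → ℍ → ℂ := Quotient.lift (fun γ τ => g (γ⁻¹ • τ)) fun a b hab => by
    funext τ
    have h : a⁻¹ * b ∈ Gamma0 p := QuotientGroup.leftRel_apply.1 hab
    rw [← hinv _ h (b⁻¹ • τ), smul_smul, mul_assoc, mul_inv_cancel, mul_one]
  have hG : ∀ γ : SL(2, ℤ), G (γ : SL(2, ℤ) ⧸ Gamma0 p) = fun τ => g (γ⁻¹ • τ) := fun γ => rfl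
  have hy : ∀ q, ∃ y : LaurentSeries ℂ, HasQExp (p : ℝ) (G q) y ∧
      HasLead y (if q = ((1 : SL(2, ℤ)) : SL(2, ℤ) ⧸ Gamma0 p) then 0 else 1)
        (y.coeff (if q = ((1 : SL(2, ℤ)) : SL(2, ℤ) ⧸ Gamma0 p) then 0 else 1)) := by
    intro q
    induction q using QuotientGroup.induction_on with | _ γ => ?_
    split_ifs with h
    · refine ⟨qExpand ℂ p x, ?_, fun k hk => ?_, rfl⟩
      · have := hx.dilate_period one_ne_zero p
        rw [one_mul] at this
        rw [h, hG]
        simpa using this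
      · by_cases hd : (p : ℤ) ∣ k
        · obtain ⟨j, rfl⟩ := hd
          rw [qExpand_coeff_mul]
          refine hx0 j ?_
          nlinarith [(Int.natCast_nonneg p)]
        · exact qExpand_coeff_of_not_dvd p x hd
    · have hγ : γ⁻¹ ∉ Gamma0 p := fun hm => h (by
        rw [QuotientGroup.eq, mul_one]; exact hm)
      obtain ⟨y, hy1, hy2⟩ := hc _ hγ
      exact ⟨y, hG γ ▸ hy1, fun k hk => hy2 k (by omega), rfl⟩
  choose y hy1 hy2 using hy
  have hF := HasQExp.prod Finset.univ fun q _ => hy1 q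
  have hlead := HasLead.prod Finset.univ fun q _ => hy2 q
  have hpos : (0 : ℤ) < ∑ q : SL(2, ℤ) ⧸ Gamma0 p,
      (if q = ((1 : SL(2, ℤ)) : SL(2, ℤ) ⧸ Gamma0 p) then 0 else 1) := by
    refine Finset.sum_pos' (fun q _ => by split_ifs <;> norm_num)
      ⟨(ModularGroup.S : SL(2, ℤ) ⧸ Gamma0 p), Finset.mem_univ _, ?_⟩
    rw [if_neg fun h => ?_]
    · norm_num
    · rw [QuotientGroup.eq, mul_one, inv_mem_iff, Gamma0_mem] at h
      haveI : Nontrivial (ZMod p) := ZMod.nontrivial_iff.2 hp.out.ne_one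
      simp [ModularGroup.S] at h
  have hprod : (∏ q, G q) = 0 := by
    refine Igusa.eq_zero_of_isSLInvariant hp0 (fun α τ => ?_) hF fun n hn => hlead.below n (by omega)
    simp only [Finset.prod_apply]
    refine Fintype.prod_equiv (MulAction.toPerm α⁻¹) _ _ fun q => ?_
    induction q using QuotientGroup.induction_on with | _ γ => ?_
    rw [MulAction.toPerm_apply, MulAction.Quotient.smul_coe, hG, hG]
    simp only [smul_eq_mul, mul_inv_rev, inv_inv, smul_smul]
  obtain ⟨q, -, hq⟩ := Finset.prod_eq_zero_iff.1 ((hF.eq_zero_iff hp0).1 hprod)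
  have hGq : G q = 0 := ((hy1 q).eq_zero_iff hp0).2 hq
  induction q using QuotientGroup.induction_on with | _ γ => ?_
  funext τ
  have := congrFun ((hG γ).symm.trans hGq) (γ • τ)
  simpa using this

variable (p : ℕ) [NeZero p]

/-- `Δ(τ) / Δ(p τ)`. -/
def eFun (τ : ℍ) : ℂ := Δ τ / Δ (mulH p τ)

theorem eFun_eq (τ : ℍ) : eFun p τ = (p : ℂ) ^ 12 / Igusa.discRatio p τ := by
  have h1 := ModularForm.discriminant_ne_zero (mulH p τ)
  have h2 := ModularForm.discriminant_ne_zero τ
  have h3 : (p : ℂ) ≠ 0 := NeZero.ne _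
  rw [eFun, Igusa.discRatio]
  field_simp

theorem eFun_smul_of_mem {γ : SL(2, ℤ)} (hγ : γ ∈ Gamma0 p) (τ : ℍ) :
    eFun p (γ • τ) = eFun p τ := by
  rw [eFun_eq, eFun_eq, Igusa.discRatio_smul_of_dvd γ p
    ((ZMod.intCast_zmod_eq_zero_iff_dvd _ _).1 (Gamma0_mem.1 hγ))]

/-- The series of `eFun p` at `∞`. -/
def eSeries : LaurentSeries ℂ := deltaSeries ℂ / qExpand ℂ p (deltaSeries ℂ)

theorem hasQExp_eFun : HasQExp 1 (eFun p) (eSeries p) :=
  Igusa.hasQExp_discriminant_deltaSeries.div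
    (Igusa.hasQExp_discriminant_deltaSeries.comp_mulH p) one_pos
    fun _ => ModularForm.discriminant_ne_zero _

theorem deltaSeries_qExpand_ne_zero {R : Type*} [CommRing R] [Nontrivial R] :
    qExpand R p (deltaSeries R) ≠ 0 :=
  ((Igusa.hasLead_deltaSeries (R := R)).qExpand p).ne_zero one_ne_zero

theorem eSeries_mul : eSeries p * qExpand ℂ p (deltaSeries ℂ) = deltaSeries ℂ :=
  div_mul_cancel₀ _ (deltaSeries_qExpand_ne_zero p)

theorem exists_hasQExp_eFun_smul [hp : Fact p.Prime] {γ : SL(2, ℤ)} (hγ : γ ∉ Gamma0 p) :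
    ∃ (y : LaurentSeries ℂ) (c : ℂ), c ≠ 0 ∧ c ^ p = 1 ∧
      HasQExp (p : ℝ) (fun τ => eFun p (γ • τ)) y ∧
      HasLead y ((p : ℤ) - 1) ((p : ℂ) ^ 12 / c) := by
  obtain ⟨a, d, b, ha, hd, hag, had, h⟩ := Igusa.discRatio_smul_eq γ p
  have hndvd : ¬ p ∣ (γ 1 0).natAbs := fun h => hγ (Gamma0_mem.2
    ((ZMod.intCast_zmod_eq_zero_iff_dvd _ _).2 (Int.natCast_dvd.2 h)))
  have ha1 : a = 1 := hag.trans ((hp.out.coprime_iff_not_dvd).2 hndvd)
  subst ha1
  rw [one_mul] at had
  subst had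
  set c := Units.mk0 (𝕢 (d : ℝ) (b : ℂ)) (Function.Periodic.qParam_ne_zero _) with hc
  refine ⟨HahnSeries.C ((d : ℂ) ^ 12) * qExpand ℂ d (deltaSeries ℂ) /
    qExpand ℂ 1 (Modular.twistSeries c (deltaSeries ℂ)), c, c.ne_zero,
    Igusa.qParam_natCast_intCast_pow d b, ?_, ?_⟩
  · have h1 := ((Igusa.hasQExp_discriminant_deltaSeries.dilate_period one_ne_zero d).const_mul
      ((d : ℂ) ^ 12))
    rw [one_mul] at h1
    refine (h1.div (Igusa.hasQExp_discriminant_deltaSeries.comp_affineH 1 b d)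
      (by exact_mod_cast NeZero.pos d) fun _ => ModularForm.discriminant_ne_zero _).congr
      fun τ => ?_
    rw [eFun_eq, h τ, Pi.div_apply, Nat.cast_one, one_pow, one_mul, div_div_eq_mul_div]
  · rw [qExpand_one_apply, Igusa.twistSeries_eq_twist]
    have hnum := (hasLead_C ((d : ℂ) ^ 12)).mul'
      ((Igusa.hasLead_deltaSeries (R := ℂ)).qExpand d) (by ring : (0 : ℤ) + d * 1 = d) (mul_one _)
    have hden : HasLead (Igusa.twist c (deltaSeries ℂ)) 1 (c : ℂ) := by
      simpa using (Igusa.hasLead_deltaSeries (R := ℂ)).twist c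
    exact hasLead_div hnum hden c.ne_zero

theorem hasQExp_kleinJ_smul (γ : SL(2, ℤ)) :
    HasQExp (p : ℝ) (fun τ => kleinJ (γ • τ)) (qExpand ℂ p (jqModC ℂ)) := by
  have h := Modular.hasQExp_kleinJ.dilate_period one_ne_zero p
  rw [one_mul] at h
  exact h.congr fun τ => (Modular.kleinJ_smul γ τ).symm

theorem coeff_eq_zero_of_mul {x y G : LaurentSeries ℂ} {m : ℤ} (hy : HasLead y m 1)
    (hG : x * y = G) (h : ∀ k < m, G.coeff k = 0) {n : ℤ} (hn : n < 0) : x.coeff n = 0 := by
  by_contra hne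
  have ho : x.order ≤ n := HahnSeries.order_le_of_coeff_ne_zero hne
  have hx : HasLead x x.order (x.coeff x.order) :=
    ⟨fun k hk => HahnSeries.coeff_eq_zero_of_lt_order hk, rfl⟩
  have h1 := (hx.mul hy).coeff_eq
  rw [hG, h _ (by omega), mul_one] at h1
  exact HahnSeries.coeff_order_eq_zero.not.2 (fun e => hne (by simp [e])) h1.symm

theorem eq_zero_of_hasQExp {g : ℍ → ℂ} {x : LaurentSeries ℂ} (hg : g = 0) (h : HasQExp 1 g x) :
    x = 0 :=
  (h.eq_zero_iff one_pos).1 hg

/-! ### Level `2` -/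

/-- The difference of the two sides at level `2`. -/
def relTwo : PowerSeries ℤ :=
  e4cube * (deltaPS * PowerSeries.expand 2 two_ne_zero deltaPS) -
    (deltaPS + PowerSeries.C 256 * PowerSeries.expand 2 two_ne_zero deltaPS) *
      ((deltaPS + PowerSeries.C 256 * PowerSeries.expand 2 two_ne_zero deltaPS) *
        (deltaPS + PowerSeries.C 256 * PowerSeries.expand 2 two_ne_zero deltaPS))

theorem coeff_relTwo (R : Type*) [CommRing R] {k : ℤ} (hk : k < 6) :
    (ofPS R relTwo).coeff k = 0 := by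
  have hd : ∀ {n}, n ≤ 12 → Trunc n deltaPS _ := fun hn k hk => trunc_deltaPS k (by omega)
  have h4 : Trunc 6 e4cube _ := fun k hk => trunc_e4cube k (by omega)
  have h1 := hd (n := 6) (by omega)
  have h2 := h1.expand 2 two_ne_zero
  have hb := h1.add (h2.C_mul 256)
  exact ((h4.mul (h1.mul h2)).sub (hb.mul (hb.mul hb))).ofPS_coeff_eq_zero R
    (by decide +kernel) hk

theorem ofPS_relTwo (R : Type*) [CommRing R] : ofPS R relTwo =
    ofPS R e4cube * (deltaSeries R * qExpand R 2 (deltaSeries R)) -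
      (deltaSeries R + HahnSeries.C 256 * qExpand R 2 (deltaSeries R)) ^ 3 := by
  have h : PowerSeries.expand 2 two_ne_zero deltaPS = PowerSeries.expand 2 (NeZero.ne 2) deltaPS :=
    rfl
  simp only [relTwo, h, map_sub, map_mul, map_add, ofPS_expand, ofPS_deltaPS, ofPS_C]
  push_cast
  ring

theorem relTwo_eq_zero (R : Type*) [CommRing R] : ofPS R relTwo = 0 := by
  haveI : Fact (Nat.Prime 2) := ⟨Nat.prime_two⟩
  set g : ℍ → ℂ := fun τ => kleinJ τ * eFun 2 τ ^ 2 - (eFun 2 τ + 256) ^ 3 with hg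
  set X : LaurentSeries ℂ :=
    jqModC ℂ * eSeries 2 ^ 2 - (eSeries 2 + HahnSeries.C 256) ^ 3 with hX
  have hgX : HasQExp 1 g X :=
    ((Modular.hasQExp_kleinJ.mul ((hasQExp_eFun 2).pow 2)).sub
      (((hasQExp_eFun 2).add (HasQExp.const 1 256)).pow 3)).congr fun τ => rfl
  have hXG : X * qExpand ℂ 2 (deltaSeries ℂ) ^ 3 = ofPS ℂ relTwo := by
    have key : ∀ J e w d C : LaurentSeries ℂ, e * w = d →
        (J * e ^ 2 - (e + C) ^ 3) * w ^ 3 = J * d * (d * w) - (d + C * w) ^ 3 := by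
      rintro J e w d C rfl; ring
    rw [ofPS_relTwo, ← jqModC_mul_deltaSeries, hX]
    exact key _ _ _ _ _ (eSeries_mul 2)
  have hlead : HasLead (qExpand ℂ 2 (deltaSeries ℂ) ^ 3) 6 1 := by
    simpa using ((Igusa.hasLead_deltaSeries (R := ℂ)).qExpand 2).pow 3
  have h0 : g = 0 := by
    refine eq_zero_of_cusps (p := 2) (fun γ hγ τ => ?_) hgX
      (fun n hn => coeff_eq_zero_of_mul hlead hXG (fun k hk => coeff_relTwo ℂ hk) hn)
      fun γ hγ => ?_
    · simp only [hg, Modular.kleinJ_smul, eFun_smul_of_mem 2 hγ]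
    obtain ⟨y, c, hc0, hc, hy, ly⟩ := exists_hasQExp_eFun_smul 2 hγ
    have hJ := hasQExp_kleinJ_smul 2 γ
    refine ⟨qExpand ℂ 2 (jqModC ℂ) * y ^ 2 - (y + HahnSeries.C 256) ^ 3,
      ((hJ.mul (hy.pow 2)).sub ((hy.add (HasQExp.const _ 256)).pow 3)).congr fun τ => rfl, ?_⟩
    have hA : HasLead (qExpand ℂ 2 (jqModC ℂ) * y ^ 2) 0 (16777216 : ℂ) :=
      ((Igusa.hasLead_jqModC (R := ℂ)).qExpand 2).mul' (ly.pow 2) (by norm_num)
        (by rw [one_mul, div_pow, hc]; norm_num)
    have hB : HasLead ((y + HahnSeries.C 256) ^ 3) 0 (16777216 : ℂ) := by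
      have hy0 : HasLead y 0 0 := ly.of_le (by norm_num)
      exact hasLead_congr ((hasLead_add hy0 (hasLead_C (256 : ℂ))).pow 3) (by norm_num)
        (by norm_num)
    intro n hn
    rw [HahnSeries.coeff_sub]
    rcases hn.lt_or_eq with hn | rfl
    · rw [hA.below n hn, hB.below n hn, sub_zero]
    · rw [hA.coeff_eq, hB.coeff_eq, sub_self]
  have hℂ : ofPS ℂ relTwo = 0 := by rw [← hXG, eq_zero_of_hasQExp h0 hgX, zero_mul]
  have hℤ : ofPS ℤ relTwo = 0 := Igusa.coeffMap_injective (f := Int.castRingHom ℂ)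
    (show Function.Injective (Int.castRingHom ℂ) from Int.cast_injective)
    (by rw [coeffMap_ofPS, hℂ, map_zero])
  rw [← coeffMap_ofPS ℤ (Int.castRingHom R), hℤ, map_zero]

/-- `E₄³ Δ Δ₂ = (Δ + 256 Δ₂)³` over any ring. -/
theorem identity_two (R : Type*) [CommRing R] :
    jqModC R * deltaSeries R * (deltaSeries R * qExpand R 2 (deltaSeries R)) =
      (deltaSeries R + HahnSeries.C 256 * qExpand R 2 (deltaSeries R)) ^ 3 := by
  have h := relTwo_eq_zero R
  rw [ofPS_relTwo, sub_eq_zero] at h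
  rw [jqModC_mul_deltaSeries, h]

/-! ### Level `3` -/

/-- The difference of the two sides at level `3`. -/
def relThree : PowerSeries ℤ :=
  deltaPS * PowerSeries.expand 3 three_ne_zero deltaPS *
      ((e4cube - PowerSeries.C 756 * deltaPS -
          PowerSeries.C 19131876 * PowerSeries.expand 3 three_ne_zero deltaPS) *
        (e4cube - PowerSeries.C 756 * deltaPS -
          PowerSeries.C 19131876 * PowerSeries.expand 3 three_ne_zero deltaPS)) -
    (deltaPS * deltaPS +
        PowerSeries.C 196830 * (deltaPS * PowerSeries.expand 3 three_ne_zero deltaPS) +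
        PowerSeries.C 387420489 * (PowerSeries.expand 3 three_ne_zero deltaPS *
          PowerSeries.expand 3 three_ne_zero deltaPS)) *
      (deltaPS * deltaPS +
        PowerSeries.C 196830 * (deltaPS * PowerSeries.expand 3 three_ne_zero deltaPS) +
        PowerSeries.C 387420489 * (PowerSeries.expand 3 three_ne_zero deltaPS *
          PowerSeries.expand 3 three_ne_zero deltaPS))

theorem coeff_relThree (R : Type*) [CommRing R] {k : ℤ} (hk : k < 12) :
    (ofPS R relThree).coeff k = 0 := by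
  have h1 := trunc_deltaPS
  have h3 := h1.expand 3 three_ne_zero
  have hi := (trunc_e4cube.sub (h1.C_mul 756)).sub (h3.C_mul 19131876)
  have hb := ((h1.mul h1).add ((h1.mul h3).C_mul 196830)).add ((h3.mul h3).C_mul 387420489)
  exact (((h1.mul h3).mul (hi.mul hi)).sub (hb.mul hb)).ofPS_coeff_eq_zero R
    (by decide +kernel) hk

theorem ofPS_relThree (R : Type*) [CommRing R] : ofPS R relThree =
    deltaSeries R * qExpand R 3 (deltaSeries R) *
        (ofPS R e4cube - HahnSeries.C 756 * deltaSeries R -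
          HahnSeries.C 19131876 * qExpand R 3 (deltaSeries R)) ^ 2 -
      (deltaSeries R ^ 2 + HahnSeries.C 196830 * (deltaSeries R * qExpand R 3 (deltaSeries R)) +
        HahnSeries.C 387420489 * qExpand R 3 (deltaSeries R) ^ 2) ^ 2 := by
  have h : PowerSeries.expand 3 three_ne_zero deltaPS = PowerSeries.expand 3 (NeZero.ne 3) deltaPS :=
    rfl
  simp only [relThree, h, map_sub, map_mul, map_add, ofPS_expand, ofPS_deltaPS, ofPS_C]
  push_cast
  ring

theorem relThree_eq_zero (R : Type*) [CommRing R] : ofPS R relThree = 0 := by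
  haveI : Fact (Nat.Prime 3) := ⟨Nat.prime_three⟩
  set g : ℍ → ℂ := fun τ => eFun 3 τ * (kleinJ τ * eFun 3 τ - 756 * eFun 3 τ - 19131876) ^ 2 -
    (eFun 3 τ ^ 2 + 196830 * eFun 3 τ + 387420489) ^ 2 with hg
  set X : LaurentSeries ℂ :=
    eSeries 3 * (jqModC ℂ * eSeries 3 - HahnSeries.C 756 * eSeries 3 -
      HahnSeries.C 19131876) ^ 2 -
    (eSeries 3 ^ 2 + HahnSeries.C 196830 * eSeries 3 + HahnSeries.C 387420489) ^ 2 with hX
  have he := hasQExp_eFun 3
  have hgX : HasQExp 1 g X :=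
    ((he.mul ((((Modular.hasQExp_kleinJ.mul he).sub (he.const_mul 756)).sub
        (HasQExp.const 1 19131876)).pow 2)).sub
      ((((he.pow 2).add (he.const_mul 196830)).add (HasQExp.const 1 387420489)).pow 2)).congr
      fun τ => rfl
  have hXG : X * qExpand ℂ 3 (deltaSeries ℂ) ^ 4 = ofPS ℂ relThree := by
    have key : ∀ J e w d C₁ C₂ C₃ C₄ : LaurentSeries ℂ, e * w = d →
        (e * (J * e - C₁ * e - C₂) ^ 2 - (e ^ 2 + C₃ * e + C₄) ^ 2) * w ^ 4 =
          d * w * (J * d - C₁ * d - C₂ * w) ^ 2 - (d ^ 2 + C₃ * (d * w) + C₄ * w ^ 2) ^ 2 := by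
      rintro J e w d C₁ C₂ C₃ C₄ rfl; ring
    rw [ofPS_relThree, ← jqModC_mul_deltaSeries, hX]
    exact key _ _ _ _ _ _ _ _ (eSeries_mul 3)
  have hlead : HasLead (qExpand ℂ 3 (deltaSeries ℂ) ^ 4) 12 1 := by
    simpa using ((Igusa.hasLead_deltaSeries (R := ℂ)).qExpand 3).pow 4
  have h0 : g = 0 := by
    refine eq_zero_of_cusps (p := 3) (fun γ hγ τ => ?_) hgX
      (fun n hn => coeff_eq_zero_of_mul hlead hXG (fun k hk => coeff_relThree ℂ hk) hn)
      fun γ hγ => ?_
    · simp only [hg, Modular.kleinJ_smul, eFun_smul_of_mem 3 hγ]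
    obtain ⟨y, c, hc0, hc, hy, ly⟩ := exists_hasQExp_eFun_smul 3 hγ
    have hJ := hasQExp_kleinJ_smul 3 γ
    refine ⟨y * (qExpand ℂ 3 (jqModC ℂ) * y - HahnSeries.C 756 * y -
        HahnSeries.C 19131876) ^ 2 -
      (y ^ 2 + HahnSeries.C 196830 * y + HahnSeries.C 387420489) ^ 2,
      ((hy.mul ((((hJ.mul hy).sub (hy.const_mul 756)).sub (HasQExp.const _ 19131876)).pow 2)).sub
        ((((hy.pow 2).add (hy.const_mul 196830)).add (HasQExp.const _ 387420489)).pow 2)).congr
        fun τ => rfl, ?_⟩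
    have hJy : HasLead (qExpand ℂ 3 (jqModC ℂ) * y) (-1) (531441 / c) :=
      ((Igusa.hasLead_jqModC (R := ℂ)).qExpand 3).mul' ly (by norm_num) (by norm_num)
    have hI : HasLead (qExpand ℂ 3 (jqModC ℂ) * y - HahnSeries.C 756 * y -
        HahnSeries.C 19131876) (-1) (531441 / c) := by
      have e1 : HasLead (-(HahnSeries.C (756 : ℂ) * y)) (-1) 0 :=
        ((hasLead_C (756 : ℂ)).mul ly).neg.of_le (by norm_num)
      have e2 : HasLead (-HahnSeries.C (19131876 : ℂ)) (-1) 0 :=
        (hasLead_C (19131876 : ℂ)).neg.of_le (by norm_num)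
      simpa [sub_eq_add_neg] using hasLead_add (hasLead_add hJy e1) e2
    have hA : HasLead (y * (qExpand ℂ 3 (jqModC ℂ) * y - HahnSeries.C 756 * y -
        HahnSeries.C 19131876) ^ 2) 0 (150094635296999121 : ℂ) :=
      ly.mul' (hI.pow 2) (by norm_num) (by
        rw [div_pow, div_mul_div_comm, show c * c ^ 2 = c ^ 3 by ring, hc]
        norm_num)
    have hB : HasLead ((y ^ 2 + HahnSeries.C 196830 * y + HahnSeries.C 387420489) ^ 2) 0
        (150094635296999121 : ℂ) := by
      have e1 : HasLead (y ^ 2) 0 0 := (ly.pow 2).of_le (by norm_num)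
      have e2 : HasLead (HahnSeries.C (196830 : ℂ) * y) 0 0 :=
        ((hasLead_C (196830 : ℂ)).mul ly).of_le (by norm_num)
      exact hasLead_congr ((hasLead_add (hasLead_add e1 e2) (hasLead_C (387420489 : ℂ))).pow 2)
        (by norm_num) (by norm_num)
    intro n hn
    rw [HahnSeries.coeff_sub]
    rcases hn.lt_or_eq with hn | rfl
    · rw [hA.below n hn, hB.below n hn, sub_zero]
    · rw [hA.coeff_eq, hB.coeff_eq, sub_self]
  have hℂ : ofPS ℂ relThree = 0 := by rw [← hXG, eq_zero_of_hasQExp h0 hgX, zero_mul]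
  have hℤ : ofPS ℤ relThree = 0 := Igusa.coeffMap_injective (f := Int.castRingHom ℂ)
    (show Function.Injective (Int.castRingHom ℂ) from Int.cast_injective)
    (by rw [coeffMap_ofPS, hℂ, map_zero])
  rw [← coeffMap_ofPS ℤ (Int.castRingHom R), hℤ, map_zero]

/-- `Δ Δ₃ (E₄³ - 756 Δ - 19131876 Δ₃)² = (Δ² + 196830 Δ Δ₃ + 387420489 Δ₃²)²` over any ring. -/
theorem identity_three (R : Type*) [CommRing R] :
    deltaSeries R * qExpand R 3 (deltaSeries R) *
        (jqModC R * deltaSeries R - HahnSeries.C 756 * deltaSeries R -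
          HahnSeries.C 19131876 * qExpand R 3 (deltaSeries R)) ^ 2 =
      (deltaSeries R ^ 2 + HahnSeries.C 196830 * (deltaSeries R * qExpand R 3 (deltaSeries R)) +
        HahnSeries.C 387420489 * qExpand R 3 (deltaSeries R) ^ 2) ^ 2 := by
  have h := relThree_eq_zero R
  rw [ofPS_relThree, sub_eq_zero] at h
  rw [jqModC_mul_deltaSeries, h]

/-- In characteristic `2` or `3` the series of `j Δ` is `1`. -/
theorem jqModC_mul_deltaSeries_eq_one {R : Type*} [CommRing R] (h : (240 : R) = 0) :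
    jqModC R * deltaSeries R = 1 := by
  have h4 : eisenstein4.map (Int.castRingHom R) = 1 := by
    ext n
    rw [PowerSeries.coeff_map, eisenstein4, PowerSeries.coeff_mk, PowerSeries.coeff_one]
    split_ifs with hn
    · simp
    · rw [map_mul, eq_intCast, Int.cast_ofNat, h, zero_mul]
  have : ofPS R eisenstein4 = 1 := by rw [ofPS_apply, h4, map_one]
  rw [jqModC_mul_deltaSeries, e4cube, map_mul, map_mul, this, one_mul, one_mul]

/-- `Δ(q) Δ(q²) = (Δ(q) + Δ(q²))³` in characteristic `3`. -/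
theorem deltaSeries_mul_qExpand_two (k : Type*) [Field k] [CharP k 3] :
    deltaSeries k * qExpand k 2 (deltaSeries k) =
      (deltaSeries k + qExpand k 2 (deltaSeries k)) ^ 3 := by
  have h3 : (3 : k) = 0 := CharP.cast_eq_zero k 3
  have h := identity_two k
  rw [jqModC_mul_deltaSeries_eq_one (by linear_combination (80 : k) * h3), one_mul,
    show (256 : k) = 1 by linear_combination (85 : k) * h3, map_one, one_mul] at h
  exact h

/-- `Δ(q) Δ(q³) = Δ(q)⁴ + Δ(q³)⁴` in characteristic `2`. -/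
theorem deltaSeries_mul_qExpand_three (k : Type*) [Field k] [CharP k 2] :
    deltaSeries k * qExpand k 3 (deltaSeries k) =
      deltaSeries k ^ 4 + qExpand k 3 (deltaSeries k) ^ 4 := by
  have h2 : (2 : k) = 0 := CharP.cast_eq_zero k 2
  have h2L : (2 : LaurentSeries k) = 0 := by
    rw [← map_ofNat (HahnSeries.C (Γ := ℤ) (R := k)) 2, h2, map_zero]
  have h := identity_three k
  rw [jqModC_mul_deltaSeries_eq_one (by linear_combination (120 : k) * h2),
    show (756 : k) = 0 by linear_combination (378 : k) * h2,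
    show (19131876 : k) = 0 by linear_combination (9565938 : k) * h2,
    show (196830 : k) = 0 by linear_combination (98415 : k) * h2,
    show (387420489 : k) = 1 by linear_combination (193710244 : k) * h2] at h
  simp only [map_zero, map_one, zero_mul, one_mul, sub_zero, one_pow, mul_one, add_zero] at h
  rw [h]
  linear_combination deltaSeries k ^ 2 * qExpand k 3 (deltaSeries k) ^ 2 * h2L

end Fermat.Agent.Reduction.SmallId
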