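import Fermat.Agent.Reduction.Genus
import Fermat.Agent.Reduction.ModularData
import Fermat.Agent.Reduction.SmallIdentities
import Fermat.Agent.Reduction.UnitField

/-!
# The different of `j` in characteristics `2` and `3`

With `E = Δ(q)/Δ(q^p)` (`p = 3` for `ℓ = 2`, `p = 2` for `ℓ = 3`), which lies in the function field
of level `p`:
* `ℓ = 2`: `j² E³ = (E + 1)⁴` (reduction of
  `Δ Δ₃ (E₄³ - 756 Δ - 19131876 Δ₃)² = (Δ² + 196830 Δ Δ₃ + 387420489 Δ₃²)²`), so
  `t = (E + 1)²/(j E)` has `t² = E`, `j t³ = (t + 1)⁴`.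
* `ℓ = 3`: `j E² = (E + 1)³` (reduction of `E₄³ Δ Δ₂ = (Δ + 256 Δ₂)³`); put `t = E`.

In both cases `j t^m = (t + 1)^(m + 1)` with `m + 1 = 0` in `k`, so `dj = (j/t) dt` and above
`j = 0` (where `t = -1`) `ord dj ≥ (m + 2) e_t - 1`.

Owner: helper63.
-/

set_option autoImplicit false

noncomputable section

namespace Fermat.Agent.Reduction

open AlgebraicCurve ModularCurve Fermat.Agent.Curve KaehlerDifferential
open Fermat.Agent.Igusa (HasLead deltaSeries)

section Generic

variable {k : Type*} [Field k] [IsAlgClosed k] {F : Type*} [Field F] [Algebra k F]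
  [IsFunctionField1 k F]

/-- The bound on the different from an equation `j t^m = (t + 1)^(m + 1)`, `char ∣ m + 1`. -/
theorem differentBound_of_eq {j t : F} (m : ℕ) (hm0 : 1 ≤ m) (hm4 : m ≤ 4)
    (hm : ((m + 1 : ℕ) : k) = 0) (h1728 : (1728 : k) = 0) (h : j * t ^ m = (t + 1) ^ (m + 1))
    (ht : D k F t ≠ 0) : DifferentBound (k := k) j := by
  have ht0 : t ≠ 0 := fun e => ht (by rw [e, map_zero])
  have ht1 : t + 1 ≠ 0 := fun e => ht (by
    rw [eq_neg_of_add_eq_zero_left e, map_neg, Derivation.map_one_eq_zero, neg_zero])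
  have hj0 : j ≠ 0 := fun e => pow_ne_zero (m + 1) ht1 (by rw [← h, e, zero_mul])
  have hmF : ((m + 1 : ℕ) : F) = 0 := by rw [← map_natCast (algebraMap k F), hm, map_zero]
  have hD : D k F j = (j / t) • D k F t := by
    have h1 := congrArg (D k F) h
    rw [Derivation.leibniz, Derivation.leibniz_pow, Derivation.leibniz_pow,
      ← Nat.cast_smul_eq_nsmul F (m + 1), hmF, zero_smul,
      ← Nat.cast_smul_eq_nsmul F m, smul_smul, smul_smul] at h1
    have hm' : (m : F) = -1 := eq_neg_of_add_eq_zero_left (by exact_mod_cast hmF)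
    rw [hm', mul_neg, mul_one, neg_mul, neg_smul, neg_add_eq_zero] at h1
    refine smul_right_injective Ω[F⁄k] (pow_ne_zero m ht0) ?_
    simp only [← h1, smul_smul]
    congr 1
    obtain ⟨l, rfl⟩ : ∃ l, m = l + 1 := ⟨m - 1, by omega⟩
    rw [Nat.add_sub_cancel, pow_succ]
    field_simp
  intro Q hQ
  have key : m * Q.ord t + Q.ord j = (m + 1) * Q.ord (t + 1) := by
    have h1 := congrArg Q.ord h
    rw [Q.ord_mul hj0 (pow_ne_zero _ ht0), ord_pow, ord_pow] at h1
    push_cast at h1
    linarith
  have hone : Q.ord (1 : F) = 0 := by rw [← map_one (algebraMap k F)]; exact ord_algebraMap Q 1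
  have hmpos : (1 : ℤ) ≤ m := by exact_mod_cast hm0
  have ht_ord : Q.ord t = 0 := by
    rcases lt_trichotomy (Q.ord t) 0 with hlt | heq | hgt
    · have : Q.ord (t + 1) = Q.ord t := ord_add_eq_of_lt Q ht0 (by rw [hone]; exact hlt)
      rw [this] at key
      linarith
    · exact heq
    · have : Q.ord (t + 1) = 0 := by
        rw [add_comm, ord_add_eq_of_lt Q one_ne_zero (by rw [hone]; exact hgt), hone]
      rw [this] at key
      nlinarith
  have hdt : Q.ord (t + 1) - 1 ≤ Q.ordDifferential (D k F t) := by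
    have hD1 : D k F (t + 1) = D k F t := by rw [map_add, Derivation.map_one_eq_zero, add_zero]
    have := sub_one_le_ordDifferential_D Q (f := t + 1) (hD1 ▸ ht)
    rwa [hD1] at this
  have hdt0 : 0 ≤ Q.ordDifferential (D k F t) :=
    ordDifferential_D_nonneg Q (mem_of_ord_nonneg Q ht_ord.ge)
  have hL : Q.ord (j ^ 4 * (j - algebraMap k F 1728) ^ 3) = 7 * Q.ord j := by
    rw [h1728, map_zero, sub_zero, ← pow_add, ord_pow]
    norm_num
  rw [hL, hD, ordDifferential_smul_of_ne_zero Q (div_ne_zero hj0 ht0) ht, ord_div Q hj0 ht0,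
    ht_ord, sub_zero]
  rw [ht_ord, mul_zero, zero_add] at key
  have hm4' : (m : ℤ) ≤ 4 := by exact_mod_cast hm4
  rcases le_or_gt (Q.ord (t + 1)) 0 with ha | ha
  · nlinarith
  · nlinarith

end Generic

section Series

variable {k : Type*} [Field k]

/-- `q d/dq` on a subfield of `k((q))`. -/
def qDerivation (M : IntermediateField k (LaurentSeries k)) :
    Derivation k M (LaurentSeries k) :=
  Derivation.mk'
    { toFun := fun x => qDeriv (x : LaurentSeries k)
      map_add' := fun x y => by rw [IntermediateField.coe_add, map_add]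
      map_smul' := fun c x => by
        rw [IntermediateField.coe_smul, Algebra.smul_def, qDeriv_mul, qDeriv_algebraMap, zero_mul,
          zero_add, RingHom.id_apply]
        rw [← C_eq_algebraMap]
        exact HahnSeries.C_mul_eq_smul }
    fun x y => by
      simp only [LinearMap.coe_mk, AddHom.coe_mk, IntermediateField.coe_mul, qDeriv_mul,
        IntermediateField.smul_def, smul_eq_mul]
      ring

theorem D_ne_zero_of_qDeriv {M : IntermediateField k (LaurentSeries k)} {x : M}
    (h : qDeriv (x : LaurentSeries k) ≠ 0) : D k M x ≠ 0 := fun e => h (by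
  haveI : IsScalarTower k M (LaurentSeries k) := IsScalarTower.of_algebraMap_smul fun r y => by
    rw [IntermediateField.smul_def, IntermediateField.coe_algebraMap_apply, smul_eq_mul,
      ← C_eq_algebraMap]
    exact HahnSeries.C_mul_eq_smul
  have := (qDerivation M).liftKaehlerDifferential_comp_D x
  rw [e, map_zero] at this
  exact this.symm)

end Series

variable (N : ℕ) [NeZero N] (k : Type) [Field k] [IsAlgClosed k]

omit [NeZero N] in
theorem div_qExpand_deltaSeries_mem (d : ℕ) [NeZero d] (hd : d ∣ N) (hdk : (d : k) ≠ 0) :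
    deltaSeries k / qExpand k d (deltaSeries k) ∈ modularFunctionFieldFullC k N := by
  rw [← inv_div]
  exact inv_mem (deltaRatio_mem N d hd hdk (isIntegral_jqd k d).isAlgebraic)

theorem differentBound_jRes_two [CharP k 2] (_h2 : ¬ 2 ∣ N) (h3 : 3 ∣ N) :
    DifferentBound (k := k) (jRes k N) := by
  have hk2 : (2 : k) = 0 := CharP.cast_eq_zero k 2
  have hk3 : ((3 : ℕ) : k) ≠ 0 := by rw [ne_eq, CharP.cast_eq_zero_iff k 2]; norm_num
  have hid := SmallId.deltaSeries_mul_qExpand_three k
  have hjd := SmallId.jqModC_mul_deltaSeries_eq_one (R := k)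
    (by linear_combination (120 : k) * hk2)
  set x := deltaSeries k with hx
  set y := qExpand k 3 (deltaSeries k) with hy
  have hlx : HasLead x 1 (1 : k) := Igusa.hasLead_deltaSeries
  have hly : HasLead y 3 (1 : k) := by simpa using hlx.qExpand 3
  have hx0 : x ≠ 0 := hlx.ne_zero one_ne_zero
  have hy0 : y ≠ 0 := hly.ne_zero one_ne_zero
  have hj : jqModC k = x⁻¹ := eq_inv_of_mul_eq_one_left hjd
  have h2L : (2 : LaurentSeries k) = 0 := by
    rw [← map_ofNat (HahnSeries.C (Γ := ℤ) (R := k)) 2, hk2, map_zero]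
  set E : modularFunctionFieldFullC k N := ⟨x / y, div_qExpand_deltaSeries_mem N k 3 h3 hk3⟩
    with hE
  set t : modularFunctionFieldFullC k N := (E + 1) ^ 2 / (jRes k N * E) with htdef
  have hcj : ((jRes k N : modularFunctionFieldFullC k N) : LaurentSeries k) = x⁻¹ := hj
  have hct : (t : LaurentSeries k) = (x / y + 1) ^ 2 / (x⁻¹ * (x / y)) := by
    simp only [htdef, hE, IntermediateField.coe_div, IntermediateField.coe_mul,
      IntermediateField.coe_pow, IntermediateField.coe_add, IntermediateField.coe_one, hcj]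
  have hsq : (t : LaurentSeries k) ^ 2 = x / y := by
    rw [hct]
    field_simp
    linear_combination (-1 : LaurentSeries k) * hid +
      (2 * x ^ 3 * y + 3 * x ^ 2 * y ^ 2 + 2 * x * y ^ 3) * h2L
  have heq : jRes k N * t ^ 3 = (t + 1) ^ (3 + 1) := by
    apply Subtype.ext
    simp only [IntermediateField.coe_mul, IntermediateField.coe_pow, IntermediateField.coe_add,
      IntermediateField.coe_one, hcj]
    have h4 : ((t : LaurentSeries k) + 1) ^ (3 + 1) = (x / y + 1) ^ 2 := by
      rw [← hsq]
      linear_combination (2 * (t : LaurentSeries k) ^ 3 + 2 * (t : LaurentSeries k) ^ 2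
        + 2 * (t : LaurentSeries k)) * h2L
    rw [h4, pow_succ, hsq, hct]
    field_simp
  refine differentBound_of_eq 3 (by norm_num) (by norm_num)
    (by norm_num; linear_combination (2 : k) * hk2) (by linear_combination (864 : k) * hk2) heq
    (D_ne_zero_of_qDeriv fun h0 => ?_)
  have hl2 : HasLead ((t : LaurentSeries k) ^ 2) (-2) (1 : k) := by
    rw [hsq]
    exact SmallId.hasLead_congr (SmallId.hasLead_div hlx hly one_ne_zero) (by norm_num) (div_one 1)
  have ht0 : (t : LaurentSeries k) ≠ 0 := fun e => hl2.ne_zero one_ne_zero (by rw [e]; simp)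
  have hlt : HasLead (t : LaurentSeries k) (t : LaurentSeries k).order
      ((t : LaurentSeries k).coeff (t : LaurentSeries k).order) :=
    ⟨fun n hn => HahnSeries.coeff_eq_zero_of_lt_order hn, rfl⟩
  have hne := HahnSeries.coeff_order_eq_zero.not.2 ht0
  have ho := (hlt.pow 2).index_unique (pow_ne_zero 2 hne) hl2 one_ne_zero
  have h1 : (t : LaurentSeries k).order = -1 := by omega
  have h3' := congrArg (fun z : LaurentSeries k => z.coeff (-1)) h0
  simp only [qDeriv_coeff, HahnSeries.coeff_zero, Int.cast_neg, Int.cast_one, neg_mul, one_mul,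
    neg_eq_zero] at h3'
  rw [h1] at hne
  exact hne h3'

theorem differentBound_jRes_three [CharP k 3] (_h3 : ¬ 3 ∣ N) (h2 : 2 ∣ N) :
    DifferentBound (k := k) (jRes k N) := by
  have hk3 : (3 : k) = 0 := CharP.cast_eq_zero k 3
  have hk2 : ((2 : ℕ) : k) ≠ 0 := by rw [ne_eq, CharP.cast_eq_zero_iff k 3]; norm_num
  have hid := SmallId.deltaSeries_mul_qExpand_two k
  have hjd := SmallId.jqModC_mul_deltaSeries_eq_one (R := k)
    (by linear_combination (80 : k) * hk3)
  set x := deltaSeries k with hx
  set y := qExpand k 2 (deltaSeries k) with hy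
  have hlx : HasLead x 1 (1 : k) := Igusa.hasLead_deltaSeries
  have hly : HasLead y 2 (1 : k) := by simpa using hlx.qExpand 2
  have hx0 : x ≠ 0 := hlx.ne_zero one_ne_zero
  have hy0 : y ≠ 0 := hly.ne_zero one_ne_zero
  have hj : jqModC k = x⁻¹ := eq_inv_of_mul_eq_one_left hjd
  set t : modularFunctionFieldFullC k N := ⟨x / y, div_qExpand_deltaSeries_mem N k 2 h2 hk2⟩
    with ht
  have hcj : ((jRes k N : modularFunctionFieldFullC k N) : LaurentSeries k) = x⁻¹ := hj
  have heq : jRes k N * t ^ 2 = (t + 1) ^ (2 + 1) := by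
    apply Subtype.ext
    simp only [ht, IntermediateField.coe_mul, IntermediateField.coe_pow, IntermediateField.coe_add,
      IntermediateField.coe_one, hcj]
    rw [div_add_one hy0, div_pow, div_pow, ← hid]
    field_simp
  refine differentBound_of_eq 2 (by norm_num) (by norm_num) (by norm_num; exact hk3)
    (by linear_combination (576 : k) * hk3) heq (D_ne_zero_of_qDeriv fun h0 => ?_)
  have hl : HasLead (x / y) (-1) (1 : k) :=
    SmallId.hasLead_congr (SmallId.hasLead_div hlx hly one_ne_zero) (by norm_num) (div_one 1)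
  have h1 := congrArg (fun z : LaurentSeries k => z.coeff (-1)) h0
  simp only [ht, qDeriv_coeff, hl.coeff_eq, HahnSeries.coeff_zero] at h1
  simp at h1

end Fermat.Agent.Reduction
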