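import Fermat.Agent.Modular.EllipticPlaces
import Fermat.Agent.Modular.EllipticFL
import Fermat.Agent.Modular.Degree

/-!
# Ramification of `j` on `X₀(N)` in characteristic zero

`e ≤ 3` above `0`, `e ≤ 2` above `1728`, `e = 1` elsewhere.

Owner: helper65.
-/

set_option autoImplicit false

noncomputable section

open UpperHalfPlane hiding I
open Complex ModularForm EisensteinSeries CongruenceSubgroup ModularGroup AlgebraicCurve
open Fermat.Agent.Curve Fermat.Agent.Modular
open scoped MatrixGroups IntermediateField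

namespace Fermat.Agent.Reduction

variable {N : ℕ} [NeZero N] {K F : Type*} [Field K] [IsAlgClosed K] [CharZero K] [Field F]
  [Algebra K F] [IsFunctionField1 K F]

/-- The ramification index above `j = c` is bounded by the size of a stabiliser orbit. -/
theorem ord_le_of_stabClass (ι : K →+* ℂ) (ev : F →+* Mero)
    (hevK : ∀ a, ev (algebraMap K F a) = algebraMap ℂ Mero (ι a)) {j : F} (hjt : Transcendental K j)
    (hj : ev j = algebraMap Hol Mero kleinJHol)
    (hinv : ∀ γ ∈ Gamma0 N, ∀ f, translate γ (ev f) = ev f)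
    (hdist : ∀ g h : SL(2, ℤ), (∀ f, translate g (ev f) = translate h (ev f)) → g⁻¹ * h ∈ Gamma0 N)
    (hdeg : Module.finrank K⟮j⟯ F = ModularCurve.dedekindPsi N)
    {c : K} {z : ℍ} (hz : kleinJ z = ι c)
    (hdiv : ∀ (q : SL(2, ℤ) ⧸ Gamma0 N) (φ : Mero), φ ≠ 0 →
      (∀ γ : SL(2, ℤ), γ • q = q → translate γ φ = φ) →
      (jDegree z : ℤ) ∣ (Nat.card {q' // stabClass N z q' = stabClass N z q} : ℤ) * ordPt z φ)
    (P : Place K F) (hP : 0 < P.ord (j - algebraMap K F c)) :
    ∃ q : SL(2, ℤ) ⧸ Gamma0 N, P.ord (j - algebraMap K F c) =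
      (Nat.card {q' // stabClass N z q' = stabClass N z q} : ℤ) := by
  classical
  let _ : Fintype (SL(2, ℤ) ⧸ Gamma0 N) := Fintype.ofFinite _
  let _ : Fintype (StabOrbit N z) := Fintype.ofFinite _
  let σ : SL(2, ℤ) ⧸ Gamma0 N → F →+* Mero := fun q => (translate q.out).toRingHom.comp ev
  have hσ : ∀ (g : SL(2, ℤ)) (f : F), σ (g : SL(2, ℤ) ⧸ Gamma0 N) f = translate g (ev f) := by
    intro g f
    obtain ⟨γ, hγ⟩ := QuotientGroup.mk_out_eq_mul (Gamma0 N) g
    show translate _ (ev f) = _
    rw [hγ, translate_mul, hinv _ γ.2]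
  have hσm : ∀ (γ : SL(2, ℤ)) q f, translate γ (σ q f) = σ (γ • q) f := by
    intro γ q f
    induction q using QuotientGroup.induction_on with
    | H g => rw [MulAction.Quotient.smul_coe, smul_eq_mul, hσ, hσ, translate_mul]
  set y := j - algebraMap K F c with hy
  have hyt : Transcendental K y := fun h => hjt (by
    have := h.add (isAlgebraic_algebraMap c)
    simpa [hy] using this)
  have hevy : ev y = algebraMap Hol Mero (kleinJHol - algebraMap ℂ Hol (kleinJ z)) := by
    rw [hy, map_sub, map_sub, hj, hevK, hz, ← IsScalarTower.algebraMap_apply]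
  have hσy : ∀ q, σ q y = ev y := by
    intro q
    show translate _ (ev y) = ev y
    rw [hevy, map_sub, map_sub, translate_kleinJHol, ← IsScalarTower.algebraMap_apply, translate_const]
  obtain ⟨Φ, hΦ, -⟩ := exists_equiv_places_above (addOrd z) (stabClass N z)
    (stabClass_surjective N z) y hyt σ
    (fun q q' h => by
      induction q using QuotientGroup.induction_on with
      | H g =>
        induction q' using QuotientGroup.induction_on with
        | H g' =>
          rw [QuotientGroup.eq]
          exact hdist g g' fun f => by rw [← hσ, ← hσ, h])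
    (by rw [← Nat.card_eq_fintype_card, hy, Modular.adjoin_sub_algebraMap j c, hdeg, ← index_Gamma0 N]
        rfl)
    (fun q q' a => by
      show translate _ (ev _) = translate _ (ev _)
      rw [hevK, translate_const, translate_const])
    (fun q q' => by rw [hσy, hσy])
    (fun q a ha => by
      show addOrd z (translate _ (ev _)) = 0
      rw [hevK, translate_const]
      exact addOrd_const z (by simpa using ha))
    (jDegree z : ℤ) (by unfold jDegree; split_ifs <;> norm_num)
    (fun q => by
      rw [hσy, hevy, addOrd_apply _ (fun h0 => kleinJHol_sub_const_ne_zero (kleinJ z) (IsFractionRing.injective Hol Mero (h0.trans (map_zero _).symm))),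
        ordPt_algebraMap (kleinJHol_sub_const_ne_zero _), holOrd_kleinJHol_sub])
    (fun q q' h f => by
      obtain ⟨γ, hγ, rfl⟩ := (stabClass_eq_iff N z q q').1 h
      rw [← hσm, addOrd_translate, inv_smul_eq_iff.mpr hγ.symm])
    (fun q f m h => by
      obtain ⟨hne, rfl⟩ := ordPt_eq_of_addOrd h
      exact hdiv q _ hne fun γ hγ => by rw [hσm, hγ])
  obtain ⟨o, ho⟩ := Φ.surjective ⟨P, hP⟩
  obtain ⟨q, rfl⟩ := stabClass_surjective N z o
  refine ⟨q, ?_⟩
  have h := hΦ (stabClass N z q)
  rw [ho] at h
  exact h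

theorem natCard_stabClass_pointRho_le (q : SL(2, ℤ) ⧸ Gamma0 N) :
    Nat.card {q' // stabClass N pointRho q' = stabClass N pointRho q} ≤ 3 := by
  classical
  by_cases h : (S * T) • q = q
  · have : Subsingleton {q' // stabClass N pointRho q' = stabClass N pointRho q} := by
      refine subsingleton_of_forall_eq ⟨q, rfl⟩ fun x => Subtype.ext ?_
      obtain ⟨γ, hγ, e⟩ := (stabClass_eq_iff N pointRho x.1 q).1 x.2
      have h2 : (S * T) ^ 2 • q = q := by rw [pow_two, mul_smul, h, h]
      rcases (stabilizer_pointRho_iff γ).1 hγ with rfl | rfl | rfl | rfl | rfl | rfl <;>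
        simp [neg_smul_coset, h, h2] at e ⊢ <;> exact e.symm
    exact le_trans (Finite.card_le_one_iff_subsingleton.mpr this) (by norm_num)
  · exact (natCard_stabClass_pointRho h).le

section FL

variable (M : ℕ) [NeZero M] {L : Type*} [Field L] [Algebra ℚ L] [IsAlgClosed L] [CharZero L]
  (ι : L →+* ℂ) [IsFunctionField1 L (FL M L)]

include ι

theorem jL_ord_le_three (P : Place L (FL M L)) (h : 0 < P.ord (jL M L)) :
    P.ord (jL M L) ≤ 3 := by
  have hz : kleinJ pointRho = ι 0 := by rw [map_zero, kleinJ_eq_zero_iff]; exact E4_pointRho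
  obtain ⟨q, hq⟩ := ord_le_of_stabClass ι (sigma M ι 1) (sigma_one_algebraMap ι)
    (transcendental_jL M ι) (sigma_one_jL ι) (fun _ hγ f => translate_sigma_one_of_mem ι hγ f)
    (fun _ _ h => inv_mul_mem_of_sigma_eq ι h) (finrank_FL M ι) hz (fun q φ hφ hfix => by
      rw [jDegree_pointRho]
      by_cases hq : (S * T) • q = q
      · exact Dvd.dvd.mul_left (three_dvd_ordPt_pointRho hφ (hfix _ hq)) _
      · rw [natCard_stabClass_pointRho hq]
        exact dvd_mul_right _ _) P (by simpa using h)
  rw [map_zero, sub_zero] at hq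
  rw [hq]
  exact_mod_cast natCard_stabClass_pointRho_le q

theorem jL_ord_le_two (P : Place L (FL M L))
    (h : 0 < P.ord (jL M L - algebraMap L (FL M L) 1728)) :
    P.ord (jL M L - algebraMap L (FL M L) 1728) ≤ 2 := by
  classical
  have hz : kleinJ UpperHalfPlane.I = ι 1728 := by
    rw [map_ofNat, kleinJ_eq_1728_iff]; exact E6_I
  obtain ⟨q, hq⟩ := ord_le_of_stabClass ι (sigma M ι 1) (sigma_one_algebraMap ι)
    (transcendental_jL M ι) (sigma_one_jL ι) (fun _ hγ f => translate_sigma_one_of_mem ι hγ f)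
    (fun _ _ h => inv_mul_mem_of_sigma_eq ι h) (finrank_FL M ι) hz (fun q φ hφ hfix => by
      rw [jDegree_I]
      by_cases hq : S • q = q
      · exact Dvd.dvd.mul_left (two_dvd_ordPt_I hφ (hfix _ hq)) _
      · rw [natCard_stabClass_I hq]
        exact dvd_mul_right _ _) P h
  rw [hq]
  by_cases hS : S • q = q
  · have : Subsingleton {q' // stabClass M UpperHalfPlane.I q' =
        stabClass M UpperHalfPlane.I q} := by
      refine subsingleton_of_forall_eq ⟨q, rfl⟩ fun x => Subtype.ext ?_
      obtain ⟨γ, hγ, e⟩ := (stabClass_eq_iff M UpperHalfPlane.I x.1 q).1 x.2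
      rcases (stabilizer_I_iff γ).1 hγ with rfl | rfl | rfl | rfl <;>
        simp [neg_smul_coset] at e ⊢
      · exact e.symm
      · exact e.symm
      · exact e.symm.trans hS
      · exact e.symm.trans hS
    have := Finite.card_le_one_iff_subsingleton.mpr this
    omega
  · rw [natCard_stabClass_I hS]; norm_num

theorem jL_ord_eq_one {c : L} (h0 : c ≠ 0) (h1 : c ≠ 1728) (P : Place L (FL M L))
    (h : 0 < P.ord (jL M L - algebraMap L (FL M L) c)) :
    P.ord (jL M L - algebraMap L (FL M L) c) = 1 := by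
  obtain ⟨z, hz⟩ := kleinJ_surjective (ι c)
  have hj0 : kleinJ z ≠ 0 := by rw [hz]; simpa using h0
  have hj1 : kleinJ z ≠ 1728 := by
    rw [hz, ← map_ofNat ι 1728]; exact fun h => h1 (ι.injective h)
  obtain ⟨q, hq⟩ := ord_le_of_stabClass ι (sigma M ι 1) (sigma_one_algebraMap ι)
    (transcendental_jL M ι) (sigma_one_jL ι) (fun _ hγ f => translate_sigma_one_of_mem ι hγ f)
    (fun _ _ h => inv_mul_mem_of_sigma_eq ι h) (finrank_FL M ι) hz
    (fun q φ _ _ => by rw [jDegree_eq_one hj0 hj1]; exact one_dvd _) P h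
  rw [hq]
  have : Subsingleton {q' // stabClass M z q' = stabClass M z q} := by
    refine subsingleton_of_forall_eq ⟨q, rfl⟩ fun x => Subtype.ext ?_
    obtain ⟨γ, hγ, e⟩ := (stabClass_eq_iff M z x.1 q).1 x.2
    rcases (stabilizer_generic (mt (kleinJ_eq_zero_iff z).2 hj0)
      (mt (kleinJ_eq_1728_iff z).2 hj1) γ).1 hγ with rfl | rfl <;>
      simp [neg_smul_coset] at e ⊢ <;> exact e.symm
  have h2 := Finite.card_le_one_iff_subsingleton.mpr this
  omega

end FL

end Fermat.Agent.Reduction
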