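import Fermat.Agent.Reduction.Genus
import Fermat.Agent.Reduction.ModularData
import Fermat.Agent.Reduction.Ramification
import Fermat.Agent.Reduction.DifferentSmall
import Fermat.Agent.Reduction.PsiPrime
import Fermat.Agent.EC.Red.ResidueQbar

/-!
# The auxiliary level

In characteristic `2` (resp. `3`) the bound on the different of `j` is obtained from the level-`3`
(resp. level-`2`) Hauptmodul, so `N` is replaced by `N * auxFactor N ℓ`; the covering degree is a
power of `ℓ`, so nothing is lost on torsion prime to `ℓ`.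

Owner: helper65.
-/

set_option autoImplicit false

noncomputable section

namespace Fermat.Agent.Reduction

open AlgebraicCurve ModularCurve Fermat.Agent.Curve KaehlerDifferential
open scoped IntermediateField

/-- `3` in characteristic `2` and `2` in characteristic `3`, unless it already divides `N`. -/
def auxFactor (N ℓ : ℕ) : ℕ :=
  if ℓ = 2 ∧ ¬ 3 ∣ N then 3 else if ℓ = 3 ∧ ¬ 2 ∣ N then 2 else 1

theorem auxFactor_pos (N ℓ : ℕ) : 0 < auxFactor N ℓ := by
  unfold auxFactor
  split_ifs <;> norm_num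

instance neZero_auxFactor (N ℓ : ℕ) : NeZero (auxFactor N ℓ) := ⟨(auxFactor_pos N ℓ).ne'⟩

variable (N : ℕ) [NeZero N] {ℓ : ℕ} [Fact ℓ.Prime] (hℓN : ¬ ℓ ∣ N)

omit [NeZero N] in
include hℓN in
theorem not_dvd_mul_auxFactor : ¬ ℓ ∣ N * auxFactor N ℓ := by
  have hp : ℓ.Prime := Fact.out
  unfold auxFactor
  split_ifs with h2 h3
  · rw [hp.dvd_mul]; rintro (h | h)
    · exact hℓN h
    · rw [h2.1] at h; omega
  · rw [hp.dvd_mul]; rintro (h | h)
    · exact hℓN h
    · rw [h3.1] at h; omega
  · simpa using hℓN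

omit hℓN in
theorem index_mul_auxFactor :
    ∃ e : ℕ, (CongruenceSubgroup.Gamma0 (N * auxFactor N ℓ)).index =
      ℓ ^ e * (CongruenceSubgroup.Gamma0 N).index := by
  unfold auxFactor
  split_ifs with h2 h3
  · exact ⟨2, by rw [index_Gamma0_mul_prime Nat.prime_three h2.2, h2.1]; ring⟩
  · exact ⟨1, by rw [index_Gamma0_mul_prime Nat.prime_two h3.2, h3.1]; ring⟩
  · exact ⟨0, by simp⟩

omit [NeZero N] [Fact ℓ.Prime] hℓN in
theorem auxFactor_spec :
    (ℓ = 2 → 3 ∣ N * auxFactor N ℓ) ∧ (ℓ = 3 → 2 ∣ N * auxFactor N ℓ) := by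
  unfold auxFactor
  constructor <;> rintro rfl <;> split_ifs with h1 h2 <;>
    simp_all [Nat.Prime.dvd_mul Nat.prime_two, Nat.Prime.dvd_mul Nat.prime_three,
      Nat.dvd_iff_mod_eq_zero]

section Ramification

/-- An embedding of `ℚ̄` in `ℂ`. -/
def qbarEmb : AlgebraicClosure ℚ →+* ℂ :=
  haveI : Algebra.IsAlgebraic ℚ (AlgebraicClosure ℚ) := AlgebraicClosure.isAlgebraic ℚ
  (IsAlgClosed.lift : AlgebraicClosure ℚ →ₐ[ℚ] ℂ).toRingHom

theorem jBar_eq_jL : jBar N = Modular.jL N (AlgebraicClosure ℚ) := rfl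

/-- Ramification of `j` on `X₀(N)` in characteristic zero. -/
theorem jBar_ord_le_three (P : Place (AlgebraicClosure ℚ) (modularFunctionFieldBar N))
    (h : 0 < P.ord (jBar N)) : P.ord (jBar N) ≤ 3 :=
  jL_ord_le_three N qbarEmb P h

theorem jBar_ord_le_two (P : Place (AlgebraicClosure ℚ) (modularFunctionFieldBar N))
    (h : 0 < P.ord (jBar N - algebraMap _ (modularFunctionFieldBar N)
      (1728 : AlgebraicClosure ℚ))) :
    P.ord (jBar N - algebraMap _ (modularFunctionFieldBar N) (1728 : AlgebraicClosure ℚ)) ≤ 2 :=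
  jL_ord_le_two N qbarEmb P h

theorem jBar_ord_eq_one {c : AlgebraicClosure ℚ} (hc0 : c ≠ 0) (hc : c ≠ 1728)
    (P : Place (AlgebraicClosure ℚ) (modularFunctionFieldBar N))
    (h : 0 < P.ord (jBar N - algebraMap _ (modularFunctionFieldBar N) c)) :
    P.ord (jBar N - algebraMap _ (modularFunctionFieldBar N) c) = 1 :=
  jL_ord_eq_one N qbarEmb hc0 hc P h

end Ramification

/-- The bound on the different holds when `6` is invertible. -/
theorem differentBound_of_six_ne_zero {k Fb : Type*} [Field k] [IsAlgClosed k] [Field Fb]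
    [Algebra k Fb] [IsFunctionField1 k Fb] {jb : Fb} (htr : Transcendental k jb)
    (hsep : Algebra.IsSeparable k⟮jb⟯ Fb) (h1728 : (1728 : k) ≠ 0) :
    DifferentBound (k := k) jb := by
  intro Q hQ
  have hD : D k Fb jb ≠ 0 := D_ne_zero_of_isSeparable htr
  have hsub : ∀ c : k, jb - algebraMap k Fb c ≠ 0 := fun c h =>
    htr (sub_eq_zero.mp h ▸ isAlgebraic_algebraMap c)
  have hj0 : jb ≠ 0 := by simpa using hsub 0
  rw [Q.ord_mul (pow_ne_zero _ hj0) (pow_ne_zero _ (hsub _)), ord_pow, ord_pow]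
  set c := Curve.evalAt Q jb with hc
  have hpos : 0 < Q.ord (jb - algebraMap k Fb c) :=
    (Curve.evalAt_spec Q (mem_of_ord_nonneg Q hQ)).resolve_left (hsub c)
  have hd : Q.ord (jb - algebraMap k Fb c) - 1 ≤ Q.ordDifferential (D k Fb jb) := by
    have h := sub_one_le_ordDifferential_D Q (f := jb - algebraMap k Fb c)
      (by rwa [map_sub, Derivation.map_algebraMap, sub_zero])
    rwa [map_sub, Derivation.map_algebraMap, sub_zero] at h
  have hsame : ∀ c' : k, c' ≠ c → Q.ord (jb - algebraMap k Fb c') = 0 := by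
    intro c' hne
    have e : jb - algebraMap k Fb c' =
        algebraMap k Fb (c - c') + (jb - algebraMap k Fb c) := by
      rw [map_sub]; ring
    rw [e, ord_add_eq_of_lt Q ((map_ne_zero _).mpr (sub_ne_zero.mpr hne.symm))
      (by rwa [ord_algebraMap]), ord_algebraMap]
  push_cast
  rcases eq_or_ne c 0 with hc0 | hc0
  · rw [hc0, map_zero, sub_zero] at hpos hd
    have := hsame 1728 (by rw [hc0]; exact h1728)
    omega
  · have hj00 : Q.ord jb = 0 := by simpa using hsame 0 hc0.symm
    rcases eq_or_ne c 1728 with hc17 | hc17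
    · rw [hc17] at hpos hd
      omega
    · have := hsame 1728 hc17.symm
      omega

variable (A : ValuationSubring (AlgebraicClosure ℚ)) (hA : A.LiesOverPrime ℓ)

include hℓN hA in
/-- The bound on the different at levels where it is elementary. -/
theorem differentBound_jRes (hN : (ℓ = 2 → 3 ∣ N) ∧ (ℓ = 3 → 2 ∣ N)) :
    DifferentBound (k := IsLocalRing.ResidueField A) (jRes (IsLocalRing.ResidueField A) N) := by
  have hp : ℓ.Prime := Fact.out
  have : IsAlgClosed (IsLocalRing.ResidueField A) := EC.isAlgClosed_residueField A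
  have : CharP (IsLocalRing.ResidueField A) ℓ := EC.charP_residueField A hp hA
  by_cases h2 : ℓ = 2
  · subst h2
    exact differentBound_jRes_two N _ hℓN (hN.1 rfl)
  by_cases h3 : ℓ = 3
  · subst h3
    exact differentBound_jRes_three N _ hℓN (hN.2 rfl)
  refine differentBound_of_six_ne_zero (transcendental_jRes N _)
    (isSeparable_jRes N hℓN A hA) ?_
  have hn : ¬ ℓ ∣ 1728 := fun h => by
    rw [show 1728 = 2 ^ 6 * 3 ^ 3 by norm_num, hp.dvd_mul] at h
    rcases h with h | h
    · exact h2 ((Nat.prime_dvd_prime_iff_eq hp Nat.prime_two).mp (hp.dvd_of_dvd_pow h))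
    · exact h3 ((Nat.prime_dvd_prime_iff_eq hp Nat.prime_three).mp (hp.dvd_of_dvd_pow h))
  exact_mod_cast EC.natCast_residue_ne_zero A hp hA hn

include hℓN hA in
theorem genusFF_le_modL (hN : (ℓ = 2 → 3 ∣ N) ∧ (ℓ = 3 → 2 ∣ N)) :
    genusFF (AlgebraicClosure ℚ) (modularFunctionFieldBar N) ≤
      genusFF (IsLocalRing.ResidueField A)
        (modularFunctionFieldFullC (IsLocalRing.ResidueField A) N) := by
  have : IsAlgClosed (IsLocalRing.ResidueField A) := EC.isAlgClosed_residueField A
  exact (gaussDataX0 N hℓN A hA).genusFF_le_of_ramification (j := jBar N)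
    (jb := jRes (IsLocalRing.ResidueField A) N) (jBar_jRes_mem N A)
    (transcendental_jRes N _) (finrank_jRes N hℓN A hA) (isSeparable_jRes N hℓN A hA)
    (jBar_ord_le_three N) (jBar_ord_le_two N)
    (fun _ h0 h1 => jBar_ord_eq_one N h0 h1) (differentBound_jRes N hℓN A hA hN)

end Fermat.Agent.Reduction
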