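import Mathlib.FieldTheory.Perfect
import Mathlib.FieldTheory.Separable
import Mathlib.FieldTheory.IntermediateField.Algebraic
import Mathlib.FieldTheory.Minpoly.Field
import Fermat.Prelude.Def_ModularCurve_X0ModL
import Fermat.Agent.Igusa.Base

/-!
# `q d/dq` on Laurent series, separability over `k(x)` and transcendence of `j`

Over a perfect field `k`, every element of `k((q))` algebraic over `k(x)` with `x' ≠ 0` is
separable over `k(x)`, and its derivative is `x'` times an element of the field they generate.
-/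

set_option autoImplicit false
set_option linter.style.haveILetI false

noncomputable section

open ModularCurve Polynomial
open scoped IntermediateField

namespace Fermat.Agent.Reduction

section Deriv

variable {R S : Type*} [CommRing R] [CommRing S]

/-- The derivation `q d/dq`. -/
def qDeriv : LaurentSeries R →+ LaurentSeries R where
  toFun x := ⟨fun n => (n : R) * x.coeff n, x.isPWO_support.mono fun n hn h => hn (by simp [h])⟩
  map_zero' := by ext n; simp
  map_add' x y := by ext n; simp [mul_add]

@[simp]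
theorem qDeriv_coeff (x : LaurentSeries R) (n : ℤ) :
    (qDeriv x).coeff n = (n : R) * x.coeff n := rfl

theorem qDeriv_mul (x y : LaurentSeries R) :
    qDeriv (x * y) = qDeriv x * y + x * qDeriv y := by
  have hx : (qDeriv x).support ⊆ x.support := fun n hn h => hn (by simp [h])
  have hy : (qDeriv y).support ⊆ y.support := fun n hn h => hn (by simp [h])
  ext n
  rw [HahnSeries.coeff_add, qDeriv_coeff, HahnSeries.coeff_mul, Finset.mul_sum,
    HahnSeries.coeff_mul_left' x.isPWO_support hx, HahnSeries.coeff_mul_right' y.isPWO_support hy,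
    ← Finset.sum_add_distrib]
  refine Finset.sum_congr rfl fun ij hij => ?_
  obtain ⟨-, -, h⟩ := Finset.mem_antidiagonal.1 hij
  simp only [qDeriv_coeff, ← h, Int.cast_add]
  ring

@[simp]
theorem qDeriv_C (c : R) : qDeriv (HahnSeries.C c) = 0 := by
  ext n
  rcases eq_or_ne n 0 with rfl | hn
  · simp
  · simp [HahnSeries.C_apply, HahnSeries.coeff_single_of_ne hn]

theorem qDeriv_pow (x : LaurentSeries R) (m : ℕ) :
    qDeriv (x ^ m) = (m : LaurentSeries R) * x ^ (m - 1) * qDeriv x := by
  induction m with
  | zero => rw [pow_zero, ← map_one (HahnSeries.C (Γ := ℤ) (R := R)), qDeriv_C]; simp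
  | succ m ih =>
    rw [pow_succ, qDeriv_mul, ih]
    rcases m with _ | m
    · simp
    · simp only [Nat.succ_sub_one, Nat.cast_succ, pow_succ]; ring

theorem coeffMap_qDeriv (f : R →+* S) (x : LaurentSeries R) :
    coeffMap f (qDeriv x) = qDeriv (coeffMap f x) := by
  ext n
  simp

theorem qDeriv_qExpand (d : ℕ) [NeZero d] (x : LaurentSeries R) :
    qDeriv (qExpand R d x) = HahnSeries.C (d : R) * qExpand R d (qDeriv x) := by
  ext n
  rw [qDeriv_coeff, HahnSeries.C_apply, HahnSeries.coeff_single_zero_mul]
  by_cases h : (d : ℤ) ∣ n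
  · obtain ⟨m, rfl⟩ := h
    rw [qExpand_coeff_mul, qExpand_coeff_mul, qDeriv_coeff]
    push_cast
    ring
  · rw [qExpand_coeff_of_not_dvd _ _ h, qExpand_coeff_of_not_dvd _ _ h]
    simp

/-- Evaluation of a polynomial at a series. -/
abbrev evalAt (x : LaurentSeries R) : R[X] →+* LaurentSeries R :=
  Polynomial.eval₂RingHom HahnSeries.C x

theorem qDeriv_evalAt (x : LaurentSeries R) (f : R[X]) :
    qDeriv (evalAt x f) = evalAt x f.derivative * qDeriv x := by
  induction f using Polynomial.induction_on with
  | C a => simp [← HahnSeries.C_apply]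
  | add f g hf hg => rw [map_add, map_add, hf, hg, derivative_add, map_add, add_mul]
  | monomial m a _ =>
    rw [map_mul, map_pow, qDeriv_mul, qDeriv_pow, derivative_C_mul_X_pow, map_mul, map_pow]
    simp only [coe_eval₂RingHom, eval₂_C, eval₂_X, qDeriv_C, zero_mul, zero_add,
      Nat.succ_sub_one, map_mul, map_natCast]
    ring

theorem qDeriv_jqModC_ne_zero (R : Type*) [CommRing R] [Nontrivial R] :
    qDeriv (jqModC R) ≠ 0 := fun h => by
  have := congrArg (fun z : LaurentSeries R => z.coeff (-1)) h
  simp [coeff_jqModC_neg_one] at this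

theorem evalAt_jqModC_injective (R : Type*) [CommRing R] :
    Function.Injective (evalAt (jqModC R)) := by
  rw [injective_iff_map_eq_zero]
  intro f hf
  by_contra h
  have h1 := congrArg (fun z : LaurentSeries R => z.coeff (-(f.natDegree : ℤ))) hf
  simp only [coe_eval₂RingHom, eval₂_eq_sum_range, HahnSeries.coeff_sum, HahnSeries.coeff_zero,
    HahnSeries.C_apply, HahnSeries.coeff_single_zero_mul] at h1
  rw [Finset.sum_eq_single f.natDegree, coeff_jqModC_pow_self, mul_one] at h1
  · exact h (Polynomial.leadingCoeff_eq_zero.1 h1)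
  · intro i hi hne
    have : i < f.natDegree := by have := Finset.mem_range.1 hi; omega
    rw [coeff_jqModC_pow_of_lt R (by omega), mul_zero]
  · intro hmem
    simp at hmem

end Deriv

section Sep

variable {k : Type*} [Field k]

theorem C_eq_algebraMap (c : k) :
    (HahnSeries.C c : LaurentSeries k) = algebraMap k (LaurentSeries k) c := by
  rw [algebraMap_laurentSeries_eq_single, HahnSeries.C_apply]

theorem evalAt_eq_aeval (x : LaurentSeries k) (f : k[X]) : evalAt x f = aeval x f := by
  rw [coe_eval₂RingHom, aeval_def]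
  congr 1
  exact RingHom.ext C_eq_algebraMap

theorem qDeriv_algebraMap (c : k) : qDeriv (algebraMap k (LaurentSeries k) c) = 0 := by
  rw [← C_eq_algebraMap, qDeriv_C]

theorem qDeriv_inv (x : LaurentSeries k) : qDeriv x⁻¹ = -qDeriv x * (x⁻¹) ^ 2 := by
  rcases eq_or_ne x 0 with rfl | hx
  · simp
  have h := qDeriv_mul x x⁻¹
  rw [mul_inv_cancel₀ hx, ← map_one (HahnSeries.C (Γ := ℤ) (R := k)), qDeriv_C] at h
  have h2 : x⁻¹ * x = 1 := inv_mul_cancel₀ hx
  linear_combination (-x⁻¹) * h - qDeriv x⁻¹ * h2

theorem transcendental_jqModC (k : Type*) [Field k] : Transcendental k (jqModC k) := by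
  rintro ⟨f, hf, h⟩
  rw [← evalAt_eq_aeval] at h
  exact hf (evalAt_jqModC_injective k (by rw [h, map_zero]))

theorem exists_qDeriv_eq_of_mem {x e : LaurentSeries k} (he : e ∈ k⟮x⟯) :
    ∃ e' ∈ k⟮x⟯, qDeriv e = e' * qDeriv x := by
  induction he using IntermediateField.adjoin_induction with
  | mem y hy =>
    obtain rfl := Set.mem_singleton_iff.1 hy
    exact ⟨1, one_mem _, (one_mul _).symm⟩
  | algebraMap c => exact ⟨0, zero_mem _, by rw [qDeriv_algebraMap, zero_mul]⟩
  | add y z _ _ h1 h2 =>
    obtain ⟨y', hy, ey⟩ := h1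
    obtain ⟨z', hz, ez⟩ := h2
    exact ⟨y' + z', add_mem hy hz, by rw [map_add, ey, ez, add_mul]⟩
  | inv y hy h1 =>
    obtain ⟨y', hy', ey⟩ := h1
    exact ⟨-y' * (y⁻¹) ^ 2, mul_mem (neg_mem hy') (pow_mem (inv_mem hy) 2),
      by rw [qDeriv_inv, ey]; ring⟩
  | mul y z hy hz h1 h2 =>
    obtain ⟨y', hy', ey⟩ := h1
    obtain ⟨z', hz', ez⟩ := h2
    exact ⟨y' * z + y * z', add_mem (mul_mem hy' hz) (mul_mem hy hz'),
      by rw [qDeriv_mul, ey, ez]; ring⟩

theorem exists_pow_eq_of_qDeriv_eq_zero [PerfectField k] {p : ℕ} [Fact p.Prime] [CharP k p]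
    {x : LaurentSeries k} (hx : qDeriv x ≠ 0) (htr : Transcendental k x) {e : LaurentSeries k}
    (he : e ∈ k⟮x⟯) (h0 : qDeriv e = 0) : ∃ b ∈ k⟮x⟯, b ^ p = e := by
  obtain ⟨r, s, rfl⟩ := (IntermediateField.mem_adjoin_simple_iff k e).1 he
  rcases eq_or_ne (aeval x s) 0 with hs | hs
  · exact ⟨0, zero_mem _, by rw [hs, div_zero, zero_pow (Fact.out : p.Prime).ne_zero]⟩
  have hp : ((p : ℕ) : LaurentSeries k) = 0 := by
    rw [← map_natCast (HahnSeries.C (Γ := ℤ) (R := k)), CharP.cast_eq_zero, map_zero]
  set f := r * s ^ (p - 1) with hf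
  have hfe : aeval x f = aeval x r / aeval x s * aeval x s ^ p := by
    rw [hf, map_mul, map_pow, div_mul_eq_mul_div, eq_div_iff hs, mul_assoc, ← pow_succ,
      Nat.sub_add_cancel (Fact.out : p.Prime).one_le]
  have hD : qDeriv (aeval x f) = 0 := by
    rw [hfe, qDeriv_mul, h0, qDeriv_pow, hp]
    simp
  rw [← evalAt_eq_aeval, qDeriv_evalAt, mul_eq_zero, evalAt_eq_aeval] at hD
  have hf' : f.derivative = 0 := by
    by_contra hne
    exact htr ⟨_, hne, hD.resolve_right hx⟩
  have hexp : expand k p (contract p f) = f :=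
    expand_contract p hf' (Fact.out : p.Prime).ne_zero
  set g := (contract p f).map ((frobeniusEquiv k p).symm : k →+* k) with hg
  have hgp : g ^ p = f := by
    rw [← map_frobenius_expand p, map_expand, hg, Polynomial.map_map]
    rw [show (frobenius k p).comp ((frobeniusEquiv k p).symm : k →+* k) = RingHom.id k from
      RingHom.ext fun a => frobenius_apply_frobeniusEquiv_symm k p a, Polynomial.map_id, hexp]
  refine ⟨aeval x g / aeval x s,
    (IntermediateField.mem_adjoin_simple_iff k _).2 ⟨g, s, rfl⟩, ?_⟩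
  rw [div_pow, ← map_pow, hgp, hfe, mul_div_assoc, div_self (pow_ne_zero _ hs), mul_one]

variable [PerfectField k] {x y : LaurentSeries k}

theorem derivative_minpoly_ne_zero (hx : qDeriv x ≠ 0) (htr : Transcendental k x)
    (hy : IsIntegral k⟮x⟯ y) : (minpoly k⟮x⟯ y).derivative ≠ 0 := by
  intro hder
  set P := minpoly k⟮x⟯ y with hP
  have hmon : P.Monic := minpoly.monic hy
  have hn : 0 < P.natDegree := minpoly.natDegree_pos hy
  obtain ⟨p, hpchar⟩ := CharP.exists k
  rcases CharP.char_is_prime_or_zero k p with hp | rfl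
  · haveI : Fact p.Prime := ⟨hp⟩
    haveI : CharP k⟮x⟯ p := charP_of_injective_algebraMap (algebraMap k k⟮x⟯).injective p
    have hterm : ∀ i, qDeriv ((P.coeff i : LaurentSeries k) * y ^ i) =
        qDeriv (P.coeff i : LaurentSeries k) * y ^ i := by
      intro i
      rw [qDeriv_mul, qDeriv_pow]
      have h1 : (i : LaurentSeries k) * (P.coeff i : LaurentSeries k) = 0 := by
        rcases i with _ | i
        · simp
        · have h2 := congrArg (fun Q : k⟮x⟯[X] => ((Q.coeff i : k⟮x⟯) : LaurentSeries k)) hder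
          simp only [coeff_derivative, coeff_zero, ZeroMemClass.coe_zero] at h2
          push_cast at h2 ⊢
          linear_combination h2
      linear_combination (y ^ (i - 1) * qDeriv y) * h1
    have hsum : ∑ i ∈ Finset.range (P.natDegree + 1),
        qDeriv (P.coeff i : LaurentSeries k) * y ^ i = 0 := by
      simp_rw [← hterm]
      rw [← map_sum]
      have h := minpoly.aeval k⟮x⟯ y
      rw [← hP, aeval_eq_sum_range] at h
      simp only [Algebra.smul_def, IntermediateField.algebraMap_apply] at h
      rw [h, map_zero]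
    choose e' he'mem he' using fun i => exists_qDeriv_eq_of_mem (P.coeff i).2
    set Q : k⟮x⟯[X] := ∑ i ∈ Finset.range P.natDegree, monomial i ⟨e' i, he'mem i⟩ with hQ
    have hQ0 : aeval y Q = 0 := by
      have htop : qDeriv (P.coeff P.natDegree : LaurentSeries k) = 0 := by
        rw [show P.coeff P.natDegree = 1 from hmon, OneMemClass.coe_one,
          ← map_one (HahnSeries.C (Γ := ℤ) (R := k)), qDeriv_C]
      rw [Finset.sum_range_succ, htop, zero_mul, add_zero] at hsum
      refine (mul_eq_zero.1 (?_ : aeval y Q * qDeriv x = 0)).resolve_right hx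
      rw [← hsum, hQ, map_sum, Finset.sum_mul]
      refine Finset.sum_congr rfl fun i _ => ?_
      rw [aeval_monomial, IntermediateField.algebraMap_apply, he' i]
      ring
    have hQdeg : Q = 0 := by
      by_contra hne
      have h1 := natDegree_le_natDegree (minpoly.degree_le_of_ne_zero _ _ hne hQ0)
      have h2 : Q.natDegree < P.natDegree := by
        rw [Polynomial.natDegree_lt_iff_degree_lt hne, hQ]
        refine (degree_sum_le _ _).trans_lt ((Finset.sup_lt_iff (WithBot.bot_lt_coe _)).2 ?_)
        intro i hi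
        exact (degree_monomial_le _ _).trans_lt (WithBot.coe_lt_coe.2 (Finset.mem_range.1 hi))
      rw [← hP] at h1
      omega
    have hroot : ∀ i, ∃ b : k⟮x⟯, b ^ p = P.coeff i := by
      intro i
      have hzero : qDeriv (P.coeff i : LaurentSeries k) = 0 := by
        rcases lt_trichotomy i P.natDegree with hi | rfl | hi
        · have h1 := congrArg (fun R : k⟮x⟯[X] => ((R.coeff i : k⟮x⟯) : LaurentSeries k)) hQdeg
          simp only [hQ, finsetSum_coeff, coeff_monomial, Finset.sum_ite_eq', Finset.mem_range,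
            hi, if_true, coeff_zero, ZeroMemClass.coe_zero] at h1
          rw [he' i, h1, zero_mul]
        · rw [show P.coeff P.natDegree = 1 from hmon, OneMemClass.coe_one,
            ← map_one (HahnSeries.C (Γ := ℤ) (R := k)), qDeriv_C]
        · rw [coeff_eq_zero_of_natDegree_lt hi, ZeroMemClass.coe_zero, map_zero]
      obtain ⟨b, hb, hbp⟩ := exists_pow_eq_of_qDeriv_eq_zero (p := p) hx htr (P.coeff i).2 hzero
      exact ⟨⟨b, hb⟩, Subtype.ext hbp⟩
    choose b hb using hroot
    set R : k⟮x⟯[X] := ∑ j ∈ Finset.range (P.natDegree + 1), monomial j (b (j * p)) with hR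
    have hRp : R.map (frobenius k⟮x⟯ p) = contract p P := by
      ext1 j
      rw [coeff_map, coeff_contract hp.ne_zero, hR, finsetSum_coeff]
      simp only [coeff_monomial, Finset.sum_ite_eq', Finset.mem_range]
      split_ifs with hj
      · rw [frobenius_def, hb]
      · rw [map_zero, eq_comm]
        apply coeff_eq_zero_of_natDegree_lt
        have := Nat.le_mul_of_pos_right j hp.pos
        omega
    have hPp : R ^ p = P := by
      rw [← map_frobenius_expand p, map_expand, hRp, expand_contract p hder hp.ne_zero]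
    exact not_irreducible_pow hp.ne_one (hPp ▸ minpoly.irreducible hy : Irreducible (R ^ p))
  · haveI : CharZero k := CharP.charP_to_charZero k
    haveI : CharZero k⟮x⟯ := charZero_of_injective_algebraMap (algebraMap k k⟮x⟯).injective
    have := derivative_eq_zero.1 hder
    omega

theorem isSeparable_of_isIntegral (hx : qDeriv x ≠ 0) (htr : Transcendental k x)
    (hy : IsIntegral k⟮x⟯ y) : IsSeparable k⟮x⟯ y :=
  (separable_iff_derivative_ne_zero (minpoly.irreducible hy)).2
    (derivative_minpoly_ne_zero hx htr hy)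

/-- `y' / x'` lies in every field containing `x` and `y`. -/
theorem exists_qDeriv_eq (hx : qDeriv x ≠ 0) (htr : Transcendental k x)
    (hy : IsIntegral k⟮x⟯ y) (M : IntermediateField k (LaurentSeries k)) (hxM : x ∈ M)
    (hyM : y ∈ M) : ∃ c ∈ M, qDeriv y = c * qDeriv x := by
  have hle : k⟮x⟯ ≤ M := IntermediateField.adjoin_simple_le_iff.2 hxM
  have key : ∀ P : k⟮x⟯[X], ∃ s ∈ M,
      qDeriv (aeval y P) = s * qDeriv x + aeval y P.derivative * qDeriv y := by
    intro P
    induction P using Polynomial.induction_on with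
    | C a =>
      obtain ⟨a', ha', ea⟩ := exists_qDeriv_eq_of_mem a.2
      exact ⟨a', hle ha', by
        rw [aeval_C, IntermediateField.algebraMap_apply, ea, derivative_C, map_zero, zero_mul,
          add_zero]⟩
    | add P Q hP hQ =>
      obtain ⟨s, hs, es⟩ := hP
      obtain ⟨t, ht, et⟩ := hQ
      exact ⟨s + t, add_mem hs ht, by rw [map_add, map_add, es, et, derivative_add, map_add]; ring⟩
    | monomial m a _ =>
      obtain ⟨a', ha', ea⟩ := exists_qDeriv_eq_of_mem a.2
      refine ⟨a' * y ^ (m + 1), mul_mem (hle ha') (pow_mem hyM _), ?_⟩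
      simp only [map_mul, map_pow, aeval_C, aeval_X, qDeriv_mul, qDeriv_pow,
        derivative_C_mul_X_pow, map_natCast, IntermediateField.algebraMap_apply, ea,
        Nat.succ_sub_one]
      ring
  obtain ⟨s, hs, es⟩ := key (minpoly k⟮x⟯ y)
  rw [minpoly.aeval, map_zero] at es
  have hne : aeval y (minpoly k⟮x⟯ y).derivative ≠ 0 := by
    intro h0
    have h1 := derivative_minpoly_ne_zero hx htr hy
    have h2 := natDegree_le_natDegree (minpoly.degree_le_of_ne_zero _ _ h1 h0)
    have h3 := natDegree_derivative_lt (minpoly.natDegree_pos hy).ne'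
    omega
  have hmem : aeval y (minpoly k⟮x⟯ y).derivative ∈ M := by
    rw [aeval_eq_sum_range]
    exact sum_mem fun i _ => by
      rw [Algebra.smul_def]
      exact mul_mem (hle (Subtype.prop _)) (pow_mem hyM _)
  refine ⟨-s / aeval y (minpoly k⟮x⟯ y).derivative, div_mem (neg_mem hs) hmem, ?_⟩
  rw [div_mul_eq_mul_div, eq_div_iff hne]
  linear_combination -es

end Sep

end Fermat.Agent.Reduction
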