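import Fermat.Agent.Reduction.Galois
import Fermat.Prelude.Def_ModularCurve_HeckeOperator

/-!
# Specialisation maps of divisors, possibly to an auxiliary level

`IsDivisorSpec A π N M Ψ`: a homomorphism from divisors of `X₀(N)` over `L` to divisors of `X₀(M)`
over `k`, effective and bounded on places, sending the divisor of an integral expansion to the
divisor of its reduction. Examples: a place reduction (`M = N`), and pullback to level `N * t`
followed by a place reduction there.
-/

set_option autoImplicit false

noncomputable section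

namespace Fermat.Agent.Reduction

open HahnSeries IntermediateField AlgebraicCurve ModularCurve

variable {L : Type*} [Field L] [Algebra ℚ L] {k : Type*} [Field k]

/-- A specialisation map of divisors from level `N` to level `M`. -/
structure IsDivisorSpec (A : ValuationSubring L) (π : A →+* k) (N M : ℕ)
    (Ψ : Divisor L (laurentBaseChange L (modularFunctionFieldFull N)) →+
      Divisor k (modularFunctionFieldFullC k M)) : Prop where
  le : modularFunctionFieldFullC k N ≤ modularFunctionFieldFullC k M
  nonneg : ∀ P, 0 ≤ Ψ (Finsupp.single P 1)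
  bounded : ∃ B : ℤ, ∀ P Q, Ψ (Finsupp.single P 1) Q ≤ B
  map_integral : ∀ (y : LaurentSeries A)
    (hy : coeffMap A.subtype y ∈ laurentBaseChange L (modularFunctionFieldFull N))
    (hyk : coeffMap π y ∈ modularFunctionFieldFullC k N), coeffMap π y ≠ 0 →
      ∀ D : Divisor L (laurentBaseChange L (modularFunctionFieldFull N)),
        (∀ P, D P = P.ord (⟨coeffMap A.subtype y, hy⟩ :
          laurentBaseChange L (modularFunctionFieldFull N))) →
        ∀ Q, Ψ D Q = Q.ord (⟨coeffMap π y, le hyk⟩ : modularFunctionFieldFullC k M)

theorem apply_nonneg_of_nonneg {ι X : Type*} (Ψ : (ι →₀ ℤ) →+ (X →₀ ℤ))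
    (h : ∀ P, 0 ≤ Ψ (Finsupp.single P 1)) {E : ι →₀ ℤ} (hE : 0 ≤ E) : 0 ≤ Ψ E := by
  rw [← E.sum_single, Finsupp.sum, map_sum]
  refine Finset.sum_nonneg fun P _ => ?_
  rw [show Finsupp.single P (E P) = (E P) • Finsupp.single P (1 : ℤ) by
    rw [Finsupp.smul_single, smul_eq_mul, mul_one], map_zsmul]
  intro Q
  rw [Finsupp.coe_zero, Pi.zero_apply, Finsupp.smul_apply, smul_eq_mul]
  exact mul_nonneg (hE P) (h P Q)

theorem apply_le_degree {K F : Type*} [Field K] [Field F] [Algebra K F]
    (hdeg : ∀ P : Place K F, 1 ≤ P.deg) {E : Divisor K F} (hE : 0 ≤ E) (Q : Place K F) :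
    E Q ≤ Divisor.degree E := by
  classical
  have h := le_apply_of_effective hdeg
    (Divisor.degree - Finsupp.applyAddHom Q) (M := 0) le_rfl (fun P => ?_) E hE
  · simp only [zero_mul, neg_zero, AddMonoidHom.sub_apply, Finsupp.applyAddHom_apply] at h
    omega
  · simp only [AddMonoidHom.sub_apply, Finsupp.applyAddHom_apply, Divisor.degree_single,
      Finsupp.single_apply]
    have := hdeg P
    split_ifs <;> omega

variable {A : ValuationSubring L} {π : A →+* k} {N M : ℕ}
variable {Ψ : Divisor L (laurentBaseChange L (modularFunctionFieldFull N)) →+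
  Divisor k (modularFunctionFieldFullC k M)}

/-- A place reduction is a specialisation map. -/
theorem IsDivisorSpec.of_isPlaceReduction
    {r : Place L (laurentBaseChange L (modularFunctionFieldFull N)) →
      Place k (modularFunctionFieldFullC k N)}
    (hr : IsPlaceReductionAlong A π N r) : IsDivisorSpec A π N N (reductionDivAlong r) where
  le := le_rfl
  nonneg P := by
    rw [reductionDivAlong_single]
    exact Finsupp.single_nonneg.mpr zero_le_one
  bounded := ⟨1, fun P Q => by
    classical
    rw [reductionDivAlong_single, Finsupp.single_apply]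
    split_ifs <;> omega⟩
  map_integral y hy hyk hne D hD Q := hr.2 y hy hyk hne D hD Q

/-- Pullback to level `N * t` followed by a place reduction there is a specialisation map. -/
theorem IsDivisorSpec.of_pullback {t : ℕ} [NeZero N] [NeZero t]
    [HasPrincipalDivisors L (laurentBaseChange L (modularFunctionFieldFull (N * t)))]
    (hα : (heckeAlphaBar L N t).toRingHom.IsIntegral)
    (hFI : FundamentalIdentityAlong L (heckeAlphaBar L N t) hα)
    (hdegN : ∀ P : Place L (laurentBaseChange L (modularFunctionFieldFull N)), P.deg = 1)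
    (hdegk : ∀ Q : Place k (modularFunctionFieldFullC k (N * t)), 1 ≤ Q.deg)
    {rM : Place L (laurentBaseChange L (modularFunctionFieldFull (N * t))) →
      Place k (modularFunctionFieldFullC k (N * t))}
    (hrM : IsPlaceReductionAlong A π (N * t) rM) :
    IsDivisorSpec A π N (N * t)
      ((reductionDivAlong rM).comp (Divisor.pullbackAlong (heckeAlphaBar L N t) hα)) := by
  classical
  have hnn : ∀ P, 0 ≤ Finsupp.mapDomain rM
      (Divisor.pullbackAlong (heckeAlphaBar L N t) hα (Finsupp.single P 1)) := fun P => by
    rw [Divisor.pullbackAlong_single, Finsupp.mapDomain_finsetSum]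
    refine Finset.sum_nonneg fun W _ => ?_
    rw [Finsupp.mapDomain_single]
    exact Finsupp.single_nonneg.mpr (by positivity)
  refine ⟨full_degeneracyC_le k (dvd_mul_right N t), hnn,
    ⟨finrankAlong L (heckeAlphaBar L N t), fun P Q => ?_⟩, ?_⟩
  · refine le_trans (apply_le_degree hdegk (hnn P) Q) (le_of_eq ?_)
    rw [degree_mapDomain_of_deg_eq hrM.1, Divisor.degree_pullbackAlong _ _ hFI,
      Divisor.degree_single, hdegN, Nat.cast_one, mul_one, mul_one]
  · intro y hy hyk hne D hD Q
    have hyM : coeffMap A.subtype y ∈ laurentBaseChange L (modularFunctionFieldFull (N * t)) :=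
      (heckeAlphaBar L N t ⟨_, hy⟩).2
    refine hrM.2 y hyM (full_degeneracyC_le k (dvd_mul_right N t) hyk) hne _ (fun W => ?_) Q
    rw [Divisor.pullbackAlong_apply, hD, ← Place.ord_restrictAlong]
    exact congrArg W.ord (Subtype.ext (coe_heckeAlphaBar N t _))

theorem IsDivisorSpec.map_principal (hΨ : IsDivisorSpec A π N M Ψ)
    (hgen : PrincipalGeneratedByIntegral A π N)
    {D : Divisor L (laurentBaseChange L (modularFunctionFieldFull N))}
    (hD : D ∈ Divisor.principal (K := L) (F := laurentBaseChange L (modularFunctionFieldFull N))) :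
    Ψ D ∈ Divisor.principal (K := k) (F := modularFunctionFieldFullC k M) := by
  have hD' := hgen hD
  clear hD
  induction hD' using AddSubgroup.closure_induction with
  | mem E hE =>
    obtain ⟨y, hy, hyk, hne, hE⟩ := hE
    exact ⟨⟨coeffMap π y, hΨ.le hyk⟩, fun h => hne (congrArg Subtype.val h),
      hΨ.map_integral y hy hyk hne E hE⟩
  | zero => rw [map_zero]; exact zero_mem _
  | add E E' _ _ hE hE' => rw [map_add]; exact add_mem hE hE'
  | neg E _ hE => rw [map_neg]; exact neg_mem hE

/-- The class of the specialisation of a degree-zero divisor class. -/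
def specPic (hΨ : IsDivisorSpec A π N M Ψ) (hgen : PrincipalGeneratedByIntegral A π N) :
    Pic0 L (laurentBaseChange L (modularFunctionFieldFull N)) →+
      Pic k (modularFunctionFieldFullC k M) :=
  QuotientAddGroup.lift _ ((QuotientAddGroup.mk' _).comp (Ψ.domRestrict _)) fun _ hD =>
    (QuotientAddGroup.eq_zero_iff _).mpr (hΨ.map_principal hgen hD)

theorem specPic_mk_eq_zero_iff (hΨ : IsDivisorSpec A π N M Ψ)
    (hgen : PrincipalGeneratedByIntegral A π N)
    (D : Divisor.degZero (K := L) (F := laurentBaseChange L (modularFunctionFieldFull N))) :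
    specPic hΨ hgen (Pic0.mk D) = 0 ↔
      Ψ (D : Divisor L (laurentBaseChange L (modularFunctionFieldFull N))) ∈
        Divisor.principal (K := k) (F := modularFunctionFieldFullC k M) :=
  QuotientAddGroup.eq_zero_iff _

variable [HasPrincipalDivisors L (laurentBaseChange L (modularFunctionFieldFull N))]

/-- A specialisation map intertwines an automorphism stabilising `A` with the induced automorphism
of the residue field, in degree zero. -/
theorem IsDivisorSpec.map_galois_smul (hΨ : IsDivisorSpec A π N M Ψ)
    (hdeg : ∀ P : Place L (laurentBaseChange L (modularFunctionFieldFull N)), 1 ≤ P.deg)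
    (hR : WeakRiemann L (laurentBaseChange L (modularFunctionFieldFull N)))
    (hgen : PrincipalGeneratedByIntegral A π N)
    (σ : L ≃ₐ[ℚ] L) (τ : A →+* A) (hτ : ∀ a : A, (τ a : L) = σ a)
    (α : k ≃+* k) (hα : ∀ a : A, π (τ a) = α (π a))
    {D : Divisor L (laurentBaseChange L (modularFunctionFieldFull N))}
    (hD : Divisor.degree D = 0) :
    Ψ (arithmeticGalois (modularFunctionFieldFull N) σ • D) = residueGalois M α • Ψ D := by
  classical
  obtain ⟨B, hB⟩ := hΨ.bounded
  refine hom_ext_of_degree_eq_zero hdeg hR
    (Ψ.comp (DistribSMul.toAddMonoidHom _ (arithmeticGalois (modularFunctionFieldFull N) σ)))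
    ((DistribSMul.toAddMonoidHom (Divisor k (modularFunctionFieldFullC k M))
      (residueGalois M α)).comp Ψ)
    (fun E hE => eq_on_principal_of_eq_on_integral hgen _ _ ?_ hE) (fun P => ?_) (M := B)
    (fun P Q => ?_) hD
  · rintro E ⟨y, hy, hyk, hne, hE⟩
    ext Q
    simp only [AddMonoidHom.comp_apply, DistribSMul.toAddMonoidHom_apply]
    have hcoe : coeffMap A.subtype (coeffMap τ y) =
        coeffMap (σ : L →+* L) (coeffMap A.subtype y) :=
      HahnSeries.ext <| funext fun n => by simpa using hτ (y.coeff n)
    have hred : coeffMap π (coeffMap τ y) = coeffMap (α : k →+* k) (coeffMap π y) :=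
      HahnSeries.ext <| funext fun n => by simpa using hα (y.coeff n)
    have hy' : coeffMap A.subtype (coeffMap τ y) ∈
        laurentBaseChange L (modularFunctionFieldFull N) := by
      rw [hcoe]; exact coeffMap_mem_laurentBaseChange σ hy
    have hyk' : coeffMap π (coeffMap τ y) ∈ modularFunctionFieldFullC k N := by
      rw [hred]; exact coeffMap_mem_fullC N _ hyk
    have hne' : coeffMap π (coeffMap τ y) ≠ 0 := by
      rw [hred]
      exact fun h => hne (HahnSeries.ext <| funext fun n => by
        simpa using congrArg (fun z : LaurentSeries k => z.coeff n) h)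
    have hlhs : ∀ P, (arithmeticGalois (modularFunctionFieldFull N) σ • E) P =
        P.ord (⟨coeffMap A.subtype (coeffMap τ y), hy'⟩ :
          laurentBaseChange L (modularFunctionFieldFull N)) := fun P => by
      rw [divisor_smul_eq_ord _ hE]
      exact congrArg P.ord (Subtype.ext hcoe.symm)
    rw [hΨ.map_integral _ hy' hyk' hne' _ hlhs Q,
      divisor_smul_eq_ord _ (hΨ.map_integral y hy hyk hne E hE) Q]
    exact congrArg Q.ord (Subtype.ext hred)
  · simp only [AddMonoidHom.comp_apply, DistribSMul.toAddMonoidHom_apply,
      SemilinearAut.smul_single]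
    exact hΨ.nonneg _
  · simp only [AddMonoidHom.comp_apply, DistribSMul.toAddMonoidHom_apply,
      SemilinearAut.divisor_smul_apply]
    exact hB _ _

end Fermat.Agent.Reduction
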