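import Fermat.Agent.Reduction.Rigidity
import Fermat.Agent.Curve.RiemannRoch

/-!
# The hypotheses of the rigidity lemma for function fields of one variable
-/

set_option autoImplicit false

noncomputable section

namespace Fermat.Agent.Reduction

open AlgebraicCurve Fermat.Agent.Curve

variable {K F : Type*} [Field K] [Field F] [Algebra K F]

theorem one_le_deg [IsFunctionField1 K F] (P : Place K F) : 1 ≤ P.deg :=
  deg_pos P

theorem weakRiemann [IsFunctionField1 K F] [IsAlgClosed K] : WeakRiemann K F := by
  refine weakRiemann_of_exists_ord (genusFF K F) fun D hD => ?_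
  have h : 0 < ell D := by
    have := riemann_inequality D
    omega
  have : Nontrivial (riemannRochSpace D) := Module.nontrivial_of_finrank_pos h
  obtain ⟨f, hf⟩ := exists_ne (0 : riemannRochSpace D)
  have hf0 : (f : F) ≠ 0 := fun h0 => hf (Subtype.ext h0)
  refine ⟨f, hf0, fun P => ?_⟩
  rcases (mem_riemannRochSpace_iff.mp f.2) P with h0 | hP
  · exact absurd h0 hf0
  · omega

end Fermat.Agent.Reduction
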