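import Fermat.Agent.Reduction.Core
import Fermat.Agent.Curve.RiemannRoch
import Fermat.Agent.Reduction.ConstReduction.Basic

/-!
# The place reduction attached to a Gauss reduction

For an effective `D` let `E(D)` be the supremum of the pole divisors of `redSpace (L(D))`.  A generic
element gives `deg E(D) ≤ deg D` (degrees cannot increase under reduction), and counting dimensions
gives `g(Fb) ≤ g(F)`, and, in case of equality, `redSpace (L(D)) = L(E(D))` and `deg E(D) = deg D`
for large `deg D`; hence `E` is additive and comes from a map of places.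

Owner: helper66.
-/

set_option autoImplicit false

noncomputable section

namespace Fermat.Agent.Reduction

open AlgebraicCurve Fermat.Agent.Curve
open scoped IntermediateField

variable {K : Type*} [Field K] {k : Type*} [Field k] {A : ValuationSubring K}
variable {F : Type*} [Field F] [Algebra K F] {Fb : Type*} [Field Fb] [Algebra k Fb]
variable {π : A →+* k}
variable [IsAlgClosed K] [IsAlgClosed k] [IsFunctionField1 K F] [IsFunctionField1 k Fb]


section Sup

variable {L E : Type*} [Field L] [Field E] [Algebra L E]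

theorem ord_smul_of_ne_zero {c : L} (hc : c ≠ 0) (v : Place L E) (f : E) :
    v.ord (c • f) = v.ord f :=
  Torsion.ord_smul_const hc v f

theorem mem_rr_iff_ordGE {D : Divisor L E} {f : E} :
    f ∈ riemannRochSpace D ↔ ∀ v, OrdGE v (-D v) f := by
  simp [mem_riemannRochSpace_iff, ordGE_iff, forall_or_left]

/-- Finitely many elements: the least effective divisor bounding their poles is attained. -/
theorem exists_sup_finset [IsFunctionField1 L E] (s : Finset E) :
    ∃ M : Divisor L E, 0 ≤ M ∧ (∀ x ∈ s, x ∈ riemannRochSpace M) ∧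
      ∀ v, 0 < M v → ∃ x ∈ s, x ≠ 0 ∧ v.ord x = -M v := by
  classical
  induction s using Finset.induction_on with
  | empty => exact ⟨0, le_rfl, by simp, by simp⟩
  | insert x s hx ih =>
    obtain ⟨M, hM, hmem, hatt⟩ := ih
    refine ⟨divisorMax M (poleDivisor x), hM.trans (le_divisorMax_left _ _), ?_, fun v hv => ?_⟩
    · intro y hy
      rcases Finset.mem_insert.mp hy with rfl | hy
      · refine mem_riemannRochSpace_iff.mpr fun v => Or.inr ?_
        simp only [divisorMax_apply, poleDivisor_apply]
        omega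
      · exact riemannRochSpace_mono (le_divisorMax_left _ _) (hmem y hy)
    · simp only [divisorMax_apply, poleDivisor_apply] at hv ⊢
      rcases le_or_gt (-v.ord x) (M v) with h | h
      · obtain ⟨y, hy, hy0, hyv⟩ := hatt v (by omega)
        exact ⟨y, Finset.mem_insert_of_mem hy, hy0, by omega⟩
      · have := hM v
        simp only [Finsupp.coe_zero, Pi.zero_apply] at this
        refine ⟨x, Finset.mem_insert_self _ _, ?_, by omega⟩
        rintro rfl
        simp at h
        omega

/-- `M` is the supremum of the pole divisors of `S`. -/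
def IsSupDivisor (S : Submodule L E) (M : Divisor L E) : Prop :=
  0 ≤ M ∧ S ≤ riemannRochSpace M ∧ ∀ v, 0 < M v → ∃ x ∈ S, x ≠ 0 ∧ v.ord x = -M v

theorem exists_isSupDivisor [IsFunctionField1 L E] (S : Submodule L E) [FiniteDimensional L S] :
    ∃ M, IsSupDivisor S M := by
  obtain ⟨s, rfl⟩ := (Submodule.fg_iff_finiteDimensional S).mpr inferInstance
  obtain ⟨M, hM, hmem, hatt⟩ := exists_sup_finset (L := L) s
  refine ⟨M, hM, Submodule.span_le.mpr hmem, fun v hv => ?_⟩
  obtain ⟨x, hx, h⟩ := hatt v hv
  exact ⟨x, Submodule.subset_span hx, h⟩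

/-- Over an infinite field a single element attains the extremal orders at finitely many places. -/
theorem exists_generic [Infinite L] {S : Submodule L E} {n : Place L E → ℤ} {g₀ : E}
    (hg₀ : g₀ ∈ S) (hg₀' : g₀ ≠ 0) (T : Finset (Place L E))
    (hge : ∀ v ∈ T, ∀ x ∈ S, OrdGE v (n v) x)
    (hatt : ∀ v ∈ T, ∃ x ∈ S, x ≠ 0 ∧ v.ord x = n v) :
    ∃ g ∈ S, g ≠ 0 ∧ ∀ v ∈ T, v.ord g = n v := by
  classical
  induction T using Finset.induction_on with
  | empty => exact ⟨g₀, hg₀, hg₀', by simp⟩
  | insert v T hv ih =>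
    obtain ⟨g, hg, hg0, hgT⟩ := ih (fun w hw => hge w (by simp [hw]))
      (fun w hw => hatt w (by simp [hw]))
    obtain ⟨h, hh, hh0, hhv⟩ := hatt v (by simp)
    let bad : Place L E → Set L := fun w =>
      {c | g + c • h = 0 ∨ n w < w.ord (g + c • h)}
    have hbad : ∀ w ∈ insert v T, (bad w).Subsingleton := by
      intro w hw a ha b hb
      by_contra hab
      have hab' : a - b ≠ 0 := sub_ne_zero.mpr hab
      have hA : OrdGE w (n w + 1) (g + a • h) := by
        rw [ordGE_iff]; exact ha.imp id fun h => by omega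
      have hB : OrdGE w (n w + 1) (g + b • h) := by
        rw [ordGE_iff]; exact hb.imp id fun h => by omega
      have hH : OrdGE w (n w + 1) h := by
        have hdiff := hA.sub hB
        rw [show g + a • h - (g + b • h) = (a - b) • h by rw [sub_smul]; abel, ordGE_iff,
          ord_smul_of_ne_zero hab'] at hdiff
        rcases hdiff with h1 | h1
        · exact absurd h1 (smul_ne_zero hab' hh0)
        · exact ordGE_of_le_ord h1
      rcases Finset.mem_insert.mp hw with rfl | hwT
      · have := hH.le_ord hh0
        omega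
      · have hG : OrdGE w (n w + 1) g := by
          have hah : OrdGE w (n w + 1) (a • h) := by
            rcases eq_or_ne a 0 with rfl | ha0
            · simpa using ordGE_zero _
            · rw [ordGE_iff, ord_smul_of_ne_zero ha0]
              exact Or.inr (hH.le_ord hh0)
          simpa using hA.sub hah
        have := hG.le_ord hg0
        rw [hgT w hwT] at this
        omega
    have hfin : (⋃ w ∈ (insert v T : Finset _), bad w).Finite :=
      (insert v T).finite_toSet.biUnion fun w hw => (hbad w hw).finite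
    obtain ⟨c, hc⟩ := hfin.exists_notMem
    simp only [Set.mem_iUnion, not_exists] at hc
    have key : ∀ w ∈ insert v T, g + c • h ≠ 0 ∧ w.ord (g + c • h) = n w := by
      intro w hw
      have := hc w hw
      simp only [bad, Set.mem_ofPred_eq, not_or, not_lt] at this
      exact ⟨this.1, le_antisymm this.2
        ((hge w hw _ (add_mem hg (S.smul_mem c hh))).le_ord this.1)⟩
    exact ⟨_, add_mem hg (S.smul_mem c hh), (key v (by simp)).1, fun w hw => (key w hw).2⟩

theorem IsSupDivisor.exists_attains [Infinite L] {S : Submodule L E} {M : Divisor L E}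
    (hM : IsSupDivisor S M) (h1 : (1 : E) ∈ S) (T : Finset (Place L E)) :
    ∃ g ∈ S, g ≠ 0 ∧ ∀ v ∈ T, v.ord g = -M v := by
  refine exists_generic h1 one_ne_zero T (fun v _ x hx => mem_rr_iff_ordGE.mp (hM.2.1 hx) v)
    fun v _ => ?_
  rcases (hM.1 v).lt_or_eq with h | h
  · exact hM.2.2 v h
  · refine ⟨1, h1, one_ne_zero, ?_⟩
    simp only [Finsupp.coe_zero, Pi.zero_apply] at h
    rw [← h, Place.ord_one, neg_zero]

theorem degree_mono [IsFunctionField1 L E] {D D' : Divisor L E} (h : D ≤ D') :
    Divisor.degree D ≤ Divisor.degree D' := by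
  have := degree_nonneg_of_le (K := L) (F := E) (sub_nonneg.mpr h)
  rw [map_sub] at this
  omega

theorem mapDomain_nonneg {L' E' : Type*} [Field L'] [Field E'] [Algebra L' E']
    {r : Place L E → Place L' E'} {D : Divisor L E} (h : 0 ≤ D) :
    0 ≤ Finsupp.mapDomain r D := by
  classical
  intro Q
  simp only [Finsupp.mapDomain, Finsupp.sum, Finsupp.finsetSum_apply, Finsupp.coe_zero,
    Pi.zero_apply]
  exact Finset.sum_nonneg fun P _ => Finsupp.single_nonneg.mpr (h P) Q

/-- An effective divisor of degree one is a place (over algebraically closed constants). -/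
theorem eq_single_of_degree_eq_one [IsAlgClosed L] [IsFunctionField1 L E] {M : Divisor L E}
    (h : 0 ≤ M) (hd : Divisor.degree M = 1) : ∃ Q, M = Finsupp.single Q 1 := by
  classical
  obtain ⟨Q, hQ⟩ : ∃ Q, 0 < M Q := by
    by_contra hne
    push Not at hne
    have : M = 0 := Finsupp.ext fun v => le_antisymm (hne v) (h v)
    simp [this] at hd
  have hle : Finsupp.single Q 1 ≤ M := fun v => by
    rw [Finsupp.single_apply]
    split_ifs with hv
    · subst hv; omega
    · exact h v
  have h0 := sub_nonneg.mpr hle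
  refine ⟨Q, le_antisymm (fun v => ?_) hle⟩
  by_contra hlt
  push Not at hlt
  have hle2 : Finsupp.single Q 1 + Finsupp.single v 1 ≤ M := fun w => by
    have := hle w
    rw [Finsupp.add_apply]
    rcases eq_or_ne w v with rfl | hwv
    · rw [Finsupp.single_eq_same]
      omega
    · rw [Finsupp.single_eq_of_ne hwv, add_zero]
      exact this
  have := degree_mono hle2
  rw [map_add, Divisor.degree_single, Divisor.degree_single, deg_eq_one, deg_eq_one, hd] at this
  simp at this

end Sup


theorem degree_mapDomain_eq {L E L' E' : Type*} [Field L] [Field E] [Algebra L E] [Field L']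
    [Field E'] [Algebra L' E'] {r : Place L E → Place L' E'} (hdeg : ∀ P, (r P).deg = P.deg)
    (D : Divisor L E) : Divisor.degree (Finsupp.mapDomain r D) = Divisor.degree D := by
  induction D using Finsupp.induction with
  | zero => simp
  | single_add P n D _ _ ih =>
    rw [Finsupp.mapDomain_add, map_add, map_add, ih, Finsupp.mapDomain_single,
      Divisor.degree_single, Divisor.degree_single, hdeg]

namespace GaussData

variable (G : GaussData π F Fb)

/-- The integral elements and their reductions, as a constant reduction. -/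
def toConstReduction : ConstRed.ConstReduction A π F Fb where
  O := G.graph.map (RingHom.fst F Fb)
  red :=
    { toFun := fun x => (Subring.mem_map.mp x.2).choose.2
      map_one' := G.eq_of_mem (f := 1) (by
        obtain ⟨h, h'⟩ := (Subring.mem_map.mp (1 : G.graph.map (RingHom.fst F Fb)).2).choose_spec
        convert h using 1
        exact Prod.ext h'.symm rfl) G.graph.one_mem
      map_zero' := G.eq_of_mem (f := 0) (by
        obtain ⟨h, h'⟩ := (Subring.mem_map.mp (0 : G.graph.map (RingHom.fst F Fb)).2).choose_spec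
        convert h using 1
        exact Prod.ext h'.symm rfl) G.graph.zero_mem
      map_mul' := fun x y => by
        have key : ∀ z : G.graph.map (RingHom.fst F Fb),
            ((z : F), (Subring.mem_map.mp z.2).choose.2) ∈ G.graph := fun z => by
          obtain ⟨h, h'⟩ := (Subring.mem_map.mp z.2).choose_spec
          convert h using 1
          exact Prod.ext h'.symm rfl
        exact G.eq_of_mem (key (x * y)) (G.graph.mul_mem (key x) (key y))
      map_add' := fun x y => by
        have key : ∀ z : G.graph.map (RingHom.fst F Fb),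
            ((z : F), (Subring.mem_map.mp z.2).choose.2) ∈ G.graph := fun z => by
          obtain ⟨h, h'⟩ := (Subring.mem_map.mp z.2).choose_spec
          convert h using 1
          exact Prod.ext h'.symm rfl
        exact G.eq_of_mem (key (x + y)) (G.graph.add_mem (key x) (key y)) }
  π_surjective := G.residue_surjective
  algebraMap_mem a := Subring.mem_map.mpr ⟨_, G.algebraMap_mem a, rfl⟩
  red_algebraMap a := by
    set z : G.graph.map (RingHom.fst F Fb) :=
      ⟨algebraMap K F a, Subring.mem_map.mpr ⟨_, G.algebraMap_mem a, rfl⟩⟩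
    obtain ⟨h, h'⟩ := (Subring.mem_map.mp z.2).choose_spec
    refine G.eq_of_mem (f := algebraMap K F a) ?_ (G.algebraMap_mem a)
    convert h using 1
    exact Prod.ext h'.symm rfl
  scalable x hx := by
    obtain ⟨c, hc, g, hg, hmem⟩ := G.exists_smul hx
    rw [Algebra.smul_def] at hmem
    refine ⟨c, hc, Subring.mem_map.mpr ⟨_, hmem, rfl⟩, ?_⟩
    set z : G.graph.map (RingHom.fst F Fb) :=
      ⟨algebraMap K F c * x, Subring.mem_map.mpr ⟨_, hmem, rfl⟩⟩
    obtain ⟨h, h'⟩ := (Subring.mem_map.mp z.2).choose_spec
    intro h0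
    refine hg (G.eq_of_mem hmem ?_ |>.trans h0)
    convert h using 1
    exact Prod.ext h'.symm rfl
  red_surjective g := by
    obtain ⟨f, hf⟩ := G.exists_lift g
    refine ⟨⟨f, Subring.mem_map.mpr ⟨_, hf, rfl⟩⟩, ?_⟩
    set z : G.graph.map (RingHom.fst F Fb) := ⟨f, Subring.mem_map.mpr ⟨_, hf, rfl⟩⟩
    obtain ⟨h, h'⟩ := (Subring.mem_map.mp z.2).choose_spec
    refine G.eq_of_mem (f := f) ?_ hf
    convert h using 1
    exact Prod.ext h'.symm rfl

theorem red_iff {f : F} {g : Fb} : G.toConstReduction.Red f g ↔ (f, g) ∈ G.graph := by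
  constructor
  · rintro ⟨h, rfl⟩
    obtain ⟨h1, h2⟩ := (Subring.mem_map.mp h).choose_spec
    convert h1 using 1
    exact Prod.ext h2.symm rfl
  · intro h
    have hm : f ∈ G.toConstReduction.O := Subring.mem_map.mpr ⟨_, h, rfl⟩
    refine ⟨hm, ?_⟩
    obtain ⟨h1, h2⟩ := (Subring.mem_map.mp hm).choose_spec
    refine G.eq_of_mem (f := f) ?_ h
    convert h1 using 1
    exact Prod.ext h2.symm rfl

theorem transcendental_of_mem {f : F} {g : Fb} (h : (f, g) ∈ G.graph) (hg : Transcendental k g) :
    Transcendental K f :=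
  G.toConstReduction.transcendental_lift (G.red_iff.mpr h) hg

/-- Degrees do not increase under reduction. -/
theorem finrank_adjoin_le {f : F} {g : Fb} (h : (f, g) ∈ G.graph) (hg : Transcendental k g) :
    Module.finrank k⟮g⟯ Fb ≤ Module.finrank K⟮f⟯ F := by
  have hf := G.transcendental_of_mem h hg
  have : FiniteDimensional K⟮f⟯ F := finiteDimensional_adjoin hf
  have : FiniteDimensional k⟮g⟯ Fb := finiteDimensional_adjoin hg
  let bb := Module.finBasis k⟮g⟯ Fb
  choose v hv using fun i => G.exists_lift (bb i)
  have := (G.toConstReduction.linearIndependent_of_red K⟮f⟯ k⟮g⟯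
    (fun y hy u hu => G.toConstReduction.red_mem_adjoin (G.red_iff.mpr h) hg hy hu)
    (fun i => G.red_iff.mpr (hv i)) bb.linearIndependent).fintype_card_le_finrank
  simpa using this

theorem one_mem_redSpace {D : Divisor K F} (hD : 0 ≤ D) :
    (1 : Fb) ∈ G.redSpace (riemannRochSpace D) :=
  ⟨1, riemannRochSpace_mono hD one_mem_riemannRochSpace_zero, G.graph.one_mem⟩

theorem finite_redSpace (D : Divisor K F) :
    FiniteDimensional k (G.redSpace (riemannRochSpace D)) := by
  rcases Nat.eq_zero_or_pos (ell D) with h | h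
  · have hbot : riemannRochSpace D = ⊥ := Submodule.finrank_eq_zero.mp h
    have : G.redSpace (riemannRochSpace D) = ⊥ := by
      refine (Submodule.eq_bot_iff _).mpr ?_
      rintro g ⟨f, hf, hfg⟩
      rw [hbot, Submodule.mem_bot] at hf
      exact G.unique g (hf ▸ hfg)
    rw [this]
    infer_instance
  · refine Module.finite_of_finrank_pos ?_
    rwa [G.finrank_redSpace _ (finite_riemannRochSpace D)]

/-- The supremum of the pole divisors of the reductions of `L(D)`. -/
def supDiv (D : Divisor K F) : Divisor k Fb :=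
  haveI := G.finite_redSpace D
  (exists_isSupDivisor (G.redSpace (riemannRochSpace D))).choose

theorem isSupDivisor_supDiv (D : Divisor K F) :
    IsSupDivisor (G.redSpace (riemannRochSpace D)) (G.supDiv D) :=
  haveI := G.finite_redSpace D
  (exists_isSupDivisor (G.redSpace (riemannRochSpace D))).choose_spec

theorem degree_supDiv_le {D : Divisor K F} (hD : 0 ≤ D) :
    Divisor.degree (G.supDiv D) ≤ Divisor.degree D := by
  classical
  obtain ⟨g, hgS, hg0, hgT⟩ := (G.isSupDivisor_supDiv D).exists_attains
    (G.one_mem_redSpace hD) (G.supDiv D).support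
  have hle : G.supDiv D ≤ poleDivisor (K := k) g := fun Q => by
    rw [poleDivisor_apply]
    by_cases hQ : Q ∈ (G.supDiv D).support
    · rw [hgT Q hQ]
      omega
    · rw [Finsupp.notMem_support_iff.mp hQ]
      exact le_max_right _ _
  refine (degree_mono hle).trans ?_
  obtain ⟨f, hf, hfg⟩ := hgS
  by_cases htr : Transcendental k g
  · have hf0 : f ≠ 0 := G.ne_zero_of_mem hfg hg0
    rw [degree_poleDivisor htr]
    have hftr := G.transcendental_of_mem hfg htr
    refine le_trans (Int.ofNat_le.mpr (G.finrank_adjoin_le hfg htr)) ?_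
    rw [← degree_poleDivisor hftr]
    refine degree_mono fun P => ?_
    have := (mem_riemannRochSpace_iff.mp hf P).resolve_left hf0
    have h2 := hD P
    simp only [Finsupp.coe_zero, Pi.zero_apply] at h2
    rw [poleDivisor_apply]
    omega
  · have : poleDivisor (K := k) g = 0 := Finsupp.ext fun Q => by
      rw [poleDivisor_apply, ord_eq_zero_of_isAlgebraic Q (not_not.mp htr)]
      simp
    rw [this, map_zero]
    exact degree_nonneg_of_le hD

theorem ell_le_ell_supDiv (D : Divisor K F) : ell D ≤ ell (G.supDiv D) := by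
  rw [ell, ← G.finrank_redSpace _ (finite_riemannRochSpace D)]
  exact Submodule.finrank_mono (G.isSupDivisor_supDiv D).2.1

include G in
theorem genusFF_le : genusFF k Fb ≤ genusFF K F := by
  obtain ⟨d₁, hd₁⟩ := exists_specialIndex_eq_zero (K := K) (F := F)
  obtain ⟨d₂, hd₂⟩ := exists_specialIndex_eq_zero (K := k) (F := Fb)
  obtain ⟨P⟩ := exists_place (K := K) (F := F)
  obtain ⟨Q⟩ := exists_place (K := k) (F := Fb)
  set d : ℤ := max (max d₁ d₂) 0
  have hd : Divisor.degree (Finsupp.single P d) = d := by
    rw [Divisor.degree_single, deg_eq_one]; simp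
  have hD : 0 ≤ Finsupp.single P d := Finsupp.single_nonneg.mpr (le_max_right _ _)
  have hle := G.degree_supDiv_le hD
  rw [hd] at hle
  set E' := G.supDiv (Finsupp.single P d) +
    Finsupp.single Q (d - Divisor.degree (G.supDiv (Finsupp.single P d)))
  have hE' : Divisor.degree E' = d := by
    rw [map_add, Divisor.degree_single, deg_eq_one]; simp
  have h1 := riemann_roch (Finsupp.single P d)
  rw [hd₁ _ (by rw [hd]; exact (le_max_left _ _).trans (le_max_left _ _)), hd] at h1
  have h2 := riemann_roch E'
  rw [hd₂ _ (by rw [hE']; exact (le_max_right _ _).trans (le_max_left _ _)), hE'] at h2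
  have h3 : ell (G.supDiv (Finsupp.single P d)) ≤ ell E' :=
    Submodule.finrank_mono (riemannRochSpace_mono (le_add_of_nonneg_right
      (Finsupp.single_nonneg.mpr (by omega))))
  have h4 := G.ell_le_ell_supDiv (Finsupp.single P d)
  omega

include G in
theorem exists_bound (hgenus : genusFF K F ≤ genusFF k Fb) :
    ∃ c : ℕ, (∀ D : Divisor K F, (c : ℤ) ≤ Divisor.degree D →
        (ell D : ℤ) = Divisor.degree D + 1 - genusFF K F) ∧
      ∀ D : Divisor k Fb, (c : ℤ) - 1 ≤ Divisor.degree D →
        (ell D : ℤ) = Divisor.degree D + 1 - genusFF K F := by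
  obtain ⟨d₁, hd₁⟩ := exists_specialIndex_eq_zero (K := K) (F := F)
  obtain ⟨d₂, hd₂⟩ := exists_specialIndex_eq_zero (K := k) (F := Fb)
  refine ⟨(max d₁ (d₂ + 1)).toNat, fun D hD => ?_, fun D hD => ?_⟩
  · have h := riemann_roch D
    rw [hd₁ D (by omega)] at h
    omega
  · have h := riemann_roch D
    have := G.genusFF_le
    rw [hd₂ D (by omega)] at h
    omega

theorem supDiv_spec {c : ℕ}
    (hc : ∀ D : Divisor K F, (c : ℤ) ≤ Divisor.degree D →
        (ell D : ℤ) = Divisor.degree D + 1 - genusFF K F)
    (hc' : ∀ D : Divisor k Fb, (c : ℤ) - 1 ≤ Divisor.degree D →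
        (ell D : ℤ) = Divisor.degree D + 1 - genusFF K F)
    {D : Divisor K F} (hD : 0 ≤ D) (hdeg : (c : ℤ) ≤ Divisor.degree D) :
    Divisor.degree (G.supDiv D) = Divisor.degree D ∧
      G.redSpace (riemannRochSpace D) = riemannRochSpace (G.supDiv D) := by
  obtain ⟨Q⟩ := exists_place (K := k) (F := Fb)
  have hle := G.degree_supDiv_le hD
  have hell := G.ell_le_ell_supDiv D
  have hD' := hc D hdeg
  have heq : Divisor.degree (G.supDiv D) = Divisor.degree D := by
    refine le_antisymm hle ?_
    by_contra hlt
    push Not at hlt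
    set E' := G.supDiv D +
      Finsupp.single Q (Divisor.degree D - 1 - Divisor.degree (G.supDiv D))
    have hE' : Divisor.degree E' = Divisor.degree D - 1 := by
      rw [map_add, Divisor.degree_single, deg_eq_one]; simp
    have h3 : ell (G.supDiv D) ≤ ell E' :=
      Submodule.finrank_mono (riemannRochSpace_mono (le_add_of_nonneg_right
        (Finsupp.single_nonneg.mpr (by omega))))
    have h2 := hc' E' (by omega)
    omega
  refine ⟨heq, Submodule.eq_of_le_of_finrank_eq (G.isSupDivisor_supDiv D).2.1 ?_⟩
  have h2 := hc' (G.supDiv D) (by omega)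
  rw [G.finrank_redSpace _ (finite_riemannRochSpace D)]
  show ell D = ell (G.supDiv D)
  omega

theorem exists_placeCompat (hgenus : genusFF K F ≤ genusFF k Fb) :
    ∃ r : Place K F → Place k Fb, (∀ P, (r P).deg = P.deg) ∧ G.PlaceCompat r := by
  classical
  obtain ⟨c, hc, hc'⟩ := G.exists_bound hgenus
  have spec := fun D hD hdeg => G.supDiv_spec hc hc' (D := D) hD hdeg
  obtain ⟨P₀⟩ := exists_place (K := K) (F := F)
  set D₀ : Divisor K F := Finsupp.single P₀ (c : ℤ) with hD₀
  have hD₀0 : (0 : Divisor K F) ≤ D₀ := Finsupp.single_nonneg.mpr (Int.natCast_nonneg c)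
  have hD₀d : Divisor.degree D₀ = c := by
    rw [hD₀, Divisor.degree_single, deg_eq_one]; simp
  have hbig : ∀ {X : Divisor K F}, 0 ≤ X → 0 ≤ X + D₀ ∧ (c : ℤ) ≤ Divisor.degree (X + D₀) :=
    fun {X} hX => ⟨add_nonneg hX hD₀0, by
      rw [map_add, hD₀d]; have := degree_nonneg_of_le hX; omega⟩
  -- additivity
  have hadd : ∀ {D D' : Divisor K F}, 0 ≤ D → (c : ℤ) ≤ Divisor.degree D → 0 ≤ D' →
      (c : ℤ) ≤ Divisor.degree D' → G.supDiv (D + D') = G.supDiv D + G.supDiv D' := by
    intro D D' hD hDd hD' hD'd
    have hDD : (c : ℤ) ≤ Divisor.degree (D + D') := by rw [map_add]; omega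
    have hle : G.supDiv D + G.supDiv D' ≤ G.supDiv (D + D') := by
      intro Q
      obtain ⟨g, ⟨f, hf, hfg⟩, hg0, hgQ⟩ :=
        (G.isSupDivisor_supDiv D).exists_attains (G.one_mem_redSpace hD) {Q}
      obtain ⟨g', ⟨f', hf', hfg'⟩, hg0', hgQ'⟩ :=
        (G.isSupDivisor_supDiv D').exists_attains (G.one_mem_redSpace hD') {Q}
      have hmem : g * g' ∈ riemannRochSpace (G.supDiv (D + D')) :=
        (G.isSupDivisor_supDiv _).2.1 ⟨f * f', Torsion.rr_mul hf hf', G.graph.mul_mem hfg hfg'⟩
      have h := (mem_riemannRochSpace_iff.mp hmem Q).resolve_left (mul_ne_zero hg0 hg0')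
      rw [Q.ord_mul hg0 hg0', hgQ Q (by simp), hgQ' Q (by simp)] at h
      rw [Finsupp.add_apply]
      omega
    refine (le_antisymm (fun Q => ?_) hle)
    by_contra hlt
    push Not at hlt
    have hle2 : G.supDiv D + G.supDiv D' + Finsupp.single Q 1 ≤ G.supDiv (D + D') := fun v => by
      have := hle v
      simp only [Finsupp.add_apply, Finsupp.single_apply] at this hlt ⊢
      split_ifs with hv
      · subst hv; omega
      · omega
    have := degree_mono hle2
    rw [map_add, map_add, (spec D hD hDd).1, (spec D' hD' hD'd).1,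
      (spec _ (add_nonneg hD hD') hDD).1, map_add, Divisor.degree_single, deg_eq_one] at this
    omega
  have hshift : ∀ {X Y : Divisor K F}, 0 ≤ X → 0 ≤ Y →
      G.supDiv (X + D₀) + G.supDiv (Y + D₀) = G.supDiv (X + Y + D₀) + G.supDiv D₀ := by
    intro X Y hX hY
    have h1 := hbig (add_nonneg hX hY)
    rw [← hadd (hbig hX).1 (hbig hX).2 (hbig hY).1 (hbig hY).2,
      ← hadd h1.1 h1.2 hD₀0 hD₀d.ge]
    congr 1
    abel
  -- multiples of a point
  have hmul : ∀ (P : Place K F) (n : ℕ), G.supDiv (Finsupp.single P (n : ℤ) + D₀) =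
      n • (G.supDiv (Finsupp.single P 1 + D₀) - G.supDiv D₀) + G.supDiv D₀ := by
    intro P n
    induction n with
    | zero => simp
    | succ n ih =>
      have := hshift (X := Finsupp.single P (n : ℤ)) (Y := Finsupp.single P 1)
        (Finsupp.single_nonneg.mpr (Int.natCast_nonneg n)) (Finsupp.single_nonneg.mpr zero_le_one)
      rw [← Finsupp.single_add, ← Nat.cast_succ, ih] at this
      rw [eq_sub_of_add_eq this.symm, succ_nsmul]
      abel
  have hpl : ∀ P : Place K F, ∃ Q : Place k Fb,
      G.supDiv (Finsupp.single P 1 + D₀) = Finsupp.single Q 1 + G.supDiv D₀ := by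
    intro P
    have h1 : (0 : Divisor K F) ≤ Finsupp.single P 1 := Finsupp.single_nonneg.mpr zero_le_one
    set X := G.supDiv (Finsupp.single P 1 + D₀) - G.supDiv D₀ with hX
    have hnn : 0 ≤ X := by
      intro v
      by_contra hv
      push Not at hv
      simp only [Finsupp.coe_zero, Pi.zero_apply] at hv
      set n : ℕ := (G.supDiv D₀ v).toNat + 1 with hn
      have h := (G.isSupDivisor_supDiv (Finsupp.single P (n : ℤ) + D₀)).1 v
      rw [hmul P n, Finsupp.add_apply, Finsupp.smul_apply, ← hX, nsmul_eq_mul] at h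
      simp only [Finsupp.coe_zero, Pi.zero_apply] at h
      have h0 := (G.isSupDivisor_supDiv D₀).1 v
      simp only [Finsupp.coe_zero, Pi.zero_apply] at h0
      have : (n : ℤ) * X v ≤ -(n : ℤ) := by
        nlinarith [Int.natCast_nonneg n]
      have hn' : (n : ℤ) = G.supDiv D₀ v + 1 := by
        rw [hn]; push_cast; omega
      omega
    have hd : Divisor.degree X = 1 := by
      rw [hX, map_sub, (spec _ (hbig h1).1 (hbig h1).2).1, (spec _ hD₀0 hD₀d.ge).1, map_add,
        Divisor.degree_single, deg_eq_one]
      simp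
    obtain ⟨Q, hQ⟩ := eq_single_of_degree_eq_one hnn hd
    exact ⟨Q, by rw [← hQ, hX, sub_add_cancel]⟩
  choose r hr using hpl
  have hR : ∀ X : Divisor K F, 0 ≤ X →
      G.supDiv (X + D₀) = Finsupp.mapDomain r X + G.supDiv D₀ := by
    intro X
    induction X using Finsupp.induction with
    | zero => simp
    | single_add P n X hP hn ih =>
      intro h
      have hn0 : 0 ≤ n := by
        have := h P
        simpa [Finsupp.notMem_support_iff.mp hP] using this
      have hX : 0 ≤ X := fun v => by
        rcases eq_or_ne v P with rfl | hv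
        · simp [Finsupp.notMem_support_iff.mp hP]
        · simpa [Finsupp.single_eq_of_ne hv] using h v
      have hnP : (0 : Divisor K F) ≤ Finsupp.single P n := Finsupp.single_nonneg.mpr hn0
      have := hshift hnP hX
      lift n to ℕ using hn0
      rw [hmul P n, hr P, add_sub_cancel_right, ih hX, Finsupp.smul_single, nsmul_eq_mul,
        mul_one] at this
      rw [Finsupp.mapDomain_add, Finsupp.mapDomain_single, ← add_right_cancel_iff
        (a := G.supDiv D₀), ← this]
      abel
  refine ⟨r, fun P => by rw [deg_eq_one, deg_eq_one], ?_⟩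
  intro f g hfg hg D hD
  have hf : f ≠ 0 := G.ne_zero_of_mem hfg hg
  have hDeq : D = divisorOf f := Finsupp.ext fun P => by rw [hD P, divisorOf_apply]
  set Pp : Divisor K F := poleDivisor f with hPp
  set Z : Divisor K F := D + Pp with hZ
  have hZ0 : 0 ≤ Z := fun P => by
    simp only [hZ, hPp, Finsupp.add_apply, hD P, poleDivisor_apply, Finsupp.coe_zero, Pi.zero_apply]
    omega
  have hP0 : 0 ≤ Pp := poleDivisor_nonneg f
  have hdiv : Finsupp.mapDomain r D = Finsupp.mapDomain r Z - Finsupp.mapDomain r Pp := by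
    rw [hZ, Finsupp.mapDomain_add, add_sub_cancel_right]
  have hge : ∀ Q, Finsupp.mapDomain r D Q ≤ Q.ord g := by
    intro Q
    obtain ⟨u, ⟨v, hv, hvu⟩, hu0, huQ⟩ :=
      (G.isSupDivisor_supDiv (Z + D₀)).exists_attains (G.one_mem_redSpace (hbig hZ0).1) {Q}
    have hfv : f * v ∈ riemannRochSpace (Pp + D₀) := by
      have h1 := Torsion.rr_mul (Torsion.rr_of_ord (f := f) (D := D) hD) hv
      rwa [show -D + (Z + D₀) = Pp + D₀ by rw [hZ]; abel] at h1
    have hmem := (G.isSupDivisor_supDiv (Pp + D₀)).2.1 ⟨f * v, hfv, G.graph.mul_mem hfg hvu⟩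
    have h := (mem_riemannRochSpace_iff.mp hmem Q).resolve_left (mul_ne_zero hg hu0)
    rw [Q.ord_mul hg hu0, huQ Q (by simp), hR Z hZ0, hR Pp hP0] at h
    rw [hdiv, Finsupp.sub_apply]
    simp only [Finsupp.add_apply] at h
    omega
  intro Q
  refine le_antisymm (hge Q) ?_
  by_contra hlt
  push Not at hlt
  have hle : Finsupp.mapDomain r D + Finsupp.single Q 1 ≤ divisorOf (K := k) g := fun v => by
    have := hge v
    simp only [Finsupp.add_apply, Finsupp.single_apply, divisorOf_apply]
    split_ifs with hv
    · subst hv; omega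
    · omega
  have := degree_mono hle
  rw [map_add, degree_mapDomain_eq (fun P => by rw [deg_eq_one, deg_eq_one]), hDeq,
    degree_divisorOf, degree_divisorOf, Divisor.degree_single, deg_eq_one] at this
  omega

/-- Reductions of Riemann–Roch spaces of large degree fill the Riemann–Roch space. -/
theorem exists_redSpace_rr_eq (hgenus : genusFF K F ≤ genusFF k Fb)
    {r : Place K F → Place k Fb} (hr : G.PlaceCompat r) (hdeg : ∀ P, (r P).deg = P.deg) :
    ∃ c : ℤ, ∀ D : Divisor K F, c ≤ Divisor.degree D →
      G.redSpace (riemannRochSpace D) = riemannRochSpace (Finsupp.mapDomain r D) := by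
  obtain ⟨c, hc, hc'⟩ := G.exists_bound hgenus
  refine ⟨c, fun D hD => Submodule.eq_of_le_of_finrank_eq
    ((G.toGaussReduction hr).redSpace_rr_le D) ?_⟩
  rw [G.finrank_redSpace _ (finite_riemannRochSpace D)]
  show ell D = ell (Finsupp.mapDomain r D)
  have h1 := hc D hD
  have h2 := hc' (Finsupp.mapDomain r D) (by rw [degree_mapDomain_eq hdeg]; omega)
  rw [degree_mapDomain_eq hdeg] at h2
  omega

theorem exists_ne_of_placeCompat {r : Place K F → Place k Fb} (hr : G.PlaceCompat r) :
    ∃ P Q : Place K F, r P ≠ r Q := by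
  classical
  by_contra hall
  push Not at hall
  obtain ⟨P₀⟩ := exists_place (K := K) (F := F)
  obtain ⟨g, hg, -⟩ := IsFunctionField1.exists_transcendental' (K := k) (F := Fb)
  have hg0 : g ≠ 0 := fun h => hg (h ▸ isAlgebraic_zero)
  obtain ⟨f, hfg⟩ := G.exists_lift g
  have hf0 := G.ne_zero_of_mem hfg hg0
  have key : ∀ Q, Q ≠ r P₀ → Q.ord g = 0 := fun Q hQ => by
    rw [← hr f g hfg hg0 (divisorOf f) (fun P => divisorOf_apply f P) Q,
      Finsupp.mapDomain_notin_range]
    rintro ⟨P, rfl⟩
    exact hQ (hall P P₀)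
  obtain ⟨v, hv⟩ := exists_place_ord_pos (K := k) hg
  obtain ⟨w, hw⟩ := exists_place_ord_neg (K := k) hg
  have h1 : v = r P₀ := by
    by_contra h
    rw [key v h] at hv
    exact lt_irrefl _ hv
  have h2 : w = r P₀ := by
    by_contra h
    rw [key w h] at hw
    exact lt_irrefl _ hw
  rw [h1] at hv
  rw [h2] at hw
  omega

theorem smoothReduction (hgenus : genusFF K F ≤ genusFF k Fb)
    {r : Place K F → Place k Fb} (hr : G.PlaceCompat r) (hdeg : ∀ P, (r P).deg = P.deg) :
    Torsion.SmoothReduction (G.toGaussReduction hr) where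
  finrank_redSpace W hW := G.finrank_redSpace W hW
  rr_zero f hf := by
    rw [riemannRochSpace_zero, Submodule.mem_span_singleton] at hf
    obtain ⟨c, rfl⟩ := hf
    exact ⟨c, by rw [Algebra.smul_def, mul_one]⟩
  rr_zero' g hg := by
    rw [riemannRochSpace_zero, Submodule.mem_span_singleton] at hg
    obtain ⟨c, rfl⟩ := hg
    exact ⟨c, by rw [Algebra.smul_def, mul_one]⟩
  finite_rr D := finite_riemannRochSpace D
  finite_rr' D := finite_riemannRochSpace D
  finrank_rr := by
    obtain ⟨c, hc⟩ := G.exists_redSpace_rr_eq hgenus hr hdeg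
    exact ⟨c, fun D hD => by rw [← G.finrank_redSpace _ (finite_riemannRochSpace D), hc D hD]⟩
  deg_pos P := deg_pos P
  exists_ne := G.exists_ne_of_placeCompat hr

end GaussData

end Fermat.Agent.Reduction
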