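import Fermat.Agent.Reduction.AuxPullback
import Fermat.Agent.Reduction.AuxLevel
import Fermat.Agent.Reduction.PlaceReduction
import Fermat.Agent.EC.Red.ResidueQbar

/-!
# Injectivity on torsion through the auxiliary level

A prime-to-`ℓ` torsion class of `J₀(N)` whose pullback to level `N · auxFactor N ℓ` reduces to zero
is zero.  No hypothesis at level `N` is used.
-/

set_option autoImplicit false

noncomputable section

namespace Fermat.Agent.Reduction

open AlgebraicCurve ModularCurve Fermat.Agent.Curve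
open scoped IntermediateField

/-- Compatibility with the modular graph is compatibility in the sense of the prelude. -/
theorem isPlaceReductionAlong_of_modGraph {L : Type*} [Field L] [Algebra ℚ L]
    {A : ValuationSubring L} {k : Type*} [Field k] {π : A →+* k} {M : ℕ}
    {r : Place L (laurentBaseChange L (modularFunctionFieldFull M)) →
      Place k (modularFunctionFieldFullC k M)}
    (hdeg : ∀ P, (r P).deg = P.deg)
    (hr : ∀ (f : laurentBaseChange L (modularFunctionFieldFull M))
      (g : modularFunctionFieldFullC k M), (f, g) ∈ modGraph π M → g ≠ 0 →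
        ∀ D : Divisor L (laurentBaseChange L (modularFunctionFieldFull M)),
          (∀ P, D P = P.ord f) → ∀ Q, Finsupp.mapDomain r D Q = Q.ord g) :
    IsPlaceReductionAlong A π M r :=
  ⟨hdeg, fun y hy hyk hne D hD Q => hr _ _ (mk_mem_modGraph y hy hyk)
    (fun h => hne (congrArg Subtype.val h)) D hD Q⟩

theorem finrankAlong_eq_div_of_apply_eq {K F F' : Type*} [Field K] [Field F] [Field F']
    [Algebra K F] [Algebra K F'] (φ : F →ₐ[K] F') {x : F} {y : F'} (hxy : φ x = y) :
    Module.finrank K⟮x⟯ F * finrankAlong K φ = Module.finrank K⟮y⟯ F' := by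
  subst hxy
  letI := algebraAlong φ
  haveI := isScalarTower_along φ
  change Module.finrank K⟮x⟯ F * Module.finrank F F' = _
  rw [Module.finrank_mul_finrank]
  have hmap : K⟮x⟯.map φ = K⟮φ x⟯ := by
    rw [IntermediateField.adjoin_map, Set.image_singleton]
  refine Algebra.finrank_eq_of_equiv_equiv
    (((K⟮x⟯.equivMap φ).trans (IntermediateField.equivOfEq hmap)).toRingEquiv)
    (RingEquiv.refl F') ?_
  ext z
  rfl

section ModL

variable (N : ℕ) [NeZero N] {ℓ : ℕ} [Fact ℓ.Prime] (hℓN : ¬ ℓ ∣ N)
  (A : ValuationSubring (AlgebraicClosure ℚ)) (hA : A.LiesOverPrime ℓ)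

omit [NeZero N] in
theorem auxLevel_condition :
    (ℓ = 2 → 3 ∣ N * auxFactor N ℓ) ∧ (ℓ = 3 → 2 ∣ N * auxFactor N ℓ) := by
  constructor
  · rintro rfl
    by_cases h : 3 ∣ N
    · exact h.mul_right _
    · simp [auxFactor, h]
  · rintro rfl
    by_cases h : 2 ∣ N
    · exact h.mul_right _
    · simp [auxFactor, h]

include hℓN hA in
/-- The reduction data at the auxiliary level. -/
theorem exists_placeReduction_aux :
    ∃ r, ∃ hr : (gaussDataX0 (N * auxFactor N ℓ) (not_dvd_mul_auxFactor N hℓN) A hA).PlaceCompat r,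
      IsPlaceReductionModL A (N * auxFactor N ℓ) r ∧
      Torsion.SmoothReduction
        ((gaussDataX0 (N * auxFactor N ℓ) (not_dvd_mul_auxFactor N hℓN) A hA).toGaussReduction hr)
      := by
  haveI := EC.isAlgClosed_residueField A
  have hg := genusFF_le_modL (N * auxFactor N ℓ) (not_dvd_mul_auxFactor N hℓN) A hA
    (auxLevel_condition N)
  obtain ⟨r, hdeg, hr⟩ := (gaussDataX0 (N * auxFactor N ℓ)
    (not_dvd_mul_auxFactor N hℓN) A hA).exists_placeCompat hg
  exact ⟨r, hr, isPlaceReductionAlong_of_modGraph hdeg hr,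
    GaussData.smoothReduction _ hg hr hdeg⟩

omit [Fact ℓ.Prime] in
theorem finrankAlong_heckeAlphaBar_mul (t : ℕ) [NeZero t] :
    (CongruenceSubgroup.Gamma0 N).index *
        finrankAlong (AlgebraicClosure ℚ) (heckeAlphaBar (AlgebraicClosure ℚ) N t) =
      (CongruenceSubgroup.Gamma0 (N * t)).index := by
  rw [← finrank_jBar, ← finrank_jBar]
  exact finrankAlong_eq_div_of_apply_eq _ (Subtype.ext rfl)

include hℓN hA in
/-- **Injectivity on prime-to-`ℓ` torsion through the auxiliary level.** -/
theorem eq_zero_of_mapDomain_pullback_isPrincipal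
    (hα : (heckeAlphaBar (AlgebraicClosure ℚ) N (auxFactor N ℓ)).toRingHom.IsIntegral)
    {rM : Place (AlgebraicClosure ℚ) (modularFunctionFieldBar (N * auxFactor N ℓ)) →
      Place (IsLocalRing.ResidueField A)
        (modularFunctionFieldFullC (IsLocalRing.ResidueField A) (N * auxFactor N ℓ))}
    (hrM : IsPlaceReductionModL A (N * auxFactor N ℓ) rM) {m : ℕ} (hm : ¬ ℓ ∣ m)
    (D : Divisor.degZero (K := AlgebraicClosure ℚ) (F := modularFunctionFieldBar N))
    (hmD : m • Pic0.mk D = 0)
    (hred : Divisor.IsPrincipal (Finsupp.mapDomain rM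
      (Divisor.pullbackAlong (heckeAlphaBar (AlgebraicClosure ℚ) N (auxFactor N ℓ)) hα
        (D : Divisor (AlgebraicClosure ℚ) (modularFunctionFieldBar N))))) :
    Pic0.mk D = 0 := by
  have hℓ : ℓ.Prime := Fact.out
  set t := auxFactor N ℓ with ht
  have hℓM : ¬ ℓ ∣ N * t := not_dvd_mul_auxFactor N hℓN
  obtain ⟨r', hr'c, hr', hS⟩ := exists_placeReduction_aux N hℓN A hA
  set α := heckeAlphaBar (AlgebraicClosure ℚ) N t with hαdef
  have hD0 : Divisor.degree (D : Divisor (AlgebraicClosure ℚ) (modularFunctionFieldBar N)) = 0 := D.2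
  have hmD' : Divisor.IsPrincipal
      (m • (D : Divisor (AlgebraicClosure ℚ) (modularFunctionFieldBar N))) := by
    have : Pic0.mk (m • D) = 0 := by
      rw [← hmD]
      exact map_nsmul (QuotientAddGroup.mk' _) m D
    exact (QuotientAddGroup.eq_zero_iff _).mp this
  have hdeg0 : Divisor.degree (Divisor.pullbackAlong α hα
      (D : Divisor (AlgebraicClosure ℚ) (modularFunctionFieldBar N))) = 0 := by
    rw [Divisor.degree_pullbackAlong α hα (fundamentalIdentityAlong α hα), hD0, mul_zero]
  have hpull : Divisor.IsPrincipal (Divisor.pullbackAlong α hα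
      (D : Divisor (AlgebraicClosure ℚ) (modularFunctionFieldBar N))) := by
    refine hS.mem_principal_of_nsmul (EC.natCast_residue_ne_zero A hℓ hA hm) hdeg0 ?_ ?_
    · rw [← map_nsmul]
      exact Divisor.isPrincipal_pullbackAlong α hα hmD'
    · rwa [mapDomain_eq_of_degree_eq_zero (fun P => one_le_deg P) weakRiemann hr' hrM
        (principalGeneratedByIntegral (N * t) hℓM A hA) hdeg0]
  have hdD : finrankAlong (AlgebraicClosure ℚ) α • Pic0.mk D = 0 := by
    rw [show finrankAlong (AlgebraicClosure ℚ) α • Pic0.mk D =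
      Pic0.mk (finrankAlong (AlgebraicClosure ℚ) α • D) from
        (map_nsmul (QuotientAddGroup.mk' _) _ D).symm]
    exact (QuotientAddGroup.eq_zero_iff _).mpr
      (isPrincipal_nsmul_of_isPrincipal_pullbackAlong α hα hpull)
  obtain ⟨e, he⟩ := index_mul_auxFactor N (ℓ := ℓ)
  have hd : finrankAlong (AlgebraicClosure ℚ) α = ℓ ^ e := by
    have h := finrankAlong_heckeAlphaBar_mul N t
    rw [he, mul_comm (ℓ ^ e)] at h
    exact Nat.eq_of_mul_eq_mul_left
      (Nat.pos_of_ne_zero Subgroup.FiniteIndex.index_ne_zero) h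
  rw [hd] at hdD
  exact AddMonoid.addOrderOf_eq_one_iff.mp (Nat.eq_one_of_dvd_coprimes
    ((hℓ.coprime_iff_not_dvd.mpr hm).pow_left e)
    (addOrderOf_dvd_of_nsmul_eq_zero hdD) (addOrderOf_dvd_of_nsmul_eq_zero hmD))

end ModL

end Fermat.Agent.Reduction
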