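import Fermat.Agent.Reduction.Galois
import Fermat.Agent.Reduction.WeakRiemann
import Fermat.Agent.Reduction.ModularData
import Fermat.Agent.Curve.Fibre
import Fermat.Prelude.Def_ModularCurve_HeckeOperator

/-!
# Pulling back to an auxiliary level

Along `X₀(N t) → X₀(N)`: push-pull is multiplication by the degree, and pullback is compatible
with reduction in degree zero.

Owner: helper68.
-/

set_option autoImplicit false

noncomputable section

namespace Fermat.Agent.Reduction

open AlgebraicCurve ModularCurve Fermat.Agent.Curve

/-- The inclusion of function fields over `k` below `X₀(N t) → X₀(N)`. -/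
def alphaRes (k : Type*) [Field k] (N t : ℕ) [NeZero N] [NeZero t] :
    modularFunctionFieldFullC k N →ₐ[k] modularFunctionFieldFullC k (N * t) :=
  IntermediateField.inclusion (full_degeneracyC_le k (dvd_mul_right N t))

theorem isPrincipal_nsmul_of_isPrincipal_pullbackAlong {K F F' : Type*} [Field K] [Field F]
    [Field F'] [Algebra K F] [Algebra K F'] [IsAlgClosed K] [IsFunctionField1 K F]
    [IsFunctionField1 K F'] (φ : F →ₐ[K] F') (hφ : φ.toRingHom.IsIntegral) {D : Divisor K F}
    (h : (Divisor.pullbackAlong φ hφ D).IsPrincipal) :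
    (finrankAlong K φ • D).IsPrincipal := by
  have key : ∀ D : Divisor K F, Divisor.pushforwardAlong φ hφ (Divisor.pullbackAlong φ hφ D) =
      finrankAlong K φ • D := by
    intro D
    letI := algebraAlong φ
    haveI := isScalarTower_along φ
    haveI := isIntegral_along φ hφ
    haveI : FiniteDimensional F F' := finiteAlong φ
    change Divisor.pushforward F (Divisor.pullback F' D) = Module.finrank F F' • D
    induction D using Finsupp.induction with
    | zero => simp
    | single_add v n D _ _ ih =>
      rw [map_add, map_add, ih, smul_add, Divisor.pullback_single, map_sum,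
        Finset.sum_congr rfl (g := fun w : Place K F' =>
          Finsupp.single v (n * ((w.ramificationIndex F : ℤ) * (w.inertiaDeg F : ℤ))))
          (fun w hw => by rw [Divisor.pushforward_single, Place.mem_fiber.mp hw, mul_assoc]),
        ← Finsupp.single_finsetSum, ← Finset.mul_sum,
        SumRamificationInertia.sum_ramificationIndex_mul_inertiaDeg (K := K) (F := F) (F' := F') v]
      congr 1
      rw [Finsupp.smul_single, nsmul_eq_mul, mul_comm]
  exact key D ▸ Divisor.isPrincipal_pushforwardAlong φ hφ (finiteAlong φ)
    (normFormulaAlong φ (finiteAlong φ)) h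

theorem pullbackAlong_apply_eq_ord {K F F' : Type*} [Field K] [Field F] [Field F'] [Algebra K F]
    [Algebra K F'] [HasPrincipalDivisors K F'] (φ : F →ₐ[K] F') (hφ : φ.toRingHom.IsIntegral)
    {f : F} {D : Divisor K F} (hD : ∀ v, D v = v.ord f) (w : Place K F') :
    Divisor.pullbackAlong φ hφ D w = w.ord (φ f) := by
  letI := algebraAlong φ
  haveI := isScalarTower_along φ
  haveI := isIntegral_along φ hφ
  exact Divisor.pullback_apply_eq_ord hD w

theorem pullbackAlong_single_nonneg {K F F' : Type*} [Field K] [Field F] [Field F'] [Algebra K F]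
    [Algebra K F'] [HasPrincipalDivisors K F'] (φ : F →ₐ[K] F') (hφ : φ.toRingHom.IsIntegral)
    (P : Place K F) : 0 ≤ Divisor.pullbackAlong φ hφ (Finsupp.single P 1) := fun w => by
  rw [Divisor.pullbackAlong_apply, Finsupp.coe_zero, Pi.zero_apply]
  exact mul_nonneg (Int.natCast_nonneg _) (Finsupp.single_nonneg.mpr zero_le_one _)

theorem pullbackAlong_single_le {K F F' : Type*} [Field K] [Field F] [Field F'] [Algebra K F]
    [Algebra K F'] [IsFunctionField1 K F] [IsFunctionField1 K F'] [IsAlgClosed K]
    (φ : F →ₐ[K] F') (hφ : φ.toRingHom.IsIntegral) (P : Place K F) (w : Place K F') :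
    Divisor.pullbackAlong φ hφ (Finsupp.single P 1) w ≤ finrankAlong K φ := by
  classical
  have h0 := pullbackAlong_single_nonneg φ hφ P
  have hd := Divisor.degree_pullbackAlong φ hφ (fundamentalIdentityAlong φ hφ) (Finsupp.single P 1)
  rw [Divisor.degree_single, deg_eq_one, Nat.cast_one, mul_one, mul_one] at hd
  rw [← hd, Divisor.degree, Finsupp.liftAddHom_apply, Finsupp.sum]
  by_cases hw : w ∈ (Divisor.pullbackAlong φ hφ (Finsupp.single P 1)).support
  · refine le_trans (le_of_eq ?_) (Finset.single_le_sum (fun v _ => ?_) hw)
    · simp [deg_eq_one]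
    · simpa [deg_eq_one] using h0 v
  · rw [Finsupp.notMem_support_iff.mp hw]
    exact Finset.sum_nonneg fun v _ => by simpa [deg_eq_one] using h0 v

section Compat

variable {L : Type*} [Field L] [Algebra ℚ L] [IsAlgClosed L] {A : ValuationSubring L}
variable {k : Type*} [Field k] [IsAlgClosed k] {π : A →+* k} {N t : ℕ} [NeZero N] [NeZero t]
variable [IsFunctionField1 L (laurentBaseChange L (modularFunctionFieldFull N))]
  [IsFunctionField1 L (laurentBaseChange L (modularFunctionFieldFull (N * t)))]
  [IsFunctionField1 k (modularFunctionFieldFullC k N)]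
  [IsFunctionField1 k (modularFunctionFieldFullC k (N * t))]

theorem mapDomain_pullbackAlong_of_degree_eq_zero
    {r : Place L (laurentBaseChange L (modularFunctionFieldFull N)) →
      Place k (modularFunctionFieldFullC k N)}
    {rM : Place L (laurentBaseChange L (modularFunctionFieldFull (N * t))) →
      Place k (modularFunctionFieldFullC k (N * t))}
    (hr : IsPlaceReductionAlong A π N r) (hgen : PrincipalGeneratedByIntegral A π N)
    (hrM : IsPlaceReductionAlong A π (N * t) rM)
    (hα : (heckeAlphaBar L N t).toRingHom.IsIntegral)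
    (hαk : (alphaRes k N t).toRingHom.IsIntegral)
    {D : Divisor L (laurentBaseChange L (modularFunctionFieldFull N))}
    (hD : Divisor.degree D = 0) :
    Finsupp.mapDomain rM (Divisor.pullbackAlong (heckeAlphaBar L N t) hα D) =
      Divisor.pullbackAlong (alphaRes k N t) hαk (Finsupp.mapDomain r D) := by
  classical
  refine hom_ext_of_degree_eq_zero (fun P => one_le_deg P) weakRiemann
    ((reductionDivAlong rM).comp (Divisor.pullbackAlong (heckeAlphaBar L N t) hα))
    ((Divisor.pullbackAlong (alphaRes k N t) hαk).comp (reductionDivAlong r))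
    (fun E hE => eq_on_principal_of_eq_on_integral hgen _ _ ?_ hE) (fun P => ?_)
    (M := (finrankAlong k (alphaRes k N t) : ℤ)) (fun P Q => ?_) hD
  · rintro E ⟨y, hy, hyk, hne, hE⟩
    have hy' : coeffMap A.subtype y ∈ laurentBaseChange L (modularFunctionFieldFull (N * t)) :=
      by simpa using (heckeAlphaBar L N t ⟨_, hy⟩).2
    have hyk' : coeffMap π y ∈ modularFunctionFieldFullC k (N * t) :=
      full_degeneracyC_le k (dvd_mul_right N t) hyk
    ext Q
    simp only [AddMonoidHom.comp_apply, reductionDivAlong_apply]
    rw [hrM.2 y hy' hyk' hne _ (fun w =>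
        (pullbackAlong_apply_eq_ord _ hα hE w).trans (congrArg w.ord (Subtype.ext (by simp)))) Q,
      pullbackAlong_apply_eq_ord _ hαk (hr.2 y hy hyk hne E hE) Q]
    exact congrArg Q.ord (Subtype.ext rfl)
  · simp only [AddMonoidHom.comp_apply, reductionDivAlong_apply]
    intro Q
    rw [Finsupp.coe_zero, Pi.zero_apply, Finsupp.mapDomain, Finsupp.sum, Finsupp.finsetSum_apply]
    exact Finset.sum_nonneg fun w _ =>
      Finsupp.single_nonneg.mpr (pullbackAlong_single_nonneg _ hα P w) Q
  · simp only [AddMonoidHom.comp_apply, reductionDivAlong_single]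
    exact pullbackAlong_single_le _ hαk (r P) Q

end Compat

end Fermat.Agent.Reduction
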