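import Fermat.Agent.Reduction.DivisorSpec
import Fermat.Prelude.Def_ModularCurve_HeckeOperatorTotal

/-!
# The Eichler–Shimura congruence relation on divisor classes

From one congruence of `q`-expansions for norms along the degeneracy map, `T_ℓ` reduces mod `ℓ` to
`φ + ℓ φ⁻¹` on divisors of degree zero, for every specialisation map `Ψ` from level `N` to level `M`.
-/

set_option autoImplicit false

noncomputable section

namespace Fermat.Agent.Reduction

open HahnSeries IntermediateField AlgebraicCurve ModularCurve

variable {L : Type*} [Field L] [Algebra ℚ L] {k : Type*} [Field k]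

/-- The congruence of `q`-expansions `N_α (β y) ≡ (φ ȳ) · (φ⁻¹ ȳ) ^ ℓ` for functions with integral
expansion. -/
def NormCongruence (A : ValuationSubring L) (π : A →+* k) (N ℓ : ℕ) [NeZero N] [NeZero ℓ]
    (φ : k ≃+* k) : Prop :=
  ∀ (y : LaurentSeries A)
    (hy : coeffMap A.subtype y ∈ laurentBaseChange L (modularFunctionFieldFull N)),
    coeffMap π y ∈ modularFunctionFieldFullC k N →
    ∃ y' : LaurentSeries A,
      coeffMap A.subtype y' =
        ((letI := algebraAlong (heckeAlphaBar L N ℓ)
          Algebra.norm (laurentBaseChange L (modularFunctionFieldFull N))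
            (heckeBetaBar L N ℓ ⟨coeffMap A.subtype y, hy⟩) :
          laurentBaseChange L (modularFunctionFieldFull N)) : LaurentSeries L) ∧
      coeffMap π y' =
        coeffMap (φ : k →+* k) (coeffMap π y) *
          coeffMap (φ.symm : k →+* k) (coeffMap π y) ^ ℓ

variable {A : ValuationSubring L} {π : A →+* k} {N ℓ : ℕ} [NeZero N] [NeZero ℓ]
variable {M : ℕ} {Ψ : Divisor L (laurentBaseChange L (modularFunctionFieldFull N)) →+
  Divisor k (modularFunctionFieldFullC k M)}

theorem ord_pow {K F : Type*} [Field K] [Field F] [Algebra K F] (P : Place K F) (f : F) (n : ℕ) :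
    P.ord (f ^ n) = n * P.ord f := by
  have h := P.ord_zpow f (n : ℤ)
  rwa [zpow_natCast] at h

omit [NeZero N] in
theorem residueGalois_symm_smul_smul (φ : k ≃+* k) (x : Divisor k (modularFunctionFieldFullC k M)) :
    residueGalois M φ.symm • residueGalois M φ • x = x := by
  rw [← mul_smul, ← map_mul, show φ.symm * φ = 1 from RingEquiv.ext fun a => φ.symm_apply_apply a,
    map_one, one_smul]

theorem heckeDivBar_apply_eq_ord_norm
    [HasPrincipalDivisors L (laurentBaseChange L (modularFunctionFieldFull (N * ℓ)))]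
    (hα : HeckeAlphaBarIntegral L N ℓ) (hβ : HeckeBetaBarIntegral L N ℓ)
    (hfin : FiniteAlong L (heckeAlphaBar L N ℓ))
    (hN : NormFormulaAlong L (heckeAlphaBar L N ℓ) hfin)
    {f : laurentBaseChange L (modularFunctionFieldFull N)} (hf : f ≠ 0)
    {E : Divisor L (laurentBaseChange L (modularFunctionFieldFull N))}
    (hE : ∀ P, E P = P.ord f) (P : Place L (laurentBaseChange L (modularFunctionFieldFull N))) :
    heckeDivBar hα hβ E P =
      P.ord (letI := algebraAlong (heckeAlphaBar L N ℓ)
        Algebra.norm (laurentBaseChange L (modularFunctionFieldFull N))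
          (heckeBetaBar L N ℓ f)) := by
  have hpb : ∀ w, Divisor.pullbackAlong (heckeBetaBar L N ℓ) hβ E w =
      w.ord (heckeBetaBar L N ℓ f) := fun w => by
    letI := algebraAlong (heckeBetaBar L N ℓ)
    haveI := isScalarTower_along (heckeBetaBar L N ℓ)
    haveI := isIntegral_along (heckeBetaBar L N ℓ) hβ
    exact Divisor.pullback_apply_eq_ord hE w
  exact hN _ ((map_ne_zero_iff _ (heckeBetaBar L N ℓ).toRingHom.injective).mpr hf) _ hpb P

theorem correspondence_single_nonneg {K F F' : Type*} [Field K] [Field F] [Field F']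
    [Algebra K F] [Algebra K F'] [HasPrincipalDivisors K F'] (u v : F →ₐ[K] F')
    (hu : u.toRingHom.IsIntegral) (hv : v.toRingHom.IsIntegral) (P : Place K F) :
    0 ≤ Divisor.correspondence u v hu hv (Finsupp.single P 1) := by
  classical
  rw [Divisor.correspondence_apply, Divisor.pullbackAlong_single, map_sum]
  refine Finset.sum_nonneg fun W _ => ?_
  rw [Divisor.pushforwardAlong_single]
  exact Finsupp.single_nonneg.mpr (by positivity)

set_option maxHeartbeats 800000 in
/-- The congruence relation `T_ℓ ≡ φ + ℓ φ⁻¹` on divisors of degree zero. -/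
theorem IsDivisorSpec.map_heckeDivBar (hΨ : IsDivisorSpec A π N M Ψ)
    [HasPrincipalDivisors L (laurentBaseChange L (modularFunctionFieldFull N))]
    [HasPrincipalDivisors L (laurentBaseChange L (modularFunctionFieldFull (N * ℓ)))]
    (hdeg : ∀ P : Place L (laurentBaseChange L (modularFunctionFieldFull N)), 1 ≤ P.deg)
    (hR : WeakRiemann L (laurentBaseChange L (modularFunctionFieldFull N)))
    (hgen : PrincipalGeneratedByIntegral A π N)
    (hα : HeckeAlphaBarIntegral L N ℓ) (hβ : HeckeBetaBarIntegral L N ℓ)
    (hfin : FiniteAlong L (heckeAlphaBar L N ℓ))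
    (hN : NormFormulaAlong L (heckeAlphaBar L N ℓ) hfin)
    (φ : k ≃+* k) (hnc : NormCongruence A π N ℓ φ)
    {D : Divisor L (laurentBaseChange L (modularFunctionFieldFull N))}
    (hD : Divisor.degree D = 0) :
    Ψ (heckeDivBar hα hβ D) =
      residueGalois M φ • Ψ D + ℓ • residueGalois M φ.symm • Ψ D := by
  classical
  obtain ⟨B, hB⟩ := hΨ.bounded
  refine hom_ext_of_degree_eq_zero hdeg hR (Ψ.comp (heckeDivBar hα hβ))
    ((DistribSMul.toAddMonoidHom (Divisor k (modularFunctionFieldFullC k M)) (residueGalois M φ) +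
        ℓ • DistribSMul.toAddMonoidHom (Divisor k (modularFunctionFieldFullC k M))
          (residueGalois M φ.symm)).comp Ψ)
    (fun E hE => eq_on_principal_of_eq_on_integral hgen _ _ ?_ hE) (fun P => ?_)
    (M := B + ℓ * B) (fun P Q => ?_) hD
  · rintro E ⟨y, hy, hyk, hne, hE⟩
    obtain ⟨y', hy', hred⟩ := hnc y hy hyk
    have hy'mem : coeffMap A.subtype y' ∈ laurentBaseChange L (modularFunctionFieldFull N) := by
      rw [hy']; exact SetLike.coe_mem _
    have h1mem : coeffMap (φ : k →+* k) (coeffMap π y) ∈ modularFunctionFieldFullC k N :=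
      coeffMap_mem_fullC N _ hyk
    have h2mem : coeffMap (φ.symm : k →+* k) (coeffMap π y) ∈ modularFunctionFieldFullC k N :=
      coeffMap_mem_fullC N _ hyk
    have h1ne : coeffMap (φ : k →+* k) (coeffMap π y) ≠ 0 := fun h =>
      hne (HahnSeries.ext <| funext fun n => by
        simpa using congrArg (fun z : LaurentSeries k => z.coeff n) h)
    have h2ne : coeffMap (φ.symm : k →+* k) (coeffMap π y) ≠ 0 := fun h =>
      hne (HahnSeries.ext <| funext fun n => by
        simpa using congrArg (fun z : LaurentSeries k => z.coeff n) h)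
    have hyk' : coeffMap π y' ∈ modularFunctionFieldFullC k N := by
      rw [hred]; exact mul_mem h1mem (pow_mem h2mem ℓ)
    have hne' : coeffMap π y' ≠ 0 := by
      rw [hred]; exact mul_ne_zero h1ne (pow_ne_zero ℓ h2ne)
    have hy0 : (⟨coeffMap A.subtype y, hy⟩ :
        laurentBaseChange L (modularFunctionFieldFull N)) ≠ 0 := fun h => hne (by
      have h0 : coeffMap A.subtype y = 0 := congrArg Subtype.val h
      have hy0 : y = 0 := HahnSeries.ext <| funext fun n => Subtype.ext (by
        simpa using congrArg (fun z : LaurentSeries L => z.coeff n) h0)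
      rw [hy0, map_zero])
    have hT : ∀ P, heckeDivBar hα hβ E P =
        P.ord (⟨coeffMap A.subtype y', hy'mem⟩ :
          laurentBaseChange L (modularFunctionFieldFull N)) := fun P =>
      (heckeDivBar_apply_eq_ord_norm hα hβ hfin hN hy0 hE P).trans
        (congrArg P.ord (Subtype.ext hy'.symm))
    ext Q
    simp only [AddMonoidHom.comp_apply, AddMonoidHom.add_apply, AddMonoidHom.coe_smul,
      Pi.smul_apply, DistribSMul.toAddMonoidHom_apply]
    rw [hΨ.map_integral _ hy'mem hyk' hne' _ hT Q, Finsupp.add_apply, Finsupp.smul_apply,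
      divisor_smul_eq_ord _ (hΨ.map_integral y hy hyk hne E hE) Q,
      divisor_smul_eq_ord _ (hΨ.map_integral y hy hyk hne E hE) Q, nsmul_eq_mul, ← ord_pow,
      ← Q.ord_mul (fun h => h1ne (congrArg Subtype.val h))
        (pow_ne_zero ℓ fun h => h2ne (congrArg Subtype.val h))]
    exact congrArg Q.ord (Subtype.ext hred)
  · exact apply_nonneg_of_nonneg Ψ hΨ.nonneg (correspondence_single_nonneg _ _ hβ hα P)
  · simp only [AddMonoidHom.comp_apply, AddMonoidHom.add_apply, AddMonoidHom.coe_smul,
      Pi.smul_apply, DistribSMul.toAddMonoidHom_apply,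
      Finsupp.add_apply, Finsupp.smul_apply, SemilinearAut.divisor_smul_apply, nsmul_eq_mul]
    exact add_le_add (hB _ _) (mul_le_mul_of_nonneg_left (hB _ _) (Int.natCast_nonneg ℓ))

end Fermat.Agent.Reduction
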