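import Mathlib.FieldTheory.Relrank
import Fermat.Prelude.Def_ModularCurve_HeckeOperator
import Fermat.Agent.Modular.Degree
import Fermat.Agent.Reduction.PsiPrime

/-!
# The degree of `α : F_N → F_{Nℓ}` is `ℓ + 1` for a prime `ℓ ∤ N`
-/

set_option autoImplicit false
set_option linter.unusedSectionVars false
set_option synthInstance.maxHeartbeats 400000

noncomputable section

open IntermediateField AlgebraicCurve ModularCurve
open scoped IntermediateField

namespace Fermat.Agent.Reduction

variable {L : Type*} [Field L] [Algebra ℚ L]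

theorem finrankAlong_inclusion {E₁ E₂ : IntermediateField L (LaurentSeries L)} (h : E₁ ≤ E₂)
    (φ : E₁ →ₐ[L] E₂) (hφ : φ = IntermediateField.inclusion h) :
    finrankAlong L φ = relfinrank E₁ E₂ := by
  subst hφ
  rw [relfinrank_eq_finrank_of_le h]
  letI := algebraAlong (IntermediateField.inclusion h)
  exact (Algebra.finrank_eq_of_equiv_equiv (RingEquiv.refl E₁)
    ({ toFun := fun x => ⟨x.1, x.2⟩
       invFun := fun x => ⟨x.1, x.2⟩
       left_inv := fun _ => rfl
       right_inv := fun _ => rfl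
       map_mul' := fun _ _ => rfl
       map_add' := fun _ _ => rfl } : extendScalars h ≃+* E₂) rfl).symm

theorem relfinrank_adjoin_simple_of_finrank {E : IntermediateField L (LaurentSeries L)} (x : E)
    {n : ℕ} (h : Module.finrank L⟮x⟯ E = n) :
    relfinrank L⟮(x : LaurentSeries L)⟯ E = n := by
  have hr := relfinrank_map_map L⟮x⟯ ⊤ E.val
  rw [relfinrank_top_right, ← AlgHom.fieldRange_eq_map, IntermediateField.fieldRange_val,
    IntermediateField.adjoin_map, Set.image_singleton] at hr
  exact hr.trans h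

theorem relfinrank_serJ_FL (M : ℕ) [NeZero M] (ι : L →+* ℂ) :
    relfinrank L⟮Modular.serJ L⟯ (laurentBaseChange L (modularFunctionFieldFull M)) =
      dedekindPsi M :=
  relfinrank_adjoin_simple_of_finrank (Modular.jL M L) (Modular.finrank_FL M ι)

/-- `[F_{Nℓ} : F_N] = ℓ + 1` along `α`. -/
theorem finrankAlong_heckeAlphaBar_of_embedding (ι : L →+* ℂ) (N ℓ : ℕ) [NeZero N] [NeZero ℓ] (hℓ : ℓ.Prime)
    (hℓN : ¬ ℓ ∣ N) : finrankAlong L (heckeAlphaBar L N ℓ) = ℓ + 1 := by
  have hle : laurentBaseChange L (modularFunctionFieldFull N) ≤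
      laurentBaseChange L (modularFunctionFieldFull (N * ℓ)) :=
    IntermediateField.adjoin.mono L _ _ (Set.image_mono (full_degeneracy_le (dvd_mul_right N ℓ)))
  rw [finrankAlong_inclusion hle _ (heckeAlphaBar_eq_inclusion N ℓ hle)]
  have hj : L⟮Modular.serJ L⟯ ≤ laurentBaseChange L (modularFunctionFieldFull N) :=
    IntermediateField.adjoin_simple_le_iff.mpr (Modular.jL N L).2
  have hmul := relfinrank_mul_relfinrank hj hle
  rw [relfinrank_serJ_FL N ι, relfinrank_serJ_FL (N * ℓ) ι,
    dedekindPsi_mul_prime (NeZero.ne N) hℓ hℓN] at hmul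
  refine Nat.eq_of_mul_eq_mul_left ?_ hmul
  rw [← Modular.index_Gamma0]
  exact Nat.pos_of_ne_zero Subgroup.FiniteIndex.index_ne_zero

theorem finiteAlong_heckeAlphaBar_of_embedding (ι : L →+* ℂ) (N ℓ : ℕ) [NeZero N] [NeZero ℓ] (hℓ : ℓ.Prime)
    (hℓN : ¬ ℓ ∣ N) : FiniteAlong L (heckeAlphaBar L N ℓ) := by
  have h := finrankAlong_heckeAlphaBar_of_embedding ι N ℓ hℓ hℓN
  letI := algebraAlong (heckeAlphaBar L N ℓ)
  exact Module.finite_of_finrank_pos
    (show 0 < finrankAlong L (heckeAlphaBar L N ℓ) by rw [h]; exact Nat.succ_pos ℓ)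

end Fermat.Agent.Reduction
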