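import Mathlib.Algebra.CharP.Frobenius
import Mathlib.FieldTheory.IsAlgClosed.AlgebraicClosure
import Mathlib.FieldTheory.PrimitiveElement
import Mathlib.RingTheory.Norm.Transitivity
import Mathlib.RingTheory.PowerSeries.Expand
import Mathlib.RingTheory.RootsOfUnity.PrimitiveRoots
import Mathlib.RingTheory.Polynomial.Cyclotomic.Roots
import Fermat.Agent.Igusa.LaurentLead
import Fermat.Agent.Reduction.AtkinLehner
import Fermat.Agent.Reduction.Congruence

/-!
# The congruence of `q`-expansions behind the Eichler–Shimura relation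

For `ℓ ∤ N` the norm along `α : F_N → F_{Nℓ}` of `β x` has, in `t = q^(1/ℓ)`, the expansion
`x(t^(ℓ²)) · ∏_b x(ζ^b t)`: the `ℓ + 1` embeddings are the inclusion and the twists of the
Atkin–Lehner map.  Reducing modulo `ℓ` gives `NormCongruence`.
-/

set_option autoImplicit false
set_option linter.unusedSectionVars false
set_option synthInstance.maxHeartbeats 400000

noncomputable section

open HahnSeries IntermediateField AlgebraicCurve ModularCurve

namespace Fermat.Agent.Reduction

section Laurent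

variable {R : Type*} [CommRing R]

theorem twist_qExpand_of_pow_eq_one {n : ℕ} [NeZero n] {c : Rˣ} (hc : c ^ n = 1)
    (x : LaurentSeries R) : Igusa.twist c (qExpand R n x) = qExpand R n x := by
  refine HahnSeries.ext <| funext fun m => ?_
  rw [Igusa.twist_coeff]
  by_cases hm : (n : ℤ) ∣ m
  · obtain ⟨i, rfl⟩ := hm
    rw [zpow_mul, zpow_natCast, hc, one_zpow, Units.val_one, one_mul]
  · rw [qExpand_coeff_of_not_dvd n x hm, mul_zero]

/-- In characteristic `p` the `p`-th power substitutes `q ↦ q^p` after applying Frobenius to the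
coefficients. -/
theorem pow_eq_qExpand_coeffMap {k : Type*} [Field k] {p : ℕ} [Fact p.Prime] [CharP k p]
    [NeZero p] (φ : k →+* k) (hφ : ∀ a, φ a = a ^ p) (x : LaurentSeries k) :
    x ^ p = qExpand k p (coeffMap φ x) := by
  haveI : ExpChar k p := ExpChar.prime Fact.out
  obtain rfl : φ = frobenius k p := RingHom.ext fun a => (hφ a).trans (frobenius_def p a).symm
  have hps : ∀ g : PowerSeries k,
      qExpand k p (coeffMap (frobenius k p) (ofPowerSeries ℤ k g)) = ofPowerSeries ℤ k (g ^ p) := by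
    intro g
    rw [coeffMap_ofPowerSeries]
    have hg : g ^ p = (PowerSeries.expand p (NeZero.ne p) g).map (frobenius k p) :=
      (MvPowerSeries.map_frobenius_expand p (NeZero.ne p)).symm
    rw [hg, PowerSeries.map_expand]
    refine HahnSeries.ext <| funext fun m => ?_
    rcases le_or_gt 0 m with hm | hm
    · lift m to ℕ using hm
      rw [ofPowerSeries_apply_coeff]
      by_cases hd : p ∣ m
      · obtain ⟨i, rfl⟩ := hd
        rw [PowerSeries.coeff_expand_mul, Nat.cast_mul, qExpand_coeff_mul,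
          ofPowerSeries_apply_coeff]
      · rw [PowerSeries.coeff_expand_of_not_dvd p (NeZero.ne p) _ hd,
          qExpand_coeff_of_not_dvd p _ (fun h => hd (Int.natCast_dvd_natCast.mp h))]
    · rw [ofPowerSeries_coeff_of_neg _ hm]
      by_cases hd : (p : ℤ) ∣ m
      · obtain ⟨i, rfl⟩ := hd
        rw [qExpand_coeff_mul]
        exact ofPowerSeries_coeff_of_neg _
          (by by_contra h; exact absurd hm (not_lt.mpr (mul_nonneg (Int.natCast_nonneg p)
            (not_lt.mp h))))
      · exact qExpand_coeff_of_not_dvd p _ hd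
  conv_rhs => rw [← LaurentSeries.single_order_mul_powerSeriesPart x]
  conv_lhs => rw [← LaurentSeries.single_order_mul_powerSeriesPart x]
  rw [mul_pow, single_pow, one_pow, map_mul, map_mul, coeffMap_single, qExpand_single,
    nsmul_eq_mul, map_one (frobenius k p)]
  congr 1
  rw [← map_pow]
  exact (hps _).symm

end Laurent

/-- The norm as a product over a full set of distinct embeddings. -/
theorem map_norm_eq_prod {F F' Ω J : Type*} [Field F] [CharZero F] [Field F'] [Field Ω]
    [Algebra F F'] [Fintype J] [Nonempty J] (i : F →+* Ω) (σ : J → F' →+* Ω)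
    (hσ : ∀ j, (σ j).comp (algebraMap F F') = i) (hinj : Function.Injective σ)
    (hcard : Fintype.card J = Module.finrank F F') (x : F') :
    i (Algebra.norm F x) = ∏ j, σ j x := by
  letI : Algebra F Ω := i.toAlgebra
  haveI : FiniteDimensional F F' :=
    FiniteDimensional.of_finrank_pos (hcard ▸ Fintype.card_pos)
  haveI : Algebra.IsSeparable F F' := inferInstance
  let E := AlgebraicClosure Ω
  let τ : J → (F' →ₐ[F] E) := fun j =>
    { (algebraMap Ω E).comp (σ j) with
      commutes' := fun c => by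
        show algebraMap Ω E (σ j (algebraMap F F' c)) = algebraMap F E c
        rw [IsScalarTower.algebraMap_apply F Ω E]
        exact congrArg (algebraMap Ω E) (RingHom.congr_fun (hσ j) c) }
  have hτinj : Function.Injective τ := fun a b h => hinj (RingHom.ext fun y =>
    (algebraMap Ω E).injective (AlgHom.congr_fun h y))
  have hτ : Function.Bijective τ :=
    (Fintype.bijective_iff_injective_and_card τ).mpr ⟨hτinj, by rw [hcard, AlgHom.card]⟩
  refine (algebraMap Ω E).injective ?_
  rw [map_prod]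
  refine Eq.trans ?_ (Fintype.prod_bijective τ hτ (fun j => algebraMap Ω E (σ j x))
    (fun s => s x) fun j => rfl).symm
  rw [← Algebra.norm_eq_prod_embeddings F E x, IsScalarTower.algebraMap_apply F Ω E]
  rfl

/-- The norm of `β x` when the embeddings are the inclusion followed by `Q`, and the twists `T j`
of an endomorphism `w` exchanging the two legs. -/
theorem map_norm_eq_mul_prod {F F' Ω J : Type*} [Field F] [CharZero F] [Field F'] [Field Ω]
    [Algebra F F'] [Fintype J] (e : F →+* Ω) (v : F' →+* Ω) (β : F →+* F') (w : F' →+* F')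
    (Q : Ω →+* Ω) (T : J → Ω →+* Ω) (hv : ∀ y, v (algebraMap F F' y) = e y)
    (hwα : ∀ y, v (w (algebraMap F F' y)) = Q (e y)) (hwβ : ∀ y, v (w (β y)) = e y)
    (hT : ∀ j y, T j (Q (e y)) = Q (e y)) (x₀ : F)
    (hinj : Function.Injective fun o : Option J => o.elim (Q (v (β x₀))) fun j => T j (e x₀))
    (hcard : Fintype.card J + 1 = Module.finrank F F') (x : F) :
    Q (e (Algebra.norm F (β x))) = Q (v (β x)) * ∏ j, T j (e x) := by
  let σ : Option J → F' →+* Ω := fun o => o.elim (Q.comp v) fun j => (T j).comp (v.comp w)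
  have hσ : ∀ o, (σ o).comp (algebraMap F F') = Q.comp e := by
    intro o
    refine RingHom.ext fun y => ?_
    cases o with
    | none => exact congrArg Q (hv y)
    | some j => exact (congrArg (T j) (hwα y)).trans (hT j y)
  have hσinj : Function.Injective σ := by
    intro a b h
    refine hinj ?_
    rcases a with _ | a <;> rcases b with _ | b <;>
      simpa [σ, hwβ] using RingHom.congr_fun h (β x₀)
  refine (map_norm_eq_prod (Q.comp e) σ hσ hσinj (by rw [Fintype.card_option, hcard])
    (β x)).trans ?_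
  rw [Fintype.prod_option]
  congr 1
  exact Finset.prod_congr rfl fun j _ => congrArg (T j) (hwβ x)

variable {L : Type*} [Field L] [Algebra ℚ L] {N ℓ : ℕ} [NeZero N] [NeZero ℓ]

theorem injective_twist_jq (hℓ : ℓ.Prime) {ζ : Lˣ} (hζ : IsPrimitiveRoot ζ ℓ) {u v : LaurentSeries L}
    (hu : u.coeff (-1) = 1) :
    Function.Injective fun o : Option (Fin ℓ) =>
      o.elim (qExpand L ℓ v) fun b => Igusa.twist (ζ ^ (b : ℕ)) u := by
  have hnone : (qExpand L ℓ v).coeff (-1) = 0 := qExpand_coeff_of_not_dvd ℓ _ fun h =>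
    hℓ.not_dvd_one (Int.natCast_dvd_natCast.mp (by simpa using h))
  have hsome : ∀ b : Fin ℓ, (Igusa.twist (ζ ^ (b : ℕ)) u).coeff (-1) =
      (((ζ ^ (b : ℕ))⁻¹ : Lˣ) : L) := fun b => by
    rw [Igusa.twist_coeff, hu, mul_one, zpow_neg_one]
  rintro (_ | a) (_ | b) h
  · rfl
  · have h' := congrArg (fun s : LaurentSeries L => s.coeff (-1)) h
    simp only [Option.elim] at h'
    rw [hnone, hsome b] at h'
    exact absurd h'.symm (Units.ne_zero _)
  · have h' := congrArg (fun s : LaurentSeries L => s.coeff (-1)) h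
    simp only [Option.elim] at h'
    rw [hnone, hsome a] at h'
    exact absurd h' (Units.ne_zero _)
  · have h' := congrArg (fun s : LaurentSeries L => s.coeff (-1)) h
    simp only [Option.elim] at h'
    rw [hsome a, hsome b] at h'
    exact congrArg some (Fin.ext (hζ.pow_inj a.2 b.2 (inv_injective (Units.ext h'))))

/-- `qExpand_norm_heckeBetaBar` for any pair of subfields of `L((q))`. -/
theorem qExpand_norm_of_swap {E₁ E₂ : IntermediateField L (LaurentSeries L)}
    (α β : E₁ →ₐ[L] E₂) (w : E₂ →ₐ[L] E₂)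
    (hα : ∀ y, ((α y : E₂) : LaurentSeries L) = (y : LaurentSeries L))
    (hβ : ∀ y, ((β y : E₂) : LaurentSeries L) = qExpand L ℓ (y : LaurentSeries L))
    (hwα : w.comp α = β) (hwβ : w.comp β = α) (hℓ : ℓ.Prime) {ζ : Lˣ} (hζ : IsPrimitiveRoot ζ ℓ)
    (y₀ : E₁) (hy₀ : (y₀ : LaurentSeries L).coeff (-1) = 1)
    (hdeg : finrankAlong L α = ℓ + 1) (x : E₁) :
    qExpand L ℓ ((letI := algebraAlong α
        Algebra.norm E₁ (β x) : E₁) : LaurentSeries L) =
      qExpand L ℓ (qExpand L ℓ (x : LaurentSeries L)) *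
        ∏ b : Fin ℓ, Igusa.twist (ζ ^ (b : ℕ)) (x : LaurentSeries L) := by
  haveI : CharZero L := charZero_of_injective_algebraMap (algebraMap ℚ L).injective
  haveI : CharZero E₁ := charZero_of_injective_algebraMap (algebraMap L E₁).injective
  have h := @map_norm_eq_mul_prod E₁ E₂ (LaurentSeries L) (Fin ℓ) _ _ _ _ (algebraAlong α) _
    E₁.toSubfield.subtype E₂.toSubfield.subtype β.toRingHom w.toRingHom
    (qExpand L ℓ) (fun b => Igusa.twist (ζ ^ (b : ℕ))) hα
    (fun y => (congrArg Subtype.val (AlgHom.congr_fun hwα y)).trans (hβ y))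
    (fun y => (congrArg Subtype.val (AlgHom.congr_fun hwβ y)).trans (hα y))
    (fun b y => twist_qExpand_of_pow_eq_one
      (by rw [← pow_mul, mul_comm, pow_mul, hζ.pow_eq_one, one_pow]) _)
    y₀ (injective_twist_jq hℓ hζ hy₀) (by rw [Fintype.card_fin]; exact hdeg.symm) x
  exact h.trans (congrArg₂ (· * ·) (congrArg (qExpand L ℓ) (hβ x)) rfl)

theorem coeff_jdElem_one (M : ℕ) :
    (jdElem L (one_dvd M) : LaurentSeries L).coeff (-1) = 1 := by
  rw [coe_jdElem_one, coeffEmb_coeff, coeff_jq_neg_one, map_one]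

/-- The expansion in `q^(1/ℓ)` of the norm of `β x` along `α`. -/
theorem qExpand_norm_heckeBetaBar (hℓ : ℓ.Prime) (hℓN : ¬ ℓ ∣ N) (ι : L →+* ℂ)
    {ζ : Lˣ} (hζ : IsPrimitiveRoot ζ ℓ)
    (hdeg : finrankAlong L (heckeAlphaBar L N ℓ) = ℓ + 1)
    (x : laurentBaseChange L (modularFunctionFieldFull N)) :
    qExpand L ℓ ((letI := algebraAlong (heckeAlphaBar L N ℓ)
        Algebra.norm (laurentBaseChange L (modularFunctionFieldFull N))
          (heckeBetaBar L N ℓ x) :
        laurentBaseChange L (modularFunctionFieldFull N)) : LaurentSeries L) =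
      qExpand L ℓ (qExpand L ℓ (x : LaurentSeries L)) *
        ∏ b : Fin ℓ, Igusa.twist (ζ ^ (b : ℕ)) (x : LaurentSeries L) := by
  obtain ⟨w, hwα, hwβ⟩ := exists_atkinLehner (N := N) hℓ hℓN ι
  exact qExpand_norm_of_swap (heckeAlphaBar L N ℓ) (heckeBetaBar L N ℓ) w
    (coe_heckeAlphaBar N ℓ) (coe_heckeBetaBar N ℓ) hwα hwβ hℓ hζ (jdElem L (one_dvd N))
    (coeff_jdElem_one N) hdeg x

variable {k : Type*} [Field k]

/-- The norm congruence `N_α (β y) ≡ φ(ȳ) · φ⁻¹(ȳ) ^ ℓ`. -/
theorem normCongruence [IsAlgClosed L] (A : ValuationSubring L) (π : A →+* k) [CharP k ℓ]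
    (hℓ : ℓ.Prime) (hℓN : ¬ ℓ ∣ N) (ι : L →+* ℂ) (φ : k ≃+* k) (hφ : ∀ a, φ a = a ^ ℓ)
    (hdeg : finrankAlong L (heckeAlphaBar L N ℓ) = ℓ + 1) :
    NormCongruence A π N ℓ φ := by
  haveI : Fact ℓ.Prime := ⟨hℓ⟩
  haveI : CharZero L := charZero_of_injective_algebraMap (algebraMap ℚ L).injective
  obtain ⟨z, hz⟩ := IsAlgClosed.exists_root (Polynomial.cyclotomic ℓ L)
    (Polynomial.degree_cyclotomic_pos ℓ L hℓ.pos).ne'
  rw [Polynomial.isRoot_cyclotomic_iff] at hz
  have hzA : z ∈ A := by
    rcases A.mem_or_inv_mem z with h | h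
    · exact h
    · have h' : z = z⁻¹ ^ (ℓ - 1) := by
        rw [inv_pow]
        refine eq_inv_of_mul_eq_one_left ?_
        rw [← pow_succ', Nat.sub_add_cancel hℓ.one_le, hz.pow_eq_one]
      rw [h']
      exact pow_mem h _
  obtain ⟨ζA, hζA⟩ : ∃ u : Aˣ, ((u : A) : L) = z :=
    ⟨(IsUnit.of_pow_eq_one (M := A) (a := ⟨z, hzA⟩) (Subtype.ext hz.pow_eq_one) hℓ.ne_zero).unit,
      by rw [IsUnit.unit_spec]⟩
  let ζ : Lˣ := Units.map A.subtype.toMonoidHom ζA
  have hζ : IsPrimitiveRoot ζ ℓ := IsPrimitiveRoot.coe_units_iff.mp (by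
    show IsPrimitiveRoot ((ζA : A) : L) ℓ
    rw [hζA]; exact hz)
  have hζ1 : Units.map π.toMonoidHom ζA = 1 := by
    refine Units.ext ?_
    show π (ζA : A) = 1
    have h1 : π (ζA : A) ^ ℓ = 1 := by
      rw [← map_pow, show ((ζA : A)) ^ ℓ = 1 from Subtype.ext (by
        rw [SubmonoidClass.coe_pow, hζA]; exact hz.pow_eq_one), map_one]
    refine sub_eq_zero.mp (pow_eq_zero_iff hℓ.ne_zero |>.mp ?_)
    rw [sub_pow_char, h1, one_pow, sub_self]
  intro y hy _
  let Nrm : LaurentSeries L := ((letI := algebraAlong (heckeAlphaBar L N ℓ)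
        Algebra.norm (laurentBaseChange L (modularFunctionFieldFull N))
          (heckeBetaBar L N ℓ ⟨coeffMap A.subtype y, hy⟩) :
        laurentBaseChange L (modularFunctionFieldFull N)) : LaurentSeries L)
  have hN : qExpand L ℓ Nrm = _ :=
    qExpand_norm_heckeBetaBar hℓ hℓN ι hζ hdeg ⟨coeffMap A.subtype y, hy⟩
  let P : LaurentSeries A :=
    qExpand A ℓ (qExpand A ℓ y) * ∏ b : Fin ℓ, Igusa.twist (ζA ^ (b : ℕ)) y
  have hP : coeffMap A.subtype P = qExpand L ℓ Nrm := by
    rw [hN, map_mul, map_prod, coeffMap_qExpand, coeffMap_qExpand]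
    congr 1
    refine Finset.prod_congr rfl fun b _ => ?_
    rw [Igusa.coeffMap_twist, map_pow]
  have hinjA : Function.Injective (coeffMap A.subtype : LaurentSeries A → LaurentSeries L) :=
    fun u v h => HahnSeries.ext <| funext fun n => Subtype.ext
      (by simpa using congrArg (fun s : LaurentSeries L => s.coeff n) h)
  let y' : LaurentSeries A :=
    { coeff := fun n => P.coeff ((ℓ : ℤ) * n)
      isPWO_support' := Nrm.isPWO_support.mono fun n hn h0 => hn (Subtype.ext (by
        show ((P.coeff ((ℓ : ℤ) * n) : A) : L) = 0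
        rw [← ValuationSubring.subtype_apply, ← coeffMap_coeff, hP, qExpand_coeff_mul, h0])) }
  have hy' : coeffMap A.subtype y' = Nrm := HahnSeries.ext <| funext fun n => by
    show A.subtype (P.coeff ((ℓ : ℤ) * n)) = _
    rw [← coeffMap_coeff, hP, qExpand_coeff_mul]
  refine ⟨y', hy', qExpand_injective ℓ ?_⟩
  have hPy : qExpand A ℓ y' = P := hinjA (by rw [coeffMap_qExpand, hy', hP])
  have hpow := fun s : LaurentSeries k => pow_eq_qExpand_coeffMap (φ : k →+* k) hφ s
  rw [← coeffMap_qExpand, hPy, map_mul (coeffMap π), map_prod, coeffMap_qExpand, coeffMap_qExpand,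
    map_mul, map_pow, ← hpow, hpow (qExpand k ℓ _), coeffMap_qExpand, coeffMap_coeffMap,
    coeffMap_congr (g := RingHom.id k) (RingHom.ext fun a => φ.apply_symm_apply a), coeffMap_id]
  have htw : ∀ b : Fin ℓ, coeffMap π (Igusa.twist (ζA ^ (b : ℕ)) y) = coeffMap π y := fun b => by
    rw [Igusa.coeffMap_twist, map_pow, hζ1, one_pow, Igusa.twist_one]
  simp only [htw, Finset.prod_const, Finset.card_univ, Fintype.card_fin]
  ring

end Fermat.Agent.Reduction
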