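import Fermat.Prelude.Def_GaloisRep_ComplexConjugation
import Fermat.Agent.EC.Red.ResidueQbar
import Fermat.Agent.Reduction.HeckeDegree
import Fermat.Agent.Reduction.NormCongruence

/-!
# The norm congruence at a place of `ℚ̄` above `ℓ ∤ N`
-/

set_option autoImplicit false
set_option synthInstance.maxHeartbeats 400000

noncomputable section

namespace Fermat.Agent.Reduction

open ModularCurve AlgebraicCurve

/-- `N_α (β y) ≡ φ(ȳ) · φ⁻¹(ȳ) ^ ℓ` at every place of `ℚ̄` over a prime `ℓ ∤ N`. -/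
theorem normCongruenceModL (N ℓ : ℕ) [NeZero N] [NeZero ℓ] (hℓ : ℓ.Prime) (hℓN : ¬ ℓ ∣ N)
    (A : ValuationSubring (AlgebraicClosure ℚ)) (hA : A.LiesOverPrime ℓ)
    (φ : IsLocalRing.ResidueField A ≃+* IsLocalRing.ResidueField A) (hφ : ∀ a, φ a = a ^ ℓ) :
    NormCongruence A (IsLocalRing.residue A) N ℓ φ := by
  haveI : CharP (IsLocalRing.ResidueField A) ℓ := EC.charP_residueField A hℓ hA
  exact normCongruence A (IsLocalRing.residue A) hℓ hℓN complexEmbedding.toRingHom φ hφ
    (finrankAlong_heckeAlphaBar_of_embedding complexEmbedding.toRingHom N ℓ hℓ hℓN)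

end Fermat.Agent.Reduction
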