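import Fermat.Agent.Reduction.Specialization
import Fermat.Agent.Reduction.TorsionAux
import Fermat.Agent.Reduction.NormCongruenceModL
import Fermat.Agent.Reduction.WeakRiemann

/-!
# S37: the Eichler–Shimura specialisation of `J₀(N)` at every good prime
-/

set_option autoImplicit false
set_option linter.style.haveILetI false
set_option synthInstance.maxHeartbeats 400000

noncomputable section

namespace Fermat.Agent.Reduction

open AlgebraicCurve ModularCurve Fermat.Agent.Curve

theorem heckeInputsAlongBar (N ℓ : ℕ) [NeZero N] [NeZero ℓ] :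
    HeckeInputsAlong (AlgebraicClosure ℚ) N ℓ := by
  haveI : NeZero (N * ℓ) := ⟨Nat.mul_ne_zero (NeZero.ne N) (NeZero.ne ℓ)⟩
  exact heckeInputsAlong_intro (isIntegralAlong (heckeAlphaBar (AlgebraicClosure ℚ) N ℓ))
    (isIntegralAlong (heckeBetaBar (AlgebraicClosure ℚ) N ℓ))
    (fundamentalIdentityAlong _ _) (finiteAlong _) (normFormulaAlong _ _)

/-- S37, with the frozen statement's type. -/
theorem specializationExists_JZero (N p : ℕ) [NeZero N] (hcomm : HeckeOperatorsCommuteBar N) :
    letI := heckeModuleBar N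
    ∀ (_ : SMulCommClass (AlgebraicClosure ℚ ≃ₐ[ℚ] AlgebraicClosure ℚ) HeckeAlg (JZero N)),
      SpecializationExists (K := ℚ) (L := AlgebraicClosure ℚ) N p (JZero N) := by
  refine specializationExists_of N p one_le_deg weakRiemann hcomm ?_
    (fun ℓ _ _ _ => heckeInputsAlongBar N ℓ) ?_
  · intro ℓ _ hℓN A hA
    haveI : IsAlgClosed (IsLocalRing.ResidueField A) := EC.isAlgClosed_residueField A
    set t := auxFactor N ℓ with ht
    obtain ⟨rM, -, hrM, -⟩ := exists_placeReduction_aux N hℓN A hA
    have hα := isIntegralAlong (heckeAlphaBar (AlgebraicClosure ℚ) N t)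
    have hΨ := IsDivisorSpec.of_pullback (N := N) (t := t) hα (fundamentalIdentityAlong _ hα)
      (fun P => deg_eq_one P) (fun Q => one_le_deg Q) hrM
    refine ⟨principalGeneratedByIntegral N hℓN A hA, N * t, _, hΨ, fun m hm z hmz hz => ?_⟩
    obtain ⟨D, rfl⟩ := Pic0.mk_surjective z
    exact eq_zero_of_mapDomain_pullback_isPrincipal N hℓN A hA hα hrM hm D hmz
      ((specPic_mk_eq_zero_iff hΨ _ D).mp hz)
  · intro ℓ _ hℓ hℓN A hA φ hφ
    exact normCongruenceModL N ℓ hℓ hℓN A hA φ hφ

end Fermat.Agent.Reduction
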