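import Fermat.Agent.Reduction.PlaceReduction
import Fermat.Agent.Curve.Duality

/-!
# Regular differentials reduce to regular differentials

For a `j`-line cover with the ramification of `X₀(N)` in characteristic zero, the reductions of a
saturated basis of `{w : w dj regular}` give regular differentials `w̄ dj̄`: with
`u = w⁶ j⁴ (j - 1728)³`, the element `u` lies in `L(D∞)` and `u^n` in `L((n-1) D∞)`, hence so do
their reductions.  So the genus cannot drop under reduction, as soon as
`6 ord(dj̄) + 6 > ord (j̄⁴ (j̄ - 1728)³)` at the finite places below.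

Owner: helper65.
-/

set_option autoImplicit false

noncomputable section

namespace Fermat.Agent.Reduction

open AlgebraicCurve Fermat.Agent.Curve KaehlerDifferential
open scoped IntermediateField

variable {K : Type*} [Field K] {k : Type*} [Field k] {A : ValuationSubring K}
variable {F : Type*} [Field F] [Algebra K F] {Fb : Type*} [Field Fb] [Algebra k Fb]
variable {π : A →+* k}
variable [IsAlgClosed K] [CharZero K] [IsAlgClosed k] [IsFunctionField1 K F]
  [IsFunctionField1 k Fb]

/-- The condition on the different of `jb` at the finite places. -/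
def DifferentBound (jb : Fb) : Prop :=
  ∀ Q : Place k Fb, 0 ≤ Q.ord jb →
    Q.ord (jb ^ 4 * (jb - algebraMap k Fb 1728) ^ 3) < 6 * Q.ordDifferential (D k Fb jb) + 6

omit [IsAlgClosed K] [CharZero K] [IsAlgClosed k] [IsFunctionField1 K F] [IsFunctionField1 k Fb] in
theorem degree_le_degree {L E : Type*} [Field L] [Field E] [Algebra L E] {D D' : Divisor L E}
    (h : D ≤ D') : Divisor.degree D ≤ Divisor.degree D' := by
  have h0 : (0 : Divisor L E) ≤ D' - D := sub_nonneg.mpr h
  have h1 : 0 ≤ Divisor.degree (D' - D) := by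
    rw [Divisor.degree, Finsupp.liftAddHom_apply]
    exact Finset.sum_nonneg fun v _ => by
      simpa using mul_nonneg (h0 v) (Int.natCast_nonneg v.deg)
  rw [map_sub] at h1
  linarith

theorem mem_poleDivisor_bound {L E : Type*} [Field L] [Field E] [Algebra L E] [IsFunctionField1 L E]
    {j f : E} (m : ℕ) (hf : f ∈ riemannRochSpace (m • poleDivisor (K := L) j)) (hf0 : f ≠ 0)
    (P : Place L E) : -((m : ℤ) * max (-P.ord j) 0) ≤ P.ord f := by
  have h := (mem_riemannRochSpace_iff.mp hf P).resolve_left hf0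
  simpa using h

/-- Regular functions at the finite places with bounded poles keep their bound under reduction. -/
theorem GaussData.ord_reduction_of_mem_rr (G : GaussData π F Fb) {j : F} {jb : Fb}
    (hj : (j, jb) ∈ G.graph) (htr : Transcendental k jb)
    (hn : Module.finrank k⟮jb⟯ Fb = Module.finrank K⟮j⟯ F) (m : ℕ) {f : F} {g : Fb}
    (hfg : (f, g) ∈ G.graph) (hf : f ∈ riemannRochSpace (m • poleDivisor (K := K) j)) :
    g ∈ riemannRochSpace (m • poleDivisor (K := k) jb) := by
  classical
  rw [mem_riemannRochSpace_iff]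
  intro Q₀
  by_cases hg : g = 0
  · exact Or.inl hg
  refine Or.inr ?_
  by_contra hcon
  simp only [Finsupp.smul_apply, poleDivisor_apply, nsmul_eq_mul, not_le] at hcon
  have htrj : Transcendental K j := G.transcendental_of_mem hj htr
  have hjb0 : jb ≠ 0 := fun h => htr (h ▸ isAlgebraic_zero)
  -- a constant avoiding cancellation at the poles of `jb`
  let bad : Place k Fb → Set k := fun Q =>
    {c | g + c • jb ^ m = 0 ∨ (m : ℤ) * Q.ord jb < Q.ord (g + c • jb ^ m)}
  have hord_m : ∀ Q : Place k Fb, Q.ord (jb ^ m) = m * Q.ord jb := fun Q => ord_pow Q jb m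
  have hbad : ∀ Q, (bad Q).Subsingleton := by
    intro Q a ha b hb'
    by_contra hab
    have hab' : a - b ≠ 0 := sub_ne_zero.mpr hab
    have hdiff : (a - b) • jb ^ m = (g + a • jb ^ m) - (g + b • jb ^ m) := by
      rw [sub_smul]; abel
    have hle : OrdGE Q ((m : ℤ) * Q.ord jb + 1) ((g + a • jb ^ m) - (g + b • jb ^ m)) := by
      refine OrdGE.sub (v := Q) ?_ ?_ <;> rw [ordGE_iff]
      · exact ha.imp id fun h => by omega
      · exact hb'.imp id fun h => by omega
    rw [← hdiff, ordGE_iff, Torsion.ord_smul_const hab', hord_m] at hle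
    rcases hle with h | h
    · exact smul_ne_zero hab' (pow_ne_zero m hjb0) h
    · omega
  have hfin : (insert (0 : k) (⋃ Q ∈ {Q : Place k Fb | Q.ord jb ≠ 0}, bad Q)).Finite :=
    ((finite_ord_ne_zero jb).biUnion fun Q _ => (hbad Q).finite).insert 0
  obtain ⟨c, hc⟩ := hfin.exists_notMem
  simp only [Set.mem_insert_iff, Set.mem_iUnion, not_or, not_exists] at hc
  obtain ⟨hc0, hcbad⟩ := hc
  obtain ⟨a, ha⟩ := G.residue_surjective c
  set z : F := f + (a : K) • j ^ m with hz_def
  set zb : Fb := g + c • jb ^ m with hzb_def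
  have hz : (z, zb) ∈ G.graph := by
    have := G.graph.add_mem hfg (G.smul_mem a (G.graph.pow_mem hj m))
    simpa [hz_def, hzb_def, ha] using this
  have hinf : ∀ Q : Place k Fb, Q.ord jb < 0 → zb ≠ 0 ∧ Q.ord zb ≤ m * Q.ord jb := by
    intro Q hQ
    have h := hcbad Q (Set.mem_ofPred_eq ▸ hQ.ne)
    simp only [bad, Set.mem_ofPred_eq, not_or, not_lt] at h
    exact h
  have hQ₀ : zb ≠ 0 ∧ Q₀.ord zb = Q₀.ord g := by
    refine add_ne_zero_and_ord_add_eq Q₀ hg rfl ?_
    rw [ordGE_iff]
    refine Or.inr ?_
    rw [Torsion.ord_smul_const hc0, hord_m]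
    rcases lt_or_ge (Q₀.ord jb) 0 with h | h
    · rw [max_eq_left (by omega)] at hcon
      linarith
    · rw [max_eq_right (by omega)] at hcon
      have := mul_nonneg (Int.natCast_nonneg m) h
      omega
  obtain ⟨hzb0, hordQ₀⟩ := hQ₀
  have hneg : Q₀.ord zb < 0 := by
    have := mul_nonneg (Int.natCast_nonneg m) (le_max_right (-Q₀.ord jb) 0)
    omega
  have htrzb : Transcendental k zb := transcendental_of_ord_ne_zero Q₀ hneg.ne
  have htrz : Transcendental K z := G.transcendental_of_mem hz htrzb
  have hle1 : m • poleDivisor (K := k) jb + Finsupp.single Q₀ 1 ≤ poleDivisor (K := k) zb := by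
    intro Q
    simp only [Finsupp.add_apply, Finsupp.smul_apply, poleDivisor_apply, nsmul_eq_mul]
    rcases eq_or_ne Q Q₀ with rfl | hne
    · rw [Finsupp.single_eq_same, max_eq_left (by omega : (0 : ℤ) ≤ -Q.ord zb)]
      omega
    · rw [Finsupp.single_eq_of_ne hne, add_zero]
      rcases lt_or_ge (Q.ord jb) 0 with h | h
      · rw [max_eq_left (by omega : (0 : ℤ) ≤ -Q.ord jb)]
        exact le_max_of_le_left (by linarith [(hinf Q h).2])
      · rw [max_eq_right (by omega : -Q.ord jb ≤ 0), mul_zero]
        exact le_max_right _ _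
  have hzmem : z ∈ riemannRochSpace (m • poleDivisor (K := K) j) := by
    refine add_mem hf (Submodule.smul_mem _ _ ?_)
    refine Torsion.rr_pow (mem_riemannRochSpace_iff.mpr fun P => Or.inr ?_) m
    rw [poleDivisor_apply]
    omega
  have hz0 : z ≠ 0 := G.ne_zero_of_mem hz hzb0
  have hle2 : poleDivisor (K := K) z ≤ m • poleDivisor (K := K) j := by
    intro P
    have h := mem_poleDivisor_bound m hzmem hz0 P
    simp only [Finsupp.smul_apply, poleDivisor_apply, nsmul_eq_mul]
    refine max_le (by linarith) (mul_nonneg (Int.natCast_nonneg m) (le_max_right _ _))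
  have h1 := degree_le_degree hle1
  have h2 := degree_le_degree hle2
  rw [map_add, map_nsmul, degree_poleDivisor htr, degree_poleDivisor htrzb, Divisor.degree_single,
    nsmul_eq_mul, hn] at h1
  rw [map_nsmul, degree_poleDivisor htrj, degree_poleDivisor htrz, nsmul_eq_mul] at h2
  have h3 : (Module.finrank k⟮zb⟯ Fb : ℤ) ≤ Module.finrank K⟮z⟯ F := by
    exact_mod_cast G.finrank_adjoin_le hz htrzb
  have h4 : (0 : ℤ) < Q₀.deg := by exact_mod_cast deg_pos Q₀
  linarith

theorem GaussData.genusFF_le_of_ramification (G : GaussData π F Fb) {j : F} {jb : Fb}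
    (hj : (j, jb) ∈ G.graph) (htr : Transcendental k jb)
    (hn : Module.finrank k⟮jb⟯ Fb = Module.finrank K⟮j⟯ F)
    (hsep : Algebra.IsSeparable k⟮jb⟯ Fb)
    (h0 : ∀ P : Place K F, 0 < P.ord j → P.ord j ≤ 3)
    (h1728 : ∀ P : Place K F, 0 < P.ord (j - algebraMap K F 1728) →
      P.ord (j - algebraMap K F 1728) ≤ 2)
    (hram : ∀ c : K, c ≠ 0 → c ≠ 1728 → ∀ P : Place K F, 0 < P.ord (j - algebraMap K F c) →
      P.ord (j - algebraMap K F c) = 1)
    (hb : DifferentBound (k := k) jb) :
    genusFF K F ≤ genusFF k Fb := by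
  classical
  have : CharZero F := charZero_of_injective_algebraMap (algebraMap K F).injective
  have htrj : Transcendental K j := G.transcendental_of_mem hj htr
  have : FiniteDimensional K⟮j⟯ F := finiteDimensional_adjoin htrj
  have hsub : ∀ c : K, j - algebraMap K F c ≠ 0 := fun c h =>
    htrj (sub_eq_zero.mp h ▸ isAlgebraic_algebraMap c)
  have hsubb : ∀ c : k, jb - algebraMap k Fb c ≠ 0 := fun c h =>
    htr (sub_eq_zero.mp h ▸ isAlgebraic_algebraMap c)
  have hj0 : j ≠ 0 := by simpa using hsub 0
  have hjb0 : jb ≠ 0 := by simpa using hsubb 0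
  have hω : D K F j ≠ 0 := D_ne_zero_of_isSeparable htrj
  have hωb : D k Fb jb ≠ 0 := D_ne_zero_of_isSeparable htr
  rw [← ell_canonicalDivisorOf hω, ← ell_canonicalDivisorOf hωb, ell, ell,
    ← G.finrank_redSpace _ (finite_riemannRochSpace _)]
  refine Submodule.finrank_mono ?_
  rintro wb ⟨w, hw, hwg⟩
  rw [mem_riemannRochSpace_iff]
  intro Q
  by_cases hwb : wb = 0
  · exact Or.inl hwb
  refine Or.inr ?_
  rw [canonicalDivisorOf_apply]
  have hw0 : w ≠ 0 := G.ne_zero_of_mem hwg hwb
  set n : ℕ := Module.finrank K⟮j⟯ F with hn_def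
  have hn0 : 0 < n := Module.finrank_pos
  set u : F := w ^ 6 * (j ^ 4 * (j - algebraMap K F 1728) ^ 3) with hu_def
  set ub : Fb := wb ^ 6 * (jb ^ 4 * (jb - algebraMap k Fb 1728) ^ 3) with hub_def
  have hu : (u, ub) ∈ G.graph := by
    have h1728 : (algebraMap K F 1728, algebraMap k Fb 1728) ∈ G.graph := by
      have h := G.algebraMap_mem (1728 : A)
      rwa [map_ofNat π 1728, show (((1728 : A)) : K) = 1728 from map_ofNat A.subtype 1728] at h
    exact G.graph.mul_mem (G.graph.pow_mem hwg 6)
      (G.graph.mul_mem (G.graph.pow_mem hj 4) (G.graph.pow_mem (G.graph.sub_mem hj h1728) 3))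
  have hu0 : u ≠ 0 := mul_ne_zero (pow_ne_zero _ hw0)
    (mul_ne_zero (pow_ne_zero _ hj0) (pow_ne_zero _ (hsub _)))
  have hub0 : ub ≠ 0 := mul_ne_zero (pow_ne_zero _ hwb)
    (mul_ne_zero (pow_ne_zero _ hjb0) (pow_ne_zero _ (hsubb _)))
  have hordu : ∀ P : Place K F,
      P.ord u = 6 * P.ord w + (4 * P.ord j + 3 * P.ord (j - algebraMap K F 1728)) := fun P => by
    rw [hu_def, P.ord_mul (pow_ne_zero _ hw0)
      (mul_ne_zero (pow_ne_zero _ hj0) (pow_ne_zero _ (hsub _))),
      P.ord_mul (pow_ne_zero _ hj0) (pow_ne_zero _ (hsub _)), ord_pow, ord_pow, ord_pow]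
    push_cast
    ring
  have hordP7 : Q.ord (jb ^ 4 * (jb - algebraMap k Fb 1728) ^ 3) =
      4 * Q.ord jb + 3 * Q.ord (jb - algebraMap k Fb 1728) := by
    rw [Q.ord_mul (pow_ne_zero _ hjb0) (pow_ne_zero _ (hsubb _)), ord_pow, ord_pow]
    push_cast
    ring
  have hordub : Q.ord ub =
      6 * Q.ord wb + (4 * Q.ord jb + 3 * Q.ord (jb - algebraMap k Fb 1728)) := by
    rw [hub_def, Q.ord_mul (pow_ne_zero _ hwb)
      (mul_ne_zero (pow_ne_zero _ hjb0) (pow_ne_zero _ (hsubb _))), hordP7, ord_pow]
    push_cast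
    ring
  -- characteristic zero
  have hreg : ∀ P : Place K F, 0 ≤ P.ord w + P.ordDifferential (D K F j) := fun P => by
    have h := (mem_riemannRochSpace_iff.mp hw P).resolve_left hw0
    rw [canonicalDivisorOf_apply] at h
    omega
  have hpolej : ∀ P : Place K F, -P.ord j ≤ (n : ℤ) := fun P => by
    rcases le_or_gt (-P.ord j) 0 with h | h
    · omega
    have h1 : Finsupp.single P (-P.ord j) ≤ poleDivisor (K := K) j := fun v => by
      rcases eq_or_ne v P with rfl | hv
      · simp
      · simp [Finsupp.single_eq_of_ne hv]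
    have h2 := degree_le_degree h1
    rw [Divisor.degree_single, degree_poleDivisor htrj, deg_eq_one, Nat.cast_one, mul_one] at h2
    exact h2
  have hcu : ∀ P : Place K F, (0 ≤ P.ord j → 0 ≤ P.ord u) ∧
      (P.ord j < 0 → P.ord j + 6 ≤ P.ord u) := by
    intro P
    refine ⟨fun hP => ?_, fun hP => ?_⟩
    · set c := evalAt P j with hc_def
      have hpos : 0 < P.ord (j - algebraMap K F c) :=
        (evalAt_spec P (mem_of_ord_nonneg P hP)).resolve_left (hsub c)
      have hd : P.ordDifferential (D K F j) = P.ord (j - algebraMap K F c) - 1 := by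
        rw [← ordDifferential_D_of_ne_zero P (f := j - algebraMap K F c)
          (Int.cast_ne_zero.mpr hpos.ne'), map_sub, Derivation.map_algebraMap, sub_zero]
      have hsame : ∀ c' : K, c' ≠ c → P.ord (j - algebraMap K F c') = 0 := by
        intro c' hne
        have e : j - algebraMap K F c' =
            algebraMap K F (c - c') + (j - algebraMap K F c) := by
          rw [map_sub]; ring
        rw [e, ord_add_eq_of_lt P ((map_ne_zero _).mpr (sub_ne_zero.mpr hne.symm))
          (by rwa [ord_algebraMap]), ord_algebraMap]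
      have hr := hreg P
      rw [hd] at hr
      rw [hordu]
      rcases eq_or_ne c 0 with hc0 | hc0
      · have e1 : j - algebraMap K F c = j := by rw [hc0, map_zero, sub_zero]
        rw [e1] at hpos hr
        have h17 := hsame 1728 (by rw [hc0]; norm_num)
        have := h0 P hpos
        omega
      · have hj00 : P.ord j = 0 := by simpa using hsame 0 hc0.symm
        rcases eq_or_ne c 1728 with hc17 | hc17
        · rw [hc17] at hpos hr
          have := h1728 P hpos
          omega
        · have := hram c hc0 hc17 P hpos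
          have := hsame 1728 hc17.symm
          omega
    · have hd : P.ordDifferential (D K F j) = P.ord j - 1 :=
        ordDifferential_D_of_ne_zero P (Int.cast_ne_zero.mpr hP.ne)
      have h17 : P.ord (j - algebraMap K F 1728) = P.ord j := by
        rw [sub_eq_add_neg, ord_add_eq_of_lt P hj0 (by rwa [ord_neg, ord_algebraMap])]
      have hr := hreg P
      rw [hordu, h17]
      omega
  have hu1 : u ∈ riemannRochSpace ((1 : ℕ) • poleDivisor (K := K) j) := by
    rw [mem_riemannRochSpace_iff]
    refine fun P => Or.inr ?_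
    simp only [one_smul, poleDivisor_apply]
    rcases le_or_gt 0 (P.ord j) with h | h
    · have := (hcu P).1 h
      omega
    · have := (hcu P).2 h
      omega
  have hun : u ^ n ∈ riemannRochSpace ((n - 1) • poleDivisor (K := K) j) := by
    rw [mem_riemannRochSpace_iff]
    refine fun P => Or.inr ?_
    simp only [Finsupp.smul_apply, poleDivisor_apply, nsmul_eq_mul, ord_pow,
      Nat.cast_sub hn0, Nat.cast_one]
    rcases le_or_gt 0 (P.ord j) with h | h
    · have := mul_nonneg (Int.natCast_nonneg n) ((hcu P).1 h)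
      rw [max_eq_right (by omega : -P.ord j ≤ 0), mul_zero, neg_zero]
      exact this
    · have := hpolej P
      rw [max_eq_left (by omega : (0 : ℤ) ≤ -P.ord j)]
      nlinarith [(hcu P).2 h, Int.natCast_nonneg n]
  -- characteristic `ℓ`
  have hub1 := mem_poleDivisor_bound 1 (G.ord_reduction_of_mem_rr hj htr hn 1 hu hu1) hub0 Q
  have hpow : (u ^ n, ub ^ n) ∈ G.graph := G.graph.pow_mem hu n
  have hubn := mem_poleDivisor_bound (n - 1)
    (G.ord_reduction_of_mem_rr hj htr hn (n - 1) hpow hun)
    (pow_ne_zero n hub0) Q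
  rw [ord_pow, Nat.cast_sub hn0, Nat.cast_one, hordub] at hubn
  rw [Nat.cast_one, one_mul, hordub] at hub1
  rcases le_or_gt 0 (Q.ord jb) with h | h
  · rw [max_eq_right (by omega : -Q.ord jb ≤ 0), neg_zero] at hub1
    have := hb Q h
    rw [hordP7] at this
    omega
  · have h17 : Q.ord (jb - algebraMap k Fb 1728) = Q.ord jb := by
      rw [sub_eq_add_neg, ord_add_eq_of_lt Q hjb0 (by rwa [ord_neg, ord_algebraMap])]
    rw [max_eq_left (by omega : (0 : ℤ) ≤ -Q.ord jb), h17] at hubn
    have := sub_one_le_ordDifferential_D Q hωb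
    have hlt : -Q.ord jb < Q.ord wb := by
      nlinarith [Int.natCast_nonneg n]
    omega

end Fermat.Agent.Reduction
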