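import Fermat.Prelude.Def_AlgebraicCurve_Repartitions
import Mathlib.LinearAlgebra.FiniteDimensional.Basic
import Mathlib.Algebra.Ring.GeomSum
import Mathlib.Algebra.Ring.Subring.Basic
import Mathlib.Algebra.Ring.Prod

/-!
# Injectivity of reduction on prime-to-residue-characteristic torsion of `Pic⁰`

Abstract setting: function fields `F/K` and `Fb/k`, a valuation subring `A` of `K` with residue
map `π : A →+* k`, a map `r` of places and a "Gauss reduction" relation between `F` and `Fb`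
compatible with divisors through `r`.  If Riemann–Roch spaces of divisors of large degree keep
their dimension under reduction, a divisor class killed by `m` (invertible in `k`) with principal
reduction is zero.

Proof: let `m • D = div y`, `ȳ = h ^ m`, `E₁ = n P₁`, `E₂ = n P₂` with `r P₁ ≠ r P₂`.  If
`L(-D) = 0` then `L(E₁-D) + L(E₂-D)` reduces to more than `h(L(rE₁) + L(rE₂))`, so there are
`a - b = ρ x` with `ā = b̄ = h` and `x̄` outside that sum; but `(a^m - b^m)/(ρ y)` lies in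
`L(mE₁) + L(mE₂)`, whose reduction is `L(m rE₁) + L(m rE₂)`, forcing `x̄` inside.
-/

set_option autoImplicit false

noncomputable section

open WithZero

namespace Fermat.Agent.Reduction.Torsion

open AlgebraicCurve

section RRSpace

variable {K F : Type*} [Field K] [Field F] [Algebra K F]

theorem rr_mono {D E : Divisor K F} (h : D ≤ E) {f : F} (hf : f ∈ riemannRochSpace D) :
    f ∈ riemannRochSpace E := fun v => (hf v).trans (exp_le_exp.mpr (h v))

theorem rr_mul {D E : Divisor K F} {f g : F} (hf : f ∈ riemannRochSpace D)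
    (hg : g ∈ riemannRochSpace E) : f * g ∈ riemannRochSpace (D + E) := fun v => by
  rw [map_mul, Finsupp.add_apply, exp_add]
  exact mul_le_mul' (hf v) (hg v)

theorem rr_one : (1 : F) ∈ riemannRochSpace (0 : Divisor K F) := fun v => by simp

theorem rr_pow {D : Divisor K F} {f : F} (hf : f ∈ riemannRochSpace D) (n : ℕ) :
    f ^ n ∈ riemannRochSpace (n • D) := by
  induction n with
  | zero => simpa using rr_one (K := K) (F := F)
  | succ n ih =>
    rw [pow_succ, succ_nsmul]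
    exact rr_mul ih hf

theorem rr_of_ord {f : F} {D : Divisor K F} (h : ∀ v, D v = v.ord f) :
    f ∈ riemannRochSpace (-D) := fun v => by
  rcases eq_or_ne f 0 with rfl | hf
  · simp
  · rw [v.adicValuation_eq_exp_neg_ord hf, Finsupp.neg_apply, h v]

theorem rr_of_ord_inv {f : F} {D : Divisor K F} (h : ∀ v, D v = v.ord f) :
    f⁻¹ ∈ riemannRochSpace D := by
  have := rr_of_ord (f := f⁻¹) (D := -D) (fun v => by rw [Finsupp.neg_apply, h v, v.ord_inv])
  rwa [neg_neg] at this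

theorem ord_algebraMap (v : Place K F) (c : K) : v.ord (algebraMap K F c) = 0 := by
  rcases eq_or_ne c 0 with rfl | hc
  · simp
  · have := v.ord_coe_unit ((Ne.isUnit hc).map (algebraMap K v.toValuationSubring)).unit
    simpa using this

theorem ord_pow (v : Place K F) (f : F) (n : ℕ) : v.ord (f ^ n) = n * v.ord f := by
  rw [← zpow_natCast, v.ord_zpow]

theorem ord_smul_const {c : K} (hc : c ≠ 0) (v : Place K F) (f : F) :
    v.ord (c • f) = v.ord f := by
  rcases eq_or_ne f 0 with rfl | hf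
  · simp
  · rw [Algebra.smul_def,
      v.ord_mul ((map_ne_zero (algebraMap K F)).mpr hc) hf, ord_algebraMap, zero_add]

end RRSpace

variable {K : Type*} [Field K] {k : Type*} [Field k]
variable {F : Type*} [Field F] [Algebra K F] {Fb : Type*} [Field Fb] [Algebra k Fb]
variable {A : ValuationSubring K} {π : A →+* k}

/-- A reduction relation from `F` to `Fb` above `π`, compatible with divisors through `r`. -/
structure GaussReduction (π : A →+* k) (r : Place K F → Place k Fb) where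
  /-- the graph of the reduction map -/
  graph : Subring (F × Fb)
  unique : ∀ g : Fb, ((0 : F), g) ∈ graph → g = 0
  algebraMap_mem : ∀ a : A, (algebraMap K F a, algebraMap k Fb (π a)) ∈ graph
  exists_smul : ∀ f : F, f ≠ 0 → ∃ c : K, c ≠ 0 ∧ ∃ g : Fb, g ≠ 0 ∧ (c • f, g) ∈ graph
  residue_surjective : Function.Surjective π
  residue_eq_zero : ∀ a : A, (a : K)⁻¹ ∉ A → π a = 0
  ord_eq : ∀ (f : F) (g : Fb), (f, g) ∈ graph → g ≠ 0 →
    ∀ D : Divisor K F, (∀ P, D P = P.ord f) → ∀ Q, Finsupp.mapDomain r D Q = Q.ord g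

namespace GaussReduction

variable {r : Place K F → Place k Fb} (G : GaussReduction π r)

theorem eq_of_mem {f : F} {g g' : Fb} (h : (f, g) ∈ G.graph) (h' : (f, g') ∈ G.graph) :
    g = g' := by
  refine sub_eq_zero.mp (G.unique _ ?_)
  simpa using G.graph.sub_mem h h'

theorem smul_mem (a : A) {f : F} {g : Fb} (h : (f, g) ∈ G.graph) :
    ((a : K) • f, π a • g) ∈ G.graph := by
  simpa [Algebra.smul_def] using G.graph.mul_mem (G.algebraMap_mem a) h

theorem ne_zero_of_mem {f : F} {g : Fb} (h : (f, g) ∈ G.graph) (hg : g ≠ 0) : f ≠ 0 :=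
  fun hf => hg (G.unique g (hf ▸ h))

theorem inv_mem {f : F} {g : Fb} (h : (f, g) ∈ G.graph) (hg : g ≠ 0) :
    (f⁻¹, g⁻¹) ∈ G.graph := by
  have hf := G.ne_zero_of_mem h hg
  obtain ⟨c, hc, g', hg', hcg⟩ := G.exists_smul f⁻¹ (inv_ne_zero hf)
  have hcA : c⁻¹ ∈ A := by
    by_contra hcA
    have hcA' : c ∈ A := (A.mem_or_inv_mem c).resolve_right hcA
    have h1 : (algebraMap K F c, g' * g) ∈ G.graph := by
      simpa [Algebra.smul_def, hf] using G.graph.mul_mem hcg h
    have h2 := G.eq_of_mem h1 (G.algebraMap_mem ⟨c, hcA'⟩)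
    rw [G.residue_eq_zero ⟨c, hcA'⟩ hcA, map_zero] at h2
    exact mul_ne_zero hg' hg h2
  have h1 := G.smul_mem ⟨c⁻¹, hcA⟩ hcg
  rw [smul_smul, inv_mul_cancel₀ hc, one_smul] at h1
  have h2 : ((1 : F), π ⟨c⁻¹, hcA⟩ • g' * g) ∈ G.graph := by
    simpa [hf] using G.graph.mul_mem h1 h
  have h3 : π ⟨c⁻¹, hcA⟩ • g' * g = 1 := G.eq_of_mem h2 G.graph.one_mem
  rwa [← eq_inv_of_mul_eq_one_left h3]

include G in
theorem residue_unit {a : A} (ha : π a ≠ 0) : (a : K)⁻¹ ∈ A :=
  not_not.mp fun h => ha (G.residue_eq_zero a h)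

/-- An integral `f` with reduction in a Riemann–Roch space. -/
theorem mem_rr [HasPrincipalDivisors K F] {E : Divisor K F} {f : F} {g : Fb}
    (h : (f, g) ∈ G.graph) (hf : f ∈ riemannRochSpace E) :
    g ∈ riemannRochSpace (Finsupp.mapDomain r E) := by
  rcases eq_or_ne g 0 with rfl | hg
  · exact zero_mem _
  have hf0 := G.ne_zero_of_mem h hg
  obtain ⟨D, hD, -⟩ := HasPrincipalDivisors.exists_divisor (K := K) f hf0
  have hle : 0 ≤ E + D := fun P => by
    have := (mem_riemannRochSpace_iff.mp hf P).resolve_left hf0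
    simp only [Finsupp.add_apply, Finsupp.coe_zero, Pi.zero_apply, hD P]
    omega
  intro Q
  rw [Q.adicValuation_eq_exp_neg_ord hg, ← G.ord_eq f g h hg D hD Q, exp_le_exp]
  have hQ : 0 ≤ Finsupp.mapDomain r (E + D) Q := by
    simp only [Finsupp.mapDomain, Finsupp.sum, Finsupp.finsetSum_apply]
    exact Finset.sum_nonneg fun P _ => Finsupp.single_nonneg.mpr (hle P) Q
  rw [Finsupp.mapDomain_add, Finsupp.add_apply] at hQ
  omega

/-- The space of reductions of the integral elements of `W`. -/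
def redSpace (W : Submodule K F) : Submodule k Fb where
  carrier := {g | ∃ f ∈ W, (f, g) ∈ G.graph}
  zero_mem' := ⟨0, zero_mem _, G.graph.zero_mem⟩
  add_mem' := by
    rintro a b ⟨f, hf, hfa⟩ ⟨f', hf', hfb⟩
    exact ⟨f + f', add_mem hf hf', G.graph.add_mem hfa hfb⟩
  smul_mem' := by
    rintro c a ⟨f, hf, hfa⟩
    obtain ⟨x, rfl⟩ := G.residue_surjective c
    exact ⟨(x : K) • f, W.smul_mem _ hf, G.smul_mem x hfa⟩

theorem mem_redSpace {W : Submodule K F} {g : Fb} :
    g ∈ G.redSpace W ↔ ∃ f ∈ W, (f, g) ∈ G.graph := Iff.rfl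

theorem redSpace_mono {V W : Submodule K F} (h : V ≤ W) : G.redSpace V ≤ G.redSpace W :=
  fun _ ⟨f, hf, hfg⟩ => ⟨f, h hf, hfg⟩

theorem redSpace_rr_le [HasPrincipalDivisors K F] (E : Divisor K F) :
    G.redSpace (riemannRochSpace E) ≤ riemannRochSpace (Finsupp.mapDomain r E) :=
  fun _ ⟨_, hf, hfg⟩ => G.mem_rr hfg hf

end GaussReduction

/-- The hypotheses under which reduction is injective on prime-to-`p` torsion. -/
structure SmoothReduction {r : Place K F → Place k Fb} (G : GaussReduction π r) : Prop where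
  finrank_redSpace : ∀ W : Submodule K F, FiniteDimensional K W →
    Module.finrank k (G.redSpace W) = Module.finrank K W
  rr_zero : ∀ f ∈ riemannRochSpace (0 : Divisor K F), ∃ c : K, algebraMap K F c = f
  rr_zero' : ∀ g ∈ riemannRochSpace (0 : Divisor k Fb), ∃ c : k, algebraMap k Fb c = g
  finite_rr : ∀ D : Divisor K F, FiniteDimensional K (riemannRochSpace D)
  finite_rr' : ∀ D : Divisor k Fb, FiniteDimensional k (riemannRochSpace D)
  finrank_rr : ∃ c₀ : ℤ, ∀ D : Divisor K F, c₀ ≤ Divisor.degree D →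
    Module.finrank K (riemannRochSpace D) =
      Module.finrank k (riemannRochSpace (Finsupp.mapDomain r D))
  deg_pos : ∀ P : Place K F, 0 < P.deg
  exists_ne : ∃ P Q : Place K F, r P ≠ r Q

theorem finrank_rr_zero (h : ∀ f ∈ riemannRochSpace (0 : Divisor K F),
    ∃ c : K, algebraMap K F c = f) :
    Module.finrank K (riemannRochSpace (0 : Divisor K F)) = 1 := by
  have : riemannRochSpace (0 : Divisor K F) = K ∙ (1 : F) := by
    refine le_antisymm (fun f hf => ?_) ((Submodule.span_singleton_le_iff_mem _ _).mpr rr_one)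
    obtain ⟨c, rfl⟩ := h f hf
    exact Submodule.mem_span_singleton.mpr ⟨c, by rw [Algebra.smul_def, mul_one]⟩
  rw [this, finrank_span_singleton one_ne_zero]

theorem rr_inf_single {P₁ P₂ : Place K F} (hne : P₁ ≠ P₂) {n₁ n₂ : ℤ} (h₁ : 0 ≤ n₁)
    (h₂ : 0 ≤ n₂) (D : Divisor K F) :
    riemannRochSpace (Finsupp.single P₁ n₁ + D) ⊓ riemannRochSpace (Finsupp.single P₂ n₂ + D) =
      riemannRochSpace D := by
  refine le_antisymm (fun f hf v => ?_) (le_inf (fun f => rr_mono ?_) (fun f => rr_mono ?_))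
  · by_cases hv : v = P₁
    · subst hv
      simpa [hne] using hf.2 v
    · simpa [Ne.symm hv] using hf.1 v
  · exact le_add_of_nonneg_left (Finsupp.single_nonneg.mpr h₁)
  · exact le_add_of_nonneg_left (Finsupp.single_nonneg.mpr h₂)

/-- If `x ∈ L(n Q₁ + n Q₂)` lies in `L(M Q₁) + L(M Q₂)` then it lies in `L(n Q₁) + L(n Q₂)`. -/
theorem mem_sup_single_of_le {Q₁ Q₂ : Place K F} (hne : Q₁ ≠ Q₂) {n M : ℤ} (hn : 0 ≤ n)
    {x : F} (hx : x ∈ riemannRochSpace (Finsupp.single Q₁ n + Finsupp.single Q₂ n))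
    (hx' : x ∈ riemannRochSpace (Finsupp.single Q₁ M) ⊔ riemannRochSpace (Finsupp.single Q₂ M)) :
    x ∈ riemannRochSpace (Finsupp.single Q₁ n) ⊔ riemannRochSpace (Finsupp.single Q₂ n) := by
  obtain ⟨s, hs, t, ht, rfl⟩ := Submodule.mem_sup.mp hx'
  refine Submodule.add_mem_sup (fun v => ?_) (fun v => ?_)
  · by_cases hv : v = Q₁
    · subst hv
      have h1 := hx v
      have h2 := ht v
      simp [hne] at h1 h2 ⊢
      calc v.adicValuation s = v.adicValuation ((s + t) - t) := by rw [add_sub_cancel_right]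
        _ ≤ max (v.adicValuation (s + t)) (v.adicValuation t) := Valuation.map_sub _ _ _
        _ ≤ exp n := max_le h1 (h2.trans (by simpa using (exp_le_exp.mpr hn)))
    · simpa [Ne.symm hv] using hs v
  · by_cases hv : v = Q₂
    · subst hv
      have h1 := hx v
      have h2 := hs v
      simp [hne.symm] at h1 h2 ⊢
      calc v.adicValuation t = v.adicValuation ((s + t) - s) := by rw [add_sub_cancel_left]
        _ ≤ max (v.adicValuation (s + t)) (v.adicValuation s) := Valuation.map_sub _ _ _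
        _ ≤ exp n := max_le h1 (h2.trans (by simpa using (exp_le_exp.mpr hn)))
    · simpa [Ne.symm hv] using ht v

variable {r : Place K F → Place k Fb} {G : GaussReduction π r}

theorem SmoothReduction.redSpace_rr_eq [HasPrincipalDivisors K F] (hS : SmoothReduction G)
    {E : Divisor K F}
    (hE : Module.finrank K (riemannRochSpace E) =
      Module.finrank k (riemannRochSpace (Finsupp.mapDomain r E))) :
    G.redSpace (riemannRochSpace E) = riemannRochSpace (Finsupp.mapDomain r E) := by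
  have := hS.finite_rr' (Finsupp.mapDomain r E)
  refine Submodule.eq_of_le_of_finrank_eq (G.redSpace_rr_le E) ?_
  rw [hS.finrank_redSpace _ (hS.finite_rr E), hE]

theorem SmoothReduction.mem_principal_of_nsmul [HasPrincipalDivisors K F]
    (hS : SmoothReduction G) {m : ℕ} (hm : (m : k) ≠ 0) {D : Divisor K F}
    (hdeg : Divisor.degree D = 0) (hmD : Divisor.IsPrincipal (m • D))
    (hrD : Divisor.IsPrincipal (Finsupp.mapDomain r D)) :
    Divisor.IsPrincipal D := by
  classical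
  have hm0 : m ≠ 0 := by rintro rfl; simp at hm
  obtain ⟨y₀, hy₀, hy₀D⟩ := hmD
  obtain ⟨h, hh, hhD⟩ := hrD
  obtain ⟨c₁, hc₁, y₁', hy₁', hy₁⟩ := G.exists_smul y₀ hy₀
  -- normalise `y` to reduce to `h ^ m`
  have hdiv₁ : ∀ P, (m • D) P = P.ord (c₁ • y₀) := fun P => by
    rw [ord_smul_const hc₁, hy₀D P]
  have hord₁ : ∀ Q : Place k Fb, Q.ord y₁' = Q.ord (h ^ m) := fun Q => by
    rw [← G.ord_eq _ _ hy₁ hy₁' (m • D) hdiv₁ Q, ord_pow, ← hhD Q,
      Finsupp.mapDomain_smul, Finsupp.smul_apply, nsmul_eq_mul]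
  obtain ⟨κ, hκ⟩ := hS.rr_zero' (y₁' / h ^ m) (fun Q => by
    have hq : y₁' / h ^ m ≠ 0 := div_ne_zero hy₁' (pow_ne_zero _ hh)
    rw [Q.adicValuation_eq_exp_neg_ord hq, div_eq_mul_inv,
      Q.ord_mul hy₁' (inv_ne_zero (pow_ne_zero _ hh)), Q.ord_inv, hord₁ Q]
    simp)
  have hκ0 : κ ≠ 0 := fun h0 => by
    rw [h0, map_zero] at hκ
    exact div_ne_zero hy₁' (pow_ne_zero _ hh) hκ.symm
  obtain ⟨u, hu⟩ := G.residue_surjective κ⁻¹
  have hu0 : π u ≠ 0 := by rw [hu]; exact inv_ne_zero hκ0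
  have hu0' : (u : K) ≠ 0 := fun h0 => hu0 (by rw [show u = 0 from Subtype.ext h0, map_zero])
  set y : F := (u : K) • c₁ • y₀ with hy_def
  have hy : (y, h ^ m) ∈ G.graph := by
    have := G.smul_mem u hy₁
    rwa [hu, show κ⁻¹ • y₁' = h ^ m by
      rw [Algebra.smul_def, map_inv₀, hκ]; field_simp] at this
  have hy0 : y ≠ 0 := G.ne_zero_of_mem hy (pow_ne_zero _ hh)
  have hydiv : ∀ P, (m • D) P = P.ord y := fun P => by
    rw [hy_def, ord_smul_const hu0', hdiv₁ P]
  -- the two auxiliary divisors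
  obtain ⟨c₀, hc₀⟩ := hS.finrank_rr
  obtain ⟨P₁, P₂, hQ⟩ := hS.exists_ne
  have hP : P₁ ≠ P₂ := fun e => hQ (by rw [e])
  obtain ⟨n, hn⟩ : ∃ n : ℕ, c₀ ≤ n := ⟨c₀.toNat, Int.self_le_toNat c₀⟩
  have hdegE : ∀ (P : Place K F) (j : ℕ), n ≤ j → c₀ ≤ Divisor.degree (Finsupp.single P (j : ℤ)) :=
    fun P j hj => by
      rw [Divisor.degree_single]
      calc c₀ ≤ (n : ℤ) := hn
        _ ≤ (j : ℤ) := by exact_mod_cast hj
        _ ≤ (j : ℤ) * P.deg :=
          le_mul_of_one_le_right (Int.natCast_nonneg j) (by exact_mod_cast hS.deg_pos P)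
  have hnm : n ≤ m * n := Nat.le_mul_of_pos_left n (Nat.pos_of_ne_zero hm0)
  by_cases htriv : riemannRochSpace (-D) = ⊥
  swap
  · -- `L(-D) ≠ 0`: its element is an `m`-th root of `y` up to a constant
    obtain ⟨f, hf, hf0⟩ := Submodule.exists_mem_ne_zero_of_ne_bot htriv
    obtain ⟨c, hc⟩ := hS.rr_zero (f ^ m * y⁻¹) (by
      have := rr_mul (rr_pow hf m) (rr_of_ord_inv hydiv)
      rwa [smul_neg, neg_add_cancel] at this)
    have hc0 : c ≠ 0 := fun h0 => by
      rw [h0, map_zero] at hc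
      exact mul_ne_zero (pow_ne_zero m hf0) (inv_ne_zero hy0) hc.symm
    refine ⟨f, hf0, fun P => ?_⟩
    have h1 : f ^ m = c • y := by rw [Algebra.smul_def, hc]; field_simp
    have h2 := congrArg P.ord h1
    rw [ord_smul_const hc0, ← hydiv P, ord_pow, Finsupp.smul_apply, nsmul_eq_mul] at h2
    exact (mul_left_cancel₀ (Nat.cast_ne_zero.mpr hm0) h2).symm
  exfalso
  set E₁ : Divisor K F := Finsupp.single P₁ (n : ℤ) with hE₁
  set E₂ : Divisor K F := Finsupp.single P₂ (n : ℤ) with hE₂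
  set L₁ := riemannRochSpace (E₁ + -D) with hL₁
  set L₂ := riemannRochSpace (E₂ + -D) with hL₂
  have : FiniteDimensional K L₁ := hS.finite_rr _
  have : FiniteDimensional K L₂ := hS.finite_rr _
  set B₁ := riemannRochSpace (Finsupp.mapDomain r (E₁ + -D)) with hB₁
  set B₂ := riemannRochSpace (Finsupp.mapDomain r (E₂ + -D)) with hB₂
  have : FiniteDimensional k B₁ := hS.finite_rr' _
  have : FiniteDimensional k B₂ := hS.finite_rr' _
  have hdim₁ := hc₀ (E₁ + -D) (by rw [map_add, map_neg, hdeg, neg_zero, add_zero]; exact hdegE _ n le_rfl)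
  have hdim₂ := hc₀ (E₂ + -D) (by rw [map_add, map_neg, hdeg, neg_zero, add_zero]; exact hdegE _ n le_rfl)
  have hR₁ : G.redSpace L₁ = B₁ := hS.redSpace_rr_eq hdim₁
  have hR₂ : G.redSpace L₂ = B₂ := hS.redSpace_rr_eq hdim₂
  -- reductions of `E_i - D` in terms of `h`
  have hmapE : ∀ (P : Place K F) (j : ℤ),
      Finsupp.mapDomain r (Finsupp.single P j + -D) =
        Finsupp.single (r P) j + -Finsupp.mapDomain r D := fun P j => by
    rw [Finsupp.mapDomain_add, Finsupp.mapDomain_single,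
      ← Finsupp.mapDomain.addMonoidHom_apply, map_neg, Finsupp.mapDomain.addMonoidHom_apply]
  have hinfB : B₁ ⊓ B₂ = riemannRochSpace (-Finsupp.mapDomain r D) := by
    rw [hB₁, hB₂, hE₁, hE₂, hmapE, hmapE]
    exact rr_inf_single hQ (Int.natCast_nonneg n) (Int.natCast_nonneg n) _
  have hhB : h ∈ B₁ ⊓ B₂ := hinfB ▸ rr_of_ord hhD
  have hinfL : L₁ ⊓ L₂ = ⊥ := by
    rw [hL₁, hL₂, hE₁, hE₂, rr_inf_single hP (Int.natCast_nonneg n) (Int.natCast_nonneg n),
      htriv]
  -- the reduction of `L₁ + L₂` is too big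
  obtain ⟨x', hx', hx'B⟩ : ∃ x' ∈ G.redSpace (L₁ ⊔ L₂), x' ∉ B₁ ⊔ B₂ := by
    by_contra hcon
    push Not at hcon
    have h1 : Module.finrank k (G.redSpace (L₁ ⊔ L₂)) ≤ Module.finrank k ↥(B₁ ⊔ B₂) :=
      Submodule.finrank_mono hcon
    rw [hS.finrank_redSpace _ inferInstance] at h1
    have h2 := Submodule.finrank_sup_add_finrank_inf_eq L₁ L₂
    rw [hinfL, finrank_bot, add_zero] at h2
    have h3 := Submodule.finrank_sup_add_finrank_inf_eq B₁ B₂
    have h4 : 1 ≤ Module.finrank k ↥(B₁ ⊓ B₂) :=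
      Submodule.one_le_finrank_iff.mpr (fun hb => hh (by simpa [hb] using hhB))
    have h5 : Module.finrank K L₁ = Module.finrank k B₁ := hdim₁
    have h6 : Module.finrank K L₂ = Module.finrank k B₂ := hdim₂
    omega
  obtain ⟨x, hx, hxx'⟩ := hx'
  obtain ⟨a₀, ha₀, b₀, hb₀, hab₀⟩ := Submodule.mem_sup.mp hx
  obtain ⟨a, haL, b, hbL, ρ, hρ, ha, hb, hab⟩ :
      ∃ a ∈ L₁, ∃ b ∈ L₂, ∃ ρ : K, ρ ≠ 0 ∧ (a, h) ∈ G.graph ∧ (b, h) ∈ G.graph ∧
        a - b = ρ • x := by
    have ha₀0 : a₀ ≠ 0 := by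
      rintro rfl
      rw [zero_add] at hab₀
      exact hx'B (Submodule.mem_sup_right (hR₂ ▸ ⟨x, hab₀ ▸ hb₀, hxx'⟩))
    obtain ⟨c, hc, a', ha', hca⟩ := G.exists_smul a₀ ha₀0
    have hcA : c⁻¹ ∉ A := fun hcA => by
      have h1 := G.smul_mem ⟨c⁻¹, hcA⟩ hca
      rw [smul_smul, inv_mul_cancel₀ hc, one_smul] at h1
      have h2 : (b₀, x' - π ⟨c⁻¹, hcA⟩ • a') ∈ G.graph := by
        simpa [← hab₀] using G.graph.sub_mem hxx' h1
      refine hx'B ?_
      rw [← add_sub_cancel (π ⟨c⁻¹, hcA⟩ • a') x']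
      exact Submodule.add_mem_sup (hR₁ ▸ ⟨a₀, ha₀, h1⟩) (hR₂ ▸ ⟨b₀, hb₀, h2⟩)
    have hcA' : c ∈ A := (A.mem_or_inv_mem c).resolve_right hcA
    have hcx := G.smul_mem ⟨c, hcA'⟩ hxx'
    rw [G.residue_eq_zero ⟨c, hcA'⟩ hcA, zero_smul] at hcx
    have hcb : (c • b₀, -a') ∈ G.graph := by
      simpa [← hab₀, smul_add] using G.graph.sub_mem hcx hca
    have ha'B : a' ∈ B₁ ⊓ B₂ :=
      ⟨hR₁ ▸ ⟨_, L₁.smul_mem c ha₀, hca⟩,
        neg_mem_iff.mp (hR₂ ▸ ⟨_, L₂.smul_mem c hb₀, hcb⟩)⟩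
    -- `a'` is a multiple of `h`
    obtain ⟨κ', hκ'⟩ := hS.rr_zero' (a' * h⁻¹) (by
      rw [hinfB] at ha'B
      have := rr_mul ha'B (rr_of_ord_inv hhD)
      rwa [neg_add_cancel] at this)
    have hκ'0 : κ' ≠ 0 := fun h0 => by
      rw [h0, map_zero] at hκ'
      exact mul_ne_zero ha' (inv_ne_zero hh) hκ'.symm
    obtain ⟨v, hv⟩ := G.residue_surjective κ'⁻¹
    have hv0 : (v : K) ≠ 0 := fun h0 => inv_ne_zero hκ'0 (by
      rw [← hv, show v = 0 from Subtype.ext h0, map_zero])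
    have hva : κ'⁻¹ • a' = h := by
      rw [Algebra.smul_def, map_inv₀, hκ']; field_simp
    refine ⟨(v : K) • c • a₀, L₁.smul_mem _ (L₁.smul_mem _ ha₀),
      -((v : K) • c • b₀), neg_mem (L₂.smul_mem _ (L₂.smul_mem _ hb₀)), (v : K) * c,
      mul_ne_zero hv0 hc, ?_, ?_, ?_⟩
    · simpa [hv, hva] using G.smul_mem v hca
    · have := G.graph.neg_mem (G.smul_mem v hcb)
      simpa [hv, hva, smul_neg] using this
    · rw [sub_neg_eq_add, ← smul_add, ← smul_add, hab₀, smul_smul]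
  -- the multiplicative step
  set S : F := ∑ i ∈ Finset.range m, a ^ i * b ^ (m - 1 - i) with hS_def
  have hSmem : (S, (m : Fb) * h ^ (m - 1)) ∈ G.graph := by
    have := G.graph.sum_mem (t := Finset.range m) (f := fun i => ((a, h) ^ i * (b, h) ^ (m - 1 - i)))
      (fun i _ => G.graph.mul_mem (G.graph.pow_mem ha i) (G.graph.pow_mem hb _))
    convert this using 1
    refine Prod.ext ?_ ?_
    · simp [hS_def, Prod.fst_sum]
    · rw [Prod.snd_sum]
      simp only [Prod.snd_mul, Prod.pow_snd]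
      rw [Finset.sum_congr rfl (fun i hi => by
        rw [← pow_add, Nat.add_sub_cancel' (by rw [Finset.mem_range] at hi; omega)]),
        Finset.sum_const, Finset.card_range, nsmul_eq_mul]
  set X : F := x * S * y⁻¹ with hX
  have hX' : (X, x' * ((m : Fb) * h ^ (m - 1)) * (h ^ m)⁻¹) ∈ G.graph :=
    G.graph.mul_mem (G.graph.mul_mem hxx' hSmem) (G.inv_mem hy (pow_ne_zero _ hh))
  set W₁ := riemannRochSpace (Finsupp.single P₁ ((m * n : ℕ) : ℤ)) with hW₁
  set W₂ := riemannRochSpace (Finsupp.single P₂ ((m * n : ℕ) : ℤ)) with hW₂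
  have : FiniteDimensional K W₁ := hS.finite_rr _
  have : FiniteDimensional K W₂ := hS.finite_rr _
  have hXW : X ∈ W₁ ⊔ W₂ := by
    have key : ∀ {f : F} {P : Place K F}, f ∈ riemannRochSpace (Finsupp.single P (n : ℤ) + -D) →
        f ^ m * y⁻¹ ∈ riemannRochSpace (Finsupp.single P ((m * n : ℕ) : ℤ)) := fun {f P} hf => by
      have := rr_mul (rr_pow hf m) (rr_of_ord_inv hydiv)
      rwa [smul_add, smul_neg, neg_add_cancel_right, Finsupp.smul_single, nsmul_eq_mul,
        ← Nat.cast_mul] at this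
    have h1 : ρ • X = a ^ m * y⁻¹ - b ^ m * y⁻¹ := by
      rw [← sub_mul, ← geom_sum₂_mul a b m, hab, hX, ← hS_def]
      simp only [Algebra.smul_def]
      ring
    have h2 : ρ • X ∈ W₁ ⊔ W₂ := h1 ▸ sub_mem (Submodule.mem_sup_left (key haL))
      (Submodule.mem_sup_right (key hbL))
    simpa [smul_smul, inv_mul_cancel₀ hρ] using (W₁ ⊔ W₂).smul_mem ρ⁻¹ h2
  set C₁ := riemannRochSpace (Finsupp.mapDomain r (Finsupp.single P₁ ((m * n : ℕ) : ℤ))) with hC₁
  set C₂ := riemannRochSpace (Finsupp.mapDomain r (Finsupp.single P₂ ((m * n : ℕ) : ℤ))) with hC₂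
  have : FiniteDimensional k C₁ := hS.finite_rr' _
  have : FiniteDimensional k C₂ := hS.finite_rr' _
  have hdimW₁ := hc₀ _ (hdegE P₁ (m * n) hnm)
  have hdimW₂ := hc₀ _ (hdegE P₂ (m * n) hnm)
  have hC : C₁ ⊔ C₂ = G.redSpace (W₁ ⊔ W₂) := by
    have hle : C₁ ⊔ C₂ ≤ G.redSpace (W₁ ⊔ W₂) :=
      sup_le (hC₁ ▸ hS.redSpace_rr_eq hdimW₁ ▸ G.redSpace_mono le_sup_left)
        (hC₂ ▸ hS.redSpace_rr_eq hdimW₂ ▸ G.redSpace_mono le_sup_right)
    have hinfW : Module.finrank K ↥(W₁ ⊓ W₂) = 1 := by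
      have h0 := rr_inf_single hP (Int.natCast_nonneg (m * n)) (Int.natCast_nonneg (m * n))
        (0 : Divisor K F)
      rw [add_zero, add_zero] at h0
      rw [hW₁, hW₂, h0, finrank_rr_zero hS.rr_zero]
    have hinfC : Module.finrank k ↥(C₁ ⊓ C₂) = 1 := by
      have h0 := rr_inf_single hQ (Int.natCast_nonneg (m * n)) (Int.natCast_nonneg (m * n))
        (0 : Divisor k Fb)
      rw [add_zero, add_zero] at h0
      rw [hC₁, hC₂, Finsupp.mapDomain_single, Finsupp.mapDomain_single, h0,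
        finrank_rr_zero hS.rr_zero']
    have h2 := Submodule.finrank_sup_add_finrank_inf_eq W₁ W₂
    have h3 := Submodule.finrank_sup_add_finrank_inf_eq C₁ C₂
    have h4 : Module.finrank K W₁ = Module.finrank k C₁ := hdimW₁
    have h5 : Module.finrank K W₂ = Module.finrank k C₂ := hdimW₂
    have h6 := hS.finrank_redSpace (W₁ ⊔ W₂) inferInstance
    have h7 : Module.finrank K ↥(W₁ ⊓ W₂) ≤ Module.finrank K ↥(W₁ ⊔ W₂) :=
      Submodule.finrank_mono (inf_le_left.trans le_sup_left)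
    have hpos : 0 < Module.finrank k (G.redSpace (W₁ ⊔ W₂)) := by omega
    have := Module.finite_of_finrank_pos hpos
    exact Submodule.eq_of_le_of_finrank_eq hle (by omega)
  have hxC : x' * h⁻¹ ∈ C₁ ⊔ C₂ := by
    have h1 : x' * ((m : Fb) * h ^ (m - 1)) * (h ^ m)⁻¹ ∈ C₁ ⊔ C₂ := hC ▸ ⟨X, hXW, hX'⟩
    have h2 : x' * ((m : Fb) * h ^ (m - 1)) * (h ^ m)⁻¹ = (m : k) • (x' * h⁻¹) := by
      have h3 : h ^ m = h ^ (m - 1) * h := by rw [← pow_succ, Nat.sub_add_cancel (by omega)]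
      rw [Algebra.smul_def, map_natCast, h3]
      field_simp
    rw [h2] at h1
    simpa [smul_smul, inv_mul_cancel₀ hm] using (C₁ ⊔ C₂).smul_mem (m : k)⁻¹ h1
  have hxE : x' * h⁻¹ ∈
      riemannRochSpace (Finsupp.single (r P₁) (n : ℤ) + Finsupp.single (r P₂) (n : ℤ)) := by
    have hxm : x ∈ riemannRochSpace (E₁ + (E₂ + -D)) := by
      rw [← hab₀]
      refine add_mem (rr_mono ?_ ha₀) (rr_mono ?_ hb₀)
      · exact add_le_add le_rfl
          (le_add_of_nonneg_left (Finsupp.single_nonneg.mpr (Int.natCast_nonneg n)))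
      · exact le_add_of_nonneg_left (Finsupp.single_nonneg.mpr (Int.natCast_nonneg n))
    have := rr_mul (G.mem_rr hxx' hxm) (rr_of_ord_inv hhD)
    rwa [Finsupp.mapDomain_add, hE₁, hE₂, hmapE, Finsupp.mapDomain_single, add_assoc,
      neg_add_cancel_right] at this
  rw [hC₁, hC₂, Finsupp.mapDomain_single, Finsupp.mapDomain_single] at hxC
  obtain ⟨t₁, ht₁, t₂, ht₂, ht⟩ :=
    Submodule.mem_sup.mp (mem_sup_single_of_le hQ (Int.natCast_nonneg n) hxE hxC)
  refine hx'B ?_
  rw [show x' = t₁ * h + t₂ * h by rw [← add_mul, ht]; field_simp]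
  refine Submodule.add_mem_sup ?_ ?_
  · rw [hB₁, hE₁, hmapE]; exact rr_mul ht₁ (rr_of_ord hhD)
  · rw [hB₂, hE₂, hmapE]; exact rr_mul ht₂ (rr_of_ord hhD)

/-- **Reduction is injective on prime-to-`p` torsion**, divisor class version. -/
theorem SmoothReduction.mk_eq_zero_of_nsmul [HasPrincipalDivisors K F]
    (hS : SmoothReduction G) {m : ℕ} (hm : (m : k) ≠ 0)
    (D : Divisor.degZero (K := K) (F := F)) (hmD : m • Pic0.mk D = 0)
    (hrD : Divisor.IsPrincipal (Finsupp.mapDomain r (D : Divisor K F))) :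
    Pic0.mk D = 0 := by
  have hmD' : Divisor.IsPrincipal (m • (D : Divisor K F)) := by
    have : Pic0.mk (m • D) = 0 := by
      rw [← hmD]
      exact map_nsmul (QuotientAddGroup.mk' _) m D
    exact (QuotientAddGroup.eq_zero_iff _).mp this
  exact (QuotientAddGroup.eq_zero_iff _).mpr (hS.mem_principal_of_nsmul hm D.2 hmD' hrD)

end Fermat.Agent.Reduction.Torsion
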