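import Mathlib.NumberTheory.NumberField.Basic
import Mathlib.RingTheory.DedekindDomain.AdicValuation
import Mathlib.LinearAlgebra.FiniteDimensional.Lemmas
import Mathlib.RingTheory.Valuation.Integral
import Mathlib.RingTheory.Bezout
import Mathlib.Algebra.GCDMonoid.IntegrallyClosed
import Fermat.Prelude.Def_ModularCurve_LaurentCoeff

/-!
# Gauss scaling of Laurent series and orthogonal bases

For a valuation subring `A` of `L` and `π : A →+* k` local, a Laurent series is scalable when a
constant multiple of it has coefficients in `A` and non-zero reduction. A finite dimensional space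
all of whose non-zero elements are scalable has an integral basis with independent reductions.
-/

set_option autoImplicit false

noncomputable section

open ModularCurve

namespace Fermat.Agent.Reduction

/-- Scalar multiplication through the algebra structure is coefficientwise. -/
theorem coeff_algebra_smul {L : Type*} [Field L] (F : IntermediateField L (LaurentSeries L))
    (c : L) (f : F) : ((c • f : F) : LaurentSeries L) = HahnSeries.C c * (f : LaurentSeries L) := by
  rw [Algebra.smul_def]
  show algebraMap L (LaurentSeries L) c * (f : LaurentSeries L) = _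
  rw [algebraMap_laurentSeries_eq_single, HahnSeries.C_apply]

section Gauss

variable {L k : Type*} [Field L] [Field k] (A : ValuationSubring L) (π : A →+* k)

/-- Some constant multiple of `x` has coefficients in `A` and a non-zero reduction. -/
def IsScalable (x : LaurentSeries L) : Prop :=
  ∃ c : L, c ≠ 0 ∧ ∃ y : LaurentSeries A,
    coeffMap A.subtype y = HahnSeries.C c * x ∧ coeffMap π y ≠ 0

/-- Independence over `k` of the reductions of a family. -/
def IndepReduction {ι : Type*} [Fintype ι] (y : ι → LaurentSeries A) : Prop :=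
  ∀ a : ι → k, ∑ i, HahnSeries.C (a i) * coeffMap π (y i) = 0 → a = 0

variable {A π}

theorem coeff_C_mul {R : Type*} [CommRing R] (c : R) (x : LaurentSeries R) (n : ℤ) :
    (HahnSeries.C c * x).coeff n = c * x.coeff n := by
  rw [HahnSeries.C_apply]
  exact HahnSeries.coeff_single_zero_mul

theorem coeffMap_subtype_injective : Function.Injective (coeffMap A.subtype) := fun x y h => by
  ext n
  have h1 := congrArg (fun z : LaurentSeries L => z.coeff n) h
  exact h1

theorem exists_integral_lift {x : LaurentSeries L} (h : ∀ n, x.coeff n ∈ A) :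
    ∃ y : LaurentSeries A, coeffMap A.subtype y = x := by
  refine ⟨⟨fun n => ⟨x.coeff n, h n⟩, x.isPWO_support.mono fun n hn => ?_⟩, ?_⟩
  · intro h0
    exact hn (Subtype.ext h0)
  · ext n
    rfl

theorem coeff_mem_of_lift (y : LaurentSeries A) (n : ℤ) : (coeffMap A.subtype y).coeff n ∈ A :=
  (y.coeff n).2

theorem isScalable_of_max_coeff {x : LaurentSeries L} {i : ℤ} (hi : x.coeff i ≠ 0)
    (h : ∀ j, x.coeff j / x.coeff i ∈ A) : IsScalable A π x := by
  obtain ⟨y, hy⟩ := exists_integral_lift (A := A) (x := HahnSeries.C (x.coeff i)⁻¹ * x)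
    (fun n => by rw [coeff_C_mul, inv_mul_eq_div]; exact h n)
  refine ⟨(x.coeff i)⁻¹, inv_ne_zero hi, y, hy, fun h0 => ?_⟩
  have h1 : y.coeff i = 1 := Subtype.ext <| by
    have := congrArg (fun z : LaurentSeries L => z.coeff i) hy
    simp only [coeffMap_coeff, coeff_C_mul, inv_mul_cancel₀ hi] at this
    exact this
  have := congrArg (fun z : LaurentSeries k => z.coeff i) h0
  simp [h1] at this

/-- Finitely many non-zero elements have one dividing all of them in `A`. -/
theorem exists_max {ι : Type*} (s : Finset ι) (a : ι → L) (h : ∃ i ∈ s, a i ≠ 0) :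
    ∃ i ∈ s, a i ≠ 0 ∧ ∀ j ∈ s, a j / a i ∈ A := by
  obtain ⟨i, hi, hmax⟩ := s.exists_max_image (fun i => A.valuation (a i)) ⟨h.choose, h.choose_spec.1⟩
  have hi0 : a i ≠ 0 := by
    intro h0
    obtain ⟨j, hj, hj0⟩ := h
    have := hmax j hj
    rw [h0, map_zero, le_zero_iff, map_eq_zero] at this
    exact hj0 this
  refine ⟨i, hi, hi0, fun j hj => ?_⟩
  rw [← A.valuation_le_one_iff, map_div₀, div_le_one₀ (zero_lt_iff.2 <| (map_ne_zero _).2 hi0)]
  exact hmax j hj

/-- Coefficients of an integral combination of a family with independent reductions are integral. -/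
theorem coeff_mem_of_indep [IsLocalHom π] {ι : Type*} [Fintype ι] {y : ι → LaurentSeries A}
    (hy : IndepReduction A π y) (a : ι → L) (z : LaurentSeries A)
    (h : coeffMap A.subtype z = ∑ i, HahnSeries.C (a i) * coeffMap A.subtype (y i)) (i : ι) :
    a i ∈ A := by
  classical
  by_contra hi
  obtain ⟨m, -, hm0, hm⟩ := exists_max (A := A) Finset.univ a
    ⟨i, Finset.mem_univ i, fun h0 => hi (h0 ▸ A.zero_mem)⟩
  have hmA : a m ∉ A := fun hmem => hi (by
    have := A.mul_mem _ _ (hm i (Finset.mem_univ i)) hmem
    rwa [div_mul_cancel₀ _ hm0] at this)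
  have hinv : (a m)⁻¹ ∈ A := (A.mem_or_inv_mem (a m)).resolve_left hmA
  have hmem : ∀ j, a j / a m ∈ A := fun j => hm j (Finset.mem_univ j)
  have key : HahnSeries.C (⟨_, hinv⟩ : A) * z =
      ∑ j, HahnSeries.C (⟨_, hmem j⟩ : A) * y j := by
    apply coeffMap_subtype_injective (A := A)
    simp only [map_mul, map_sum, HahnSeries.C_apply, coeffMap_single, ValuationSubring.subtype_apply]
    rw [h, Finset.mul_sum]
    refine Finset.sum_congr rfl fun j _ => ?_
    rw [HahnSeries.C_apply, ← mul_assoc, HahnSeries.single_mul_single, add_zero, inv_mul_eq_div]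
  have hπinv : π ⟨_, hinv⟩ = 0 := by
    by_contra hne
    have hu : IsUnit (⟨_, hinv⟩ : A) := isUnit_of_map_unit π _ (isUnit_iff_ne_zero.2 hne)
    obtain ⟨w, hw⟩ := hu.exists_right_inv
    have hw' : (a m)⁻¹ * (w : L) = 1 := congrArg Subtype.val hw
    have : (w : L) = a m := by field_simp at hw'; exact hw'
    exact hmA (this ▸ w.2)
  have key' := congrArg (coeffMap π) key
  simp only [map_mul, map_sum, HahnSeries.C_apply, coeffMap_single, hπinv, map_zero,
    zero_mul] at key'
  have := congrFun (hy (fun j => π ⟨_, hmem j⟩) (by simpa [HahnSeries.C_apply] using key'.symm)) m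
  rw [show (⟨_, hmem m⟩ : A) = 1 from Subtype.ext (div_self hm0), map_one] at this
  exact one_ne_zero this

theorem eq_zero_of_indep [IsLocalHom π] {ι : Type*} [Fintype ι] {y : ι → LaurentSeries A}
    (hy : IndepReduction A π y) (a : ι → L)
    (h : ∑ i, HahnSeries.C (a i) * coeffMap A.subtype (y i) = 0) : a = 0 := by
  classical
  funext i
  by_contra hi
  obtain ⟨m, -, hm0, hm⟩ := exists_max (A := A) Finset.univ a ⟨i, Finset.mem_univ i, hi⟩
  have hmem : ∀ j, a j / a m ∈ A := fun j => hm j (Finset.mem_univ j)
  have key : ∑ j, HahnSeries.C (⟨_, hmem j⟩ : A) * y j = 0 := by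
    apply coeffMap_subtype_injective (A := A)
    simp only [map_mul, map_sum, HahnSeries.C_apply, coeffMap_single, ValuationSubring.subtype_apply,
      map_zero]
    have h2 : HahnSeries.C (a m)⁻¹ * ∑ j, HahnSeries.C (a j) * coeffMap A.subtype (y j) = 0 := by
      rw [h, mul_zero]
    rw [← h2, Finset.mul_sum]
    refine Finset.sum_congr rfl fun j _ => ?_
    rw [← mul_assoc, ← map_mul, inv_mul_eq_div, HahnSeries.C_apply]
  have key' := congrArg (coeffMap π) key
  simp only [map_mul, map_sum, HahnSeries.C_apply, coeffMap_single, map_zero] at key'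
  have := congrFun (hy (fun j => π ⟨_, hmem j⟩) (by simpa [HahnSeries.C_apply] using key')) m
  rw [show (⟨_, hmem m⟩ : A) = 1 from Subtype.ext (div_self hm0), map_one] at this
  exact one_ne_zero this

end Gauss

section Basis

variable {L k : Type*} [Field L] [Field k] {A : ValuationSubring L} {π : A →+* k}
variable (F : IntermediateField L (LaurentSeries L))

/-- The coefficient of `q ^ i` as a linear functional. -/
def coeffFunctional (i : ℤ) : F →ₗ[L] L where
  toFun f := (f : LaurentSeries L).coeff i
  map_add' f g := by simp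
  map_smul' c f := by
    rw [coeff_algebra_smul, coeff_C_mul]
    rfl

variable {F}

/-- Pivot elimination: an integral basis of `V` with independent reductions. -/
theorem exists_basis_indepReduction (V : Submodule L F) [FiniteDimensional L V]
    (hV : ∀ f ∈ V, f ≠ 0 → IsScalable A π (f : LaurentSeries L)) :
    ∃ (v : Fin (Module.finrank L V) → F) (y : Fin (Module.finrank L V) → LaurentSeries A),
      (∀ i, v i ∈ V) ∧ (∀ i, coeffMap A.subtype (y i) = (v i : LaurentSeries L)) ∧
      IndepReduction A π y := by
  classical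
  generalize hn : Module.finrank L V = n
  induction n generalizing V with
  | zero =>
    exact ⟨fun i => i.elim0, fun i => i.elim0, fun i => i.elim0, fun i => i.elim0,
      fun a _ => funext fun i => i.elim0⟩
  | succ n ih =>
    have hVbot : V ≠ ⊥ := fun h => by rw [h, finrank_bot] at hn; simp at hn
    obtain ⟨f, hfV, hf0⟩ := Submodule.exists_mem_ne_zero_of_ne_bot hVbot
    obtain ⟨c, hc, y₀, hy₀, hy₀π⟩ := hV f hfV hf0
    obtain ⟨i, hi⟩ : ∃ i, (coeffMap π y₀).coeff i ≠ 0 := by
      by_contra hall
      push Not at hall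
      exact hy₀π (HahnSeries.ext (funext hall))
    set v₀ : F := c • f with hv₀
    have hv₀V : v₀ ∈ V := V.smul_mem c hfV
    have hv₀y : coeffMap A.subtype y₀ = (v₀ : LaurentSeries L) := by
      rw [hy₀, hv₀, coeff_algebra_smul]
    have hv₀i : coeffFunctional F i v₀ ≠ 0 := by
      show (v₀ : LaurentSeries L).coeff i ≠ 0
      rw [← hv₀y, coeffMap_coeff]
      intro h
      apply hi
      rw [coeffMap_coeff, show y₀.coeff i = 0 from Subtype.ext h, map_zero]
    set g : V →ₗ[L] L := (coeffFunctional F i).domRestrict V with hg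
    set W : Submodule L F := (LinearMap.ker g).map V.subtype with hW
    have hrange : LinearMap.range g = ⊤ :=
      LinearMap.range_eq_top.2 fun a => ⟨⟨(a / coeffFunctional F i v₀) • v₀,
        V.smul_mem _ hv₀V⟩, by
        show coeffFunctional F i ((a / coeffFunctional F i v₀) • v₀) = a
        rw [map_smul, smul_eq_mul, div_mul_cancel₀ a hv₀i]⟩
    have hfin : Module.finrank L W = n := by
      have h1 := LinearMap.finrank_range_add_finrank_ker g
      rw [hrange, finrank_top, Module.finrank_self, hn] at h1
      rw [hW, Submodule.finrank_map_subtype_eq]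
      omega
    have : FiniteDimensional L W := by rw [hW]; infer_instance
    have hWV : W ≤ V := Submodule.map_subtype_le _ _
    have hWker : ∀ w ∈ W, coeffFunctional F i w = 0 := by
      rintro w ⟨w', hw', rfl⟩
      exact hw'
    obtain ⟨v, y, hv, hvy, hind⟩ := ih W (fun w hw => hV w (hWV hw)) hfin
    refine ⟨Fin.cons v₀ v, Fin.cons y₀ y, Fin.cases hv₀V fun j => hWV (hv j),
      Fin.cases hv₀y hvy, fun a ha => ?_⟩
    rw [Fin.sum_univ_succ] at ha
    simp only [Fin.cons_zero, Fin.cons_succ] at ha
    have hzero : ∀ j, (coeffMap π (y j)).coeff i = 0 := fun j => by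
      have h1 := hWker _ (hv j)
      change (v j : LaurentSeries L).coeff i = 0 at h1
      rw [← hvy j, coeffMap_coeff] at h1
      rw [coeffMap_coeff, show (y j).coeff i = 0 from Subtype.ext h1, map_zero]
    have ha0 : a 0 = 0 := by
      have h1 := congrArg (fun z : LaurentSeries k => z.coeff i) ha
      simp only [HahnSeries.coeff_add, HahnSeries.coeff_sum, coeff_C_mul, hzero, mul_zero,
        Finset.sum_const_zero, add_zero, HahnSeries.coeff_zero, mul_eq_zero] at h1
      exact h1.resolve_right hi
    rw [ha0, map_zero, zero_mul, zero_add] at ha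
    have := hind (fun j => a j.succ) ha
    funext j
    exact Fin.cases ha0 (fun j => congrFun this j) j

/-- An orthogonal basis spans `V`, and integral elements of `V` are integral combinations. -/
theorem exists_integral_combination [IsLocalHom π] {V : Submodule L F} [FiniteDimensional L V]
    {v : Fin (Module.finrank L V) → F} {y : Fin (Module.finrank L V) → LaurentSeries A}
    (hv : ∀ i, v i ∈ V) (hvy : ∀ i, coeffMap A.subtype (y i) = (v i : LaurentSeries L))
    (hy : IndepReduction A π y) {f : F} (hf : f ∈ V) (z : LaurentSeries A)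
    (hz : coeffMap A.subtype z = (f : LaurentSeries L)) :
    ∃ a : Fin (Module.finrank L V) → A,
      f = ∑ i, (a i : L) • v i ∧ z = ∑ i, HahnSeries.C (a i) * y i := by
  classical
  let v' : Fin (Module.finrank L V) → V := fun i => ⟨v i, hv i⟩
  have hli : LinearIndependent L v' := Fintype.linearIndependent_iff.2 fun g hg i => by
    refine congrFun (eq_zero_of_indep hy g ?_) i
    have h1 : ∑ j, g j • v j = (0 : F) := by
      have := congrArg (fun w : V => (w : F)) hg
      simp only [v', Submodule.coe_sum, Submodule.coe_smul, Submodule.coe_zero] at this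
      exact this
    rw [← ZeroMemClass.coe_zero F, ← h1, AddSubmonoidClass.coe_finsetSum]
    simp only [coeff_algebra_smul, hvy]
  have hsp := hli.span_eq_top_of_card_eq_finrank' (Fintype.card_fin _)
  have hmem : (⟨f, hf⟩ : V) ∈ Submodule.span L (Set.range v') := hsp ▸ Submodule.mem_top
  obtain ⟨a, ha⟩ := (Submodule.mem_span_range_iff_exists_fun L).1 hmem
  have hf' : f = ∑ i, a i • v i := by
    have := congrArg (fun w : V => (w : F)) ha
    simp only [v', Submodule.coe_sum, Submodule.coe_smul] at this
    exact this.symm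
  have hsum : coeffMap A.subtype z = ∑ i, HahnSeries.C (a i) * coeffMap A.subtype (y i) := by
    rw [hz, hf', AddSubmonoidClass.coe_finsetSum]
    simp only [coeff_algebra_smul, hvy]
  refine ⟨fun i => ⟨a i, coeff_mem_of_indep hy a z hsum i⟩, hf', ?_⟩
  apply coeffMap_subtype_injective (A := A)
  rw [hsum]
  simp only [map_sum, map_mul, HahnSeries.C_apply, coeffMap_single, ValuationSubring.subtype_apply]

end Basis

section NumberField

variable {L : Type*} [Field L] [Algebra ℚ L]

/-- A valuation subring of a number field is noetherian. -/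
theorem isNoetherianRing_valuationSubring {K : Type*} [Field K] [NumberField K]
    (B : ValuationSubring K) : IsNoetherianRing B := by
  classical
  by_cases htop : B = ⊤
  · subst htop
    exact isNoetherianRing_of_ringEquiv K
      ((Subring.topEquiv).symm : K ≃+* (⊤ : ValuationSubring K))
  have hint : ∀ a : NumberField.RingOfIntegers K, (a : K) ∈ B := fun a => by
    have h : IsIntegral B (a : K) := (NumberField.RingOfIntegers.isIntegral_coe a).tower_top
    obtain ⟨b, hb⟩ := IsIntegrallyClosed.algebraMap_eq_of_integral h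
    exact hb ▸ b.2
  let ι : NumberField.RingOfIntegers K →+* B :=
    { toFun := fun a => ⟨(a : K), hint a⟩
      map_one' := Subtype.ext (map_one (algebraMap (NumberField.RingOfIntegers K) K))
      map_mul' := fun a b => Subtype.ext (map_mul (algebraMap (NumberField.RingOfIntegers K) K) a b)
      map_zero' := Subtype.ext (map_zero (algebraMap (NumberField.RingOfIntegers K) K))
      map_add' := fun a b => Subtype.ext (map_add (algebraMap (NumberField.RingOfIntegers K) K) a b) }
  set p : Ideal (NumberField.RingOfIntegers K) := (IsLocalRing.maximalIdeal B).comap ι with hp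
  have hpprime : p.IsPrime := Ideal.comap_isPrime ι _
  have hunit : ∀ s, s ∉ p → IsUnit (ι s) := fun s hs => by
    simpa [hp, IsLocalRing.mem_maximalIdeal] using hs
  have hmem : ∀ (a s : NumberField.RingOfIntegers K), s ∉ p → (a : K) * (s : K)⁻¹ ∈ B := by
    intro a s hs
    obtain ⟨c, hc⟩ := (hunit s hs).exists_left_inv
    have hc' : (c : K) * (s : K) = 1 := congrArg Subtype.val hc
    rw [← eq_inv_of_mul_eq_one_left hc']
    exact B.mul_mem _ _ (hint a) c.2
  have hp0 : p ≠ ⊥ := by
    intro hbot
    refine htop (eq_top_iff.2 fun f _ => ?_)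
    obtain ⟨a, b, hb, rfl⟩ := IsFractionRing.div_surjective (A := NumberField.RingOfIntegers K) f
    rw [div_eq_mul_inv]
    refine hmem a b ?_
    rw [hbot]
    simpa using nonZeroDivisors.ne_zero hb
  let P : IsDedekindDomain.HeightOneSpectrum (NumberField.RingOfIntegers K) := ⟨p, hpprime, hp0⟩
  have hle : IsDedekindDomain.HeightOneSpectrum.valuationSubringAtPrime K P ≤ B := by
    rintro f ⟨a, s, hs, rfl⟩
    exact hmem a s hs
  rw [← ValuationSubring.eq_of_le_of_ne_top _ hle htop]
  infer_instance

/-- In a number field, a family of elements of `A` has one dividing all the others. -/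
theorem exists_max_of_numberField (A : ValuationSubring L) (K : IntermediateField ℚ L)
    [FiniteDimensional ℚ K] {ι : Type*} (c : ι → L) (hK : ∀ i, c i ∈ K) (hA : ∀ i, c i ∈ A)
    (h0 : ∃ i, c i ≠ 0) : ∃ i, c i ≠ 0 ∧ ∀ j, c j / c i ∈ A := by
  classical
  have : CharZero K := charZero_of_injective_algebraMap (algebraMap ℚ K).injective
  have : NumberField K :=
    { to_charZero := inferInstance
      to_finiteDimensional := by
        convert! ‹FiniteDimensional ℚ K› using 2
        exact congrArg (fun a : Algebra ℚ K => a.toModule)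
          (Subsingleton.elim DivisionRing.toRatAlgebra K.algebra') }
  set B : ValuationSubring K := A.comap (algebraMap K L)
  have := isNoetherianRing_valuationSubring B
  let b : ι → B := fun i => ⟨⟨c i, hK i⟩, hA i⟩
  obtain ⟨s, hs, hspan⟩ := (Submodule.fg_span_iff_fg_span_finset_subset (Set.range b)).1
    (IsNoetherian.noetherian (Submodule.span B (Set.range b)))
  obtain ⟨i₁, hi₁⟩ := h0
  have hsne : ∃ x ∈ s, (((x : B) : K) : L) ≠ 0 := by
    by_contra hcon
    push Not at hcon
    have hz : (s : Set B) ⊆ (⊥ : Submodule B B) := fun x hx => by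
      simpa using Subtype.ext (Subtype.ext (hcon x hx))
    have : b i₁ ∈ (⊥ : Submodule B B) :=
      Submodule.span_le.2 hz (hspan ▸ Submodule.subset_span ⟨i₁, rfl⟩)
    exact hi₁ (by simpa [b, Subtype.ext_iff] using (Submodule.mem_bot B).1 this)
  obtain ⟨x, hx, hx0, hmax⟩ := exists_max (A := A) s (fun x : B => ((x : K) : L)) hsne
  obtain ⟨i, rfl⟩ := hs hx
  refine ⟨i, hx0, fun j => ?_⟩
  have hj : b j ∈ Submodule.span B (s : Set B) := hspan ▸ Submodule.subset_span ⟨j, rfl⟩
  have key : ∀ z ∈ Submodule.span B (s : Set B), ((z : K) : L) / c i ∈ A := by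
    intro z hz
    induction hz using Submodule.span_induction with
    | mem z hz => exact hmax z hz
    | zero => simp
    | add z w _ _ h1 h2 => simpa [add_div] using add_mem h1 h2
    | smul r z _ h1 =>
      have hr : ((r : K) : L) ∈ A := r.2
      simpa [mul_div_assoc] using A.mul_mem _ _ hr h1
  exact key _ hj

variable (L) in
/-- Laurent series whose coefficients lie in a number field. -/
def finiteCoeff (x : LaurentSeries L) : Prop :=
  ∃ K : IntermediateField ℚ L, FiniteDimensional ℚ K ∧ x ∈ (coeffMap (algebraMap K L)).fieldRange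

theorem isScalable_of_finiteCoeff {k : Type*} [Field k] {A : ValuationSubring L} {π : A →+* k}
    {x : LaurentSeries L} (hx : finiteCoeff L x) (hA : ∀ n, x.coeff n ∈ A) (h0 : x ≠ 0) :
    IsScalable A π x := by
  obtain ⟨K, hK, z, rfl⟩ := hx
  obtain ⟨i, hi, hmax⟩ := exists_max_of_numberField A K
    (fun n => (coeffMap (algebraMap K L) z).coeff n) (fun n => (z.coeff n).2) hA (by
      by_contra hall
      push Not at hall
      exact h0 (HahnSeries.ext (funext hall)))
  exact isScalable_of_max_coeff hi hmax

/-- Every element of a base changed field has coefficients in a number field. -/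
theorem finiteCoeff_of_mem_laurentBaseChange [Algebra.IsAlgebraic ℚ L]
    (F₀ : IntermediateField ℚ (LaurentSeries ℚ)) {x : LaurentSeries L}
    (hx : x ∈ laurentBaseChange L F₀) : finiteCoeff L x := by
  have hmono : ∀ {K K' : IntermediateField ℚ L}, K ≤ K' → ∀ {z : LaurentSeries L},
      z ∈ (coeffMap (algebraMap K L)).fieldRange → z ∈ (coeffMap (algebraMap K' L)).fieldRange := by
    intro K K' h z hz
    obtain ⟨w, rfl⟩ := hz
    refine ⟨coeffMap (IntermediateField.inclusion h : K →+* K') w, ?_⟩
    rw [coeffMap_coeffMap]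
    rfl
  rw [mem_laurentBaseChange_iff] at hx
  induction hx using Subfield.closure_induction with
  | mem z hz =>
    rcases hz with ⟨a, rfl⟩ | ⟨w, -, rfl⟩
    · refine ⟨IntermediateField.adjoin ℚ {a}, IntermediateField.adjoin.finiteDimensional
        (Algebra.IsAlgebraic.isAlgebraic a).isIntegral,
        HahnSeries.single 0 ⟨a, IntermediateField.mem_adjoin_simple_self ℚ a⟩, ?_⟩
      rw [coeffMap_single, algebraMap_laurentSeries_eq_single]
      rfl
    · refine ⟨⊥, inferInstance, coeffMap (algebraMap ℚ (⊥ : IntermediateField ℚ L)) w, ?_⟩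
      rw [coeffMap_coeffMap]
      exact coeffMap_congr (RingHom.ext_rat _ _) w
  | one => exact ⟨⊥, inferInstance, one_mem _⟩
  | add z w _ _ h1 h2 =>
    obtain ⟨K, hK, h1⟩ := h1
    obtain ⟨K', hK', h2⟩ := h2
    exact ⟨K ⊔ K', IntermediateField.finiteDimensional_sup K K',
      add_mem (hmono le_sup_left h1) (hmono le_sup_right h2)⟩
  | neg z _ h1 =>
    obtain ⟨K, hK, h1⟩ := h1
    exact ⟨K, hK, neg_mem h1⟩
  | inv z _ h1 =>
    obtain ⟨K, hK, h1⟩ := h1
    exact ⟨K, hK, inv_mem h1⟩
  | mul z w _ _ h1 h2 =>
    obtain ⟨K, hK, h1⟩ := h1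
    obtain ⟨K', hK', h2⟩ := h2
    exact ⟨K ⊔ K', IntermediateField.finiteDimensional_sup K K',
      mul_mem (hmono le_sup_left h1) (hmono le_sup_right h2)⟩

/-- An integral element of a base changed field is scalable. -/
theorem isScalable_of_mem [Algebra.IsAlgebraic ℚ L] {k : Type*} [Field k] {A : ValuationSubring L}
    {π : A →+* k} {F₀ : IntermediateField ℚ (LaurentSeries ℚ)} (y : LaurentSeries A)
    (hy : coeffMap A.subtype y ∈ laurentBaseChange L F₀) (h0 : coeffMap A.subtype y ≠ 0) :
    IsScalable A π (coeffMap A.subtype y) :=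
  isScalable_of_finiteCoeff (finiteCoeff_of_mem_laurentBaseChange F₀ hy) (coeff_mem_of_lift y) h0

end NumberField

end Fermat.Agent.Reduction
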