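import Fermat.Agent.Reduction.Series
import Fermat.Agent.Modular.Degree
import Fermat.Agent.Curve.Basic
import Fermat.Agent.Igusa.Base
import Fermat.Prelude.Def_GaloisRep_ComplexConjugation

/-!
# Elementary facts on the function fields of `X₀(N)`

Degree and transcendence over `ℚ̄`; over an arbitrary field, `j(q^d)` is algebraic over `k(j)` (reduce a
primitive integral relation), so `modularFunctionFieldFullC k N` is a function field of one variable.
-/

set_option autoImplicit false

noncomputable section

open AlgebraicCurve ModularCurve Fermat.Agent.Curve Polynomial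
open scoped IntermediateField

namespace Fermat.Agent.Reduction

variable (N : ℕ) [NeZero N]

/-- An embedding of `ℚ̄` in `ℂ`. -/
abbrev qbarToComplex : AlgebraicClosure ℚ →+* ℂ := complexEmbedding.toRingHom

theorem transcendental_jL_bar :
    Transcendental (AlgebraicClosure ℚ) (Modular.jL N (AlgebraicClosure ℚ)) :=
  Modular.transcendental_jL N qbarToComplex

theorem isFunctionField1_bar_basic :
    IsFunctionField1 (AlgebraicClosure ℚ) (modularFunctionFieldBar N) :=
  .of_finite_adjoin (transcendental_jL_bar N) (Modular.finiteDimensional_FL N qbarToComplex)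

/-- `j` as an element of the function field over `k`. -/
abbrev jResBasic (k : Type*) [Field k] : modularFunctionFieldFullC k N :=
  ⟨jqModC k, jqModC_mem_full k N⟩

omit [NeZero N] in
theorem transcendental_jResBasic (k : Type*) [Field k] : Transcendental k (jResBasic N k) :=
  fun h => transcendental_jqModC k (h.algHom (modularFunctionFieldFullC k N).val)

theorem coeffMap_residue_jqModC (A : ValuationSubring (AlgebraicClosure ℚ)) :
    coeffMap A.subtype (jqModC A) = coeffEmb (AlgebraicClosure ℚ) jq ∧
      coeffMap (IsLocalRing.residue A) (jqModC A) = jqModC (IsLocalRing.ResidueField A) := by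
  refine ⟨?_, coeffMap_jqModC _⟩
  rw [coeffMap_jqModC, ← jqModC_rat]
  exact (coeffMap_jqModC (algebraMap ℚ (AlgebraicClosure ℚ))).symm

/-- A nonzero integral relation of `j` and `j(q^d)`. -/
theorem exists_relation_int (d : ℕ) [NeZero d] : ∃ R : ℤ[X][X], R ≠ 0 ∧
    R.eval₂ (eval₂RingHom HahnSeries.C (jqModC ℤ)) (qExpand ℤ d (jqModC ℤ)) = 0 := by
  obtain ⟨R, hm, -, hR⟩ := Modular.exists_monic_relation_over d (algebraMap ℚ ℂ)
  classical
  let S : Finset ℚ := R.support.biUnion fun i => (R.coeff i).support.image fun j => (R.coeff i).coeff j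
  obtain ⟨b, hb⟩ := IsLocalization.exist_integer_multiples_of_finset (nonZeroDivisors ℤ) S
  have hlift : C (C ((b : ℤ) : ℚ)) * R ∈
      Polynomial.lifts (mapRingHom (Int.castRingHom ℚ)) := by
    rw [lifts_iff_coeff_lifts]
    intro i
    rw [coeff_C_mul, coe_mapRingHom]
    show C ((b : ℤ) : ℚ) * R.coeff i ∈ Polynomial.lifts (Int.castRingHom ℚ)
    rw [lifts_iff_coeff_lifts]
    intro j
    rw [coeff_C_mul]
    by_cases hi : (R.coeff i).coeff j = 0
    · exact ⟨0, by rw [hi, mul_zero, map_zero]⟩
    · have hmem : (R.coeff i).coeff j ∈ S := Finset.mem_biUnion.mpr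
        ⟨i, mem_support_iff.mpr fun h => hi (by rw [h, coeff_zero]),
          Finset.mem_image.mpr ⟨j, mem_support_iff.mpr hi, rfl⟩⟩
      obtain ⟨z, hz⟩ := hb _ hmem
      exact ⟨z, by rw [← show algebraMap ℤ ℚ z = (Int.castRingHom ℚ) z from rfl, hz,
        Algebra.smul_def]; rfl⟩
  obtain ⟨R', hR'⟩ := hlift
  rw [coe_mapRingHom] at hR'
  refine ⟨R', fun h => ?_, ?_⟩
  · rw [h, Polynomial.map_zero, eq_comm, mul_eq_zero, C_eq_zero, C_eq_zero, Int.cast_eq_zero] at hR'
    exact hR'.elim (nonZeroDivisors.ne_zero b.2) hm.ne_zero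
  · apply Igusa.coeffMap_injective (f := Int.castRingHom ℚ) (RingHom.injective_int _)
    rw [map_zero, hom_eval₂, coeffMap_qExpand, coeffMap_jqModC]
    have hcomp : (coeffMap (Int.castRingHom ℚ)).comp (eval₂RingHom HahnSeries.C (jqModC ℤ)) =
        ((aeval (Modular.serJ ℚ)).toRingHom).comp (mapRingHom (Int.castRingHom ℚ)) := by
      refine Polynomial.ringHom_ext (fun a => ?_) ?_
      · simp [algebraMap_laurentSeries_eq_single]
      · simp [Modular.serJ, Modular.coeffEmb_rat, coeffMap_jqModC, jqModC_rat]
    rw [hcomp, ← eval₂_map, hR', eval₂_mul, eval₂_C]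
    have hy : qExpand ℚ d (jqModC ℚ) = Modular.serJd ℚ d := by
      rw [Modular.serJd, Modular.coeffEmb_rat, jqModC_rat]
    rw [hy, hR, mul_zero]
theorem exists_relation_mod (k : Type*) [Field k] (d : ℕ) [NeZero d] :
    ∃ R : k[X][X], R ≠ 0 ∧
      R.eval₂ (aeval (jqModC k)).toRingHom (qExpand k d (jqModC k)) = 0 := by
  classical
  let ev : ℤ[X][X] →+* LaurentSeries ℤ :=
    eval₂RingHom (eval₂RingHom HahnSeries.C (jqModC ℤ)) (qExpand ℤ d (jqModC ℤ))
  obtain ⟨R, hR0, hR⟩ : ∃ R : ℤ[X][X], R.map (mapRingHom (Int.castRingHom k)) ≠ 0 ∧ ev R = 0 := by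
    obtain ⟨R, hR0, hR⟩ := exists_relation_int d
    obtain ⟨i, hi⟩ : ∃ i, R.coeff i ≠ 0 := by
      by_contra h; push Not at h; exact hR0 (Polynomial.ext fun i => by simp [h])
    obtain ⟨j, hj⟩ : ∃ j, (R.coeff i).coeff j ≠ 0 := by
      by_contra h; push Not at h; exact hi (Polynomial.ext fun j => by simp [h])
    suffices ∀ n : ℕ, ∀ R : ℤ[X][X], ((R.coeff i).coeff j).natAbs = n →
        (R.coeff i).coeff j ≠ 0 → ev R = 0 →
        ∃ R' : ℤ[X][X], R'.map (mapRingHom (Int.castRingHom k)) ≠ 0 ∧ ev R' = 0 from
      this _ R rfl hj hR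
    intro n
    induction n using Nat.strong_induction_on with
    | _ n ih =>
      intro R hn hne hev
      by_cases h0 : R.map (mapRingHom (Int.castRingHom k)) = 0
      swap
      · exact ⟨R, h0, hev⟩
      obtain ⟨p, hp⟩ := CharP.exists k
      rcases CharP.char_is_prime_or_zero k p with hpp | rfl
      · have hdvd : ∀ a b, (p : ℤ) ∣ (R.coeff a).coeff b := fun a b => by
          rw [← CharP.intCast_eq_zero_iff k p]
          have := congrArg (fun q : k[X][X] => (q.coeff a).coeff b) h0
          simpa using this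
        obtain ⟨R₁, rfl⟩ : C (C (p : ℤ)) ∣ R :=
          C_dvd_iff_dvd_coeff _ _ |>.mpr fun a => C_dvd_iff_dvd_coeff _ _ |>.mpr (hdvd a)
        rw [coeff_C_mul, coeff_C_mul] at hn hne
        refine ih _ ?_ R₁ rfl (right_ne_zero_of_mul hne) ?_
        · rw [← hn, Int.natAbs_mul, Int.natAbs_natCast]
          exact lt_mul_of_one_lt_left (Int.natAbs_pos.mpr (right_ne_zero_of_mul hne)) hpp.one_lt
        · rw [map_mul] at hev
          refine (mul_eq_zero.mp hev).resolve_left ?_
          simp only [ev, coe_eval₂RingHom, eval₂_C, ne_eq]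
          rw [map_eq_zero_iff _ HahnSeries.C_injective]
          exact_mod_cast hpp.ne_zero
      · haveI := CharP.charP_to_charZero k
        rw [Polynomial.map_eq_zero_iff (Polynomial.map_injective _
          (RingHom.injective_int _))] at h0
        simp [h0] at hne
  refine ⟨_, hR0, ?_⟩
  have h := congrArg (coeffMap (Int.castRingHom k)) hR
  simp only [ev, coe_eval₂RingHom] at h
  rw [map_zero, hom_eval₂, coeffMap_qExpand, coeffMap_jqModC] at h
  rw [eval₂_map, ← h]
  congr 1
  refine Polynomial.ringHom_ext (fun a => ?_) ?_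
  · simp
  · simp [coeffMap_jqModC]

set_option synthInstance.maxHeartbeats 400000 in
set_option maxHeartbeats 1000000 in
/-- The function field of `X₀(N)` over any field is a function field of one variable. -/
theorem isFunctionField1_fullC_basic (k : Type*) [Field k] :
    IsFunctionField1 k (modularFunctionFieldFullC k N) := by
  classical
  refine .of_finite_adjoin (transcendental_jResBasic N k) ?_
  let K₀ := k⟮jResBasic N k⟯
  let G : Set (modularFunctionFieldFullC k N) := {x | (x : LaurentSeries k) ∈ divisorExpansionsC k N}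
  have hG : G.Finite := by
    refine Set.Finite.of_finite_image (f := Subtype.val) ?_ Subtype.val_injective.injOn
    refine Set.Finite.subset ((Finset.finite_toSet N.divisors).image
      (fun d => if h : d = 0 then 0 else @qExpand k _ d ⟨h⟩ (jqModC k))) ?_
    rintro _ ⟨x, ⟨d, hd0, hdN, hx⟩, rfl⟩
    exact ⟨d, Nat.mem_divisors.mpr ⟨hdN, NeZero.ne N⟩, by simp only [dif_neg (NeZero.ne d)]; exact hx.symm⟩
  have htop : IntermediateField.adjoin K₀ G = ⊤ := by
    apply IntermediateField.restrictScalars_injective k
    rw [IntermediateField.restrictScalars_top, IntermediateField.adjoin_adjoin_left]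
    apply IntermediateField.map_injective (modularFunctionFieldFullC k N).val
    rw [IntermediateField.adjoin_map, ← AlgHom.fieldRange_eq_map, IntermediateField.fieldRange_val]
    refine le_antisymm (IntermediateField.adjoin_le_iff.mpr ?_)
      (IntermediateField.adjoin_le_iff.mpr ?_)
    · rintro _ ⟨x, -, rfl⟩
      exact x.2
    · intro x hx
      refine IntermediateField.subset_adjoin _ _ ⟨⟨x, IntermediateField.subset_adjoin k _ hx⟩, Or.inr hx, rfl⟩
  have halg : ∀ x ∈ G, IsIntegral K₀ x := by
    rintro x ⟨d, hd0, -, hx⟩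
    haveI := hd0
    obtain ⟨R, hR0, hR⟩ := exists_relation_mod k d
    let gj : K₀ := IntermediateField.AdjoinSimple.gen k (jResBasic N k)
    have hgj : Function.Injective (aeval gj : k[X] →ₐ[k] K₀).toRingHom :=
      transcendental_iff_injective.mp (transcendental_gen (transcendental_jResBasic N k))
    refine IsAlgebraic.isIntegral ⟨R.map (aeval gj).toRingHom,
      (Polynomial.map_ne_zero_iff hgj).mpr hR0, ?_⟩
    rw [aeval_def, eval₂_map]
    apply Subtype.ext
    show (modularFunctionFieldFullC k N).val.toRingHom _ = (0 : LaurentSeries k)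
    rw [hom_eval₂]
    have hx' : (modularFunctionFieldFullC k N).val.toRingHom x = qExpand k d (jqModC k) := hx
    rw [hx', ← hR]
    congr 1
    refine Polynomial.ringHom_ext (fun a => ?_) ?_
    · simp [← IsScalarTower.algebraMap_apply]
    · simp [gj]
  have : FiniteDimensional K₀ (IntermediateField.adjoin K₀ G) := by
    haveI : Finite G := hG
    exact IntermediateField.finiteDimensional_adjoin halg
  rw [htop] at this
  exact Module.Finite.equiv IntermediateField.topEquiv.toLinearEquiv

end Fermat.Agent.Reduction
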