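import Fermat.Agent.Reduction.AuxLevel
import Fermat.Agent.EC.Red.ResidueQbar

/-!
# `ReductionInputsModL`: existence of the place reduction of `X₀(N)`

The place map of `PlaceReduction` applied to the Gauss reduction of `q`-expansions.
-/

set_option autoImplicit false

noncomputable section

namespace Fermat.Agent.Reduction

open AlgebraicCurve ModularCurve HahnSeries Fermat.Agent.Curve

variable (N : ℕ) [NeZero N] {ℓ : ℕ} [Fact ℓ.Prime] (hℓN : ¬ ℓ ∣ N)
  (A : ValuationSubring (AlgebraicClosure ℚ)) (hA : A.LiesOverPrime ℓ)

include hℓN hA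

/-- A compatible map of places is a place reduction in the sense of the prelude. -/
theorem isPlaceReductionModL_of_placeCompat
    {r : Place (AlgebraicClosure ℚ) (modularFunctionFieldBar N) →
      Place (IsLocalRing.ResidueField A) (modularFunctionFieldFullC (IsLocalRing.ResidueField A) N)}
    (hdeg : ∀ P, (r P).deg = P.deg) (hr : (gaussDataX0 N hℓN A hA).PlaceCompat r) :
    IsPlaceReductionModL A N r := by
  refine ⟨hdeg, fun y hy hyk hne D hD Q => ?_⟩
  exact hr _ _ (mk_mem_modGraph y hy hyk) (fun h => hne (congrArg Subtype.val h)) D hD Q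

theorem reductionInputsModL_of_genus_le
    (hgenus : genusFF (AlgebraicClosure ℚ) (modularFunctionFieldBar N) ≤
      genusFF (IsLocalRing.ResidueField A)
        (modularFunctionFieldFullC (IsLocalRing.ResidueField A) N)) :
    ReductionInputsModL A N := by
  haveI : IsAlgClosed (IsLocalRing.ResidueField A) := EC.isAlgClosed_residueField A
  obtain ⟨r, hdeg, hr⟩ := (gaussDataX0 N hℓN A hA).exists_placeCompat hgenus
  exact ⟨r, isPlaceReductionModL_of_placeCompat N hℓN A hA hdeg hr,
    principalGeneratedByIntegral N hℓN A hA⟩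

/-- Reduction inputs exist at every level carrying the auxiliary factor. -/
theorem reductionInputsModL (hN : (ℓ = 2 → 3 ∣ N) ∧ (ℓ = 3 → 2 ∣ N)) :
    ReductionInputsModL A N :=
  reductionInputsModL_of_genus_le N hℓN A hA (genusFF_le_modL N hℓN A hA hN)

end Fermat.Agent.Reduction
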