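import Fermat.Agent.Reduction.Rigidity
import Fermat.Prelude.Def_ModularCurve_ReductionModL
import Fermat.Prelude.Def_EllipticCurve_FrobeniusTrace
import Fermat.Prelude.Def_FLTPrelim_Ramification

/-!
# Galois equivariance and canonicity of the reduction of divisor classes of `X₀(N)`

Any two place reductions induce the same map on degree-zero divisors, and any place reduction
intertwines an automorphism of `L` stabilising the valuation ring with the induced automorphism of
the residue field.
-/

set_option autoImplicit false

noncomputable section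

namespace Fermat.Agent.Reduction

open HahnSeries IntermediateField AlgebraicCurve ModularCurve

section ResidueGalois

variable {k : Type*} [Field k] (N : ℕ)

theorem coeffMap_mem_fullC (α : k →+* k) {x : LaurentSeries k}
    (hx : x ∈ modularFunctionFieldFullC k N) :
    coeffMap α x ∈ modularFunctionFieldFullC k N := by
  change x ∈ Subfield.closure (Set.range (algebraMap k (LaurentSeries k)) ∪ _) at hx
  induction hx using Subfield.closure_induction with
  | mem y hy =>
      rcases hy with ⟨a, rfl⟩ | ⟨d, hne, hd, rfl⟩
      · rw [coeffMap_algebraMap]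
        exact (modularFunctionFieldFullC k N).algebraMap_mem _
      · haveI := hne
        rw [coeffMap_qExpand, coeffMap_jqModC]
        exact jqModCd_mem_full k N hd
  | one => simp
  | add x y _ _ hx hy => simpa using add_mem hx hy
  | neg x _ hx => simpa using neg_mem hx
  | inv x _ hx => simpa using inv_mem hx
  | mul x y _ _ hx hy => simpa using mul_mem hx hy

/-- An automorphism of the constants acting on the coefficients of `q`-expansions, as a semilinear
automorphism of the function field of `X₀(N)` over `k`. -/
def residueGalois : (k ≃+* k) →* SemilinearAut k (modularFunctionFieldFullC k N) where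
  toFun α :=
    ⟨({ toFun := fun x => ⟨coeffMap (α : k →+* k) (x : LaurentSeries k),
          coeffMap_mem_fullC N _ x.2⟩
        invFun := fun x => ⟨coeffMap (α.symm : k →+* k) (x : LaurentSeries k),
          coeffMap_mem_fullC N _ x.2⟩
        left_inv := fun x => Subtype.ext <| HahnSeries.ext <| funext fun n => by simp
        right_inv := fun x => Subtype.ext <| HahnSeries.ext <| funext fun n => by simp
        map_mul' := fun x y => Subtype.ext (map_mul (coeffMap (α : k →+* k)) _ _)
        map_add' := fun x y => Subtype.ext (map_add (coeffMap (α : k →+* k)) _ _) }, α),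
      fun a => Subtype.ext (coeffMap_algebraMap (α : k →+* k) a)⟩
  map_one' := by
    refine Subtype.ext (Prod.ext (RingEquiv.ext fun x => Subtype.ext ?_) rfl)
    exact HahnSeries.ext <| funext fun n => rfl
  map_mul' α β := by
    refine Subtype.ext (Prod.ext (RingEquiv.ext fun x => Subtype.ext ?_) rfl)
    exact HahnSeries.ext <| funext fun n => rfl

@[simp]
theorem coe_residueGalois_smul (α : k ≃+* k) (x : modularFunctionFieldFullC k N) :
    ((residueGalois N α • x : modularFunctionFieldFullC k N) : LaurentSeries k) =
      coeffMap (α : k →+* k) (x : LaurentSeries k) :=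
  rfl

end ResidueGalois

theorem divisor_smul_eq_ord {K F : Type*} [Field K] [Field F] [Algebra K F]
    (g : SemilinearAut K F) {D : Divisor K F} {f : F}
    (hD : ∀ P : Place K F, D P = P.ord f) (P : Place K F) :
    (g • D) P = P.ord (g • f) := by
  rw [SemilinearAut.divisor_smul_apply, hD]
  have h := SemilinearAut.ord_smul g (g⁻¹ • P) f
  rw [smul_inv_smul] at h
  exact h.symm

variable {L : Type*} [Field L] [Algebra ℚ L] {A : ValuationSubring L}
variable {k : Type*} [Field k] {π : A →+* k} {N : ℕ}
variable {r : Place L (laurentBaseChange L (modularFunctionFieldFull N)) →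
  Place k (modularFunctionFieldFullC k N)}

/-- Homomorphisms agreeing on integral principal divisors agree on principal divisors. -/
theorem eq_on_principal_of_eq_on_integral (hgen : PrincipalGeneratedByIntegral A π N)
    {M : Type*} [AddCommGroup M]
    (δ₁ δ₂ : Divisor L (laurentBaseChange L (modularFunctionFieldFull N)) →+ M)
    (h : ∀ D ∈ integralPrincipalDivisors A π N, δ₁ D = δ₂ D)
    {D : Divisor L (laurentBaseChange L (modularFunctionFieldFull N))}
    (hD : D ∈ Divisor.principal (K := L) (F := laurentBaseChange L (modularFunctionFieldFull N))) :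
    δ₁ D = δ₂ D := by
  have hD' := hgen hD
  clear hD
  induction hD' using AddSubgroup.closure_induction with
  | mem E hE => exact h E hE
  | zero => simp
  | add E E' _ _ hE hE' => rw [map_add, map_add, hE, hE']
  | neg E _ hE => rw [map_neg, map_neg, hE]

variable [HasPrincipalDivisors L (laurentBaseChange L (modularFunctionFieldFull N))]

/-- Any two place reductions agree on degree-zero divisors. -/
theorem mapDomain_eq_of_degree_eq_zero
    (hdeg : ∀ P : Place L (laurentBaseChange L (modularFunctionFieldFull N)), 1 ≤ P.deg)
    (hR : WeakRiemann L (laurentBaseChange L (modularFunctionFieldFull N)))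
    {r' : Place L (laurentBaseChange L (modularFunctionFieldFull N)) →
      Place k (modularFunctionFieldFullC k N)}
    (hr : IsPlaceReductionAlong A π N r) (hr' : IsPlaceReductionAlong A π N r')
    (hgen : PrincipalGeneratedByIntegral A π N)
    {D : Divisor L (laurentBaseChange L (modularFunctionFieldFull N))}
    (hD : Divisor.degree D = 0) : Finsupp.mapDomain r D = Finsupp.mapDomain r' D := by
  classical
  refine hom_ext_of_degree_eq_zero hdeg hR (reductionDivAlong r) (reductionDivAlong r')
    (fun E hE => eq_on_principal_of_eq_on_integral hgen _ _ ?_ hE) (fun P => ?_) (M := 1)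
    (fun P Q => ?_) hD
  · rintro E ⟨y, hy, hyk, hne, hE⟩
    ext Q
    rw [reductionDivAlong_apply, reductionDivAlong_apply, hr.2 y hy hyk hne E hE Q,
      hr'.2 y hy hyk hne E hE Q]
  · rw [reductionDivAlong_single]
    exact Finsupp.single_nonneg.mpr zero_le_one
  · rw [reductionDivAlong_single, Finsupp.single_apply]
    split_ifs <;> omega

/-- A place reduction intertwines an automorphism stabilising `A` with the induced automorphism of
the residue field, in degree zero. -/
theorem mapDomain_arithmeticGalois_smul
    (hdeg : ∀ P : Place L (laurentBaseChange L (modularFunctionFieldFull N)), 1 ≤ P.deg)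
    (hR : WeakRiemann L (laurentBaseChange L (modularFunctionFieldFull N)))
    (hr : IsPlaceReductionAlong A π N r) (hgen : PrincipalGeneratedByIntegral A π N)
    (σ : L ≃ₐ[ℚ] L) (τ : A →+* A) (hτ : ∀ a : A, (τ a : L) = σ a)
    (α : k ≃+* k) (hα : ∀ a : A, π (τ a) = α (π a))
    {D : Divisor L (laurentBaseChange L (modularFunctionFieldFull N))}
    (hD : Divisor.degree D = 0) :
    Finsupp.mapDomain r (arithmeticGalois (modularFunctionFieldFull N) σ • D) =
      residueGalois N α • Finsupp.mapDomain r D := by
  classical
  refine hom_ext_of_degree_eq_zero hdeg hR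
    ((reductionDivAlong r).comp
      (DistribSMul.toAddMonoidHom _ (arithmeticGalois (modularFunctionFieldFull N) σ)))
    ((DistribSMul.toAddMonoidHom _ (residueGalois N α)).comp (reductionDivAlong r))
    (fun E hE => eq_on_principal_of_eq_on_integral hgen _ _ ?_ hE) (fun P => ?_) (M := 1)
    (fun P Q => ?_) hD
  · rintro E ⟨y, hy, hyk, hne, hE⟩
    ext Q
    simp only [AddMonoidHom.comp_apply, DistribSMul.toAddMonoidHom_apply,
      reductionDivAlong_apply]
    have hcoe : coeffMap A.subtype (coeffMap τ y) =
        coeffMap (σ : L →+* L) (coeffMap A.subtype y) :=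
      HahnSeries.ext <| funext fun n => by simpa using hτ (y.coeff n)
    have hred : coeffMap π (coeffMap τ y) = coeffMap (α : k →+* k) (coeffMap π y) :=
      HahnSeries.ext <| funext fun n => by simpa using hα (y.coeff n)
    have hy' : coeffMap A.subtype (coeffMap τ y) ∈
        laurentBaseChange L (modularFunctionFieldFull N) := by
      rw [hcoe]; exact coeffMap_mem_laurentBaseChange σ hy
    have hyk' : coeffMap π (coeffMap τ y) ∈ modularFunctionFieldFullC k N := by
      rw [hred]; exact coeffMap_mem_fullC N _ hyk
    have hne' : coeffMap π (coeffMap τ y) ≠ 0 := by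
      rw [hred]
      exact fun h => hne (HahnSeries.ext <| funext fun n => by
        simpa using congrArg (fun z : LaurentSeries k => z.coeff n) h)
    have hlhs : ∀ P, (arithmeticGalois (modularFunctionFieldFull N) σ • E) P =
        P.ord (⟨coeffMap A.subtype (coeffMap τ y), hy'⟩ :
          laurentBaseChange L (modularFunctionFieldFull N)) := fun P => by
      rw [divisor_smul_eq_ord _ hE]
      exact congrArg P.ord (Subtype.ext hcoe.symm)
    rw [hr.2 _ hy' hyk' hne' _ hlhs Q, divisor_smul_eq_ord _ (hr.2 y hy hyk hne E hE) Q]
    exact congrArg Q.ord (Subtype.ext hred)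
  · simp only [AddMonoidHom.comp_apply, DistribSMul.toAddMonoidHom_apply,
      SemilinearAut.smul_single, reductionDivAlong_single]
    exact Finsupp.single_nonneg.mpr zero_le_one
  · simp only [AddMonoidHom.comp_apply, DistribSMul.toAddMonoidHom_apply,
      SemilinearAut.smul_single, reductionDivAlong_single, Finsupp.single_apply]
    split_ifs <;> omega

/-- `reductionAlong` may be computed with any place reduction. -/
theorem reductionAlong_mk_of_isPlaceReduction
    (hdeg : ∀ P : Place L (laurentBaseChange L (modularFunctionFieldFull N)), 1 ≤ P.deg)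
    (hR : WeakRiemann L (laurentBaseChange L (modularFunctionFieldFull N)))
    (hr : IsPlaceReductionAlong A π N r) (hgen : PrincipalGeneratedByIntegral A π N)
    (D : Divisor.degZero (K := L) (F := laurentBaseChange L (modularFunctionFieldFull N))) :
    reductionAlong A π N (Pic0.mk D) = Pic0.mk (reductionDegZeroAlong r hr.1 D) := by
  have h : ReductionInputsAlong A π N := ⟨r, hr, hgen⟩
  rw [reductionAlong_mk h]
  refine congrArg Pic0.mk (Subtype.ext ?_)
  exact mapDomain_eq_of_degree_eq_zero hdeg hR h.choose_spec.1 hr hgen D.2

theorem reductionAlong_galois_smul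
    (hdeg : ∀ P : Place L (laurentBaseChange L (modularFunctionFieldFull N)), 1 ≤ P.deg)
    (hR : WeakRiemann L (laurentBaseChange L (modularFunctionFieldFull N)))
    (h : ReductionInputsAlong A π N)
    (σ : L ≃ₐ[ℚ] L) (τ : A →+* A) (hτ : ∀ a : A, (τ a : L) = σ a)
    (α : k ≃+* k) (hα : ∀ a : A, π (τ a) = α (π a))
    (x : Pic0 L (laurentBaseChange L (modularFunctionFieldFull N))) :
    reductionAlong A π N (σ • x) = residueGalois N α • reductionAlong A π N x := by
  obtain ⟨D, rfl⟩ := Pic0.mk_surjective x
  rw [galois_smul_pic0_def, SemilinearAut.pic0_smul_mk, reductionAlong_mk h, reductionAlong_mk h,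
    SemilinearAut.pic0_smul_mk]
  refine congrArg Pic0.mk (Subtype.ext ?_)
  exact mapDomain_arithmeticGalois_smul hdeg hR h.choose_spec.1 h.choose_spec.2 σ τ hτ α hα D.2

section ModL

variable (A' : ValuationSubring (AlgebraicClosure ℚ)) {M : ℕ}
variable [HasPrincipalDivisors (AlgebraicClosure ℚ) (modularFunctionFieldBar M)]

/-- The reduction mod `ℓ` commutes with the decomposition group. -/
theorem reductionModL_smul
    (hdeg : ∀ P : Place (AlgebraicClosure ℚ) (modularFunctionFieldBar M), 1 ≤ P.deg)
    (hR : WeakRiemann (AlgebraicClosure ℚ) (modularFunctionFieldBar M))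
    (h : ReductionInputsModL A' M) (g : A'.decompositionSubgroup ℚ) (x : JZero M) :
    reductionModL A' M ((g : AlgebraicClosure ℚ ≃ₐ[ℚ] AlgebraicClosure ℚ) • x) =
      residueGalois M (MulSemiringAction.toRingEquiv _ (IsLocalRing.ResidueField A') g) •
        reductionModL A' M x :=
  reductionAlong_galois_smul hdeg hR h (g : AlgebraicClosure ℚ ≃ₐ[ℚ] AlgebraicClosure ℚ)
    (MulSemiringAction.toRingHom _ A' g) (fun _ => rfl) _
    (fun a => IsLocalRing.ResidueField.residue_smul _ g a) x

theorem reductionModL_inertia_smul
    (hdeg : ∀ P : Place (AlgebraicClosure ℚ) (modularFunctionFieldBar M), 1 ≤ P.deg)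
    (hR : WeakRiemann (AlgebraicClosure ℚ) (modularFunctionFieldBar M))
    (h : ReductionInputsModL A' M) {σ : AlgebraicClosure ℚ ≃ₐ[ℚ] AlgebraicClosure ℚ}
    (hσ : σ ∈ A'.inertiaSubgroupIn ℚ) (x : JZero M) :
    reductionModL A' M (σ • x) = reductionModL A' M x := by
  obtain ⟨g, hg, rfl⟩ := hσ
  rw [Subgroup.coe_subtype, reductionModL_smul A' hdeg hR h g x]
  have : MulSemiringAction.toRingEquiv _ (IsLocalRing.ResidueField A') g = 1 := by
    ext a
    exact congrArg (fun e : IsLocalRing.ResidueField A' ≃+* _ => e a) hg
  rw [this, map_one, one_smul]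

theorem reductionModL_frobenius_smul
    (hdeg : ∀ P : Place (AlgebraicClosure ℚ) (modularFunctionFieldBar M), 1 ≤ P.deg)
    (hR : WeakRiemann (AlgebraicClosure ℚ) (modularFunctionFieldBar M))
    (h : ReductionInputsModL A' M) {σ : AlgebraicClosure ℚ ≃ₐ[ℚ] AlgebraicClosure ℚ} {ℓ : ℕ}
    (hσ : A'.IsFrobeniusAt σ ℓ)
    (φ : IsLocalRing.ResidueField A' ≃+* IsLocalRing.ResidueField A')
    (hφ : ∀ a, φ a = a ^ ℓ) (x : JZero M) :
    reductionModL A' M (σ • x) = residueGalois M φ • reductionModL A' M x := by
  rw [reductionModL_smul A' hdeg hR h ⟨σ, hσ.mem_decompositionSubgroup⟩ x]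
  congr 2
  ext a
  exact (hσ.smul_residue_eq a).trans (hφ a).symm

end ModL

end Fermat.Agent.Reduction
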