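import Fermat.Agent.Reduction.TorsionCore

/-!
# Gauss reduction of function fields

`GaussData π F Fb`: the graph of a reduction map from `F/K` to `Fb/k` above the residue map
`π : A →+* k`, for which finite-dimensional subspaces keep their dimension.  No map on places is
part of the data: it is constructed in `PlaceReduction`.

Contracts of team RED, owner helper65.
-/

set_option autoImplicit false

noncomputable section

namespace Fermat.Agent.Reduction

open AlgebraicCurve

variable {K : Type*} [Field K] {k : Type*} [Field k] {A : ValuationSubring K}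

/-- A Gauss reduction from `F` to `Fb` above `π`. -/
structure GaussData (π : A →+* k) (F : Type*) (Fb : Type*) [Field F] [Algebra K F] [Field Fb]
    [Algebra k Fb] where
  /-- the graph of the reduction map -/
  graph : Subring (F × Fb)
  unique : ∀ g : Fb, ((0 : F), g) ∈ graph → g = 0
  algebraMap_mem : ∀ a : A, (algebraMap K F a, algebraMap k Fb (π a)) ∈ graph
  residue_surjective : Function.Surjective π
  residue_eq_zero : ∀ a : A, (a : K)⁻¹ ∉ A → π a = 0
  exists_lift : ∀ g : Fb, ∃ f : F, (f, g) ∈ graph
  finrank_span : ∀ W : Submodule K F, FiniteDimensional K W →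
    Module.finrank k (Submodule.span k {g : Fb | ∃ f ∈ W, (f, g) ∈ graph}) = Module.finrank K W

namespace GaussData

variable {F : Type*} [Field F] [Algebra K F] {Fb : Type*} [Field Fb] [Algebra k Fb]
variable {π : A →+* k} (G : GaussData π F Fb)

theorem eq_of_mem {f : F} {g g' : Fb} (h : (f, g) ∈ G.graph) (h' : (f, g') ∈ G.graph) :
    g = g' := by
  refine sub_eq_zero.mp (G.unique _ ?_)
  simpa using G.graph.sub_mem h h'

theorem smul_mem (a : A) {f : F} {g : Fb} (h : (f, g) ∈ G.graph) :
    ((a : K) • f, π a • g) ∈ G.graph := by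
  simpa [Algebra.smul_def] using G.graph.mul_mem (G.algebraMap_mem a) h

theorem ne_zero_of_mem {f : F} {g : Fb} (h : (f, g) ∈ G.graph) (hg : g ≠ 0) : f ≠ 0 :=
  fun hf => hg (G.unique g (hf ▸ h))

/-- The space of reductions of the integral elements of `W`. -/
def redSpace (W : Submodule K F) : Submodule k Fb where
  carrier := {g | ∃ f ∈ W, (f, g) ∈ G.graph}
  zero_mem' := ⟨0, zero_mem _, G.graph.zero_mem⟩
  add_mem' := by
    rintro a b ⟨f, hf, hfa⟩ ⟨f', hf', hfb⟩
    exact ⟨f + f', add_mem hf hf', G.graph.add_mem hfa hfb⟩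
  smul_mem' := by
    rintro c a ⟨f, hf, hfa⟩
    obtain ⟨x, rfl⟩ := G.residue_surjective c
    exact ⟨(x : K) • f, W.smul_mem _ hf, G.smul_mem x hfa⟩

theorem mem_redSpace {W : Submodule K F} {g : Fb} :
    g ∈ G.redSpace W ↔ ∃ f ∈ W, (f, g) ∈ G.graph := Iff.rfl

theorem redSpace_mono {V W : Submodule K F} (h : V ≤ W) : G.redSpace V ≤ G.redSpace W :=
  fun _ ⟨f, hf, hfg⟩ => ⟨f, h hf, hfg⟩

theorem span_eq_redSpace (W : Submodule K F) :
    Submodule.span k {g : Fb | ∃ f ∈ W, (f, g) ∈ G.graph} = G.redSpace W :=
  Submodule.span_eq (G.redSpace W)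

theorem finrank_redSpace (W : Submodule K F) (hW : FiniteDimensional K W) :
    Module.finrank k (G.redSpace W) = Module.finrank K W := by
  rw [← G.span_eq_redSpace, G.finrank_span W hW]

/-- The Gauss norm of every non-zero element is attained. -/
theorem exists_smul {f : F} (hf : f ≠ 0) :
    ∃ c : K, c ≠ 0 ∧ ∃ g : Fb, g ≠ 0 ∧ (c • f, g) ∈ G.graph := by
  have h := G.finrank_redSpace (K ∙ f) inferInstance
  rw [finrank_span_singleton hf] at h
  obtain ⟨g, hg, hg0⟩ := Submodule.exists_mem_ne_zero_of_ne_bot (p := G.redSpace (K ∙ f))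
    (fun hb => by rw [hb, finrank_bot] at h; exact zero_ne_one h)
  obtain ⟨f', hf', hfg⟩ := hg
  obtain ⟨c, rfl⟩ := Submodule.mem_span_singleton.mp hf'
  refine ⟨c, ?_, g, hg0, hfg⟩
  rintro rfl
  exact G.ne_zero_of_mem hfg hg0 (zero_smul K f)

/-- `r` carries the divisor of an integral element to the divisor of its reduction. -/
def PlaceCompat (r : Place K F → Place k Fb) : Prop :=
  ∀ (f : F) (g : Fb), (f, g) ∈ G.graph → g ≠ 0 →
    ∀ D : Divisor K F, (∀ P, D P = P.ord f) → ∀ Q, Finsupp.mapDomain r D Q = Q.ord g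

/-- With a compatible map on places, `GaussData` is the input of `TorsionCore`. -/
def toGaussReduction {r : Place K F → Place k Fb} (hr : G.PlaceCompat r) :
    Torsion.GaussReduction (F := F) (Fb := Fb) π r where
  graph := G.graph
  unique := G.unique
  algebraMap_mem := G.algebraMap_mem
  exists_smul _ hf := G.exists_smul hf
  residue_surjective := G.residue_surjective
  residue_eq_zero := G.residue_eq_zero
  ord_eq := hr

theorem redSpace_toGaussReduction {r : Place K F → Place k Fb} (hr : G.PlaceCompat r)
    (W : Submodule K F) : (G.toGaussReduction hr).redSpace W = G.redSpace W := rfl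

end GaussData

end Fermat.Agent.Reduction
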