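import Fermat.Prelude.Def_AlgebraicCurve_DivisorClassGroup
import Mathlib.Tactic.Linarith

/-!
# Rigidity of homomorphisms out of the divisor group

A homomorphism `Divisor K F →+ ℤ` that kills principal divisors and is bounded below on places
vanishes on degree-zero divisors, as soon as every place has positive degree and every divisor of
large degree is linearly equivalent to an effective one (Riemann's inequality).
-/

set_option autoImplicit false

noncomputable section

namespace Fermat.Agent.Reduction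

open AlgebraicCurve

variable {K F : Type*} [Field K] [Field F] [Algebra K F]

/-- Riemann's inequality in its weakest form: divisors of large degree are equivalent to effective
ones. -/
def WeakRiemann (K F : Type*) [Field K] [Field F] [Algebra K F] : Prop :=
  ∃ c : ℕ, ∀ D : Divisor K F, (c : ℤ) ≤ Divisor.degree D →
    ∃ E : Divisor K F, 0 ≤ E ∧ (E - D).IsPrincipal

theorem weakRiemann_of_exists_ord [HasPrincipalDivisors K F] (c : ℕ)
    (h : ∀ D : Divisor K F, (c : ℤ) ≤ Divisor.degree D →
      ∃ f : F, f ≠ 0 ∧ ∀ P : Place K F, 0 ≤ D P + P.ord f) : WeakRiemann K F := by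
  refine ⟨c, fun D hD => ?_⟩
  obtain ⟨f, hf, hfD⟩ := h D hD
  obtain ⟨G, hG, -⟩ := HasPrincipalDivisors.exists_divisor (K := K) f hf
  refine ⟨D + G, fun P => ?_, f, hf, fun P => ?_⟩
  · rw [Finsupp.coe_zero, Pi.zero_apply, Finsupp.add_apply, hG P]
    exact hfD P
  · rw [add_sub_cancel_left, hG P]

theorem le_apply_of_effective (hdeg : ∀ P : Place K F, 1 ≤ P.deg) (lam : Divisor K F →+ ℤ)
    {M : ℤ} (hM0 : 0 ≤ M) (hM : ∀ P : Place K F, -M ≤ lam (Finsupp.single P 1))
    (E : Divisor K F) (hE : 0 ≤ E) : -(M * Divisor.degree E) ≤ lam E := by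
  classical
  induction E using Finsupp.induction with
  | zero => simp
  | single_add P n E hP hn ih =>
    have hn0 : 0 ≤ n := by
      have h := hE P
      rwa [Finsupp.coe_zero, Pi.zero_apply, Finsupp.add_apply, Finsupp.single_eq_same,
        Finsupp.notMem_support_iff.mp hP, add_zero] at h
    have hE' : 0 ≤ E := by
      intro Q
      rcases eq_or_ne Q P with rfl | hQ
      · rw [Finsupp.notMem_support_iff.mp hP]; exact le_refl (0 : ℤ)
      · have h := hE Q
        rwa [Finsupp.coe_zero, Pi.zero_apply, Finsupp.add_apply,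
          Finsupp.single_eq_of_ne hQ, zero_add] at h
    have h1 : lam (Finsupp.single P n) = n * lam (Finsupp.single P 1) := by
      rw [← smul_eq_mul, ← map_zsmul, Finsupp.smul_single, smul_eq_mul, mul_one]
    rw [map_add, map_add, Divisor.degree_single, h1]
    have hd : (1 : ℤ) ≤ (P.deg : ℤ) := by exact_mod_cast hdeg P
    have := mul_le_mul_of_nonneg_left (hM P) hn0
    have := ih hE'
    nlinarith [mul_nonneg (mul_nonneg hM0 hn0) (sub_nonneg.mpr hd)]

theorem degree_eq_zero_of_isPrincipal [HasPrincipalDivisors K F] {D : Divisor K F}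
    (hD : D.IsPrincipal) : Divisor.degree D = 0 := by
  obtain ⟨f, hf, hDf⟩ := hD
  obtain ⟨G, hG, hG0⟩ := HasPrincipalDivisors.exists_divisor (K := K) f hf
  rw [show D = G from Finsupp.ext fun P => (hDf P).trans (hG P).symm, hG0]

theorem eq_zero_of_forall_le_zmul {a B : ℤ} (h : ∀ n : ℤ, B ≤ n * a) : a = 0 := by
  by_contra ha
  rcases lt_or_gt_of_ne ha with ha | ha
  · have := h (|B| + 1)
    nlinarith [neg_abs_le B, abs_nonneg B]
  · have := h (-(|B| + 1))
    nlinarith [neg_abs_le B, abs_nonneg B]

/-- The rigidity lemma. -/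
theorem hom_apply_eq_zero_of_degree_eq_zero [HasPrincipalDivisors K F] (hdeg : ∀ P : Place K F, 1 ≤ P.deg)
    (hR : WeakRiemann K F) (lam : Divisor K F →+ ℤ)
    (hprin : ∀ D ∈ Divisor.principal (K := K) (F := F), lam D = 0)
    {M : ℤ} (hM : ∀ P : Place K F, -M ≤ lam (Finsupp.single P 1))
    {D : Divisor K F} (hD : Divisor.degree D = 0) : lam D = 0 := by
  rcases isEmpty_or_nonempty (Place K F) with hne | ⟨⟨P₀⟩⟩
  · rw [Subsingleton.elim D 0, map_zero]
  obtain ⟨c, hc⟩ := hR
  have hM' : ∀ P : Place K F, -|M| ≤ lam (Finsupp.single P 1) := fun P =>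
    le_trans (neg_le_neg (le_abs_self M)) (hM P)
  refine eq_zero_of_forall_le_zmul
    (B := -(|M| * ((c : ℤ) * P₀.deg)) - lam (Finsupp.single P₀ (c : ℤ))) fun n => ?_
  have hdeg' : Divisor.degree (n • D + Finsupp.single P₀ (c : ℤ)) = (c : ℤ) * P₀.deg := by
    rw [map_add, map_zsmul, hD, smul_zero, zero_add, Divisor.degree_single]
  obtain ⟨E, hE, hp⟩ := hc (n • D + Finsupp.single P₀ (c : ℤ)) (by
    rw [hdeg']
    exact le_mul_of_one_le_right (Int.natCast_nonneg c) (by exact_mod_cast hdeg P₀))
  have hlam : lam E = n * lam D + lam (Finsupp.single P₀ (c : ℤ)) := by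
    have := hprin _ hp
    rw [map_sub, sub_eq_zero] at this
    rw [this, map_add, map_zsmul, smul_eq_mul]
  have hb := le_apply_of_effective hdeg lam (abs_nonneg M) hM' E hE
  have hdE : Divisor.degree E = (c : ℤ) * P₀.deg := by
    have := degree_eq_zero_of_isPrincipal hp
    rw [map_sub, sub_eq_zero] at this
    rw [this, hdeg']
  rw [hdE, hlam] at hb
  linarith

/-- Two homomorphisms between divisor groups that agree on principal divisors and whose difference
is bounded below on places agree in degree zero. -/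
theorem hom_ext_of_degree_eq_zero [HasPrincipalDivisors K F] {ι : Type*}
    (hdeg : ∀ P : Place K F, 1 ≤ P.deg) (hR : WeakRiemann K F)
    (δ₁ δ₂ : Divisor K F →+ (ι →₀ ℤ))
    (hprin : ∀ D ∈ Divisor.principal (K := K) (F := F), δ₁ D = δ₂ D)
    (hpos : ∀ P : Place K F, 0 ≤ δ₁ (Finsupp.single P 1))
    {M : ℤ} (hM : ∀ (P : Place K F) (Q : ι), δ₂ (Finsupp.single P 1) Q ≤ M)
    {D : Divisor K F} (hD : Divisor.degree D = 0) : δ₁ D = δ₂ D := by
  ext Q
  have h := hom_apply_eq_zero_of_degree_eq_zero hdeg hR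
    ((Finsupp.applyAddHom Q).comp (δ₁ - δ₂)) (M := M)
    (fun E hE => by simp [hprin E hE])
    (fun P => by
      have h1 := hpos P Q
      have h2 := hM P Q
      simp only [AddMonoidHom.comp_apply, Finsupp.applyAddHom_apply, AddMonoidHom.sub_apply,
        Finsupp.sub_apply, Finsupp.coe_zero, Pi.zero_apply] at *
      omega)
    hD
  simpa [sub_eq_zero] using h

end Fermat.Agent.Reduction
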