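import Fermat.Agent.Reduction.Congruence
import Fermat.Agent.Galois.Frobenius
import Fermat.Prelude.Def_ModularCurve_HeckeModule

/-!
# The specialisation of `J₀(N)` at a good prime (assembly of S37)

Given at `ℓ` and `A` a specialisation map of divisors `Ψ` (to level `N`, or to an auxiliary level)
that is injective on prime-to-`ℓ` torsion, take `J' = J / K` with
`K = {x | ∀ t, specPic (t • x) = 0}` and Frobenius induced by any Frobenius element at `A`.
-/

set_option autoImplicit false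
set_option linter.style.haveILetI false
set_option synthInstance.maxHeartbeats 400000

noncomputable section

namespace Fermat.Agent.Reduction

open AlgebraicCurve ModularCurve

section Classes

variable {L : Type*} [Field L] [Algebra ℚ L] {A : ValuationSubring L}
variable {k : Type*} [Field k] {π : A →+* k} {N M : ℕ}
variable {Ψ : Divisor L (laurentBaseChange L (modularFunctionFieldFull N)) →+
  Divisor k (modularFunctionFieldFullC k M)}
variable [HasPrincipalDivisors L (laurentBaseChange L (modularFunctionFieldFull N))]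
variable (hdeg : ∀ P : Place L (laurentBaseChange L (modularFunctionFieldFull N)), 1 ≤ P.deg)
  (hR : WeakRiemann L (laurentBaseChange L (modularFunctionFieldFull N)))
  (hΨ : IsDivisorSpec A π N M Ψ) (hgen : PrincipalGeneratedByIntegral A π N)

include hdeg hR

set_option maxHeartbeats 800000

theorem specPic_galois_eq_zero (σ : L ≃ₐ[ℚ] L) (τ : A →+* A) (hτ : ∀ a : A, (τ a : L) = σ a)
    (α : k ≃+* k) (hα : ∀ a : A, π (τ a) = α (π a))
    {x : Pic0 L (laurentBaseChange L (modularFunctionFieldFull N))}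
    (hx : specPic hΨ hgen x = 0) : specPic hΨ hgen (σ • x) = 0 := by
  obtain ⟨D, rfl⟩ := Pic0.mk_surjective x
  rw [galois_smul_pic0_def, SemilinearAut.pic0_smul_mk, specPic_mk_eq_zero_iff,
    SemilinearAut.coe_degZeroSMulHom, hΨ.map_galois_smul hdeg hR hgen σ τ hτ α hα D.2]
  exact SemilinearAut.smul_mem_principal _ ((specPic_mk_eq_zero_iff hΨ hgen D).mp hx)

theorem specPic_galois_sub_eq_zero (σ σ' : L ≃ₐ[ℚ] L) (τ τ' : A →+* A)
    (hτ : ∀ a : A, (τ a : L) = σ a) (hτ' : ∀ a : A, (τ' a : L) = σ' a)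
    (α : k ≃+* k) (hα : ∀ a : A, π (τ a) = α (π a)) (hα' : ∀ a : A, π (τ' a) = α (π a))
    (x : Pic0 L (laurentBaseChange L (modularFunctionFieldFull N))) :
    specPic hΨ hgen (σ • x - σ' • x) = 0 := by
  obtain ⟨D, rfl⟩ := Pic0.mk_surjective x
  rw [galois_smul_pic0_def, galois_smul_pic0_def, SemilinearAut.pic0_smul_mk,
    SemilinearAut.pic0_smul_mk]
  refine (specPic_mk_eq_zero_iff hΨ hgen
    (SemilinearAut.degZeroSMulHom (arithmeticGalois _ σ) D -
      SemilinearAut.degZeroSMulHom (arithmeticGalois _ σ') D)).mpr ?_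
  rw [AddSubgroupClass.coe_sub, map_sub, SemilinearAut.coe_degZeroSMulHom,
    SemilinearAut.coe_degZeroSMulHom, hΨ.map_galois_smul hdeg hR hgen σ τ hτ α hα D.2,
    hΨ.map_galois_smul hdeg hR hgen σ' τ' hτ' α hα' D.2, sub_self]
  exact zero_mem _

set_option maxHeartbeats 800000 in
/-- The relation `φ² - T_ℓ φ + ℓ = 0` after specialisation. -/
theorem specPic_frobenius_relation {ℓ : ℕ} [NeZero N] [NeZero ℓ] (hH : HeckeInputsAlong L N ℓ)
    (φ : k ≃+* k) (hnc : NormCongruence A π N ℓ φ)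
    (σ : L ≃ₐ[ℚ] L) (τ : A →+* A) (hτ : ∀ a : A, (τ a : L) = σ a)
    (hφ : ∀ a : A, π (τ a) = φ (π a))
    (x : Pic0 L (laurentBaseChange L (modularFunctionFieldFull N))) :
    specPic hΨ hgen (σ • σ • x - heckeOperatorAlong L N ℓ (σ • x) + ℓ • x) = 0 := by
  obtain ⟨hα, hβ, hP, hfin, hFI, hN⟩ := hH
  have := hP
  obtain ⟨D, rfl⟩ := Pic0.mk_surjective x
  rw [galois_smul_pic0_def, galois_smul_pic0_def, SemilinearAut.pic0_smul_mk,
    SemilinearAut.pic0_smul_mk, heckeOperatorAlong_eq hα hβ hFI hfin hN]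
  refine (specPic_mk_eq_zero_iff hΨ hgen
    (SemilinearAut.degZeroSMulHom (arithmeticGalois _ σ)
        (SemilinearAut.degZeroSMulHom (arithmeticGalois _ σ) D) -
      Pic0.degZeroCorrespondence (heckeBetaBar L N ℓ) (heckeAlphaBar L N ℓ) hβ hα hFI
        (SemilinearAut.degZeroSMulHom (arithmeticGalois _ σ) D) + ℓ • D)).mpr ?_
  have h1 := hΨ.map_galois_smul hdeg hR hgen σ τ hτ φ hφ D.2
  have h2 := hΨ.map_galois_smul hdeg hR hgen σ τ hτ φ hφ
    (SemilinearAut.degZeroSMulHom (arithmeticGalois (modularFunctionFieldFull N) σ) D).2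
  have h3 : Ψ (Pic0.degZeroCorrespondence (heckeBetaBar L N ℓ) (heckeAlphaBar L N ℓ) hβ hα hFI
        (SemilinearAut.degZeroSMulHom (arithmeticGalois (modularFunctionFieldFull N) σ) D) :
          Divisor L (laurentBaseChange L (modularFunctionFieldFull N))) =
      residueGalois M φ • Ψ (arithmeticGalois (modularFunctionFieldFull N) σ •
          (D : Divisor L (laurentBaseChange L (modularFunctionFieldFull N)))) +
        ℓ • residueGalois M φ.symm • Ψ (arithmeticGalois (modularFunctionFieldFull N) σ •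
          (D : Divisor L (laurentBaseChange L (modularFunctionFieldFull N)))) :=
    hΨ.map_heckeDivBar hdeg hR hgen hα hβ hfin hN φ hnc
      (SemilinearAut.degZeroSMulHom (arithmeticGalois (modularFunctionFieldFull N) σ) D).2
  rw [SemilinearAut.coe_degZeroSMulHom] at h2
  rw [AddSubgroup.coe_add, AddSubgroupClass.coe_sub, AddSubgroupClass.coe_nsmul, map_add,
    map_sub, map_nsmul, h3, SemilinearAut.coe_degZeroSMulHom, SemilinearAut.coe_degZeroSMulHom,
    h2, h1, residueGalois_symm_smul_smul (M := M) φ]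
  convert zero_mem (Divisor.principal (K := k) (F := modularFunctionFieldFullC k M)) using 1
  abel

end Classes

set_option maxHeartbeats 1600000 in
/-- `SpecializationExists` for `J₀(N)` from a torsion-injective specialisation map of divisors at
each good prime. -/
theorem specializationExists_of (N p : ℕ) [NeZero N]
    [HasPrincipalDivisors (AlgebraicClosure ℚ) (modularFunctionFieldBar N)]
    (hdeg : ∀ P : Place (AlgebraicClosure ℚ) (modularFunctionFieldBar N), 1 ≤ P.deg)
    (hR : WeakRiemann (AlgebraicClosure ℚ) (modularFunctionFieldBar N))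
    (hcomm : HeckeOperatorsCommuteBar N)
    (hspec : ∀ (ℓ : ℕ) [Fact ℓ.Prime], ¬ ℓ ∣ N → ∀ A : ValuationSubring (AlgebraicClosure ℚ),
      A.LiesOverPrime ℓ →
      ∃ (hgen : PrincipalGeneratedByIntegral A (IsLocalRing.residue A) N) (M : ℕ)
        (Ψ : Divisor (AlgebraicClosure ℚ) (modularFunctionFieldBar N) →+
          Divisor (IsLocalRing.ResidueField A)
            (modularFunctionFieldFullC (IsLocalRing.ResidueField A) M))
        (hΨ : IsDivisorSpec A (IsLocalRing.residue A) N M Ψ),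
        ∀ m : ℕ, ¬ ℓ ∣ m → ∀ z : JZero N, m • z = 0 → specPic hΨ hgen z = 0 → z = 0)
    (hH : ∀ (ℓ : ℕ) [NeZero ℓ], ℓ.Prime → ¬ ℓ ∣ N → HeckeInputsAlong (AlgebraicClosure ℚ) N ℓ)
    (hnc : ∀ (ℓ : ℕ) [NeZero ℓ], ℓ.Prime → ¬ ℓ ∣ N →
      ∀ A : ValuationSubring (AlgebraicClosure ℚ), A.LiesOverPrime ℓ →
      ∀ φ : IsLocalRing.ResidueField A ≃+* IsLocalRing.ResidueField A, (∀ a, φ a = a ^ ℓ) →
        NormCongruence A (IsLocalRing.residue A) N ℓ φ) :
    letI := heckeModuleBar N
    ∀ (_ : SMulCommClass (AlgebraicClosure ℚ ≃ₐ[ℚ] AlgebraicClosure ℚ) HeckeAlg (JZero N)),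
      SpecializationExists (K := ℚ) (L := AlgebraicClosure ℚ) N p (JZero N) := by
  letI := heckeModuleBar N
  intro hsc ℓ hℓ hℓNp A hA
  haveI : Fact ℓ.Prime := ⟨hℓ⟩
  haveI : NeZero ℓ := ⟨hℓ.ne_zero⟩
  have hℓN : ¬ ℓ ∣ N := fun h => hℓNp (h.mul_right p)
  have hℓp : ¬ ℓ ∣ p := fun h => hℓNp (h.mul_left N)
  obtain ⟨hgen, M, Ψ, hΨ, hinj⟩ := hspec ℓ hℓN A hA
  obtain ⟨σ, hσ⟩ := Galois.exists_isFrobeniusAt A hℓ hA
  let g : A.decompositionSubgroup ℚ := ⟨σ, hσ.mem_decompositionSubgroup⟩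
  let τA : A.decompositionSubgroup ℚ → (A →+* A) := fun g => MulSemiringAction.toRingHom _ A g
  let αk : A.decompositionSubgroup ℚ →
      (IsLocalRing.ResidueField A ≃+* IsLocalRing.ResidueField A) :=
    fun g => MulSemiringAction.toRingEquiv _ _ g
  have hαk : ∀ (g : A.decompositionSubgroup ℚ) (a : A),
      IsLocalRing.residue A (τA g a) = αk g (IsLocalRing.residue A a) :=
    fun g a => IsLocalRing.ResidueField.residue_smul _ g a
  have hφ : ∀ a, αk g a = a ^ ℓ := fun a => hσ.smul_residue_eq a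
  let K : Submodule HeckeAlg (JZero N) :=
    { carrier := {x | ∀ t : HeckeAlg, specPic hΨ hgen (t • x) = 0}
      zero_mem' := fun t => by rw [smul_zero, map_zero]
      add_mem' := fun hx hy t => by rw [smul_add, map_add, hx t, hy t, add_zero]
      smul_mem' := fun c x hx t => by rw [smul_smul]; exact hx (t * c) }
  have hK : ∀ {x : JZero N}, x ∈ K ↔ ∀ t : HeckeAlg, specPic hΨ hgen (t • x) = 0 := Iff.rfl
  have hKσ : ∀ x ∈ K, σ • x ∈ K := fun x hx => hK.mpr fun t => by
    rw [← smul_comm σ t x]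
    exact specPic_galois_eq_zero hdeg hR hΨ hgen σ (τA g) (fun _ => rfl) (αk g) (hαk g)
      (hK.mp hx t)
  let Fr : JZero N ⧸ K →+ JZero N ⧸ K :=
    QuotientAddGroup.map K.toAddSubgroup K.toAddSubgroup (DistribSMul.toAddMonoidHom _ σ)
      (fun x hx => hKσ x hx)
  refine ⟨JZero N ⧸ K, inferInstance, inferInstance, K.mkQ.toAddMonoidHom, Fr, ⟨?_, ?_, ?_, ?_⟩, ?_⟩
  · intro T x
    exact map_smul K.mkQ T x
  · rintro τ ⟨g', hg', rfl⟩ x
    refine (Submodule.Quotient.eq K).mpr (hK.mpr fun t => ?_)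
    rw [smul_sub, Subgroup.coe_subtype, ← smul_comm g'.1 t x]
    have hone : ∀ a : A, IsLocalRing.residue A (τA g' a) =
        (RingEquiv.refl (IsLocalRing.ResidueField A)) (IsLocalRing.residue A a) := fun a =>
      (hαk g' a).trans (congrArg (fun e : IsLocalRing.ResidueField A ≃+* _ =>
        e (IsLocalRing.residue A a)) hg')
    simpa using specPic_galois_sub_eq_zero hdeg hR hΨ hgen g'.1 1
      (τA g') (RingHom.id A) (fun _ => rfl) (fun _ => rfl) _ hone (fun _ => rfl) (t • x)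
  · intro τ hτ x
    refine (Submodule.Quotient.eq K).mpr (hK.mpr fun t => ?_)
    show specPic hΨ hgen (t • (τ • x - σ • x)) = 0
    rw [smul_sub, ← smul_comm τ t x, ← smul_comm σ t x]
    refine specPic_galois_sub_eq_zero hdeg hR hΨ hgen τ σ
      (τA ⟨τ, hτ.mem_decompositionSubgroup⟩) (τA g) (fun _ => rfl) (fun _ => rfl) (αk g)
      (fun a => ?_) (hαk g) (t • x)
    exact (hαk _ a).trans ((hτ.smul_residue_eq _).trans (hφ _).symm)
  · rintro x ⟨n, hn⟩ hx
    have hx1 := hK.mp ((Submodule.Quotient.mk_eq_zero K).mp hx) 1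
    rw [one_smul] at hx1
    exact hinj (p ^ n) (fun hd => hℓp (hℓ.dvd_of_dvd_pow hd)) x hn hx1
  · intro y
    obtain ⟨x, rfl⟩ := Submodule.Quotient.mk_surjective K y
    show Submodule.Quotient.mk (σ • σ • x) - heckeGen ⟨ℓ, hℓ⟩ • Submodule.Quotient.mk (σ • x)
      + ℓ • Submodule.Quotient.mk x = (0 : JZero N ⧸ K)
    rw [← Submodule.Quotient.mk_smul, ← Submodule.Quotient.mk_smul, ← Submodule.Quotient.mk_sub,
      ← Submodule.Quotient.mk_add, Submodule.Quotient.mk_eq_zero]
    refine hK.mpr fun t => ?_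
    have hT : ∀ y : JZero N, heckeGen ⟨ℓ, hℓ⟩ • y =
        heckeOperatorAlong (AlgebraicClosure ℚ) N ℓ y :=
      fun y => heckeModuleBar_heckeGen_smul hcomm ⟨ℓ, hℓ⟩ y
    have key := specPic_frobenius_relation hdeg hR hΨ hgen (hH ℓ hℓ hℓN) (αk g)
      (hnc ℓ hℓ hℓN A hA (αk g) hφ) σ (τA g) (fun _ => rfl) (hαk g) (t • x)
    rw [smul_add, smul_sub, smul_comm t ℓ x, smul_comm t (heckeGen ⟨ℓ, hℓ⟩) (σ • x),
      ← smul_comm σ t (σ • x), ← smul_comm σ t x, hT (σ • t • x)]
    exact key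

end Fermat.Agent.Reduction
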