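import Mathlib.RingTheory.PowerSeries.Expand
import Fermat.Agent.Igusa.Base
import Fermat.Agent.Igusa.LaurentLead
import Fermat.Agent.Modular.JFun

/-!
# Initial coefficients of integral power series by computation

`Trunc n f l` says that the first `n` coefficients of `f` are those of the list `l`.
-/

set_option autoImplicit false

noncomputable section

open ModularCurve

namespace Fermat.Agent.Reduction.SmallId

/-- The first `n` coefficients of `f` are the entries of `l`. -/
def Trunc (n : ℕ) (f : PowerSeries ℤ) (l : List ℤ) : Prop :=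
  ∀ k < n, f.coeff k = l.getD k 0

/-- The list of the values of `a` below `n`. -/
def tabulate (n : ℕ) (a : ℕ → ℤ) : List ℤ := (List.range n).map a

theorem getD_tabulate {n k : ℕ} (a : ℕ → ℤ) (hk : k < n) : (tabulate n a).getD k 0 = a k := by
  simp [tabulate, List.getD_eq_getElem?_getD, hk]

/-- Sum of two lists. -/
def addList (n : ℕ) (u v : List ℤ) : List ℤ := tabulate n fun k => u.getD k 0 + v.getD k 0

/-- Difference of two lists. -/
def subList (n : ℕ) (u v : List ℤ) : List ℤ := tabulate n fun k => u.getD k 0 - v.getD k 0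

/-- Multiple of a list. -/
def smulList (n : ℕ) (a : ℤ) (u : List ℤ) : List ℤ := tabulate n fun k => a * u.getD k 0

/-- Product of two truncated series. -/
def convList (n : ℕ) (u v : List ℤ) : List ℤ :=
  tabulate n fun k => ∑ i ∈ Finset.range (k + 1), u.getD i 0 * v.getD (k - i) 0

/-- Shift by `m`. -/
def shiftList (n m : ℕ) (u : List ℤ) : List ℤ :=
  tabulate n fun k => if m ≤ k then u.getD (k - m) 0 else 0

/-- Substitution `q ↦ q ^ p`. -/
def expandList (n p : ℕ) (u : List ℤ) : List ℤ :=
  tabulate n fun k => if p ∣ k then u.getD (k / p) 0 else 0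

variable {n : ℕ} {f g : PowerSeries ℤ} {u v : List ℤ}

theorem Trunc.of_eq (hf : Trunc n f u) (h : u = v) : Trunc n f v := h ▸ hf

theorem Trunc.add (hf : Trunc n f u) (hg : Trunc n g v) : Trunc n (f + g) (addList n u v) :=
  fun k hk => by rw [map_add, hf k hk, hg k hk, addList, getD_tabulate _ hk]

theorem Trunc.sub (hf : Trunc n f u) (hg : Trunc n g v) : Trunc n (f - g) (subList n u v) :=
  fun k hk => by rw [map_sub, hf k hk, hg k hk, subList, getD_tabulate _ hk]

theorem Trunc.C_mul (hf : Trunc n f u) (a : ℤ) :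
    Trunc n (PowerSeries.C a * f) (smulList n a u) :=
  fun k hk => by rw [PowerSeries.coeff_C_mul, hf k hk, smulList, getD_tabulate _ hk]

theorem Trunc.mul (hf : Trunc n f u) (hg : Trunc n g v) : Trunc n (f * g) (convList n u v) := by
  intro k hk
  rw [PowerSeries.coeff_mul, Finset.Nat.sum_antidiagonal_eq_sum_range_succ_mk, convList,
    getD_tabulate _ hk]
  refine Finset.sum_congr rfl fun i hi => ?_
  have := Finset.mem_range.1 hi
  rw [hf i (by omega), hg (k - i) (by omega)]

theorem Trunc.X_pow_mul (hf : Trunc n f u) (m : ℕ) :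
    Trunc n (PowerSeries.X ^ m * f) (shiftList n m u) := by
  intro k hk
  rw [PowerSeries.coeff_X_pow_mul', shiftList, getD_tabulate _ hk]
  split_ifs with h
  · exact hf _ (by omega)
  · rfl

theorem Trunc.expand (hf : Trunc n f u) (p : ℕ) (hp : p ≠ 0) :
    Trunc n (PowerSeries.expand p hp f) (expandList n p u) := by
  intro k hk
  rw [expandList, getD_tabulate _ hk]
  split_ifs with h
  · obtain ⟨j, rfl⟩ := h
    rw [PowerSeries.coeff_expand_mul, Nat.mul_div_cancel_left _ (Nat.pos_of_ne_zero hp)]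
    exact hf j (lt_of_le_of_lt (Nat.le_mul_of_pos_left j (Nat.pos_of_ne_zero hp)) hk)
  · exact PowerSeries.coeff_expand_of_not_dvd p hp f h

/-- The first coefficients of `∏_{i < N} (1 - q ^ (i + 1))`. -/
def etaList (n : ℕ) : ℕ → List ℤ
  | 0 => tabulate n fun k => if k = 0 then 1 else 0
  | N + 1 => subList n (etaList n N) (shiftList n (N + 1) (etaList n N))

theorem trunc_partialEta (n N : ℕ) :
    Trunc n (∏ i ∈ Finset.range N, ((1 : PowerSeries ℤ) - PowerSeries.X ^ (i + 1)))
      (etaList n N) := by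
  induction N with
  | zero =>
    intro k hk
    rw [Finset.prod_range_zero, PowerSeries.coeff_one, etaList, getD_tabulate _ hk]
  | succ N ih =>
    rw [Finset.prod_range_succ, mul_sub, mul_one, mul_comm _ (PowerSeries.X ^ (N + 1))]
    exact ih.sub (ih.X_pow_mul (N + 1))

theorem trunc_etaProd (n : ℕ) : Trunc n etaProd (etaList n n) := by
  intro k hk
  rw [Modular.coeff_etaProd_eq k hk.le, ← trunc_partialEta n n k hk, ← Polynomial.coeff_coe,
    ← Polynomial.coeToPowerSeries.ringHom_apply, map_prod]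
  simp

/-- `q ∏ (1 - qⁿ) ^ 24` as a power series. -/
def deltaPS : PowerSeries ℤ := PowerSeries.X ^ 1 * dedekindEtaUnit

/-- `E₄ ^ 3` as a power series. -/
def e4cube : PowerSeries ℤ := eisenstein4 * (eisenstein4 * eisenstein4)

theorem trunc_dedekindEtaUnit : Trunc 12 dedekindEtaUnit
    [1, -24, 252, -1472, 4830, -6048, -16744, 84480, -113643, -115920, 534612, -370944] := by
  have h1 : Trunc 12 etaProd [1, -1, -1, 0, 0, 1, 0, 1, 0, 0, 0, 0] :=
    (trunc_etaProd 12).of_eq (by decide +kernel)
  have h2 : Trunc 12 (etaProd * etaProd) [1, -2, -1, 2, 1, 2, -2, 0, -2, -2, 1, 0] :=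
    (h1.mul h1).of_eq (by decide +kernel)
  have h4 : Trunc 12 (etaProd * etaProd * (etaProd * etaProd))
      [1, -4, 2, 8, -5, -4, -10, 8, 9, 0, 14, -16] := (h2.mul h2).of_eq (by decide +kernel)
  have h8 : Trunc 12 (etaProd * etaProd * (etaProd * etaProd) *
      (etaProd * etaProd * (etaProd * etaProd)))
      [1, -8, 20, 0, -70, 64, 56, 0, -125, -160, 308, 0] := (h4.mul h4).of_eq (by decide +kernel)
  have h16 : Trunc 12 (etaProd * etaProd * (etaProd * etaProd) *
      (etaProd * etaProd * (etaProd * etaProd)) * (etaProd * etaProd * (etaProd * etaProd) *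
      (etaProd * etaProd * (etaProd * etaProd))))
      [1, -16, 104, -320, 260, 1248, -3712, 1664, 6890, -7280, -5568, -4160] :=
    (h8.mul h8).of_eq (by decide +kernel)
  intro k hk
  rw [← ((h16.mul h8).of_eq (v := _) (by decide +kernel)) k hk, dedekindEtaUnit]
  congr 2
  ring

theorem trunc_deltaPS : Trunc 12 deltaPS
    [0, 1, -24, 252, -1472, 4830, -6048, -16744, 84480, -113643, -115920, 534612] :=
  (trunc_dedekindEtaUnit.X_pow_mul 1).of_eq (by decide +kernel)

theorem trunc_eisenstein4 : Trunc 12 eisenstein4 [1, 240, 2160, 6720, 17520, 30240, 60480, 82560,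
    140400, 181680, 272160, 319680] := by
  have h : Trunc 12 eisenstein4
      (tabulate 12 fun n => if n = 0 then 1 else 240 * ∑ d ∈ n.divisors, (d : ℤ) ^ 3) :=
    fun k hk => by rw [getD_tabulate _ hk, eisenstein4, PowerSeries.coeff_mk]
  exact h.of_eq (by decide +kernel)

theorem trunc_e4cube : Trunc 12 e4cube [1, 720, 179280, 16954560, 396974160, 4632858720,
    34413301440, 187477879680, 814940600400, 2975469665040, 9486467837280, 27053330840640] := by
  have h2 := trunc_eisenstein4.mul trunc_eisenstein4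
  exact (trunc_eisenstein4.mul h2).of_eq (by decide +kernel)

section OfPS

variable (R : Type*) [CommRing R]

/-- An integral power series as a Laurent series over `R`. -/
def ofPS : PowerSeries ℤ →+* LaurentSeries R :=
  (HahnSeries.ofPowerSeries ℤ R).comp (PowerSeries.map (Int.castRingHom R))

theorem ofPS_apply (f : PowerSeries ℤ) :
    ofPS R f = HahnSeries.ofPowerSeries ℤ R (f.map (Int.castRingHom R)) := rfl

theorem ofPS_coeff_natCast (f : PowerSeries ℤ) (k : ℕ) :
    (ofPS R f).coeff (k : ℤ) = ((f.coeff k : ℤ) : R) := by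
  rw [ofPS_apply, HahnSeries.ofPowerSeries_apply_coeff, PowerSeries.coeff_map, eq_intCast]

theorem ofPS_coeff_of_neg (f : PowerSeries ℤ) {k : ℤ} (hk : k < 0) : (ofPS R f).coeff k = 0 :=
  ofPowerSeries_coeff_of_neg _ hk

theorem coeffMap_ofPS {S : Type*} [CommRing S] (φ : R →+* S) (f : PowerSeries ℤ) :
    coeffMap φ (ofPS R f) = ofPS S f := by
  ext k
  rw [coeffMap_coeff]
  rcases le_or_gt 0 k with hk | hk
  · lift k to ℕ using hk
    rw [ofPS_coeff_natCast, ofPS_coeff_natCast, map_intCast]
  · rw [ofPS_coeff_of_neg R f hk, ofPS_coeff_of_neg S f hk, map_zero]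

theorem ofPS_deltaPS : ofPS R deltaPS = Igusa.deltaSeries R := by
  rw [deltaPS, pow_one, map_mul, ofPS_apply, PowerSeries.map_X, HahnSeries.ofPowerSeries_X,
    Igusa.deltaSeries, ofPS_apply]

theorem ofPS_expand (p : ℕ) [NeZero p] (f : PowerSeries ℤ) :
    ofPS R (PowerSeries.expand p (NeZero.ne p) f) = qExpand R p (ofPS R f) := by
  have hp : (0 : ℤ) < p := by exact_mod_cast Nat.pos_of_ne_zero (NeZero.ne p)
  ext k
  by_cases hd : (p : ℤ) ∣ k
  · obtain ⟨j, rfl⟩ := hd
    rw [qExpand_coeff_mul]
    rcases le_or_gt 0 j with hj | hj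
    · lift j to ℕ using hj
      rw [ofPS_coeff_natCast, show (p : ℤ) * (j : ℤ) = ((p * j : ℕ) : ℤ) by push_cast; rfl,
        ofPS_coeff_natCast, PowerSeries.coeff_expand_mul]
    · rw [ofPS_coeff_of_neg R f hj, ofPS_coeff_of_neg R _ (mul_neg_of_pos_of_neg hp hj)]
  · rw [qExpand_coeff_of_not_dvd p _ hd]
    rcases le_or_gt 0 k with hk | hk
    · lift k to ℕ using hk
      rw [ofPS_coeff_natCast, PowerSeries.coeff_expand_of_not_dvd p (NeZero.ne p) f
        (fun h => hd (Int.natCast_dvd_natCast.2 h)), Int.cast_zero]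
    · exact ofPS_coeff_of_neg R _ hk

theorem ofPS_C (a : ℤ) : ofPS R (PowerSeries.C a) = HahnSeries.C (a : R) := by
  rw [ofPS_apply, PowerSeries.map_C, HahnSeries.ofPowerSeries_C, eq_intCast]

/-- `j Δ = E₄ ^ 3` over any ring. -/
theorem jqModC_mul_deltaSeries : jqModC R * Igusa.deltaSeries R = ofPS R e4cube := by
  have h : jNum * dedekindEtaUnit = e4cube := by
    rw [jNum, mul_assoc, mul_comm dedekindEtaUnitInv, dedekindEtaUnit_mul_inv, mul_one, e4cube]
    ring
  rw [jqModC, Igusa.deltaSeries, mul_mul_mul_comm, HahnSeries.single_mul_single, neg_add_cancel,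
    mul_one, ← HahnSeries.C_apply, map_one, one_mul, ← map_mul, ← map_mul, h, ofPS_apply]

theorem Trunc.ofPS_coeff_eq_zero {n : ℕ} {f : PowerSeries ℤ} {u : List ℤ} (hf : Trunc n f u)
    (hu : u = tabulate n fun _ => 0) {k : ℤ} (hk : k < n) : (ofPS R f).coeff k = 0 := by
  rcases le_or_gt 0 k with h | h
  · lift k to ℕ using h
    rw [ofPS_coeff_natCast, hf k (by omega), hu, getD_tabulate _ (by omega), Int.cast_zero]
  · exact ofPS_coeff_of_neg R f h

end OfPS

end Fermat.Agent.Reduction.SmallId
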